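import Fermat.Agent.RED.Model.GenusEq
import Mathlib.RingTheory.Norm.Transitivity

/-!
# Normality descends to subfields

For good models of an extension of function fields with compatible coordinates, norms commute with
reduction and normality of the chart upstairs gives normality downstairs.
-/

set_option autoImplicit false

attribute [local instance 10000] SubalgebraClass.toAlgebra HahnSeries.powerSeriesAlgebra

noncomputable section

open Polynomial AlgebraicCurve IntermediateField

namespace Fermat.RED.Model

variable {L : Type*} [Field L] {A : ValuationSubring L}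
variable {k : Type*} [Field k] {π : A →+* k}
variable {F' F : Type*} [Field F'] [Field F] [Algebra L F'] [Algebra L F]
  [Algebra F' F] [IsScalarTower L F' F]
variable {ι : F →+* LaurentSeries L}
variable {x' : F'} {d' d : ℕ}

/-- If `D g` has matrix `H` in a basis with `n` elements, then `D ^ n N(g) = det H`. -/
theorem pow_mul_norm_eq_det {R M : Type*} [Field R] [Field M] [Algebra R M] {n : ℕ}
    (b : Module.Basis (Fin n) R M) (D : R) (g : M) (H : Matrix (Fin n) (Fin n) R)
    (hH : ∀ i, algebraMap R M D * (g * b i) = ∑ j, algebraMap R M (H i j) * b j) :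
    D ^ n * Algebra.norm R g = H.det := by
  have hM : H = (D • Algebra.leftMulMatrix b g).transpose := by
    ext i j
    rw [Matrix.transpose_apply, Matrix.smul_apply, Algebra.leftMulMatrix_eq_repr_mul, smul_eq_mul]
    have h1 := congrArg (fun v => b.repr v j) (hH i)
    simp only [← Algebra.smul_def, map_smul, map_sum, Finsupp.smul_apply, smul_eq_mul,
      Finset.sum_apply', b.repr_self, Finsupp.single_apply, mul_ite, mul_one, mul_zero,
      Finset.sum_ite_eq', Finset.mem_univ, if_true] at h1
    exact h1.symm
  rw [hM, Matrix.det_transpose, Matrix.det_smul, Fintype.card_fin, Algebra.norm_eq_matrix_det b]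

/-- Polynomials in `x'` map to polynomials in the image of `x'`. -/
theorem ax_algebraMap (P : A[X]) :
    ax A (algebraMap F' F x') P = algebraMap F' F (ax A x' P) := by
  rw [ax_eq, ax_eq, Polynomial.aeval_algebraMap_apply]

/-- The image of the chart of `x'` lies in the chart of its image. -/
theorem algebraMap_mem_chart' {f : F'} (hf : f ∈ chart A x') :
    algebraMap F' F f ∈ chart A (algebraMap F' F x') := by
  obtain ⟨P, hP, hPf⟩ := hf
  refine ⟨P, hP, ?_⟩
  change P.eval₂ (ax A (algebraMap F' F x')) _ = 0
  replace hPf : P.eval₂ (ax A x') f = 0 := hPf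
  rw [show ax A (algebraMap F' F x') = (algebraMap F' F).comp (ax A x') from
    RingHom.ext (ax_algebraMap (x' := x')), ← hom_eval₂]
  exact (congrArg (algebraMap F' F) hPf).trans (map_zero _)

/-- The norm maps the chart upstairs into the chart of `x'`. -/
theorem norm_mem_chart {g : F} (hg : g ∈ chart A (algebraMap F' F x')) :
    Algebra.norm F' g ∈ chart A x' := by
  let := (ax A x').toAlgebra
  let := (ax A (algebraMap F' F x')).toAlgebra
  have : IsScalarTower A[X] F' F := IsScalarTower.of_algebraMap_eq fun P => ax_algebraMap P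
  exact Algebra.isIntegral_norm F' (R := A[X]) (show IsIntegral A[X] g from hg)

omit [Algebra L F'] [Algebra L F] [IsScalarTower L F' F] in
/-- The reduction for the restricted embedding is the reduction of the image. -/
theorem redF_comp (f : F') :
    redF π (ι.comp (algebraMap F' F)) f = redF π ι (algebraMap F' F f) := rfl

omit [Algebra L F'] [Algebra L F] [IsScalarTower L F' F] in
/-- The special field downstairs lies in the special field upstairs. -/
theorem specField_comp_le : specField π (ι.comp (algebraMap F' F)) ≤ specField π ι := by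
  refine IntermediateField.adjoin_le_iff.mpr ?_
  rintro _ ⟨f, -, rfl⟩
  rw [redF_comp]
  exact redF_mem_specField π ι _

variable [Algebra (specField π (ι.comp (algebraMap F' F))) (specField π ι)]

local notation "Sub'" => specField π (ι.comp (algebraMap F' F))

variable (hS : ∀ z : specField π (ι.comp (algebraMap F' F)),
  ((algebraMap _ (specField π ι) z : specField π ι) : LaurentSeries k) = (z : LaurentSeries k))

omit [Algebra L F'] [Algebra L F] [IsScalarTower L F' F] in
include hS in
/-- Reduction commutes with the maps between the fields and their special fields. -/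
theorem algebraMap_redS (f : F') :
    algebraMap _ (specField π ι) (redS π (ι.comp (algebraMap F' F)) f)
      = redS π ι (algebraMap F' F f) :=
  Subtype.ext ((hS _).trans (redF_comp f))

variable [FF.IsFunctionField L F'] [FF.IsFunctionField L F]
variable [FF.IsFunctionField k (specField π (ι.comp (algebraMap F' F)))]
  [FF.IsFunctionField k (specField π ι)]
  [IsScalarTower k (specField π (ι.comp (algebraMap F' F))) (specField π ι)]

include hS in
/-- A basis over the subfield which stays a basis after reduction. -/
theorem exists_relative_basis (h' : GoodModel π (ι.comp (algebraMap F' F)) x' d')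
    (h : GoodModel π ι (algebraMap F' F x') d) :
    ∃ (n : ℕ) (z : Fin n → F), (∀ i, z i ∈ chart A (algebraMap F' F x')) ∧
      (∃ B : Module.Basis (Fin n) F' F, ⇑B = z) ∧
      ∃ B : Module.Basis (Fin n) (specField π (ι.comp (algebraMap F' F))) (specField π ι),
        ⇑B = fun i => redS π ι (z i) := by
  classical
  -- given explicitly, as the instance searches take seconds
  let : Module Sub' (specField π ι) := Algebra.toModule
  have := FF.finite_of_tower L F' F
  have := FF.finite_of_tower k Sub' (specField π ι)
  set n := Module.finrank F' F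
  have hx : algebraMap Sub' (specField π ι) (redS π (ι.comp (algebraMap F' F)) x')
      = redS π ι (algebraMap F' F x') := algebraMap_redS hS x'
  have : Module.Free L⟮x'⟯ F' := Module.Free.of_divisionRing _ _
  have : Module.Free F' F := Module.Free.of_divisionRing _ _
  have : Module.Free k⟮redS π (ι.comp (algebraMap F' F)) x'⟯ Sub' := Module.Free.of_divisionRing _ _
  have : Module.Free Sub' (specField π ι) := Module.Free.of_divisionRing _ _
  have e1 : d = d' * n := by
    obtain ⟨-, e⟩ := FF.tower_data (F' := F) h'.transcendental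
    rw [h.finrank_adjoin, ← Module.finrank_mul_finrank L⟮x'⟯ F' F, h'.finrank_adjoin] at e
    exact e.symm
  have e2 : Module.finrank Sub' (specField π ι) = n := by
    obtain ⟨-, e⟩ := FF.tower_data (F' := specField π ι) h'.transcendental_redS
    rw [hx, h.finrank_spec,
      ← Module.finrank_mul_finrank k⟮redS π (ι.comp (algebraMap F' F)) x'⟯ Sub' (specField π ι),
      h'.finrank_spec, e1] at e
    exact Nat.eq_of_mul_eq_mul_left h'.finrank_eq_pos e
  -- the reduced basis spans over the subfield; extract `n` members forming a basis there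
  obtain ⟨y, hyc, hys, hyi⟩ := h.basis
  have hspan : Submodule.span Sub' (Set.range fun i => redS π ι (y i)) = ⊤ := by
    refine eq_top_iff.mpr fun z _ => ?_
    obtain ⟨D, hD, G, e⟩ := h.exists_sum_of_mem hyc hys hyi z.2
    have hP : ∀ P : k[X], algebraMap Sub' (specField π ι)
        (aeval (redS π (ι.comp (algebraMap F' F)) x') P) =
          aeval (redS π ι (algebraMap F' F x')) P :=
      fun P => by rw [← Polynomial.aeval_algebraMap_apply, hx]
    have e' : aeval (redS π ι (algebraMap F' F x')) D * z
        = ∑ i, aeval (redS π ι (algebraMap F' F x')) (G i) * redS π ι (y i) := by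
      refine (specField π ι).val.toRingHom.injective ?_
      simp only [AlgHom.toRingHom_eq_coe, RingHom.coe_coe, map_mul, map_sum,
        ← Polynomial.aeval_algHom_apply]
      exact e
    set D' := aeval (redS π (ι.comp (algebraMap F' F)) x') D
    have hD' : D' ≠ 0 := fun h0 => hD (transcendental_iff.mp h'.transcendental_redS _ h0)
    have : z = ∑ i, (aeval (redS π (ι.comp (algebraMap F' F)) x') (G i) / D') • redS π ι (y i) := by
      simp only [Algebra.smul_def, map_div₀, hP, div_mul_eq_mul_div, ← Finset.sum_div, ← e']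
      rw [show algebraMap Sub' (specField π ι) D' =
        aeval (redS π ι (algebraMap F' F x')) D from hP D, mul_div_cancel_left₀]
      rw [← hP]
      exact (_root_.map_ne_zero _).mpr hD'
    rw [this]
    exact sum_mem fun i _ => Submodule.smul_mem _ _ (Submodule.subset_span ⟨i, rfl⟩)
  obtain ⟨bs, hbsS, hbspan, hbli⟩ :=
    exists_linearIndependent Sub' (Set.range fun i => redS π ι (y i))
  rw [hspan] at hbspan
  let B0 : Module.Basis bs Sub' (specField π ι) :=
    Module.Basis.mk hbli (by rw [Subtype.range_coe, hbspan])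
  have : Fintype bs := FiniteDimensional.fintypeBasisIndex B0
  let B1 := B0.reindex (Fintype.equivFinOfCardEq (by rw [← Module.finrank_eq_card_basis B0, e2]))
  have hB1 : ∀ i, ∃ j, redS π ι (y j) = B1 i := fun i => by
    have : B1 i ∈ Set.range fun j => redS π ι (y j) := by
      rw [Module.Basis.reindex_apply, Module.Basis.mk_apply]
      exact hbsS (Subtype.coe_prop _)
    exact this
  choose j hj using hB1
  set z := fun i => y (j i)
  have hzB : ⇑B1 = fun i => redS π ι (z i) := funext fun i => (hj i).symm
  refine ⟨n, z, fun i => hyc _, ?_, B1, hzB⟩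
  -- their preimages are independent: reduce a primitive relation
  have hli : LinearIndependent F' z := by
    rw [Fintype.linearIndependent_iff]
    intro c hc
    by_contra hne
    simp only [not_forall] at hne
    obtain ⟨D, a, u, hD, ha, hu, ⟨i₀, hi₀⟩, e⟩ := h'.exists_primitive_family c hne
    have hsum : ∑ i, algebraMap F' F (u i) * z i = 0 := by
      refine (mul_eq_zero.mp ?_).resolve_left
        ((_root_.map_ne_zero (algebraMap F' F)).mpr ((_root_.map_ne_zero (algebraMap L F')).mpr ha))
      rw [← mul_zero (algebraMap F' F (ax A x' D)), ← hc, Finset.mul_sum, Finset.mul_sum]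
      refine Finset.sum_congr rfl fun i _ => ?_
      rw [Algebra.smul_def, ← mul_assoc, ← map_mul, ← e i, map_mul, mul_assoc]
    have := congrArg (redS π ι) hsum
    rw [redS_zero, redS_sum _ fun i _ =>
      h.int_chart _ (mul_mem (algebraMap_mem_chart' (hu i)) (hyc _))] at this
    have h2 : ∑ i, redS π (ι.comp (algebraMap F' F)) (u i) • B1 i = 0 := by
      rw [← this]
      refine Finset.sum_congr rfl fun i _ => ?_
      rw [Algebra.smul_def, algebraMap_redS hS, hzB,
        redS_mul (h.int_chart _ (algebraMap_mem_chart' (hu i))) (h.int_chart _ (hyc _))]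
    exact hi₀ (congrArg Subtype.val (Fintype.linearIndependent_iff.mp B1.linearIndependent _ h2 i₀))
  rcases isEmpty_or_nonempty (Fin n) with hem | hnon
  · exact absurd (Module.finrank_pos (R := F') (M := F)) (fun h0 => hem.false ⟨0, h0⟩)
  · exact ⟨basisOfLinearIndependentOfCardEqFinrank hli (by rw [Fintype.card_fin]),
      coe_basisOfLinearIndependentOfCardEqFinrank _ _⟩

include hS in
/-- For `g` in the chart the norm commutes with reduction. -/
theorem redS_norm (h' : GoodModel π (ι.comp (algebraMap F' F)) x' d')
    (h : GoodModel π ι (algebraMap F' F x') d) {g : F} (hg : g ∈ chart A (algebraMap F' F x')) :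
    redS π (ι.comp (algebraMap F' F)) (Algebra.norm F' g)
      = Algebra.norm (specField π (ι.comp (algebraMap F' F))) (redS π ι g) := by
  classical
  -- given explicitly, as the instance searches take seconds
  let : Module Sub' (specField π ι) := Algebra.toModule
  have : Module.Free Sub' (specField π ι) := Module.Free.of_divisionRing _ _
  obtain ⟨n, z, hz, ⟨B, hB⟩, B1, hB1⟩ := exists_relative_basis hS h' h
  rcases eq_or_ne g 0 with rfl | hg0
  · have := Module.Finite.of_basis B
    have := Module.Finite.of_basis B1
    rw [Algebra.norm_zero, redS_zero, redS_zero, Algebra.norm_zero]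
  -- the matrix of `g` made primitive: `D g z_i = a ∑ u_ij z_j`
  set c : Fin n × Fin n → F' := fun p => B.repr (g * z p.1) p.2
  have hne : ∃ p, c p ≠ 0 := by
    by_contra! hall
    obtain ⟨i⟩ : Nonempty (Fin n) := B.index_nonempty
    have h0 : B.repr (g * z i) = 0 := Finsupp.ext fun j => hall (i, j)
    rw [LinearEquiv.map_eq_zero_iff, mul_eq_zero] at h0
    exact (B.ne_zero i) (hB ▸ h0.resolve_left hg0)
  obtain ⟨D, a, u, hD, ha, hu, ⟨p₀, hp₀⟩, e⟩ := h'.exists_primitive_family c hne
  have hsum : ∀ i, algebraMap F' F (ax A x' D) * (g * z i)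
      = algebraMap L F a * ∑ j, algebraMap F' F (u (i, j)) * z j := fun i => by
    conv_lhs => rw [← B.sum_repr (g * z i)]
    rw [Finset.mul_sum, Finset.mul_sum]
    refine Finset.sum_congr rfl fun j _ => ?_
    rw [Algebra.smul_def, hB, ← mul_assoc, ← map_mul, e (i, j),
      map_mul, ← IsScalarTower.algebraMap_apply, mul_assoc]
  have hint : ∀ i j, ι (algebraMap F' F (u (i, j)) * z j) ∈ intSeries A := fun i j =>
    h.int_chart _ (mul_mem (algebraMap_mem_chart' (hu _)) (hz j))
  have hL : ∀ i, ι (algebraMap F' F (ax A x' D) * (g * z i)) ∈ intSeries A := fun i =>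
    h.int_chart _ (mul_mem (algebraMap_mem_chart' (ax_mem_chart x' D)) (mul_mem hg (hz i)))
  -- reducing a row with a nonzero entry shows that `a` is integral
  have haA : a ∈ A := by
    by_contra haA
    have ha' : a⁻¹ ∈ A := (A.mem_or_inv_mem a).resolve_left haA
    have e' : algebraMap L F a⁻¹ * (algebraMap F' F (ax A x' D) * (g * z p₀.1))
        = ∑ j, algebraMap F' F (u (p₀.1, j)) * z j := by
      rw [hsum, ← mul_assoc, ← map_mul, inv_mul_cancel₀ ha, map_one, one_mul]
    have := congrArg (redS π ι) e'
    rw [redS_mul (h.int_algebraMap ha') (hL _), h.redS_algebraMap ha',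
      map_eq_zero_of_inv_notMem h.surj (a := ⟨a⁻¹, ha'⟩) (by simpa using haA), map_zero, zero_mul,
      redS_sum _ fun j _ => hint _ j] at this
    have h2 : ∑ j, redS π (ι.comp (algebraMap F' F)) (u (p₀.1, j)) • B1 j = 0 := by
      rw [this]
      refine Finset.sum_congr rfl fun j _ => ?_
      rw [Algebra.smul_def, algebraMap_redS hS, hB1,
        redS_mul (h.int_chart _ (algebraMap_mem_chart' (hu _))) (h.int_chart _ (hz j))]
    exact hp₀ (congrArg Subtype.val
      (Fintype.linearIndependent_iff.mp B1.linearIndependent _ h2 p₀.2))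
  set H : Matrix (Fin n) (Fin n) F' := Matrix.of fun i j => algebraMap L F' a * u (i, j)
  set Hb : Matrix (Fin n) (Fin n) Sub' :=
    Matrix.of fun i j => redS π (ι.comp (algebraMap F' F)) (H i j)
  have hH : ∀ i, algebraMap F' F (ax A x' D) * (g * z i) = ∑ j, algebraMap F' F (H i j) * z j :=
    fun i => by
      rw [hsum, Finset.mul_sum]
      refine Finset.sum_congr rfl fun j _ => ?_
      simp only [H, Matrix.of_apply]
      rw [map_mul, ← IsScalarTower.algebraMap_apply, mul_assoc]
  have hHc : ∀ i j, H i j ∈ chart A x' := fun i j =>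
    mul_mem (algebraMap_mem_chart x' haA) (hu (i, j))
  have hHb : ∀ i, algebraMap Sub' (specField π ι) (redS π (ι.comp (algebraMap F' F)) (ax A x' D))
      * (redS π ι g * B1 i) = ∑ j, algebraMap Sub' (specField π ι) (Hb i j) * B1 j := fun i => by
    have := congrArg (redS π ι) (hH i)
    rw [redS_mul (h.int_chart _ (algebraMap_mem_chart' (ax_mem_chart x' D)))
        (h.int_chart _ (mul_mem hg (hz i))), redS_mul (h.int_chart _ hg) (h.int_chart _ (hz i)),
      redS_sum _ fun j _ => h.int_chart _ (mul_mem (algebraMap_mem_chart' (hHc i j))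
        (hz j))] at this
    rw [algebraMap_redS hS, hB1, this]
    refine Finset.sum_congr rfl fun j _ => ?_
    rw [redS_mul (h.int_chart _ (algebraMap_mem_chart' (hHc i j))) (h.int_chart _ (hz j))]
    simp only [Hb, Matrix.of_apply]
    rw [algebraMap_redS hS]
  -- determinants
  have h1 := pow_mul_norm_eq_det B (ax A x' D) g H (fun i => by rw [hB]; exact hH i)
  have h2 := pow_mul_norm_eq_det B1 _ (redS π ι g) Hb hHb
  have hN := norm_mem_chart (x' := x') hg
  -- reduce the upstairs determinant
  have hdetred : redS π (ι.comp (algebraMap F' F)) H.det = Hb.det := by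
    have hrd : ∀ (σ : Equiv.Perm (Fin n)), ι (algebraMap F' F (∏ i, H (σ i) i)) ∈ intSeries A :=
      fun σ => h'.int_chart _ (prod_mem fun i _ => hHc (σ i) i)
    rw [Matrix.det_apply', Matrix.det_apply',
      redS_sum _ fun σ _ => h'.int_chart _ (mul_mem (intCast_mem _ _)
        (prod_mem fun i _ => hHc _ _))]
    refine Finset.sum_congr rfl fun σ _ => ?_
    rw [redS_mul (h'.int_chart _ (intCast_mem _ _)) (hrd σ)]
    congr 1
    · rcases Int.units_eq_one_or (Equiv.Perm.sign σ) with hs | hs <;> rw [hs]
      · simp
      · have : redS π (ι.comp (algebraMap F' F)) ((0 : F') - 1) = 0 - 1 := by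
          rw [redS_sub (h'.int_chart _ (zero_mem _)) (h'.int_chart _ (one_mem _)),
            redS_zero, redS_one]
        simpa using this
    · exact Subtype.ext (by
        rw [coe_redS, redF_prod _ fun i _ => h'.int_chart _ (hHc _ _)]
        simp [Hb])
  have hDn : (ι.comp (algebraMap F' F)) (ax A x' D ^ n) ∈ intSeries A :=
    h'.int_chart _ (pow_mem (ax_mem_chart x' D) n)
  have h3 := congrArg (redS π (ι.comp (algebraMap F' F))) h1
  rw [redS_mul hDn (h'.int_chart _ hN), redS_pow (h'.int_ax D), hdetred, ← h2] at h3
  exact mul_left_cancel₀ (pow_ne_zero n fun h0 =>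
    h'.redF_ax_ne_zero hD (congrArg Subtype.val h0)) h3

variable [IsAlgClosed k]

include hS in
/-- Normality of the chart upstairs gives normality downstairs. -/
theorem normal_descend (h' : GoodModel π (ι.comp (algebraMap F' F)) x' d')
    (h : GoodModel π ι (algebraMap F' F x') d) (hn : Normal A π ι (algebraMap F' F x')) :
    Normal A π (ι.comp (algebraMap F' F)) x' := by
  classical
  -- given explicitly, as the instance searches take seconds
  let : Module Sub' (specField π ι) := Algebra.toModule
  have : Module.Free Sub' (specField π ι) := Module.Free.of_divisionRing _ _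
  set y := redS π (ι.comp (algebraMap F' F)) x'
  have := FF.finite_of_tower k Sub' (specField π ι)
  have : Algebra.IsIntegral Sub' (specField π ι) := Algebra.IsIntegral.of_finite _ _
  have hy : Transcendental k y := h'.transcendental_redS
  have hx : algebraMap Sub' (specField π ι) y = redS π ι (algebraMap F' F x') :=
    algebraMap_redS hS x'
  let R : Subalgebra k Sub' :=
    { carrier := {z | ∃ g ∈ chart A x', redS π (ι.comp (algebraMap F' F)) g = z}
      mul_mem' := by
        rintro _ _ ⟨g, hg, rfl⟩ ⟨g', hg', rfl⟩
        exact ⟨g * g', mul_mem hg hg', redS_mul (h'.int_chart g hg) (h'.int_chart g' hg')⟩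
      add_mem' := by
        rintro _ _ ⟨g, hg, rfl⟩ ⟨g', hg', rfl⟩
        exact ⟨g + g', add_mem hg hg', redS_add (h'.int_chart g hg) (h'.int_chart g' hg')⟩
      algebraMap_mem' := fun r => by
        obtain ⟨⟨r', hr'⟩, rfl⟩ := h'.surj r
        exact ⟨_, algebraMap_mem_chart x' hr', h'.redS_algebraMap hr'⟩ }
  -- `R`, the reductions of the chart, has fraction field `Sub'`
  have hfrac : ∀ f : Sub', ∃ D : k[X], D ≠ 0 ∧ aeval y D * f ∈ R := by
    intro f
    obtain ⟨w, hwc, hws, hwi⟩ := h'.basis
    obtain ⟨D, hD, G, e⟩ := h'.exists_sum_of_mem hwc hws hwi f.2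
    have e' : aeval y D * f = ∑ i, aeval y (G i) * redS π (ι.comp (algebraMap F' F)) (w i) := by
      refine (Sub').val.toRingHom.injective ?_
      simp only [AlgHom.toRingHom_eq_coe, RingHom.coe_coe, map_mul, map_sum,
        ← Polynomial.aeval_algHom_apply]
      exact e
    refine ⟨D, hD, ?_⟩
    rw [e']
    refine sum_mem fun i _ => mul_mem ?_ ⟨w i, hwc i, rfl⟩
    obtain ⟨P, hP⟩ := Polynomial.map_surjective π h'.surj (G i)
    exact ⟨_, ax_mem_chart x' P, by rw [h'.redS_ax, hP]⟩
  have hfib : ∀ {Q : Place k Sub'}, FF.OrdGE Q y 0 → ∀ w ∈ Q.fiber (specField π ι),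
      FF.OrdGE w (redS π ι (algebraMap F' F x')) 0 := fun {Q} hQ w hw => by
    rw [← hx]
    exact FF.ordGE_algebraMap_of_restrict (Place.mem_fiber.mp hw) hQ |>.mono (by simp)
  -- norms of integral functions upstairs
  have hmake : ∀ (S : Finset (Place k Sub')) (_ : ∀ Q ∈ S, FF.OrdGE Q y 0)
      (m : Place k (specField π ι) → ℕ),
      ∃ r ∈ R, r ≠ 0 ∧ ∀ Q ∈ S, Q.ord r = ∑ w ∈ Q.fiber (specField π ι), (m w : ℤ) := by
    intro S hS' m
    obtain ⟨f, hf, hf0, hford⟩ := exists_integral_ord h.transcendental_redS
      (S.biUnion fun Q => Q.fiber (specField π ι))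
      (fun w hw => by
        obtain ⟨Q, hQ, hwQ⟩ := Finset.mem_biUnion.mp hw; exact hfib (hS' Q hQ) w hwQ) m
    obtain ⟨g, hg, rfl⟩ := hn f hf
    refine ⟨Algebra.norm Sub' (redS π ι g), ⟨_, norm_mem_chart hg, redS_norm hS h' h hg⟩,
      Algebra.norm_ne_zero_iff.mpr hf0, fun Q hQ => ?_⟩
    rw [FF.ord_norm Q hf0]
    exact Finset.sum_congr rfl fun w hw => hford w (Finset.mem_biUnion.mpr ⟨Q, hQ, hw⟩)
  have hRle : R ≤ FF.intClosure k y := by
    rintro _ ⟨g, hg, rfl⟩
    exact h'.redS_mem_intClosure hg
  -- `R` separates places and has uniformisers, so it is the integral closure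
  intro z hz
  refine intClosure_le_of_separates hy R ⟨x', self_mem_chart x', rfl⟩ hRle hfrac
    (fun Q Q' hQ hQ' hne => ?_) (fun Q hQ => ?_) hz
  · obtain ⟨w, hw⟩ := FF.exists_restrict_eq (F' := specField π ι) Q'
    obtain ⟨r, hr, hr0, hrord⟩ := hmake {Q, Q'} (by
      simp only [Finset.mem_insert, Finset.mem_singleton]
      rintro _ (rfl | rfl) <;> assumption) fun v => if v.restrict Sub' = Q' then 1 else 0
    have h1 : Q.ord r = 0 := by
      rw [hrord Q (by simp), Finset.sum_eq_zero]
      intro v hv
      rw [if_neg (by rw [Place.mem_fiber.mp hv]; exact hne), Nat.cast_zero]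
    have h2 : 1 ≤ Q'.ord r := by
      rw [hrord Q' (by simp)]
      refine le_trans ?_ (Finset.single_le_sum (fun v _ => Int.natCast_nonneg _)
        (Place.mem_fiber.mpr hw))
      rw [if_pos hw, Nat.cast_one]
    have hrQ := FF.ordGE_of_ord_eq_zero h1
    have hrQ' : FF.OrdGE Q' r 1 := (FF.ordGE_iff_of_ne hr0).mpr h2
    have hc : FF.evalAt Q r ≠ 0 := FF.evalAt_ne_zero hr0 h1
    refine ⟨(FF.evalAt Q r)⁻¹ • r, R.smul_mem hr _, ?_, ?_⟩
    · rw [Algebra.smul_def, FF.evalAt_mul (FF.ordGE_algebraMap Q _) hrQ, FF.evalAt_algebraMap,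
        inv_mul_cancel₀ hc]
    · rw [Algebra.smul_def, FF.evalAt_mul (FF.ordGE_algebraMap Q' _) (hrQ'.mono zero_le_one),
        FF.evalAt_algebraMap, (FF.evalAt_eq_zero_iff (hrQ'.mono zero_le_one)).mpr hrQ', mul_zero]
  · obtain ⟨w, hw⟩ := FF.exists_restrict_eq (F' := specField π ι) Q
    obtain ⟨r, hr, -, hrord⟩ := hmake {Q} (by simpa using hQ) fun v => if v = w then 1 else 0
    refine ⟨r, hr, ?_⟩
    rw [hrord Q (Finset.mem_singleton_self Q),
      Finset.sum_eq_single_of_mem w (Place.mem_fiber.mpr hw) fun v _ hne => by simp [hne]]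
    simp

end Fermat.RED.Model
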