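import Fermat.Agent.RED.Model.LevelGenus
import Fermat.Agent.RED.Model.Descend
import Fermat.Agent.MC.X0.Genus
import Fermat.Prelude.Def_FLTPrelim_Ramification

/-!
# `X₀(N)` has normal special fibre at primes not dividing `N`

For levels divisible by `4` or `9` the genus does not drop under reduction, so both charts are
normal; every other level descends from such a one. This is the input of good reduction used by
`RED/Reduction`, `RED/Flat` and the libraries `BAD`, `FLAT` and `HT`.
-/

set_option autoImplicit false

attribute [local instance 10000] SubalgebraClass.toAlgebra HahnSeries.powerSeriesAlgebra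

noncomputable section

open ModularCurve Polynomial AlgebraicCurve

namespace Fermat.RED.Model

/-- The residue field of a valuation ring of an algebraically closed field is algebraically
closed. -/
theorem isAlgClosed_residue {L : Type*} [Field L] [IsAlgClosed L] (A : ValuationSubring L) :
    IsAlgClosed (IsLocalRing.ResidueField A) := by
  refine IsAlgClosed.of_exists_root _ fun p hp hirr => ?_
  obtain ⟨P, hP, -, hPm⟩ := Polynomial.lifts_and_natDegree_eq_and_monic
    (f := IsLocalRing.residue A) (p := p) (by
      rw [Polynomial.lifts_iff_coeff_lifts]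
      exact fun n => IsLocalRing.residue_surjective _) hp
  obtain ⟨r, hr⟩ := IsAlgClosed.exists_root (P.map A.subtype) (by
    rw [degree_map_eq_of_injective Subtype.val_injective]
    intro h0
    have := degree_map_le (f := IsLocalRing.residue A) (p := P)
    rw [h0, hP] at this
    exact absurd this (not_le.mpr (Polynomial.degree_pos_of_irreducible hirr)))
  obtain ⟨r', hr'⟩ := IsIntegrallyClosed.isIntegral_iff.mp (⟨P, hPm, by
    rw [IsRoot.def, eval_map] at hr
    exact hr⟩ : IsIntegral A r)
  refine ⟨IsLocalRing.residue A r', ?_⟩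
  rw [← hP, eval_map, eval₂_at_apply]
  have : P.eval r' = 0 := Subtype.val_injective (by
    rw [IsRoot.def, eval_map, ← hr'] at hr
    change A.subtype (P.eval r') = 0
    rw [← eval₂_at_apply]
    exact hr)
  rw [this, map_zero]

/-- A natural number prime to `ℓ` is nonzero in the residue field of a place over `ℓ`. -/
theorem natCast_ne_zero_residue {L : Type*} [Field L] (A : ValuationSubring L) {ℓ N : ℕ}
    (hℓ : ℓ.Prime) (hA : A.LiesOverPrime ℓ) (hN : ¬ ℓ ∣ N) :
    (N : IsLocalRing.ResidueField A) ≠ 0 := by
  have hℓ0 : (ℓ : IsLocalRing.ResidueField A) = 0 := by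
    rw [← map_natCast (IsLocalRing.residue A), IsLocalRing.residue_eq_zero_iff,
      IsLocalRing.mem_maximalIdeal]
    exact ValuationSubring.coe_mem_nonunits_iff.mp (by push_cast; exact hA)
  intro h0
  have h1 := (hℓ.coprime_iff_not_dvd.mpr hN).isCoprime.map
    (Int.castRingHom (IsLocalRing.ResidueField A))
  simp only [eq_intCast, Int.cast_natCast, hℓ0, h0] at h1
  obtain ⟨a, b, hab⟩ := h1
  simp at hab

/-- One of `4` and `9` is invertible in a field. -/
theorem exists_four_or_nine_ne_zero (k : Type*) [Field k] :
    ∃ c : ℕ, c ≠ 0 ∧ (c : k) ≠ 0 ∧ (c = 4 ∨ c = 9) := by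
  by_cases h2 : (2 : k) = 0
  · refine ⟨9, by norm_num, fun h9 => one_ne_zero (α := k) ?_, Or.inr rfl⟩
    push_cast at h9
    linear_combination h9 - 4 * h2
  · exact ⟨4, by norm_num, fun h4 => h2 (mul_self_eq_zero.mp (by
      push_cast at h4
      linear_combination h4)), Or.inl rfl⟩

/-- No elliptic point of order two for levels divisible by `4` or `9`. -/
theorem nuTwo_eq_zero {M : ℕ} (h : 4 ∣ M ∨ 9 ∣ M) : nuTwo M = 0 := by
  rw [nuTwo, Nat.card_eq_zero]
  left
  refine ⟨fun ⟨z, hz⟩ => ?_⟩
  have key : ∀ c, c ∣ M → ¬ ∀ w : ZMod c, w ^ 2 + 1 ≠ 0 := fun c hc hw =>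
    hw (ZMod.castHom hc _ z) (by
      simpa only [map_add, map_pow, map_one, map_zero] using congrArg (ZMod.castHom hc (ZMod c)) hz)
  rcases h with h | h <;> exact key _ h (by decide)

/-- No elliptic point of order three for levels divisible by `4` or `9`. -/
theorem nuThree_eq_zero {M : ℕ} (h : 4 ∣ M ∨ 9 ∣ M) : nuThree M = 0 := by
  rw [nuThree, Nat.card_eq_zero]
  left
  refine ⟨fun ⟨z, hz⟩ => ?_⟩
  have key : ∀ c, c ∣ M → ¬ ∀ w : ZMod c, w ^ 2 + w + 1 ≠ 0 := fun c hc hw =>
    hw (ZMod.castHom hc _ z) (by
      simpa only [map_add, map_pow, map_one, map_zero] using congrArg (ZMod.castHom hc (ZMod c)) hz)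
  rcases h with h | h <;> exact key _ h (by decide)

/-- The full field of level `M` over `L` is the base change of the one over `ℚ`. -/
theorem fullC_eq_baseChange (L : Type*) [Field L] [Algebra ℚ L] (M : ℕ) :
    laurentBaseChange L (modularFunctionFieldFull M) = modularFunctionFieldFullC L M := by
  have hgen : ∀ (d : ℕ) [NeZero d],
      coeffEmb L (qExpand ℚ d (jqModC ℚ)) = qExpand L d (jqModC L) := fun d _ => by
    change coeffMap (algebraMap ℚ L) _ = _
    rw [coeffMap_qExpand, coeffMap_jqModC]
  refine le_antisymm (IntermediateField.adjoin_le_iff.mpr ?_)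
    (IntermediateField.adjoin_le_iff.mpr ?_)
  · rintro _ ⟨y, hy, rfl⟩
    exact coeffMap_mem_full (algebraMap ℚ L) (M := M) hy
  · rintro _ ⟨d, hd, hdvd, rfl⟩
    have := hd
    rw [← hgen d]
    exact coeffEmb_mem_laurentBaseChange L (jqModCd_mem_full ℚ M hdvd)

variable {L : Type*} [Field L] {A : ValuationSubring L}
variable {k : Type*} [Field k] {π : A →+* k}

/-- Equal fields of series have the same genus. -/
theorem genusFF_congr {K : Type*} [Field K] {S T : IntermediateField K (LaurentSeries K)}
    (h : S = T) : genusFF K S = genusFF K T := by subst h; rfl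

variable [IsAlgClosed L] [CharZero L]

omit [IsAlgClosed L] in
/-- The special field of `X₀(M)` is the full field of level `M`. -/
theorem specField_X0 (hπ : Function.Surjective π) {M : ℕ} [NeZero M] (hM : (M : k) ≠ 0) :
    specField π (expX L M) = modularFunctionFieldFullC k M := by
  have h := goodModel_X0 (L := L) (A := A) hπ hM
  have hred : ∀ (d : ℕ) [NeZero d] (hd : d ∣ M),
      redF π (expX L M) (jdX L M d hd) = qExpand k d (jqModC k) := fun d _ hd => by
    have e : coeffMap A.subtype (jb A 1 d) = jb L 1 d := by rw [coeffMap_jb, map_one]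
    rw [redF_of_mem (by rw [expX_jdX]; exact jb_one_mem_intSeries d)]
    refine Eq.trans ?_ (show coeffMap π (jb A 1 d) = qExpand k d (jqModC k) by
      rw [coeffMap_jb, map_one, jb_one])
    rw [← redHom_coeffMap π (jb A 1 d) ⟨_, rfl⟩]
    exact congrArg _ (Subtype.ext e.symm)
  refine le_antisymm ?_ (IntermediateField.adjoin_le_iff.mpr ?_)
  · -- the reductions of a basis lie in the field of level `M`
    intro z hz
    obtain ⟨y, hy, hys, hyi⟩ := h.basis
    obtain ⟨hML, -⟩ := natCast_ne_zero_of_residue hM hπ
    have hj1 : redF π (expX L M) (jX L M) = jqModC k := by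
      have := hred 1 (one_dvd M)
      rw [qExpand_one_apply] at this
      rw [← this]
      congr 1
      exact Subtype.ext (by simp [jdX, jX, jb_one, qExpand_one_apply])
    have hz' : ∀ f : FX L M, expX L M f ∈ intSeries A →
        redF π (expX L M) f ∈ modularFunctionFieldFullC k M := by
      intro f hf
      -- write `D(j) f = ∑ G_i(j) j_M ^ i`, make it primitive and reduce
      obtain ⟨D, hD, G, e⟩ := exists_sum_jb hML f.2
      have hsum : ∀ P : L[X], aeval (jqModC L) P = expX L M (aeval (jX L M) P) :=
        fun P => (expX_aeval M P).symm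
      obtain ⟨a, P, ha, hP, o, hne⟩ := exists_primitive (π := π) (α := Option (Fin (dedekindPsi M)))
        (fun o => o.elim D G) ⟨none, hD⟩
      have e' : ax A (jX L M) (P none) * f
          = ∑ i, ax A (jX L M) (P (some i)) * jdX L M M dvd_rfl ^ (i : ℕ) := by
        refine mul_left_cancel₀ ((_root_.map_ne_zero (algebraMap L (FX L M))).mpr ha) ?_
        refine (expX L M).injective ?_
        simp only [Finset.mul_sum, map_sum, ← mul_assoc, map_mul, map_pow, expX_jdX]
        have hD' := hP none
        have hG' := fun i => hP (some i)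
        simp only [Option.elim_none, Option.elim_some] at hD' hG'
        rw [hD'] at e
        simp only [hG', map_mul, aeval_C, hsum, ← ax_eq] at e
        have hfe : expX L M f = (f : LaurentSeries L) := rfl
        simpa only [expX_algebraMap, hfe] using e
      have hint : ∀ i : Fin (dedekindPsi M), expX L M (jdX L M M dvd_rfl ^ (i : ℕ)) ∈ intSeries A :=
        fun i => by rw [map_pow, expX_jdX]; exact pow_mem (jb_one_mem_intSeries M) _
      have hr := congrArg (redF π (expX L M)) e'
      rw [redF_mul (h.int_ax _) hf, redF_sum _ (fun i _ => by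
        rw [map_mul]; exact mul_mem (h.int_ax _) (hint i)), h.redF_ax, hj1] at hr
      by_cases hPn : (P none).map π = 0
      · exfalso
        rw [hPn, map_zero, zero_mul] at hr
        have h0 := eq_zero_of_sum_jb_eq_zero hM (G := fun i => (P (some i)).map π) (by
          rw [hr]
          refine Finset.sum_congr rfl fun i _ => ?_
          rw [redF_mul (h.int_ax _) (hint i), h.redF_ax, hj1,
            redF_pow (by rw [expX_jdX]; exact jb_one_mem_intSeries M), hred, jb_one])
        rcases o with _ | i
        · exact hne hPn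
        · exact hne (congrFun h0 i)
      have hmem : ∀ Q : k[X], aeval (jqModC k) Q ∈ modularFunctionFieldFullC k M := fun Q =>
        Algebra.adjoin_le (S := (modularFunctionFieldFullC k M).toSubalgebra)
          (Set.singleton_subset_iff.mpr (jqModC_mem_full k M)) (aeval_mem_adjoin_singleton k _)
      -- the reduced `D` is nonzero, so dividing by it gives the reduction of `f`
      rw [show redF π (expX L M) f
          = (aeval (jqModC k) ((P none).map π) * redF π (expX L M) f)
            / aeval (jqModC k) ((P none).map π) by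
        rw [mul_div_cancel_left₀]
        exact fun h0 => hPn (transcendental_iff.mp transcendental_jqModC _ h0), hr]
      refine div_mem (sum_mem fun i _ => ?_) (hmem _)
      rw [redF_mul (h.int_ax _) (hint i), h.redF_ax, hj1,
        redF_pow (by rw [expX_jdX]; exact jb_one_mem_intSeries M), hred]
      exact mul_mem (hmem _) (pow_mem (jqModCd_mem_full k M dvd_rfl) _)
    refine IntermediateField.adjoin_le_iff.mpr (fun w hw => ?_) hz
    obtain ⟨f, hf, rfl⟩ := hw
    exact hz' f hf
  · rintro _ ⟨d, hd, hdvd, rfl⟩
    have := hd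
    rw [← hred d hdvd]
    exact redF_mem_specField π _ _

variable [IsAlgClosed k]

omit [IsAlgClosed L] in
/-- The field of level `M` and its special field are function fields. -/
theorem isFunctionField_X0 {M : ℕ} [NeZero M] (hπ : Function.Surjective π) (hM : (M : k) ≠ 0) :
    FF.IsFunctionField L (FX L M) ∧ FF.IsFunctionField k (specField π (expX L M)) :=
  ⟨(goodModel_X0 (L := L) (A := A) hπ hM).toPreModel.isFunctionField,
    (goodModel_X0 (L := L) (A := A) hπ hM).toPreModel.isFunctionField_spec⟩

/-- Both charts of `X₀(M)` are normal for levels divisible by `4` or `9`. -/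
theorem normal_X0_aux [Algebra ℚ L] (φ : L →+* ℂ) (hπ : Function.Surjective π) {M : ℕ} [NeZero M]
    (hM : (M : k) ≠ 0) (h49 : 4 ∣ M ∨ 9 ∣ M) :
    Normal A π (expX L M) (jX L M) ∧ Normal A π (expX L M) (jX L M)⁻¹ := by
  obtain ⟨hff, hffk⟩ := isFunctionField_X0 (L := L) (A := A) hπ hM
  have := hff
  have := hffk
  have h := goodModel_X0 (L := L) (A := A) hπ hM
  have : FF.IsFunctionField k (FX k M) := Cusps.isFunctionField hM
  have := MC.isFunctionField_FN M φ
  have hgL : (genusFF L (FX L M) : ℚ) = genusFormula M := by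
    rw [show genusFF L (FX L M) = genusFF L (MC.FN M L) from
      genusFF_congr (fullC_eq_baseChange L M).symm]
    exact MC.genusFF_FN M φ
  have hgk : genusFF k (FX k M) = genusFF k (specField π (expX L M)) :=
    genusFF_congr (specField_X0 (L := L) (A := A) hπ hM).symm
  have hle := h.genus_le
  -- a sublevel of genus zero
  obtain ⟨M₀, hM₀, hn0, hdvd, h0g, hdata⟩ : ∃ M₀ : ℕ, M₀ ≠ 0 ∧ (M₀ : k) ≠ 0 ∧ M₀ ∣ M ∧
      genusFormula M₀ = 0 ∧ ((M₀ = 4) ∨ (M₀ = 9)) := by
    have h4 : dedekindPsi 4 = 6 ∧ dedekindPsi 9 = 12 :=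
      ⟨MF.dedekindPsi_prime_pow Nat.prime_two 1, MF.dedekindPsi_prime_pow Nat.prime_three 1⟩
    have hc : cuspCount 4 = 3 ∧ cuspCount 9 = 4 := ⟨by decide, by decide⟩
    rcases h49 with hd | hd
    · refine ⟨4, by norm_num, RED.natCast_ne_zero_of_dvd hd hM, hd, ?_, Or.inl rfl⟩
      rw [genusFormula, nuTwo_eq_zero (Or.inl dvd_rfl), nuThree_eq_zero (Or.inl dvd_rfl),
        h4.1, hc.1]
      norm_num
    · refine ⟨9, by norm_num, RED.natCast_ne_zero_of_dvd hd hM, hd, ?_, Or.inr rfl⟩
      rw [genusFormula, nuTwo_eq_zero (Or.inr dvd_rfl), nuThree_eq_zero (Or.inr dvd_rfl),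
        h4.2, hc.2]
      norm_num
  have : NeZero M₀ := ⟨hM₀⟩
  obtain ⟨hff0, hffk0⟩ := isFunctionField_X0 (L := L) (A := A) hπ hn0
  have := hff0
  have := hffk0
  have : FF.IsFunctionField k (FX k M₀) := Cusps.isFunctionField hn0
  have hzero : genusFF k (FX k M₀) = 0 := by
    have := MC.isFunctionField_FN M₀ φ
    have hg0 : (genusFF L (FX L M₀) : ℚ) = 0 := by
      rw [show genusFF L (FX L M₀) = genusFF L (MC.FN M₀ L) from
        genusFF_congr (fullC_eq_baseChange L M₀).symm, MC.genusFF_FN M₀ φ, h0g]
    have h0 := (goodModel_X0 (L := L) (A := A) hπ hn0).genus_le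
    rw [← genusFF_congr (specField_X0 (L := L) (A := A) hπ hn0).symm] at h0
    have h00 : genusFF L (FX L M₀) = 0 := by exact_mod_cast hg0
    exact Nat.le_zero.mp (le_of_le_of_eq h0 h00)
  -- lower bound for the special genus from the poles of `j` on the sublevel
  have hge : (dedekindPsi M : ℤ) - 6 * cuspCount M
      ≤ 6 * (2 * (genusFF k (FX k M) : ℤ) - 2) := by
    rcases hdata with rfl | rfl
    · obtain ⟨P, hP, hPj⟩ := Cusps.exists_three_poles (k := k) hn0
      refine Cusps.genus_ge_of_sublevel hdvd hM hzero P hPj ?_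
      rw [hP, show dedekindPsi 4 = 6 from MF.dedekindPsi_prime_pow Nat.prime_two 1]
      norm_num
    · obtain ⟨P, hP, hPj⟩ := Cusps.exists_four_poles (k := k) hn0
      refine Cusps.genus_ge_of_sublevel hdvd hM hzero P hPj ?_
      rw [hP, show dedekindPsi 9 = 12 from MF.dedekindPsi_prime_pow Nat.prime_three 1]
      norm_num
  have hF : genusFormula M = 1 + (dedekindPsi M : ℚ) / 12 - (cuspCount M : ℚ) / 2 := by
    rw [genusFormula, nuTwo_eq_zero h49, nuThree_eq_zero h49]
    simp
  have hge' : genusFF L (FX L M) ≤ genusFF k (FX k M) := by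
    have h1 : ((dedekindPsi M : ℚ) - 6 * cuspCount M) ≤ 6 * (2 * (genusFF k (FX k M) : ℚ) - 2) := by
      exact_mod_cast hge
    have h2 : (genusFF L (FX L M) : ℚ) ≤ genusFF k (FX k M) := by
      rw [hgL, hF]
      linarith
    exact_mod_cast h2
  -- with the upper bound `hle`: the genus does not drop
  have heq : genusFF k (specField π (expX L M)) = genusFF L (FX L M) := by omega
  exact ⟨h.normal_of_genus_eq heq, h.normal_inv_of_genus_eq heq⟩

omit [IsAlgClosed L] in
/-- Normality descends along a homomorphism of models respecting expansions and coordinates. -/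
theorem normal_of_algHom {F' F : Type*} [Field F'] [Field F] [Algebra L F'] [Algebra L F]
    {ι' : F' →+* LaurentSeries L} {ι : F →+* LaurentSeries L} (φ : F' →ₐ[L] F)
    (hι : ι' = ι.comp φ.toRingHom) {x' : F'} {x : F} (hx : φ x' = x) {d' d : ℕ}
    (h' : GoodModel π ι' x' d') (h : GoodModel π ι x d)
    (hn : Normal A π ι x) : Normal A π ι' x' := by
  subst hι hx
  let : Algebra F' F := φ.toRingHom.toAlgebra
  have : IsScalarTower L F' F := IsScalarTower.of_algebraMap_eq fun c => (φ.commutes c).symm
  have := h.toPreModel.isFunctionField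
  have := h.toPreModel.isFunctionField_spec
  have := h'.toPreModel.isFunctionField
  have : FF.IsFunctionField k (specField π (ι.comp (algebraMap F' F))) :=
    h'.toPreModel.isFunctionField_spec
  let : Algebra (specField π (ι.comp (algebraMap F' F))) (specField π ι) :=
    (IntermediateField.inclusion (specField_comp_le (π := π) (ι := ι))).toRingHom.toAlgebra
  have : IsScalarTower k (specField π (ι.comp (algebraMap F' F))) (specField π ι) :=
    IsScalarTower.of_algebraMap_eq fun _ => rfl
  exact normal_descend (F' := F') (F := F) (x' := x') (d' := d') (d := d) (fun _ => rfl) h' h hn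

/-- An inclusion of subfields commutes with the embeddings. -/
theorem val_comp_inclusion {K K' : Type*} [Field K] [Field K'] [Algebra K K']
    {E F : IntermediateField K K'} (h : E ≤ F) :
    F.val.toRingHom.comp (IntermediateField.inclusion h).toRingHom = E.val.toRingHom := rfl

/-- `X₀(N)` has normal special fibre at the primes not dividing `N`. -/
theorem normal_X0 [Algebra ℚ L] (φ : L →+* ℂ) (hπ : Function.Surjective π) {N : ℕ} [NeZero N]
    (hN : (N : k) ≠ 0) :
    Normal A π (expX L N) (jX L N) ∧ Normal A π (expX L N) (jX L N)⁻¹ := by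
  -- pass to the level `c * N` with `c ∈ {4, 9}` invertible in `k`, then descend
  obtain ⟨c, hc0, hc, hc49⟩ := exists_four_or_nine_ne_zero k
  have : NeZero (c * N) := ⟨mul_ne_zero hc0 (NeZero.ne N)⟩
  have hM : ((c * N : ℕ) : k) ≠ 0 := by rw [Nat.cast_mul]; exact mul_ne_zero hc hN
  obtain ⟨n1, n2⟩ := normal_X0_aux (L := L) (A := A) φ hπ hM
    (by rcases hc49 with rfl | rfl <;> [left; right] <;> exact dvd_mul_right _ _)
  set i : FX L N →ₐ[L] FX L (c * N) :=
    IntermediateField.inclusion (full_degeneracyC_le L (dvd_mul_left N c))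
  have hi : expX L N = (expX L (c * N)).comp i.toRingHom := (val_comp_inclusion _).symm
  have hj : i (jX L N) = jX L (c * N) := rfl
  exact ⟨normal_of_algHom i hi hj (goodModel_X0 hπ hN) (goodModel_X0 hπ hM) n1,
    normal_of_algHom i hi (by rw [map_inv₀, hj]) (goodModel_X0 hπ hN).inv
      (goodModel_X0 hπ hM).inv n2⟩

end Fermat.RED.Model
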