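import Fermat.Agent.RED.Model.Koszul

/-!
# Normal charts give equal genera

If both reduced charts of a good model are normal, the special and the generic fibre have the same
genus: the converse of the criterion in `RED/Model/Lattice`.
-/

set_option autoImplicit false

attribute [local instance 10000] SubalgebraClass.toAlgebra HahnSeries.powerSeriesAlgebra

noncomputable section

open Polynomial AlgebraicCurve

namespace Fermat.RED.Model

variable {L : Type*} [Field L] {A : ValuationSubring L}
variable {k : Type*} [Field k] {π : A →+* k}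
variable {F : Type*} [Field F] [Algebra L F] {ι : F →+* LaurentSeries L}
variable {x : F} {d : ℕ}
variable [IsAlgClosed L] [IsAlgClosed k]
variable [FF.IsFunctionField L F] [FF.IsFunctionField k (specField π ι)]

/-- A filtration in which each step is generated by the one before and its multiple by `u` is
spanned from its `N`-th term by the powers of `u`. -/
theorem mem_span_pow_mul_of_step {K R : Type*} [Field K] [CommRing R] [Algebra K R] {u : R}
    (V : ℕ → Submodule K R) {N : ℕ}
    (hstep : ∀ m, N ≤ m → ∀ z ∈ V (m + 1), ∃ a ∈ V m, ∃ b ∈ V m, z = a + u * b)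
    {J : Type*} [Fintype J] (bas : Module.Basis J K (V N)) :
    ∀ s, ∀ z ∈ V (N + s), z ∈ Submodule.span K
      {w | ∃ i ≤ s, ∃ j, w = u ^ i * (bas j : R)} := by
  intro s
  induction s with
  | zero =>
    intro z hz
    rw [show z = ((∑ j, bas.repr ⟨z, hz⟩ j • bas j : V N) : R) by rw [bas.sum_repr],
      Submodule.coe_sum]
    refine sum_mem fun j _ => ?_
    rw [Submodule.coe_smul]
    exact Submodule.smul_mem _ _ (Submodule.subset_span ⟨0, le_rfl, j, by simp⟩)
  | succ s ih =>
    intro z hz
    obtain ⟨a, ha, b, hb, rfl⟩ := hstep (N + s) (by omega) z hz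
    refine add_mem (Submodule.span_mono ?_ (ih a ha)) ?_
    · rintro w ⟨i, hi, j, e⟩
      exact ⟨i, hi.trans (Nat.le_succ s), j, e⟩
    have := Submodule.mem_map_of_mem (f := LinearMap.mulLeft K u) (ih b hb)
    rw [Submodule.map_span] at this
    refine Submodule.span_mono ?_ this
    rintro _ ⟨w, ⟨i, hi, j, rfl⟩, rfl⟩
    exact ⟨i + 1, by omega, j, by rw [LinearMap.mulLeft_apply, pow_succ', mul_assoc]⟩

namespace GoodModel

omit [IsAlgClosed L] [IsAlgClosed k] [FF.IsFunctionField L F]
  [FF.IsFunctionField k (specField π ι)] in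
/-- If `x⁻ⁿ g` lies in the chart at infinity then so does `x⁻ᵐ g` for `m ≥ n`. -/
theorem mem_inv_pow_mono {g : F} {n m : ℕ} (hnm : n ≤ m) (hg : x⁻¹ ^ n * g ∈ chart A x⁻¹) :
    x⁻¹ ^ m * g ∈ chart A x⁻¹ := by
  rw [← Nat.sub_add_cancel hnm, pow_add, mul_assoc]
  exact mul_mem (pow_mem (self_mem_chart x⁻¹) _) hg

variable (A π ι) in
omit [IsAlgClosed L] [IsAlgClosed k] [FF.IsFunctionField L F]
  [FF.IsFunctionField k (specField π ι)] in
/-- Reductions of the integral sections of order `n`. -/
def sectionRed (x : F) (n : ℕ) : Set (specField π ι) :=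
  {z | ∃ g ∈ chart A x, x⁻¹ ^ n * g ∈ chart A x⁻¹ ∧ redS π ι g = z}

omit [IsAlgClosed k] [FF.IsFunctionField k (specField π ι)] in
/-- Independent reductions of integral sections of order `n` number at most `ℓ(n (x)∞)`. -/
theorem le_ell_of_indep (h : GoodModel π ι x d) {n m : ℕ} (b : Fin m → specField π ι)
    (hb : LinearIndependent k b) (hW : ∀ i, b i ∈ sectionRed A π ι x n) :
    m ≤ FF.ell (n • FF.poleDiv L x) := by
  classical
  choose g hg hgn hgz using hW
  -- Lifts lie in `L(n (x)∞)`; we show that they are independent over `L`.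
  have hmem : ∀ i, g i ∈ riemannRochSpace (n • FF.poleDiv L x) := fun i =>
    (mem_nsmul_poleDiv_iff h.transcendental n).mpr
      ⟨mem_intClosure_of_mem_chart (hg i),
        mem_intClosure_of_mem_chart (hgn i)⟩
  have hli : LinearIndependent L (fun i =>
      (⟨g i, hmem i⟩ : riemannRochSpace (n • FF.poleDiv L x))) := by
    refine LinearIndependent.of_comp (riemannRochSpace (n • FF.poleDiv L x)).subtype ?_
    rw [Fintype.linearIndependent_iff]
    intro c hc
    by_contra hne
    simp only [not_forall] at hne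
    -- Scale a dependence to coefficients in `A`, not all reducing to `0`.
    obtain ⟨a, G, ha, hG, i, hi⟩ := exists_primitive (π := π) (fun i => Polynomial.C (c i)) (by
      obtain ⟨i, hi⟩ := hne
      exact ⟨i, fun h0 => hi (Polynomial.C_eq_zero.mp h0)⟩)
    have hGc : ∀ i, c i = a * ((G i).coeff 0 : A) := fun i => by
      have := congrArg (fun P => Polynomial.coeff P 0) (hG i)
      simpa using this
    have hG0 : ∀ i m, m ≠ 0 → (G i).coeff m = 0 := fun i m hm => by
      have := congrArg (fun P => Polynomial.coeff P m) (hG i)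
      simp only [coeff_C, if_neg hm, coeff_C_mul, coeff_map] at this
      exact Subtype.ext ((mul_eq_zero.mp this.symm).resolve_left ha)
    have hsum : ∑ i, algebraMap L F ((G i).coeff 0 : A) * g i = 0 := by
      refine (mul_eq_zero.mp ?_).resolve_left ((_root_.map_ne_zero (algebraMap L F)).mpr ha)
      rw [Finset.mul_sum, ← hc]
      refine Finset.sum_congr rfl fun i _ => ?_
      rw [← mul_assoc, ← map_mul, ← hGc, Algebra.smul_def]
      rfl
    have := congrArg (redS π ι) hsum
    rw [redS_zero, redS_sum _ fun i _ =>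
      h.int_chart _ (mul_mem (algebraMap_mem_chart x ((G i).coeff 0).2) (hg i))]
      at this
    -- It reduces to a dependence of the `b i`, so all coefficients reduce to `0`.
    have h2 : ∑ i, π ((G i).coeff 0) • b i = 0 := by
      rw [← this]
      refine Finset.sum_congr rfl fun i _ => ?_
      rw [redS_mul (h.int_algebraMap ((G i).coeff 0).2) (h.int_chart _ (hg i)),
        h.redS_algebraMap ((G i).coeff 0).2, hgz, Algebra.smul_def]
    have h3 := Fintype.linearIndependent_iff.mp hb _ h2 i
    refine hi (Polynomial.ext fun m => ?_)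
    rw [coeff_map, coeff_zero]
    rcases eq_or_ne m 0 with rfl | hm
    · exact h3
    · rw [hG0 i m hm, map_zero]
  have := hli.fintype_card_le_finrank
  rwa [Fintype.card_fin] at this

/-- Equality of genera from normality of the two charts. -/
theorem genus_eq_of_normal (h : GoodModel π ι x d) (hn : Normal A π ι x) (hn' : Normal A π ι x⁻¹) :
    genusFF k (specField π ι) = genusFF L F := by
  classical
  refine le_antisymm h.genus_le ?_
  have hy := h.transcendental_redS
  have hd := h.finrank_eq_pos
  obtain ⟨n₁, hn₁⟩ := exists_koszul hy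
  set N := n₁ + 2 * genusFF L F + 2 * genusFF k (specField π ι)
  set V := fun m : ℕ => riemannRochSpace (m • FF.poleDiv k (redS π ι x))
  -- each section is integral in high order, in two ways
  have hbd : ∀ z ∈ V N, ∃ B, ∀ b, B ≤ b →
      z ∈ sectionRed A π ι x (N + b) ∧ redS π ι x ^ b * z ∈ sectionRed A π ι x (N + b) := by
    intro z hz
    obtain ⟨h1, h2⟩ := (mem_nsmul_poleDiv_iff hy N).mp hz
    obtain ⟨g, hg, hgz⟩ := hn z h1
    rw [← h.redS_inv] at h2
    obtain ⟨g', hg', hgz'⟩ := hn' _ h2
    obtain ⟨m₀, hm₀⟩ := exists_inv_pow_mul_mem_chart h.ne_zero hg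
    obtain ⟨m₁, hm₁⟩ := exists_inv_pow_mul_mem_chart (inv_ne_zero h.ne_zero) hg'
    refine ⟨m₀ + m₁, fun b hb => ⟨⟨g, hg, hm₀ _ (by omega), hgz⟩, ⟨x ^ (N + b) * g', ?_, ?_, ?_⟩⟩⟩
    · have := hm₁ (N + b) (by omega)
      rwa [inv_inv] at this
    · rw [← mul_assoc, ← mul_pow, inv_mul_cancel₀ h.ne_zero, one_pow, one_mul]
      exact hg'
    · rw [redS_mul (by rw [map_pow]; exact pow_mem h.int_self _) (h.inv.int_chart _ hg'),
        redS_pow h.int_self, hgz', pow_add, h.redS_inv]
      have hx0 : redS π ι x ≠ 0 := fun h0 => hy (h0 ▸ isAlgebraic_zero)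
      rw [inv_pow, mul_comm (redS π ι x ^ N) (redS π ι x ^ b), mul_assoc,
        mul_inv_cancel_left₀ (pow_ne_zero N hx0)]
  have : Module.Free k ↥(V N) := Module.Free.of_divisionRing k _
  set bas := Module.finBasis k (V N)
  choose B hB using fun i => hbd (bas i : specField π ι) (bas i).2
  set C := ∑ i, B i
  have hC : ∀ i, B i ≤ C := fun i => Finset.single_le_sum (fun _ _ => Nat.zero_le _)
    (Finset.mem_univ i)
  -- the sections of order `N + s` are spanned by `x̄ ^ i bas j` with `i ≤ s`
  have hgen := mem_span_pow_mul_of_step (u := redS π ι x) V (N := N)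
    (fun m hm => hn₁ m (by omega)) bas
  set M := N + 2 * C
  have hall : ∀ z ∈ V M, z ∈ sectionRed A π ι x M := by
    intro z hz
    have := hgen (2 * C) z hz
    clear hz
    induction this using Submodule.span_induction with
    | mem w hw =>
      obtain ⟨i, hi, j, rfl⟩ := hw
      rcases le_or_gt i C with hiC | hiC
      · obtain ⟨g, hg, hgn, hgz⟩ := (hB j (2 * C - i) (by have := hC j; omega)).1
        refine ⟨x ^ i * g, mul_mem (pow_mem (self_mem_chart x) _) hg, ?_, ?_⟩
        · rw [show M = (N + (2 * C - i)) + i by omega, pow_add, mul_assoc,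
            ← mul_assoc (x⁻¹ ^ i), ← mul_pow, inv_mul_cancel₀ h.ne_zero, one_pow, one_mul]
          exact hgn
        · rw [redS_mul (by rw [map_pow]; exact pow_mem h.int_self _) (h.int_chart _ hg),
            redS_pow h.int_self, hgz]
      · obtain ⟨g, hg, hgn, hgz⟩ := (hB j i (by have := hC j; omega)).2
        exact ⟨g, hg, mem_inv_pow_mono (by omega) hgn, hgz⟩
    | zero => exact ⟨0, zero_mem _, by simp [zero_mem], redS_zero π ι⟩
    | add a b _ _ ha hb =>
      obtain ⟨g, hg, hgn, rfl⟩ := ha
      obtain ⟨g', hg', hgn', rfl⟩ := hb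
      exact ⟨g + g', add_mem hg hg', by rw [mul_add]; exact add_mem hgn hgn',
        redS_add (h.int_chart g hg) (h.int_chart g' hg')⟩
    | smul c a _ ha =>
      obtain ⟨g, hg, hgn, rfl⟩ := ha
      obtain ⟨⟨a', ha'⟩, hc⟩ := h.surj c
      refine ⟨algebraMap L F a' * g, mul_mem (algebraMap_mem_chart x ha') hg, ?_, ?_⟩
      · rw [mul_left_comm]; exact mul_mem (algebraMap_mem_chart x⁻¹ ha') hgn
      · rw [redS_mul (h.int_algebraMap ha') (h.int_chart g hg), h.redS_algebraMap ha', hc,
          Algebra.smul_def]
  -- so `ℓ(M (x̄)∞) ≤ ℓ(M (x)∞)`, and Riemann–Roch in high degree compares the genera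
  have : Module.Free k ↥(V M) := Module.Free.of_divisionRing k _
  set basM := Module.finBasis k (V M)
  have h1 := h.le_ell_of_indep (n := M) (fun i => ((basM i : V M) : specField π ι))
    (basM.linearIndependent.map' (V M).subtype (Submodule.ker_subtype _))
    fun i => hall _ (basM i).2
  obtain ⟨e1, e2⟩ := h.degree_poleDiv_nsmul M
  have hM : (M : ℤ) ≤ (M : ℤ) * d := le_mul_of_one_le_right (by positivity) (by exact_mod_cast hd)
  have r1 := FF.ell_of_degree_ge (D := M • FF.poleDiv L x) (by rw [e1]; omega)
  have r2 := FF.ell_of_degree_ge (D := M • FF.poleDiv k (redS π ι x)) (by rw [e2]; omega)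
  change FF.ell (M • FF.poleDiv k (redS π ι x)) ≤ _ at h1
  omega

end GoodModel

end Fermat.RED.Model
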