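import Mathlib
import Fermat.Prelude.Def_ModularCurve_X0ModL

/-!
# Integral Laurent series and their reduction

The ring of series with coefficients in a valuation ring, coefficientwise reduction, inversion of
series with unit leading coefficient, primitive families of polynomials and Gauss' lemma. Used by
`RED/Model/Chart` and `RED/Model/Basic`.
-/

set_option autoImplicit false

noncomputable section

open ModularCurve Polynomial

namespace Fermat.RED.Model

variable {L : Type*} [Field L] (A : ValuationSubring L)

/-- The series with all coefficients in `A`. -/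
def intSeries : Subring (LaurentSeries L) := (coeffMap (A.subtype : A →+* L)).range

/-- The coefficientwise inclusion of series over `A` is injective. -/
theorem coeffMap_subtype_injective :
    Function.Injective (coeffMap (A.subtype : A →+* L)) := fun _ _ h => by
  ext n
  have := congrArg (fun z : LaurentSeries L => z.coeff n) h
  simpa using this

/-- A series over `A` as a series with coefficients in `A`. -/
def intEquiv : LaurentSeries A ≃+* intSeries A :=
  RingEquiv.ofBijective (coeffMap (A.subtype : A →+* L)).rangeRestrict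
    ⟨fun _ _ h => coeffMap_subtype_injective A (congrArg Subtype.val h),
      RingHom.rangeRestrict_surjective _⟩

/-- `intEquiv` is the coefficientwise inclusion. -/
@[simp] theorem coe_intEquiv (y : LaurentSeries A) :
    ((intEquiv A y : intSeries A) : LaurentSeries L) = coeffMap A.subtype y := rfl

/-- The coefficients of the series over `A` are those of the series over `L`. -/
theorem coeff_intEquiv_symm (f : intSeries A) (n : ℤ) :
    (((intEquiv A).symm f).coeff n : L) = (f : LaurentSeries L).coeff n := by
  conv_rhs => rw [← (intEquiv A).apply_symm_apply f]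
  rfl

variable {A}

/-- A series is integral iff all its coefficients lie in `A`. -/
theorem mem_intSeries_iff {f : LaurentSeries L} :
    f ∈ intSeries A ↔ ∀ n, f.coeff n ∈ A := by
  refine ⟨fun ⟨y, hy⟩ n => ?_, fun h => ?_⟩
  · rw [← hy, coeffMap_coeff]
    exact (y.coeff n).2
  · refine ⟨⟨fun n => ⟨f.coeff n, h n⟩, f.isPWO_support.mono fun n hn => ?_⟩, ?_⟩
    · simp only [Function.mem_support, ne_eq] at hn ⊢
      exact fun h0 => hn (Subtype.ext h0)
    · ext n; rfl

/-- Roots of unity are integral. -/
theorem mem_of_pow_eq_one {z : L} {n : ℕ} (hn : n ≠ 0) (hz : z ^ n = 1) : z ∈ A :=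
  (A.valuation_le_one_iff z).mp <| (pow_le_one_iff hn).mp <| by
    rw [← map_pow, hz, map_one]

/-- Constants in `A` are integral series. -/
theorem algebraMap_mem_intSeries {c : L} (hc : c ∈ A) :
    algebraMap L (LaurentSeries L) c ∈ intSeries A :=
  ⟨HahnSeries.single 0 (⟨c, hc⟩ : A), by
    rw [coeffMap_single, algebraMap_laurentSeries_eq_single]; rfl⟩

/-- `q ↦ q ^ n` keeps integrality. -/
theorem qExpand_mem_intSeries (n : ℕ) [NeZero n] {f : LaurentSeries L} (h : f ∈ intSeries A) :
    qExpand L n f ∈ intSeries A := by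
  rw [mem_intSeries_iff] at h ⊢
  intro m
  by_cases hd : (n : ℤ) ∣ m
  · obtain ⟨i, rfl⟩ := hd
    rw [qExpand_coeff_mul]; exact h i
  · rw [qExpand_coeff_of_not_dvd n _ hd]; exact zero_mem A

variable {k : Type*} [Field k] (π : A →+* k)

/-- Coefficientwise reduction. -/
def redHom : intSeries A →+* LaurentSeries k := (coeffMap π).comp (intEquiv A).symm.toRingHom

/-- The coefficients of the reduction are the reduced coefficients. -/
theorem redHom_coeff (f : intSeries A) (n : ℤ) :
    (redHom π f).coeff n = π ⟨(f : LaurentSeries L).coeff n, mem_intSeries_iff.mp f.2 n⟩ := by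
  have : ((intEquiv A).symm f).coeff n
      = (⟨(f : LaurentSeries L).coeff n, mem_intSeries_iff.mp f.2 n⟩ : A) :=
    Subtype.ext (coeff_intEquiv_symm A f n)
  rw [← this]
  rfl

/-- Reduction of a series defined over `A` is `coeffMap π`. -/
theorem redHom_coeffMap (y : LaurentSeries A) (h : coeffMap A.subtype y ∈ intSeries A) :
    redHom π ⟨coeffMap A.subtype y, h⟩ = coeffMap π y := by
  have : (⟨coeffMap A.subtype y, h⟩ : intSeries A) = intEquiv A y := rfl
  rw [this]
  simp [redHom]

/-- A constant series reduces to the constant series of the reduction. -/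
theorem redHom_algebraMap {c : L} (hc : c ∈ A) :
    redHom π ⟨_, algebraMap_mem_intSeries hc⟩ = algebraMap k (LaurentSeries k) (π ⟨c, hc⟩) := by
  ext n
  rw [redHom_coeff]
  rcases eq_or_ne n 0 with rfl | hn
  · simp only [algebraMap_laurentSeries_eq_single, HahnSeries.coeff_single_same]
  · simp only [algebraMap_laurentSeries_eq_single, HahnSeries.coeff_single_of_ne hn]
    exact map_zero π

variable {π}

/-- An element with nonzero image is a unit. -/
theorem isUnit_of_map_ne_zero (hπ : Function.Surjective π) {a : A} (h : π a ≠ 0) : IsUnit a := by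
  rw [← IsLocalRing.notMem_maximalIdeal, ← IsLocalRing.ker_eq_maximalIdeal π hπ]
  exact h

/-- The inverse of an element with nonzero image lies in `A`. -/
theorem inv_mem_of_map_ne_zero (hπ : Function.Surjective π) {a : A} (h : π a ≠ 0) :
    ((a : L))⁻¹ ∈ A := by
  obtain ⟨b, hb⟩ := (isUnit_of_map_ne_zero hπ h).exists_right_inv
  have h' : (a : L) * (b : L) = 1 := by exact_mod_cast congrArg Subtype.val hb
  rw [inv_eq_of_mul_eq_one_right h']
  exact b.2

/-- An element with inverse outside `A` has image zero. -/
theorem map_eq_zero_of_inv_notMem (hπ : Function.Surjective π) {a : A} (h : ((a : L))⁻¹ ∉ A) :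
    π a = 0 := not_not.mp fun h0 => h (inv_mem_of_map_ne_zero hπ h0)

/-- A series whose lowest coefficient is a unit is invertible among the integral series. -/
theorem inv_mem_intSeries (hπ : Function.Surjective π) {f : LaurentSeries L}
    (hf : f ∈ intSeries A) (h : π ⟨f.leadingCoeff, by
      rw [HahnSeries.leadingCoeff_eq]; exact mem_intSeries_iff.mp hf _⟩ ≠ 0) :
    f⁻¹ ∈ intSeries A := by
  obtain ⟨y, rfl⟩ := hf
  have hne : y ≠ 0 := fun h0 => h (by
    simp only [h0, map_zero, HahnSeries.leadingCoeff_zero]
    exact map_zero π)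
  have hord : (coeffMap A.subtype y).order = y.order := by
    refine le_antisymm (HahnSeries.order_le_of_coeff_ne_zero ?_) ?_
    · simpa using (HahnSeries.coeff_order_eq_zero (x := y)).not.mpr hne
    · by_contra hlt
      have h0 : (coeffMap A.subtype y).coeff (coeffMap A.subtype y).order = 0 := by
        rw [coeffMap_coeff, HahnSeries.coeff_eq_zero_of_lt_order (not_le.mp hlt)]
        simp
      exact (_root_.map_ne_zero_iff _ (coeffMap_subtype_injective A)).mpr hne
        (HahnSeries.coeff_order_eq_zero.mp h0)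
  have hu : IsUnit y := by
    rw [HahnSeries.isUnit_iff]
    refine isUnit_of_map_ne_zero hπ ?_
    convert h using 2
    apply Subtype.ext
    simp [HahnSeries.leadingCoeff_eq, hord]
  obtain ⟨u, rfl⟩ := hu
  refine ⟨(u⁻¹ : (LaurentSeries A)ˣ), ?_⟩
  rw [← map_units_inv (coeffMap A.subtype) u]

section Content

/-- The family can be divided by one of its members. -/
theorem exists_div_mem {α : Type*} (s : Finset α) (c : α → L) (h : ∃ i ∈ s, c i ≠ 0) :
    ∃ a : L, a ≠ 0 ∧ (∀ i ∈ s, c i / a ∈ A) ∧ ∃ i ∈ s, c i = a := by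
  obtain ⟨i₀, hi₀, hmax⟩ := Finset.exists_max_image s (fun i => A.valuation (c i))
    (h.imp fun i hi => hi.1)
  obtain ⟨j, hj, hj0⟩ := h
  have hne : c i₀ ≠ 0 := fun h0 => hj0 (by
    have := hmax j hj
    simpa [h0] using this)
  refine ⟨c i₀, hne, fun i hi => ?_, i₀, hi₀, rfl⟩
  rw [← A.valuation_le_one_iff, map_div₀, div_le_one₀ ((Valuation.pos_iff _).mpr hne)]
  exact hmax i hi

variable (A) in
/-- A polynomial with coefficients in `A` comes from `A[X]`. -/
theorem exists_map_eq_of_coeff_mem {G : L[X]} (h : ∀ n, G.coeff n ∈ A) :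
    ∃ G' : A[X], G'.map A.subtype = G :=
  Polynomial.mem_lifts _ |>.mp ((Polynomial.lifts_iff_coeff_lifts G).mpr fun n =>
    ⟨⟨G.coeff n, h n⟩, rfl⟩)

/-- A finite family of polynomials is a scalar times a primitive family over `A`. -/
theorem exists_primitive {α : Type*} [Fintype α] (G : α → L[X]) (h : ∃ i, G i ≠ 0) :
    ∃ (a : L) (G' : α → A[X]), a ≠ 0 ∧ (∀ i, G i = Polynomial.C a * (G' i).map A.subtype) ∧
      ∃ i, (G' i).map π ≠ 0 := by
  classical
  obtain ⟨i₁, hi₁⟩ := h
  obtain ⟨n₁, hn₁⟩ := Polynomial.support_nonempty.mpr hi₁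
  obtain ⟨a, ha, hdiv, ⟨i₀, n₀⟩, hmem, ha0⟩ := exists_div_mem (A := A)
    ((Finset.univ : Finset α).sigma fun i => (G i).support) (fun p => (G p.1).coeff p.2)
    ⟨⟨i₁, n₁⟩, by simpa using hn₁, Polynomial.mem_support_iff.mp hn₁⟩
  have hmemA : ∀ i n, (Polynomial.C a⁻¹ * G i).coeff n ∈ A := fun i n => by
    rw [coeff_C_mul]
    by_cases hn : (G i).coeff n = 0
    · rw [hn, mul_zero]; exact zero_mem A
    · rw [inv_mul_eq_div]
      exact hdiv ⟨i, n⟩ (by simpa using hn)
  choose G' hG' using fun i => exists_map_eq_of_coeff_mem A (hmemA i)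
  refine ⟨a, G', ha, fun i => ?_, i₀, fun h0 => ?_⟩
  · rw [hG', ← mul_assoc, ← map_mul, mul_inv_cancel₀ ha, map_one, one_mul]
  · have h1 : ((G' i₀).coeff n₀ : L) = 1 := by
      have := congrArg (fun P => Polynomial.coeff P n₀) (hG' i₀)
      simp only [Polynomial.coeff_map, coeff_C_mul] at this
      rw [ha0, inv_mul_cancel₀ ha] at this
      exact this
    have h2 : (G' i₀).coeff n₀ = 1 := Subtype.ext h1
    have := congrArg (fun P => Polynomial.coeff P n₀) h0
    simp [h2] at this

/-- Gauss' lemma. -/
theorem C_dvd_of_dvd_mul (hπ : Function.Surjective π) {c : A} {D P : A[X]} (hD : D.map π ≠ 0)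
    (h : Polynomial.C c ∣ D * P) : Polynomial.C c ∣ P := by
  classical
  rcases eq_or_ne P 0 with rfl | hP
  · exact dvd_zero _
  obtain ⟨a, G', ha, hG, ⟨⟩, hG0⟩ := exists_primitive (π := π) (α := Unit)
    (fun _ => P.map A.subtype) ⟨(), (Polynomial.map_ne_zero_iff Subtype.val_injective).mpr hP⟩
  obtain ⟨n, hn⟩ : ∃ n, π ((G' ()).coeff n) ≠ 0 := by
    by_contra! hall
    exact hG0 (Polynomial.ext fun n => by simpa using hall n)
  have haA : a ∈ A := by
    have := congrArg (fun Q => Polynomial.coeff Q n) (hG ())
    simp only [Polynomial.coeff_map, coeff_C_mul] at this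
    have hinv := inv_mem_of_map_ne_zero hπ hn
    have e : a = (P.coeff n : L) * ((G' ()).coeff n : L)⁻¹ := by
      have hne : ((G' ()).coeff n : L) ≠ 0 := fun h0 => hn (by
        rw [show (G' ()).coeff n = 0 from Subtype.ext h0, map_zero])
      rw [eq_mul_inv_iff_mul_eq₀ hne]
      exact this.symm
    rw [e]
    exact A.mul_mem _ _ (P.coeff n).2 hinv
  have hP' : P = Polynomial.C (⟨a, haA⟩ : A) * G' () :=
    Polynomial.map_injective (A.subtype : A →+* L) Subtype.val_injective
      (by rw [Polynomial.map_mul, map_C]; exact hG ())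
  obtain ⟨m, hm⟩ : ∃ m, π ((D * G' ()).coeff m) ≠ 0 := by
    by_contra! hall
    refine mul_ne_zero hD hG0 (Polynomial.ext fun m => ?_)
    rw [← Polynomial.map_mul, Polynomial.coeff_map, hall m, Polynomial.coeff_zero]
  rw [hP', ← mul_assoc, mul_comm D, mul_assoc, Polynomial.C_dvd_iff_dvd_coeff] at h
  have h' := h m
  rw [coeff_C_mul, (isUnit_of_map_ne_zero hπ hm).dvd_mul_right] at h'
  rw [hP']
  exact Dvd.dvd.mul_right (map_dvd Polynomial.C h') _

end Content

end Fermat.RED.Model
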