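import Fermat.Agent.FF.Genus

/-!
# Traces of Weil differentials and a Riemann-Hurwitz inequality

For a separable extension of function fields, traces of repartitions give differentials bounded by
the ramification. Hence a lower bound for the genus from values with few points above them.
-/

set_option autoImplicit false

noncomputable section

open AlgebraicCurve IntermediateField Fermat.FF

namespace Fermat.RED.Model

variable {K F : Type*} [Field K] [Field F] [Algebra K F] [IsAlgClosed K] [IsFunctionField K F]

/-- For a separable extension every repartition below is a trace. -/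
theorem exists_trace_lift {E : Type*} [Field E] [Algebra K E] [IsFunctionField K E] [Algebra E F]
    [IsScalarTower K E F] [Algebra.IsIntegral E F] [FiniteDimensional E F]
    [Algebra.IsSeparable E F] (W₀ : Divisor K F) (W₁ : Divisor K E) (β : ↥(repartitions K E)) :
    ∃ (α : ↥(repartitions K F)) (y : Place K E → F),
      (∀ u, ∀ w ∈ u.fiber F, OrdGE w ((α : Place K F → F) w - y u) (-W₀ w)) ∧
      ∀ u, OrdGE u ((β : Place K E → E) u - Algebra.trace E F (y u)) (-W₁ u) := by
  classical
  obtain ⟨g, hg⟩ := Algebra.trace_surjective E F 1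
  let α₀ : Place K F → F := fun w => (β : Place K E → E) (w.restrict E) • g
  have hα₀ : α₀ ∈ repartitions K F := by
    refine mem_repartitions_of_finite_ord (Set.Finite.subset
      ((finite_setOf_ord_ne_zero (K := K) g).union
        (Set.Finite.biUnion (repartition_finite β) fun u _ => (u.fiber F).finite_toSet))
      fun w hw => ?_)
    simp only [Set.mem_union, Set.mem_iUnion, Finset.mem_coe, Place.mem_fiber, Set.mem_ofPred_eq]
    by_contra h
    simp only [not_or, not_exists, not_not] at h
    have h1 : OrdGE (w.restrict E) ((β : Place K E → E) (w.restrict E)) 0 :=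
      ordGE_iff.mpr (.inr (by
        by_contra hlt
        exact h.2 _ (show _ from by simpa using (lt_of_not_ge hlt)) rfl))
    have h2 : OrdGE w (α₀ w) 0 := by
      simp only [α₀, Algebra.smul_def]
      exact ((ordGE_algebraMap_of_restrict rfl h1).mul (ordGE_ord w g)).mono (by rw [h.1]; simp)
    simp only [Set.mem_ofPred_eq] at hw
    rcases ordGE_iff.mp h2 with h0 | h0
    · rw [h0, Place.ord_zero] at hw; omega
    · omega
  refine ⟨⟨α₀, hα₀⟩, fun u => (β : Place K E → E) u • g, fun u w hw => ?_, fun u => ?_⟩
  · change OrdGE w ((β : Place K E → E) (w.restrict E) • g - _) _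
    rw [Place.mem_fiber.mp hw, sub_self]
    exact ordGE_zero _ _
  · rw [map_smul, hg, smul_eq_mul, mul_one, sub_self]
    exact ordGE_zero _ _

/-- The trace of a Weil differential gives half of Riemann-Hurwitz for a separable function. -/
theorem degree_ramDiv_le {x : F} (hx : Transcendental K x)
    (hsep : Algebra.IsSeparable K⟮x⟯ F)
    (W₀ : Divisor K F) (hW₀ : ∀ v, W₀ v = (ramIndex x v : ℤ) - 1 - 2 * poleDiv K x v) :
    Divisor.degree W₀ ≤ 2 * (genusFF K F : ℤ) - 2 := by
  classical
  have := finiteDimensional_adjoin hx
  have := isFunctionField_adjoin hx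
  have : Algebra.IsIntegral K⟮x⟯ F := Algebra.IsIntegral.of_finite _ _
  set E := K⟮x⟯
  set t : E := AdjoinSimple.gen K x
  have htt : Transcendental K t := fun h => hx (by simpa [t] using h.algebraMap (A := F))
  have htop : K⟮t⟯ = (⊤ : IntermediateField K E) := adjoin_gen_eq_top x
  have hg : genusFF K E = 0 := genusFF_eq_zero_of_top htt htop
  set W₁ : Divisor K E := (-2 : ℤ) • poleDiv K t with hW₁
  have hW₁deg : Divisor.degree W₁ = -2 := by
    rw [hW₁, map_zsmul, degree_poleDiv htt, htop, IntermediateField.finrank_top]; norm_num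
  obtain ⟨η, hη, hη0, -⟩ := exists_weil_of_genus_zero hg W₁ hW₁deg
  have hrel := ramDiv_apply_eq hx hW₀
  obtain ⟨ω, hspec⟩ := exists_cotrace hrel hη
  have hω := cotrace_mem_weilSpace hη hspec
  have hω0 : ω ≠ 0 := fun h0 => hη0 (LinearMap.ext fun β => by
    have := hsep
    obtain ⟨α, y, hy, hβ⟩ := exists_trace_lift W₀ W₁ β
    rw [← hspec α β y hy hβ, h0]
    rfl)
  obtain ⟨W, hW, -, hle, -⟩ := exists_divisor_weil hω0 hω
  rw [← hW.1]
  exact degree_mono (hle _ hω)

/-- Riemann-Hurwitz as an inequality: `n` values with at most `c` points above them in all. -/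
theorem genus_ge_of_fibres {x : F} (hx : Transcendental K x) (hsep : Algebra.IsSeparable K⟮x⟯ F)
    (T : Finset K) (S : Finset (Place K F))
    (hS : ∀ v : Place K F, OrdGE v x 0 → evalAt v x ∈ T → v ∈ S) :
    ((T.card : ℤ) - 2) * Module.finrank K⟮x⟯ F - S.card ≤ 2 * (genusFF K F : ℤ) - 2 := by
  classical
  -- the ramification divisor
  let R : Divisor K F := Finsupp.onFinset (finite_ramified hx hsep).toFinset
    (fun v => (ramIndex x v : ℤ) - 1) fun v hv => by
      simp only [Set.Finite.mem_toFinset, Set.mem_ofPred_eq]; omega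
  have h1 := degree_ramDiv_le hx hsep (R - (2 : ℤ) • poleDiv K x) fun v => by simp [R]
  rw [map_sub, map_zsmul, degree_poleDiv hx, smul_eq_mul] at h1
  -- the fibres over `T` contribute at least `|T| n - |S|`
  have h2 : (T.card : ℤ) * Module.finrank K⟮x⟯ F - S.card ≤ Divisor.degree R := by
    have hdis : (T : Set K).PairwiseDisjoint fun a =>
        S.filter fun v => 0 < v.ord (x - algebraMap K F a) := fun a _ b _ hne =>
      Finset.disjoint_left.mpr fun v hv hv' => hne (by
        have key : ∀ a, 0 < v.ord (x - algebraMap K F a) → evalAt v x = a := fun a h =>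
          evalAt_eq ((ordGE_iff_of_ne fun h0 => by rw [h0, Place.ord_zero] at h; omega).mpr h)
        rw [← key a (Finset.mem_filter.mp hv).2, key b (Finset.mem_filter.mp hv').2])
    set U := T.biUnion fun a => S.filter fun v => 0 < v.ord (x - algebraMap K F a)
    have hU : ∑ v ∈ U, ((ramIndex x v : ℤ) - 1) ≤ Divisor.degree R := by
      rw [degree_eq_sum, Finsupp.sum]
      have hnn : ∀ v, (0 : ℤ) ≤ R v := fun v => by
        have := ramIndex_pos hx v
        simp only [R, Finsupp.onFinset_apply]; omega
      calc ∑ v ∈ U, ((ramIndex x v : ℤ) - 1) = ∑ v ∈ U, R v := by simp [R]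
        _ ≤ ∑ v ∈ U ∪ R.support, R v :=
          Finset.sum_le_sum_of_subset_of_nonneg Finset.subset_union_left fun v _ _ => hnn v
        _ = ∑ v ∈ R.support, R v :=
          (Finset.sum_subset Finset.subset_union_right fun v _ hv =>
            Finsupp.notMem_support_iff.mp hv).symm
    have hUS : U.card ≤ S.card :=
      Finset.card_le_card (Finset.biUnion_subset.mpr fun a _ => Finset.filter_subset _ _)
    have hsum : ∑ v ∈ U, (ramIndex x v : ℤ) = T.card * Module.finrank K⟮x⟯ F := by
      rw [Finset.sum_biUnion hdis, ← nsmul_eq_mul, ← Finset.sum_const]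
      refine Finset.sum_congr rfl fun a ha => ?_
      have hne : x - algebraMap K F a ≠ 0 := fun h0 =>
        hx ((sub_eq_zero.mp h0) ▸ isAlgebraic_algebraMap a)
      have hval : ∀ v : Place K F, 0 < v.ord (x - algebraMap K F a) →
          OrdGE v x 0 ∧ evalAt v x = a := fun v hv => by
        have h' : OrdGE v (x - algebraMap K F a) 1 := (ordGE_iff_of_ne hne).mpr hv
        exact ⟨by simpa using (h'.mono zero_le_one).add (ordGE_algebraMap v a), evalAt_eq h'⟩
      rw [← degree_zeroDiv_sub hx a, degree_eq_sum, Finsupp.sum]
      refine Finset.sum_congr ?_ fun v hv => ?_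
      · ext v
        rw [Finset.mem_filter, Finsupp.mem_support_iff, zeroDiv_apply]
        refine ⟨fun h => by omega, fun h => ?_⟩
        have hpos : 0 < v.ord (x - algebraMap K F a) := by omega
        exact ⟨hS v (hval v hpos).1 ((hval v hpos).2 ▸ ha), hpos⟩
      · rw [Finsupp.mem_support_iff, zeroDiv_apply] at hv
        obtain ⟨h', h''⟩ := hval v (by omega)
        rw [zeroDiv_apply, ramIndex]
        split
        · next h =>
          rw [h'', Int.toNat_of_nonneg (by omega)]
          omega
        · next h =>
          exact absurd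
            ((ordGE_iff_of_ne (fun h0 => hx (by rw [h0]; exact isAlgebraic_zero))).mp h') h
    rw [Finset.sum_sub_distrib, hsum, Finset.sum_const, nsmul_eq_mul, mul_one] at hU
    have : (U.card : ℤ) ≤ S.card := by exact_mod_cast hUS
    linarith
  linarith

end Fermat.RED.Model
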