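import Fermat.Agent.RED.Model.Special
import Fermat.Agent.FF.Kaehler

/-!
# Orders at the zeros of a coordinate through determinants

The sum of the orders of a function at the zeros of `t` is the trailing degree of a determinant,
and roots of a polynomial in the maximal ideal are counted by the trailing degree of its reduction.
-/

set_option autoImplicit false

noncomputable section

open Polynomial AlgebraicCurve IntermediateField

namespace Fermat.RED.Model

section Fibre

variable {K F : Type*} [Field K] [Field F] [Algebra K F] [IsAlgClosed K] [FF.IsFunctionField K F]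

variable (K) in
open Classical in
/-- The zeros of a function. -/
def zeroSet (t : F) : Finset (Place K F) :=
  (FF.finite_setOf_ord_ne_zero (K := K) t).toFinset.filter fun v => 0 < v.ord t

/-- `zeroSet t` is the set of zeros of `t`. -/
theorem mem_zeroSet {t : F} {v : Place K F} : v ∈ zeroSet K t ↔ 0 < v.ord t := by
  simp only [zeroSet, Finset.mem_filter, Set.Finite.mem_toFinset, Set.mem_ofPred_eq]
  exact ⟨fun h => h.2, fun h => ⟨h.ne', h⟩⟩

/-- The orders of `G` at the zeros of `t` sum to the trailing degree of a determinant less `d` times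
that of the denominator `D`. -/
theorem sum_ord_eq_trailing {t : F} (ht : Transcendental K t) {d : ℕ} {z : Fin d → F}
    (hs : ∀ f : F, ∃ D : K[X], D ≠ 0 ∧ ∃ G : Fin d → K[X],
      aeval t D * f = ∑ i, aeval t (G i) * z i)
    (hi : ∀ G : Fin d → K[X], ∑ i, aeval t (G i) * z i = 0 → G = 0)
    {G : F} (hG : G ≠ 0) {D : K[X]} (hD : D ≠ 0) {H : Matrix (Fin d) (Fin d) K[X]}
    (hH : ∀ i, aeval t D * (G * z i) = ∑ j, aeval t (H i j) * z j) :
    H.det ≠ 0 ∧ ∑ v ∈ zeroSet K t, v.ord G
      = (H.det.natTrailingDegree : ℤ) - d * D.natTrailingDegree := by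
  classical
  obtain ⟨B, hB⟩ := exists_basis_adjoin ht z hs hi
  have := FF.isFunctionField_adjoin ht
  have := FF.finiteDimensional_adjoin ht
  have : Algebra.IsIntegral K⟮t⟯ F := Algebra.IsIntegral.of_finite _ _
  set g := AdjoinSimple.gen K t
  have hgt : Transcendental K g := fun h => ht (by
    have := h.algebraMap (A := F)
    rwa [AdjoinSimple.algebraMap_gen] at this)
  have hmap : ∀ P : K[X], algebraMap K⟮t⟯ F (aeval g P) = aeval t P := fun P => by
    rw [← Polynomial.aeval_algebraMap_apply, AdjoinSimple.algebraMap_gen]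
  have hDg : aeval g D ≠ 0 := fun h => hD (transcendental_iff.mp hgt _ h)
  -- the matrix of multiplication by `G`
  have hM : Algebra.leftMulMatrix B G
      = (Matrix.of fun i j => aeval g (H i j) / aeval g D).transpose := by
    ext i j
    rw [Algebra.leftMulMatrix_eq_repr_mul]
    have e : G * B j = ∑ l, (aeval g (H j l) / aeval g D) • B l := by
      simp only [hB, Algebra.smul_def, map_div₀, hmap, div_mul_eq_mul_div, ← Finset.sum_div,
        ← hH j]
      rw [mul_div_cancel_left₀ _ fun h => hD (transcendental_iff.mp ht _ h)]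
    rw [e, map_sum, Finset.sum_apply']
    simp [B.repr_self, Finsupp.single_apply]
  -- the norm through the determinant
  have hN : Algebra.norm K⟮t⟯ G * aeval g D ^ d = aeval g H.det := by
    rw [Algebra.norm_eq_matrix_det B, hM, Matrix.det_transpose,
      show (Matrix.of fun i j => aeval g (H i j) / aeval g D)
        = (aeval g D)⁻¹ • H.map (aeval g) from by
          ext i j; simp [Matrix.map_apply, div_eq_mul_inv, mul_comm],
      Matrix.det_smul, Fintype.card_fin, AlgHom.map_det]
    rw [mul_comm ((aeval g D)⁻¹ ^ d), mul_assoc, ← mul_pow, inv_mul_cancel₀ hDg, one_pow, mul_one]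
    rfl
  have hN0 : Algebra.norm K⟮t⟯ G ≠ 0 := Algebra.norm_ne_zero_iff.mpr hG
  have hdet : H.det ≠ 0 := fun h => by
    rw [h, map_zero] at hN
    exact mul_ne_zero hN0 (pow_ne_zero d hDg) hN
  refine ⟨hdet, ?_⟩
  obtain ⟨u, hu⟩ := FF.exists_place_ord_pos hgt
  have hu1 : u.ord g = 1 := (FF.adjoin_zero_place hu hu).2
  -- the fibre over the zero of `t`
  have hfib : u.fiber F = zeroSet K t := by
    ext w
    rw [Place.mem_fiber, mem_zeroSet]
    have hw : w.ord t = w.ramificationIndex K⟮t⟯ * (w.restrict K⟮t⟯).ord g := by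
      rw [← w.ord_restrict, AdjoinSimple.algebraMap_gen]
    have he : (0 : ℤ) < w.ramificationIndex K⟮t⟯ := Int.natCast_pos.mpr w.ramificationIndex_pos
    constructor
    · intro h
      rw [hw, h, hu1, mul_one]
      exact he
    · intro h
      rw [hw] at h
      exact (FF.adjoin_zero_place (pos_of_mul_pos_right h he.le) hu).1
  -- compare orders
  rw [← hfib, ← FF.ord_norm u hG]
  have h1 := congrArg u.ord hN
  rw [u.ord_mul hN0 (pow_ne_zero d hDg), FF.ord_pow, FF.ord_aeval hu hD, FF.ord_aeval hu hdet, hu1,
    mul_one, mul_one] at h1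
  omega

end Fibre

section Roots

variable {L : Type*} [Field L] [IsAlgClosed L] {A : ValuationSubring L}
variable {k : Type*} [Field k] {π : A →+* k}

open Classical in
/-- The roots of `P` in the maximal ideal are counted by the trailing degree of the reduction. -/
theorem countP_roots_eq_natTrailingDegree (hπ : Function.Surjective π) {P : A[X]}
    (hP : P.map π ≠ 0) :
    ((P.map A.subtype).roots.countP fun b => ∃ h : b ∈ A, π ⟨b, h⟩ = 0)
      = (P.map π).natTrailingDegree := by
  classical
  set Q := P.map A.subtype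
  -- a primitive linear factor for each root
  set lin : L → A[X] := fun b =>
    if h : b ∈ A then X - Polynomial.C ⟨b, h⟩
    else 1 - Polynomial.C ⟨b⁻¹, (A.mem_or_inv_mem b).resolve_left h⟩ * X with hlin
  set sc : L → L := fun b => if b ∈ A then 1 else -b
  have hfac : ∀ b, X - Polynomial.C b = Polynomial.C (sc b) * (lin b).map A.subtype := fun b => by
    by_cases h : b ∈ A
    · simp [sc, lin, h]
    · have hb : b ≠ 0 := fun h0 => h (h0 ▸ zero_mem A)
      simp only [sc, lin, dif_neg h, if_neg h, Polynomial.map_sub, Polynomial.map_one,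
        Polynomial.map_mul, map_C, map_X, map_neg]
      rw [mul_sub, mul_one, ← mul_assoc, neg_mul (Polynomial.C b), ← map_mul]
      change _ = -Polynomial.C b - -Polynomial.C (b * b⁻¹) * X
      rw [mul_inv_cancel₀ hb, map_one]
      ring
  have hlinπ : ∀ b, (lin b).map π ≠ 0 ∧
      ((lin b).map π).natTrailingDegree = if (∃ h : b ∈ A, π ⟨b, h⟩ = 0) then 1 else 0 := by
    intro b
    by_cases h : b ∈ A
    · simp only [lin, dif_pos h, Polynomial.map_sub, map_X, map_C]
      refine ⟨X_sub_C_ne_zero _, ?_⟩
      by_cases h0 : π ⟨b, h⟩ = 0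
      · rw [if_pos ⟨h, h0⟩, h0, map_zero, sub_zero, natTrailingDegree_X]
      · rw [if_neg fun ⟨_, h'⟩ => h0 h']
        refine Nat.le_zero.mp (natTrailingDegree_le_of_ne_zero ?_)
        simpa using h0
    · have h0 : π ⟨b⁻¹, (A.mem_or_inv_mem b).resolve_left h⟩ = 0 :=
        map_eq_zero_of_inv_notMem hπ (by simpa using h)
      simp only [lin, dif_neg h, Polynomial.map_sub, Polynomial.map_one, Polynomial.map_mul, map_C,
        map_X, h0, map_zero, zero_mul, sub_zero]
      refine ⟨one_ne_zero, ?_⟩
      rw [if_neg fun ⟨h', _⟩ => h h', natTrailingDegree_one]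
  set R := ((Q.roots.map lin)).prod
  have hRπ : R.map π ≠ 0 ∧
      (R.map π).natTrailingDegree = Q.roots.countP fun b => ∃ h : b ∈ A, π ⟨b, h⟩ = 0 := by
    simp only [R]
    generalize Q.roots = s
    induction s using Multiset.induction with
    | empty => simp
    | cons b s ih =>
      rw [Multiset.map_cons, Multiset.prod_cons, Polynomial.map_mul]
      refine ⟨mul_ne_zero (hlinπ b).1 ih.1, ?_⟩
      rw [natTrailingDegree_mul (hlinπ b).1 ih.1, (hlinπ b).2, ih.2, Multiset.countP_cons, add_comm]
  set c : L := Q.leadingCoeff * (Q.roots.map sc).prod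
  have hQR : Q = Polynomial.C c * R.map A.subtype := by
    conv_lhs => rw [(IsAlgClosed.splits Q).eq_prod_roots]
    simp only [c, R, map_mul, mul_assoc]
    congr 1
    generalize Q.roots = s
    induction s using Multiset.induction with
    | empty => simp
    | cons b s ih =>
      simp only [Multiset.map_cons, Multiset.prod_cons, map_mul, Polynomial.map_mul, ih, hfac b]
      ring
  obtain ⟨m, hm⟩ : ∃ m, π (R.coeff m) ≠ 0 := by
    by_contra! hall
    exact hRπ.1 (Polynomial.ext fun m => by simpa using hall m)
  have hcm : (P.coeff m : L) = c * (R.coeff m : L) := by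
    have := congrArg (fun U => Polynomial.coeff U m) hQR
    simpa [Q, coeff_C_mul] using this
  have hRm : (R.coeff m : L) ≠ 0 := fun h => hm (by
    rw [show R.coeff m = 0 from Subtype.ext h, map_zero])
  have hcA : c ∈ A := by
    have e : c = (P.coeff m : L) * (R.coeff m : L)⁻¹ := by
      rw [hcm, mul_assoc, mul_inv_cancel₀ hRm, mul_one]
    rw [e]
    exact A.mul_mem _ _ (P.coeff m).2 (inv_mem_of_map_ne_zero hπ hm)
  have hPR : P = Polynomial.C (⟨c, hcA⟩ : A) * R :=
    Polynomial.map_injective (A.subtype : A →+* L) Subtype.val_injective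
      (by rw [Polynomial.map_mul, map_C]; exact hQR)
  rw [hPR, Polynomial.map_mul, map_C] at hP ⊢
  rw [natTrailingDegree_mul (left_ne_zero_of_mul hP) hRπ.1, natTrailingDegree_C, zero_add, hRπ.2]

end Roots

end Fermat.RED.Model
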