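import Fermat.Agent.RED.Model.Separating
import Fermat.Agent.RED.Model.Norm

/-!
# Reduction of places on a chart

On a normal chart every point with integral coordinate reduces to a unique place of the special
fibre, and the orders of a primitive function above a place add up to the order of its reduction.
-/

set_option autoImplicit false

attribute [local instance 10000] SubalgebraClass.toAlgebra HahnSeries.powerSeriesAlgebra

noncomputable section

open Polynomial AlgebraicCurve

namespace Fermat.RED.Model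

section Eval

variable {K F : Type*} [Field K] [Field F] [Algebra K F] [IsAlgClosed K] [FF.IsFunctionField K F]

/-- The value of `0` is `0`. -/
theorem evalAt_zero (v : Place K F) : FF.evalAt v (0 : F) = 0 := by
  simpa using FF.evalAt_algebraMap v (0 : K)

/-- Regularity and value of `f + c (y - a) ^ n` at a point where `f` and `y` are regular. -/
theorem evalAt_affine {v : Place K F} {f y : F} (hf : FF.OrdGE v f 0) (hy : FF.OrdGE v y 0)
    (c a : K) (n : ℕ) :
    FF.OrdGE v (f + algebraMap K F c * (y - algebraMap K F a) ^ n) 0 ∧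
    FF.evalAt v (f + algebraMap K F c * (y - algebraMap K F a) ^ n)
      = FF.evalAt v f + c * (FF.evalAt v y - a) ^ n := by
  have h1 : FF.OrdGE v (y - algebraMap K F a) 0 := hy.sub (FF.ordGE_algebraMap v a)
  have h2 : FF.OrdGE v ((y - algebraMap K F a) ^ n) 0 := (h1.pow n).mono (by simp)
  have h3 : FF.OrdGE v (algebraMap K F c * (y - algebraMap K F a) ^ n) 0 :=
    ((FF.ordGE_algebraMap v c).mul h2).mono (by simp)
  refine ⟨hf.add h3, ?_⟩
  rw [FF.evalAt_add hf h3, FF.evalAt_mul (FF.ordGE_algebraMap v c) h2, FF.evalAt_pow h1,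
    FF.evalAt_sub hy (FF.ordGE_algebraMap v a), FF.evalAt_algebraMap, FF.evalAt_algebraMap]

/-- The zeros of `t - b` are the points where `t` has value `b`. -/
theorem pos_ord_sub_iff {t : F} (ht : Transcendental K t) {v : Place K F} {b : K} :
    0 < v.ord (t - algebraMap K F b) ↔ FF.OrdGE v t 0 ∧ FF.evalAt v t = b := by
  have hne : t - algebraMap K F b ≠ 0 := fun h =>
    ht (by rw [sub_eq_zero.mp h]; exact isAlgebraic_algebraMap b)
  constructor
  · intro h
    have h1 : FF.OrdGE v (t - algebraMap K F b) 1 := (FF.ordGE_iff_of_ne hne).mpr (by omega)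
    exact ⟨by simpa using (h1.mono zero_le_one).add (FF.ordGE_algebraMap v b), FF.evalAt_eq h1⟩
  · rintro ⟨h, rfl⟩
    have := (FF.evalAt_spec h).le_ord hne
    omega

/-- An integral function vanishing at `Q` and equal to one at the other points over its image. -/
theorem exists_indicator_over {y : F} (hy : Transcendental K y) {Q : Place K F}
    (hQ : FF.OrdGE Q y 0) :
    ∃ f ∈ FF.intClosure K y, FF.evalAt Q f = 0 ∧ ∀ v : Place K F, FF.OrdGE v y 0 →
      FF.evalAt v y = FF.evalAt Q y → v ≠ Q → FF.evalAt v f = 1 := by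
  classical
  obtain ⟨T, hT⟩ : ∃ T : Finset (Place K F),
      ∀ v, v ∈ T ↔ v ≠ Q ∧ FF.OrdGE v y 0 ∧ FF.evalAt v y = FF.evalAt Q y :=
    ⟨((FF.finite_setOf_value hy (FF.evalAt Q y)).toFinset).erase Q, fun v => by
      simp only [Finset.mem_erase, Set.Finite.mem_toFinset, Set.mem_ofPred_eq]⟩
  choose r hr hr1 hr0 using fun v : T => FF.exists_separating_integral hy (v := Q)
    (w := (v : Place K F)) hQ ((hT v).mp v.2).2.1 (fun e => ((hT v).mp v.2).1 e.symm)
  have hev : ∀ u : Place K F, FF.OrdGE u y 0 →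
      FF.evalAt u (1 - ∏ v : T, r v) = 1 - ∏ v : T, FF.evalAt u (r v) := fun u hu => by
    obtain ⟨h1, h2⟩ := FF.evalAt_prod (v := u) Finset.univ r
      fun v _ => FF.mem_intClosure_iff.mp (hr v) u hu
    rw [FF.evalAt_sub (FF.ordGE_one u) h1, h2, FF.evalAt_one]
  refine ⟨1 - ∏ v : T, r v, sub_mem (one_mem _) (prod_mem fun v _ => hr v), ?_,
    fun v hv e hne => ?_⟩
  · rw [hev Q hQ, Finset.prod_eq_one fun v _ => hr1 v, sub_self]
  · rw [hev v hv, Finset.prod_eq_zero (Finset.mem_univ (⟨v, (hT v).mpr ⟨hne, hv, e⟩⟩ : T))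
      (hr0 ⟨v, (hT v).mpr ⟨hne, hv, e⟩⟩), sub_zero]

/-- With a general constant, only `Q` counts among the zeros of the affine coordinate. -/
theorem sum_zeroSet_affine {y t f G : F} {Q : Place K F}
    (ht : Transcendental K t) (hf : f ∈ FF.intClosure K y) (hQ : FF.OrdGE Q y 0)
    (hfQ : FF.evalAt Q f = 0)
    (hfT : ∀ v : Place K F, FF.OrdGE v y 0 → FF.evalAt v y = FF.evalAt Q y → v ≠ Q →
      FF.evalAt v f = 1)
    {c : K} {n : ℕ} (hn : n ≠ 0)
    (he : t = f + algebraMap K F c * (y - algebraMap K F (FF.evalAt Q y)) ^ n)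
    (hyt : y ∈ FF.intClosure K t)
    (hc : ∀ v : Place K F, v.ord G ≠ 0 → FF.evalAt v y ≠ FF.evalAt Q y →
      c ≠ -FF.evalAt v f / (FF.evalAt v y - FF.evalAt Q y) ^ n) :
    ∑ v ∈ zeroSet K t, v.ord G = Q.ord G := by
  classical
  have hev : ∀ v : Place K F, FF.OrdGE v y 0 → FF.OrdGE v t 0 ∧
      FF.evalAt v t = FF.evalAt v f + c * (FF.evalAt v y - FF.evalAt Q y) ^ n := fun v hv => by
    rw [he]
    exact evalAt_affine (FF.mem_intClosure_iff.mp hf v hv) hv _ _ _
  have hzero : ∀ v : Place K F, v ∈ zeroSet K t ↔ FF.OrdGE v t 0 ∧ FF.evalAt v t = 0 := fun v => by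
    rw [mem_zeroSet, ← pos_ord_sub_iff ht, map_zero, sub_zero]
  refine Finset.sum_eq_single Q (fun v hv hvQ => ?_) (fun hQ' => ?_)
  · obtain ⟨hv1, hv2⟩ := (hzero v).mp hv
    have hvy := FF.mem_intClosure_iff.mp hyt v hv1
    rw [(hev v hvy).2] at hv2
    by_contra hord
    by_cases hvx : FF.evalAt v y = FF.evalAt Q y
    · rw [hfT v hvy hvx hvQ, hvx, sub_self, zero_pow hn, mul_zero, add_zero] at hv2
      exact one_ne_zero hv2
    · refine hc v hord hvx ?_
      rw [eq_div_iff (pow_ne_zero n (sub_ne_zero.mpr hvx))]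
      linear_combination hv2
  · refine absurd ((hzero Q).mpr ⟨(hev Q hQ).1, ?_⟩) hQ'
    rw [(hev Q hQ).2, hfQ, sub_self, zero_pow hn, mul_zero, add_zero]

end Eval

section Counting

open Classical in
/-- Counts over a set exhausting the elements with a property add up to `countP`. -/
theorem sum_count_filter {L : Type*} (m : Multiset L) (p : L → Prop) (B : Finset L)
    (h1 : ∀ b ∈ B, p b) (h2 : ∀ b ∈ m, p b → b ∈ B) :
    ∑ b ∈ B, m.count b = m.countP p := by
  rw [Multiset.countP_eq_card_filter, ← Multiset.sum_count_eq_card (s := B) fun b hb => ?_]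
  · exact Finset.sum_congr rfl fun b hb => (Multiset.count_filter_of_pos (h1 b hb)).symm
  · exact h2 b (Multiset.mem_of_mem_filter hb) (Multiset.mem_filter.mp hb).2

end Counting

variable {L : Type*} [Field L] {A : ValuationSubring L}
variable {k : Type*} [Field k] {π : A →+* k}
variable {F : Type*} [Field F] [Algebra L F] {ι : F →+* LaurentSeries L}
variable {x : F} {d : ℕ}
variable [IsAlgClosed L] [IsAlgClosed k]
variable [FF.IsFunctionField L F] [FF.IsFunctionField k (specField π ι)]

variable (π) in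
/-- A scalar in the maximal ideal. -/
def Small (b : L) : Prop := ∃ h : b ∈ A, π ⟨b, h⟩ = 0

omit [FF.IsFunctionField k (specField π ι)] [IsAlgClosed k] in
/-- The value of an element of a chart at a point with integral coordinate is integral. -/
theorem evalAt_mem {t g : F} (hg : g ∈ chart A t) {P : Place L F} (ht : FF.OrdGE P t 0)
    (hb : FF.evalAt P t ∈ A) : FF.OrdGE P g 0 ∧ FF.evalAt P g ∈ A := by
  obtain ⟨q, hq, hqg⟩ := id hg
  obtain ⟨φ, hφ⟩ := FF.IsLocalFamily.exists_evalHom (K := L) P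
  -- integrality at the place
  have hax : ∀ D : A[X], FF.OrdGE P (ax A t D) 0 := fun D => by
    rw [ax_eq]; exact FF.ordGE_aeval ht _
  have hgv : g ∈ P.toValuationSubring := by
    have hint : IsIntegral P.toValuationSubring g := by
      refine ⟨q.map ((ax A t).codRestrict P.toValuationSubring.toSubring
        fun D => (FF.mem_iff_ordGE P).mpr (hax D)), hq.map _, ?_⟩
      rw [eval₂_map]
      exact hqg
    obtain ⟨y, hy⟩ := IsIntegrallyClosed.isIntegral_iff.mp hint
    exact hy ▸ y.2
  refine ⟨(FF.mem_iff_ordGE P).mp hgv, ?_⟩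
  set ev : A[X] →+* A := (aeval (⟨FF.evalAt P t, hb⟩ : A)).toRingHom
  set r : A[X] →+* P.toValuationSubring :=
    (ax A t).codRestrict P.toValuationSubring.toSubring fun D => (FF.mem_iff_ordGE P).mpr (hax D)
  have hev : φ.comp r = A.subtype.comp ev := by
    refine Polynomial.ringHom_ext (fun a => ?_) ?_
    · simp only [RingHom.comp_apply, hφ]
      change FF.evalAt P (ax A t (Polynomial.C a)) = _
      simp [ev]
    · simp only [RingHom.comp_apply, hφ]
      change FF.evalAt P (ax A t X) = _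
      simp [ev]
  have hroot : eval₂ r ⟨g, hgv⟩ q = 0 := by
    refine Subtype.val_injective ?_
    change P.toValuationSubring.subtype (eval₂ r ⟨g, hgv⟩ q) = 0
    rw [hom_eval₂]
    exact hqg
  have hint : IsIntegral A (FF.evalAt P g) := by
    refine ⟨q.map ev, hq.map _, ?_⟩
    rw [eval₂_map]
    have := congrArg φ hroot
    rw [map_zero, hom_eval₂, hφ, hev] at this
    exact this
  obtain ⟨y, hy⟩ := IsIntegrallyClosed.isIntegral_iff.mp hint
  exact hy ▸ y.2

variable (A π ι) in
/-- `Q` is the reduction of `P` on the chart of `x`. -/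
structure Reduces (x : F) (P : Place L F) (Q : Place k (specField π ι)) : Prop where
  /-- `x` is regular at `P`. -/
  ord_left : FF.OrdGE P x 0
  /-- The reduction of `x` is regular at `Q`. -/
  ord_right : FF.OrdGE Q (redS π ι x) 0
  /-- Values of chart functions are integral and reduce to those of their reductions. -/
  eval : ∀ g ∈ chart A x, ∃ h : FF.evalAt P g ∈ A,
    π ⟨FF.evalAt P g, h⟩ = FF.evalAt Q (redS π ι g)

variable (A) in
/-- A point in the chart of `x`: its coordinate is integral. -/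
def InChart (x : F) (P : Place L F) : Prop := FF.OrdGE P x 0 ∧ FF.evalAt P x ∈ A

/-- A point that reduces lies in the chart. -/
theorem Reduces.inChart {P : Place L F} {Q : Place k (specField π ι)}
    (hr : Reduces A π ι x P Q) : InChart A x P :=
  ⟨hr.ord_left, (hr.eval x (self_mem_chart x)).1⟩

/-- Every point of a normal chart reduces to a place. -/
theorem exists_reduces (h : PreModel π ι x d) (hn : Normal A π ι x) {P : Place L F}
    (hP : InChart A x P) : ∃ Q, Reduces A π ι x P Q := by
  choose g hg hgz using fun z : FF.intClosure k (redS π ι x) => hn z z.2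
  have hmem : ∀ {f : F}, f ∈ chart A x → FF.OrdGE P f 0 ∧ FF.evalAt P f ∈ A :=
    fun hf => evalAt_mem hf hP.1 hP.2
  -- The residue of the value at `P` of a chart function depends only on its reduction.
  have hwd : ∀ {f f' : F} (hf : f ∈ chart A x) (hf' : f' ∈ chart A x),
      redS π ι f = redS π ι f' → π ⟨_, (hmem hf).2⟩ = π ⟨_, (hmem hf').2⟩ := by
    intro f f' hf hf' e
    obtain ⟨c, hc, u, hu, e'⟩ := h.exists_eq_smul_of_redF_eq_zero (sub_mem hf hf') (by
      have := congrArg Subtype.val (sub_eq_zero.mpr e)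
      rwa [AddSubgroupClass.coe_sub, coe_redS, coe_redS, ← redF_sub (h.int_chart f hf)
        (h.int_chart f' hf')] at this)
    have he : FF.evalAt P f - FF.evalAt P f' = c * FF.evalAt P u := by
      rw [← FF.evalAt_sub (hmem hf).1 (hmem hf').1, e',
        FF.evalAt_mul (FF.ordGE_algebraMap P _) (hmem hu).1, FF.evalAt_algebraMap]
    rw [← sub_eq_zero, ← map_sub,
      show (⟨_, (hmem hf).2⟩ - ⟨_, (hmem hf').2⟩ : A) = c * ⟨_, (hmem hu).2⟩ from Subtype.ext he,
      map_mul, hc, zero_mul]
  -- By normality this gives a character of the integral closure over the reduced chart.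
  set χ : FF.intClosure k (redS π ι x) → k := fun z => π ⟨_, (hmem (hg z)).2⟩
  have hχ : ∀ (z : FF.intClosure k (redS π ι x)) {f : F} (hf : f ∈ chart A x),
      redS π ι f = z → χ z = π ⟨_, (hmem hf).2⟩ := fun z f hf e =>
    hwd (hg z) hf ((hgz z).trans e.symm)
  let Φ : FF.intClosure k (redS π ι x) →ₐ[k] k :=
    { toFun := χ
      map_one' := by
        rw [hχ 1 (one_mem (chart A x)) (redS_one π ι), ← map_one π]
        exact congrArg π (Subtype.ext (FF.evalAt_one P))
      map_mul' := fun u v => by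
        rw [hχ (u * v) (mul_mem (hg u) (hg v)) (by
          rw [redS_mul (h.int_chart _ (hg u)) (h.int_chart _ (hg v)), hgz, hgz]; rfl), ← map_mul π]
        exact congrArg π (Subtype.ext (FF.evalAt_mul (hmem (hg u)).1 (hmem (hg v)).1))
      map_zero' := by
        rw [hχ 0 (zero_mem (chart A x)) (redS_zero π ι), ← map_zero π]
        exact congrArg π (Subtype.ext (evalAt_zero P))
      map_add' := fun u v => by
        rw [hχ (u + v) (add_mem (hg u) (hg v)) (by
          rw [redS_add (h.int_chart _ (hg u)) (h.int_chart _ (hg v)), hgz, hgz]; rfl), ← map_add π]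
        exact congrArg π (Subtype.ext (FF.evalAt_add (hmem (hg u)).1 (hmem (hg v)).1))
      commutes' := fun r => by
        obtain ⟨⟨r', hr'⟩, rfl⟩ := h.surj r
        rw [hχ _ (algebraMap_mem_chart x hr') (h.redS_algebraMap hr')]
        exact congrArg π (Subtype.ext (FF.evalAt_algebraMap P r')) }
  -- The place of this character is the reduction of `P`.
  obtain ⟨Q, ⟨hQ, hQΦ⟩, -⟩ := FF.existsUnique_place_of_algHom h.transcendental_redS Φ
  refine ⟨Q, hP.1, hQ, fun f hf => ⟨(hmem hf).2, ?_⟩⟩
  rw [show FF.evalAt Q (redS π ι f) = _ from hQΦ ⟨_, h.redS_mem_intClosure hf⟩]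
  exact (hχ ⟨_, h.redS_mem_intClosure hf⟩ hf rfl).symm

/-- On a normal chart a point reduces to at most one place. -/
theorem Reduces.unique (h : PreModel π ι x d) (hn : Normal A π ι x) {P : Place L F}
    {Q Q' : Place k (specField π ι)} (h1 : Reduces A π ι x P Q) (h2 : Reduces A π ι x P Q') :
    Q = Q' := by
  by_contra hne
  obtain ⟨r, hr, e1, e2⟩ :=
    FF.exists_separating_integral h.transcendental_redS h1.ord_right h2.ord_right hne
  obtain ⟨g, hg, rfl⟩ := hn r hr
  obtain ⟨_, e1'⟩ := h1.eval g hg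
  obtain ⟨_, e2'⟩ := h2.eval g hg
  rw [← e1', e2', e2] at e1
  exact zero_ne_one e1

omit [IsAlgClosed L] [IsAlgClosed k] [FF.IsFunctionField k (specField π ι)] in
/-- The multiplication by an element of the chart has an integral matrix with a denominator which
does not vanish downstairs. -/
private theorem exists_mulMatrix {t : F} {m : ℕ} (ht : PreModel π ι t m) {z : Fin m → F}
    (hzc : ∀ i, z i ∈ chart A t)
    (hzs : ∀ f : F, ∃ D : L[X], D ≠ 0 ∧ ∃ U : Fin m → L[X],
      aeval t D * f = ∑ i, aeval t (U i) * z i)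
    (hzi : ∀ U : Fin m → k[X],
      ∑ i, aeval (redF π ι t) (U i) * redF π ι (z i) = 0 → U = 0)
    {G : F} (hG : G ∈ chart A t) (hG0 : redS π ι G ≠ 0) :
    ∃ (D : A[X]) (H : Matrix (Fin m) (Fin m) A[X]), D.map π ≠ 0 ∧
      ∀ i, ax A t D * (G * z i) = ∑ j, ax A t (H i j) * z j := by
  classical
  have hGF : G ≠ 0 := fun h => hG0 (by rw [h, redS_zero])
  have htt := ht.transcendental
  have hm : 0 < m := by
    rw [← ht.finrank_adjoin]
    have := FF.finiteDimensional_adjoin htt
    exact Module.finrank_pos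
  have hne : ∃ i, G * z i ≠ 0 := by
    refine ⟨⟨0, hm⟩, mul_ne_zero hGF fun h0 => ?_⟩
    have := congrFun (hzi (fun i => if i = ⟨0, hm⟩ then 1 else 0) (by
      simp [apply_ite (aeval (redF π ι t)), h0])) ⟨0, hm⟩
    simp at this
  obtain ⟨D, c, Gm, hD, hc, ⟨i₀, hi₀⟩, e⟩ := ht.exists_repr hzs (fun i => G * z i) hne
  have hcA : c ∈ A := ht.mem_of_repr hzc hzi (ht.int_chart _ (mul_mem hG (hzc i₀))) hc hi₀ (e i₀)
  refine ⟨D, Matrix.of fun i j => Polynomial.C (⟨c, hcA⟩ : A) * Gm i j, hD, fun i => ?_⟩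
  rw [e i, Finset.mul_sum]
  refine Finset.sum_congr rfl fun j _ => ?_
  rw [Matrix.of_apply, map_mul, ax_C, mul_assoc]

omit [IsAlgClosed L] [FF.IsFunctionField L F] in
/-- The total order downstairs in the fibre, read from a matrix upstairs. -/
private theorem sum_ord_redS {t : F} {m : ℕ} (ht : PreModel π ι t m) {z : Fin m → F}
    (hzc : ∀ i, z i ∈ chart A t)
    (hzs : ∀ f : F, ∃ D : L[X], D ≠ 0 ∧ ∃ U : Fin m → L[X],
      aeval t D * f = ∑ i, aeval t (U i) * z i)
    (hzi : ∀ U : Fin m → k[X],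
      ∑ i, aeval (redF π ι t) (U i) * redF π ι (z i) = 0 → U = 0)
    {G : F} (hG : G ∈ chart A t) (hG0 : redS π ι G ≠ 0)
    {D : A[X]} {H : Matrix (Fin m) (Fin m) A[X]} (hD : D.map π ≠ 0)
    (eH : ∀ i, ax A t D * (G * z i) = ∑ j, ax A t (H i j) * z j) :
    H.det.map π ≠ 0 ∧ ∑ Q ∈ zeroSet k (redS π ι t), Q.ord (redS π ι G)
      = ((H.det.map π).natTrailingDegree : ℤ) - m * (D.map π).natTrailingDegree := by
  classical
  have htk := ht.transcendental_redS
  have hzbs : ∀ f : specField π ι, ∃ D : k[X], D ≠ 0 ∧ ∃ H : Fin m → k[X],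
      aeval (redS π ι t) D * f = ∑ i, aeval (redS π ι t) (H i) * redS π ι (z i) := fun f => by
    obtain ⟨D, hD, H, e⟩ := ht.exists_sum_of_mem hzc hzs hzi f.2
    refine ⟨D, hD, H, (specField π ι).val.toRingHom.injective ?_⟩
    simp only [AlgHom.toRingHom_eq_coe, RingHom.coe_coe, map_mul, map_sum,
      ← Polynomial.aeval_algHom_apply]
    exact e
  have hzbi : ∀ H : Fin m → k[X],
      ∑ i, aeval (redS π ι t) (H i) * redS π ι (z i) = 0 → H = 0 := fun H hH => hzi H (by
    have := congrArg (specField π ι).val hH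
    simp only [map_mul, map_sum, map_zero, ← Polynomial.aeval_algHom_apply] at this
    exact this)
  have eHk : ∀ i, aeval (redS π ι t) (D.map π) * (redS π ι G * redS π ι (z i))
      = ∑ j, aeval (redS π ι t) ((H i j).map π) * redS π ι (z j) := fun i => by
    have hGz : ι (G * z i) ∈ intSeries A := ht.int_chart _ (mul_mem hG (hzc i))
    have := congrArg (redS π ι) (eH i)
    rw [redS_mul (ht.int_ax D) hGz, ht.redS_ax, redS_mul (ht.int_chart _ hG)
      (ht.int_chart _ (hzc i)),
      redS_sum _ fun j _ => ht.int_chart _ (mul_mem (ax_mem_chart t _) (hzc j))] at this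
    rw [this]
    refine Finset.sum_congr rfl fun j _ => ?_
    rw [redS_mul (ht.int_ax _) (ht.int_chart _ (hzc j)), ht.redS_ax]
  obtain ⟨hdk, hsumk⟩ := sum_ord_eq_trailing htk (z := fun i => redS π ι (z i)) hzbs hzbi hG0 hD eHk
  have hdet : (Matrix.of fun i j => (H i j).map π).det = H.det.map π :=
    ((Polynomial.mapRingHom π).map_det H).symm
  change (Matrix.of fun i j => (H i j).map π).det ≠ 0 at hdk
  change _ = ((Matrix.of fun i j => (H i j).map π).det.natTrailingDegree : ℤ) - _ at hsumk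
  rw [hdet] at hdk hsumk
  exact ⟨hdk, hsumk⟩

omit [IsAlgClosed k] [FF.IsFunctionField k (specField π ι)] in
/-- The total order in a translated fibre upstairs, read from a matrix. -/
private theorem sum_ord_translate {t : F} {m : ℕ} (ht : PreModel π ι t m) {z : Fin m → F}
    (hzc : ∀ i, z i ∈ chart A t)
    (hzs : ∀ f : F, ∃ D : L[X], D ≠ 0 ∧ ∃ U : Fin m → L[X],
      aeval t D * f = ∑ i, aeval t (U i) * z i)
    (hzi : ∀ U : Fin m → k[X],
      ∑ i, aeval (redF π ι t) (U i) * redF π ι (z i) = 0 → U = 0)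
    {G : F} (hGF : G ≠ 0) {D : A[X]} {H : Matrix (Fin m) (Fin m) A[X]} (hD : D.map π ≠ 0)
    (eH : ∀ i, ax A t D * (G * z i) = ∑ j, ax A t (H i j) * z j) (b : L) :
    ∑ v ∈ zeroSet L (t - algebraMap L F b), v.ord G
      = ((H.det.map A.subtype).rootMultiplicity b : ℤ)
        - m * (D.map A.subtype).rootMultiplicity b := by
  classical
  have htt := ht.transcendental
  have htb : Transcendental L (t - algebraMap L F b) := fun h => htt (by
    simpa using h.add (isAlgebraic_algebraMap b))
  have hcomp : ∀ P : L[X],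
      aeval (t - algebraMap L F b) (P.comp (X + Polynomial.C b)) = aeval t P := fun P => by
    simp [aeval_comp]
  set Dl := D.map A.subtype
  -- the spanning and independence translate to `t - b`
  have hs : ∀ f : F, ∃ P : L[X], P ≠ 0 ∧ ∃ U : Fin m → L[X],
      aeval (t - algebraMap L F b) P * f = ∑ i, aeval (t - algebraMap L F b) (U i) * z i :=
        fun f => by
    obtain ⟨P, hP, U, e⟩ := hzs f
    exact ⟨P.comp (X + Polynomial.C b), fun h0 => hP (comp_X_add_C_eq_zero_iff.mp h0),
      fun i => (U i).comp (X + Polynomial.C b), by simpa [hcomp] using e⟩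
  have hi : ∀ U : Fin m → L[X], ∑ i, aeval (t - algebraMap L F b) (U i) * z i = 0 → U = 0 := by
    intro U hU
    obtain ⟨B0, hB0⟩ := exists_basis_adjoin htt z hzs (fun U hU => by
      by_contra hU0
      obtain ⟨a, U', ha, hU', hne⟩ := exists_primitive (π := π) U (by
        by_contra! hall
        exact hU0 (funext hall))
      refine ht.redF_sum_ne_zero hzc hzi hne ?_
      have : algebraMap L F a * ∑ j, ax A t (U' j) * z j = 0 := by
        rw [← hU, Finset.mul_sum]
        refine Finset.sum_congr rfl fun i _ => ?_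
        rw [hU' i, map_mul, aeval_C, ← ax_eq, mul_assoc]
      rw [(mul_eq_zero.mp this).resolve_left ((_root_.map_ne_zero _).mpr ha), redF_zero])
    have h0 := (poly_span_of_basis htt B0).2 (fun i => (U i).comp (X - Polynomial.C b)) (by
      simpa [hB0, aeval_comp] using hU)
    funext i
    have := congrFun h0 i
    rw [sub_eq_add_neg, ← map_neg Polynomial.C] at this
    exact comp_X_add_C_eq_zero_iff.mp this
  -- so does the matrix equation
  have eb : ∀ i, aeval (t - algebraMap L F b) (Dl.comp (X + Polynomial.C b)) * (G * z i)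
      = ∑ j, aeval (t - algebraMap L F b)
        (((H i j).map A.subtype).comp (X + Polynomial.C b)) * z j := fun i => by
    simp only [hcomp, Dl, ← ax_eq]
    exact eH i
  have hDl : Dl.comp (X + Polynomial.C b) ≠ 0 := fun h0 => hD (by
    rw [(Polynomial.map_eq_zero_iff Subtype.val_injective).mp (comp_X_add_C_eq_zero_iff.mp h0),
      Polynomial.map_zero])
  -- apply the statement at zero
  obtain ⟨-, h2⟩ := sum_ord_eq_trailing htb hs hi hGF hDl
    (H := Matrix.of fun i j => ((H i j).map A.subtype).comp (X + Polynomial.C b)) eb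
  rw [h2, rootMultiplicity_eq_natTrailingDegree, rootMultiplicity_eq_natTrailingDegree]
  congr 3
  exact (((compRingHom (X + Polynomial.C b)).comp (mapRingHom A.subtype)).map_det H).symm

/-- In the fibre of a coordinate, orders are preserved in total. -/
theorem sum_ord_small {t : F} {m : ℕ} (ht : PreModel π ι t m) {G : F} (hG : G ∈ chart A t)
    (hG0 : redS π ι G ≠ 0) (S : Finset (Place L F))
    (hS : ∀ P, P ∈ S ↔ P.ord G ≠ 0 ∧ FF.OrdGE P t 0 ∧ Small π (FF.evalAt P t)) :
    ∑ P ∈ S, P.ord G = ∑ Q ∈ zeroSet k (redS π ι t), Q.ord (redS π ι G) := by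
  classical
  obtain ⟨z, hzc, hzs, hzi⟩ := ht.basis
  have hGF : G ≠ 0 := fun h => hG0 (by rw [h, redS_zero])
  have htt := ht.transcendental
  obtain ⟨D, H, hD, eH⟩ := exists_mulMatrix ht hzc hzs hzi hG hG0
  obtain ⟨hdk, hsumk⟩ := sum_ord_redS ht hzc hzs hzi hG hG0 hD eH
  rw [hsumk]
  set Dl := D.map A.subtype
  set Hl := H.det.map A.subtype
  -- the finitely many small values
  set B : Finset L := ((Hl.roots.toFinset ∪ Dl.roots.toFinset) ∪
      ((FF.finite_setOf_ord_ne_zero (K := L) G).toFinset.image fun P => FF.evalAt P t)).filter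
    (Small π) with hB
  have hBsmall : ∀ b ∈ B, Small π b := fun b hb => (Finset.mem_filter.mp hb).2
  have hdisj : (B : Set L).PairwiseDisjoint fun b => zeroSet L (t - algebraMap L F b) :=
    fun b _ b' _ hne => Finset.disjoint_left.mpr fun v hv hv' => hne (by
      rw [← ((pos_ord_sub_iff htt).mp (mem_zeroSet.mp hv)).2,
        ((pos_ord_sub_iff htt).mp (mem_zeroSet.mp hv')).2])
  have hSB : S = (B.biUnion fun b => zeroSet L (t - algebraMap L F b)).filter (·.ord G ≠ 0) := by
    ext P
    simp only [hS, Finset.mem_filter, Finset.mem_biUnion, mem_zeroSet, pos_ord_sub_iff htt]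
    constructor
    · rintro ⟨h0, h1, h2⟩
      refine ⟨⟨_, ?_, h1, rfl⟩, h0⟩
      exact Finset.mem_filter.mpr ⟨Finset.mem_union_right _ (Finset.mem_image_of_mem _
        ((FF.finite_setOf_ord_ne_zero (K := L) G).mem_toFinset.mpr h0)), h2⟩
    · rintro ⟨⟨b, hb, h1, h2⟩, h0⟩
      exact ⟨h0, h1, h2 ▸ hBsmall b hb⟩
  rw [hSB, Finset.sum_filter_ne_zero, Finset.sum_biUnion hdisj, Finset.sum_congr rfl fun b _ =>
    sum_ord_translate ht hzc hzs hzi hGF hD eH b, Finset.sum_sub_distrib, ← Finset.mul_sum]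
  have hcount : ∀ P : A[X], P.map π ≠ 0 → (∀ b ∈ (P.map A.subtype).roots, Small π b → b ∈ B) →
      ∑ b ∈ B, ((P.map A.subtype).rootMultiplicity b : ℤ) = ((P.map π).natTrailingDegree : ℤ) := by
    intro P hP hmem
    rw [← Nat.cast_sum]
    simp only [← count_roots]
    rw [sum_count_filter _ (Small π) B hBsmall hmem]
    congr 1
    convert countP_roots_eq_natTrailingDegree ht.surj hP using 2; exact Iff.rfl
  rw [hcount H.det hdk fun b hb hs => Finset.mem_filter.mpr
      ⟨Finset.mem_union_left _ (Finset.mem_union_left _ (Multiset.mem_toFinset.mpr hb)), hs⟩,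
    hcount D hD fun b hb hs => Finset.mem_filter.mpr
      ⟨Finset.mem_union_left _ (Finset.mem_union_right _ (Multiset.mem_toFinset.mpr hb)), hs⟩]

/-- `Q` is recognised among the places over its image by an indicator function. -/
theorem reduces_of_small (h : PreModel π ι x d) (hn : Normal A π ι x) {f : F} (hf : f ∈ chart A x)
    {Q : Place k (specField π ι)}
    (hfT : ∀ v : Place k (specField π ι), FF.OrdGE v (redS π ι x) 0 →
      FF.evalAt v (redS π ι x) = FF.evalAt Q (redS π ι x) → v ≠ Q →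
      FF.evalAt v (redS π ι f) = 1)
    {P : Place L F} (hx1 : FF.OrdGE P x 0) (hx2 : FF.evalAt P x ∈ A) (hf2 : FF.evalAt P f ∈ A)
    (hx0 : π ⟨_, hx2⟩ = FF.evalAt Q (redS π ι x)) (hf0 : π ⟨_, hf2⟩ = 0) :
    Reduces A π ι x P Q := by
  obtain ⟨Q', hQ'⟩ := exists_reduces h hn ⟨hx1, hx2⟩
  suffices Q' = Q from this ▸ hQ'
  by_contra hne
  obtain ⟨_, ef⟩ := hQ'.eval f hf
  obtain ⟨_, ex⟩ := hQ'.eval x (self_mem_chart x)
  rw [hf0, hfT Q' hQ'.ord_right (ex.symm.trans hx0) hne] at ef
  exact zero_ne_one ef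

namespace GoodModel

/-- Orders are preserved in total above each place of the chart. -/
theorem sum_ord_eq (h : GoodModel π ι x d) (hn : Normal A π ι x) {G : F} (hG : G ∈ chart A x)
    (hG0 : redS π ι G ≠ 0) {Q : Place k (specField π ι)} (hQ : FF.OrdGE Q (redS π ι x) 0)
    (S : Finset (Place L F)) (hS : ∀ P, P ∈ S ↔ P.ord G ≠ 0 ∧ Reduces A π ι x P Q) :
    ∑ P ∈ S, P.ord G = Q.ord (redS π ι G) := by
  classical
  have hy := h.transcendental_redS
  -- an indicator `f` of `Q` among the points over its value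
  obtain ⟨fb, hfb, hfQ, hfT⟩ := exists_indicator_over hy hQ
  obtain ⟨f, hf, rfl⟩ := hn fb hfb
  obtain ⟨a, ha⟩ := h.surj (FF.evalAt Q (redS π ι x))
  obtain ⟨n₀, hn₀⟩ := h.preModel_add_pow hf
  set n := n₀ + 1
  set x0 := FF.evalAt Q (redS π ι x)
  -- finitely many bad constants
  set bad : Finset k := insert 0
    (((FF.finite_setOf_ord_ne_zero (K := k) (redS π ι G)).toFinset.image fun v =>
        -FF.evalAt v (redS π ι f) / (FF.evalAt v (redS π ι x) - x0) ^ n) ∪
      (FF.finite_setOf_ord_ne_zero (K := L) G).toFinset.image fun P =>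
        if h' : FF.evalAt P f ∈ A ∧ FF.evalAt P x ∈ A
        then -π ⟨_, h'.1⟩ / (π ⟨_, h'.2⟩ - x0) ^ n else 0)
  obtain ⟨cb, hcb⟩ := Infinite.exists_notMem_finset bad
  obtain ⟨c, rfl⟩ := h.surj cb
  have hc0 : π c ≠ 0 := fun e => hcb (e ▸ Finset.mem_insert_self _ _)
  obtain ⟨hchart, ht, hred⟩ := hn₀ n (Nat.le_succ _) (Nat.succ_pos _) c hc0 a
  -- translate to the affine parameter `t`
  set t := f + algebraMap L F c * (x - algebraMap L F a) ^ n
  rw [ha] at hred
  have hxt : x ∈ chart A t := hchart.symm ▸ self_mem_chart x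
  have htx : t ∈ chart A x := hchart ▸ self_mem_chart t
  rw [← sum_zeroSet_affine ht.transcendental_redS hfb hQ hfQ hfT (Nat.succ_ne_zero n₀) hred
    (ht.redS_mem_intClosure hxt) (fun v hord _ e => hcb (e ▸ Finset.mem_insert_of_mem
      (Finset.mem_union_left _ (Finset.mem_image_of_mem
        (fun v => -FF.evalAt v (redS π ι f) / (FF.evalAt v (redS π ι x) - x0) ^ n)
        ((FF.finite_setOf_ord_ne_zero (K := k) (redS π ι G)).mem_toFinset.mpr hord)))))]
  -- compare the two sides through `t`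
  refine sum_ord_small ht (hchart.symm ▸ hG) hG0 S fun P => ?_
  rw [hS]
  refine and_congr_right fun hord => ⟨fun hr => ?_, fun ⟨h1, h2, h2'⟩ => ?_⟩
  · obtain ⟨h3, h4⟩ := hr.eval t htx
    refine ⟨(evalAt_mem htx hr.ord_left hr.inChart.2).1, h3, h4.trans ?_⟩
    rw [hred, (evalAt_affine (FF.mem_intClosure_iff.mp hfb Q hQ) hQ _ _ _).2, hfQ, sub_self,
      zero_pow (Nat.succ_ne_zero n₀), mul_zero, add_zero]
  · obtain ⟨hxo, hxA⟩ := evalAt_mem hxt h1 h2
    obtain ⟨hfo, hfA⟩ := evalAt_mem hf hxo hxA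
    have et : (⟨_, h2⟩ : A) = ⟨_, hfA⟩ + c * (⟨_, hxA⟩ - a) ^ n := Subtype.ext (by
      simpa [t] using (evalAt_affine hfo hxo (c : L) (a : L) n).2)
    rw [et, map_add, map_mul, map_pow, map_sub, ha] at h2'
    have hx0 : π ⟨_, hxA⟩ = x0 := by
      by_contra hne
      refine hcb (Finset.mem_insert_of_mem (Finset.mem_union_right _ (Finset.mem_image.mpr
        ⟨P, (FF.finite_setOf_ord_ne_zero (K := L) G).mem_toFinset.mpr hord, ?_⟩)))
      rw [dif_pos ⟨hfA, hxA⟩, div_eq_iff (pow_ne_zero n (sub_ne_zero.mpr hne))]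
      linear_combination -h2'
    rw [hx0, sub_self, zero_pow (Nat.succ_ne_zero n₀), mul_zero, add_zero] at h2'
    exact reduces_of_small h.toPreModel hn hf hfT hxo hxA hfA hx0 h2'

end GoodModel

end Fermat.RED.Model
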