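import Fermat.Agent.RED.Model.Cusps
import Fermat.Agent.RED.Model.Hurwitz
import Fermat.Agent.RED.Model.Place

/-!
# A lower bound for the genus of level `M` in any characteristic

The field of level `M` is separable over `k(j)`, and a sublevel of genus zero with enough cusps
(`4` or `9`) bounds its genus from below by `1 + ψ/12 - c/2`, `c` the number of cusps.
-/

set_option autoImplicit false

noncomputable section

open ModularCurve Polynomial IntermediateField AlgebraicCurve

namespace Fermat.RED.Cusps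

open Fermat.RED.Model

section Tower

variable {K F F' : Type*} [Field K] [Field F] [Field F'] [Algebra K F] [Algebra K F']
  [Algebra F F'] [IsScalarTower K F F']

/-- Separability over `K(y)` gives separability over its image. -/
theorem isSeparable_adjoin_map {y : F} (h : Algebra.IsSeparable K⟮y⟯ F') :
    Algebra.IsSeparable K⟮algebraMap F F' y⟯ F' := by
  let φ := IsScalarTower.toAlgHom K F F'
  have he : K⟮y⟯.map φ = K⟮algebraMap F F' y⟯ := by
    rw [adjoin_map, Set.image_singleton]; rfl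
  let e : K⟮y⟯ ≃ₐ[K] K⟮algebraMap F F' y⟯ :=
    (K⟮y⟯.equivMap φ).trans (IntermediateField.equivOfEq he)
  exact Algebra.IsSeparable.of_equiv_equiv e.toRingEquiv (RingEquiv.refl F')
    (RingHom.ext fun c => rfl)

/-- Separability over the image of `K(y)` gives separability over `K(y)`. -/
theorem isSeparable_of_adjoin_map {y : F} (h : Algebra.IsSeparable K⟮algebraMap F F' y⟯ F') :
    Algebra.IsSeparable K⟮y⟯ F' := by
  let φ := IsScalarTower.toAlgHom K F F'
  have he : K⟮y⟯.map φ = K⟮algebraMap F F' y⟯ := by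
    rw [adjoin_map, Set.image_singleton]; rfl
  let e : K⟮y⟯ ≃ₐ[K] K⟮algebraMap F F' y⟯ :=
    (K⟮y⟯.equivMap φ).trans (IntermediateField.equivOfEq he)
  exact Algebra.IsSeparable.of_equiv_equiv e.symm.toRingEquiv (RingEquiv.refl F')
      (RingHom.ext fun c => by
    have : algebraMap K⟮y⟯ F' (e.symm c) = algebraMap K⟮algebraMap F F' y⟯ F' (e (e.symm c)) := rfl
    rw [e.apply_symm_apply] at this
    simpa using this)

/-- Separability over `K(x)` inside `E`, read off from the same two fields inside `L`. -/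
theorem isSeparable_adjoin_of_restrict {L : Type*} [Field L] [Algebra K L]
    {J E : IntermediateField K L} {S : IntermediateField J L} (x : E)
    (hJ : IntermediateField.adjoin K {(x : L)} = J) (hSE : ∀ {z : L}, z ∈ S ↔ z ∈ E)
    (h : Algebra.IsSeparable J S) : Algebra.IsSeparable K⟮x⟯ E := by
  have he : K⟮x⟯.map E.val = J := by
    rw [adjoin_map, Set.image_singleton]; exact hJ
  let e : K⟮x⟯ ≃ₐ[K] J := (K⟮x⟯.equivMap _).trans (IntermediateField.equivOfEq he)
  let u : S ≃+* E :=
    { toFun := fun z => ⟨z.1, hSE.mp z.2⟩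
      invFun := fun y => ⟨y.1, hSE.mpr y.2⟩
      left_inv := fun _ => rfl
      right_inv := fun _ => rfl
      map_mul' := fun _ _ => rfl
      map_add' := fun _ _ => rfl }
  exact Algebra.IsSeparable.of_equiv_equiv e.symm.toRingEquiv u (RingHom.ext fun c =>
    Subtype.ext (by
    change ((e.symm c : K⟮x⟯) : E).1 = (c : L)
    have : ((e (e.symm c) : J) : L) = ((e.symm c : K⟮x⟯) : E).1 := rfl
    rw [e.apply_symm_apply] at this
    exact this.symm))

end Tower

variable {k : Type*} [Field k] {M : ℕ} [NeZero M]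

variable [IsAlgClosed k]

/-- The level field is separable over `k(j)`. -/
theorem isSeparable_levelField (hM : (M : k) ≠ 0) :
    Algebra.IsSeparable (jField k) (levelField k M) := by
  classical
  obtain ⟨ξ, hξ⟩ := exists_isPrimitiveRoot_unit k M hM
  have hfin : Module.Finite (jField k) (levelField k M) := FiniteDimensional.of_finrank_pos
    (finrank_levelField (k := k) M hM ▸ dedekindPsi_pos (NeZero.ne M))
  have hint : IsIntegral (jField k) (jE k M M dvd_rfl) := IsIntegral.of_finite _ _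
  set p := minpoly (jField k) (jE k M M dvd_rfl)
  have hsep : p.Separable := by
    rw [← Polynomial.card_rootSet_eq_natDegree_iff_of_splits (K := Branch k M)
      (minpoly.ne_zero hint) (IsAlgClosed.splits _)]
    have hle : Fintype.card (p.rootSet (Branch k M)) ≤ p.natDegree := by
      rw [← Set.toFinset_card, ← natDegree_map (algebraMap (jField k) (Branch k M))]
      refine (Finset.card_le_card (t := (p.map (algebraMap (jField k) (Branch k M))).roots.toFinset)
        fun r hr => ?_).trans ((Multiset.toFinset_card_le _).trans (card_roots' _))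
      rw [Set.mem_toFinset, Polynomial.rootSet_def, Finset.mem_coe] at hr
      exact hr
    refine le_antisymm hle ?_
    rw [natDegree_minpoly_jE hM, ← card_valIndex,
      ← Finset.card_image_of_injOn (f := fun i => inc k M (valAt ξ M i))
        fun i hi i' hi' e => valAt_injOn hξ hi hi' (inc_injective k M e)]
    rw [← Set.toFinset_card]
    refine Finset.card_le_card fun r hr => ?_
    obtain ⟨i, hi, rfl⟩ := Finset.mem_image.mp hr
    obtain ⟨φ, hφ⟩ := exists_algHom_valAt hξ hM hi
    rw [Set.mem_toFinset, Polynomial.mem_rootSet', ← hφ]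
    refine ⟨Polynomial.map_ne_zero (minpoly.ne_zero hint), ?_⟩
    rw [aeval_algHom_apply, minpoly.aeval, map_zero]
  -- the generator lies in the separable closure, hence so does everything
  refine ⟨fun x => mem_separableClosure_iff.mp
    (IntermediateField.adjoin_simple_le_iff.mpr (mem_separableClosure_iff.mpr hsep) ?_)⟩
  rw [adjoin_jE_eq_top hM]
  exact IntermediateField.mem_top

attribute [local instance 10000] SubalgebraClass.toAlgebra HahnSeries.powerSeriesAlgebra

/-- The field of level `M` is separable over `k(j)`. -/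
theorem isSeparable_jX (hM : (M : k) ≠ 0) :
    Algebra.IsSeparable k⟮Model.jX k M⟯ (FX k M) :=
  isSeparable_adjoin_of_restrict (Model.jX k M) rfl mem_levelField_iff
    (isSeparable_levelField (k := k) (M := M) hM)

/-- Two places at which a coordinate of degree one takes the same finite value agree. -/
private theorem eq_of_pos_ord_sub {K F : Type*} [Field K] [Field F] [Algebra K F] [IsAlgClosed K]
    [FF.IsFunctionField K F] {t : F} (htt : Transcendental K t)
    (hfin1 : Module.finrank K⟮t⟯ F = 1) {Q Q' : Place K F} {a : K}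
    (hQ : 0 < Q.ord (t - algebraMap K F a)) (hQ' : 0 < Q'.ord (t - algebraMap K F a)) : Q = Q' := by
  classical
  by_contra hne
  have hz := FF.degree_zeroDiv_sub (K := K) htt a
  rw [hfin1] at hz
  have h2 : (Finsupp.single Q (1 : ℤ) + Finsupp.single Q' 1 : Divisor K F)
      ≤ FF.zeroDiv K (t - algebraMap K F a) := Finsupp.le_def.mpr fun v => by
    rw [FF.zeroDiv_apply, Finsupp.add_apply]
    rcases eq_or_ne v Q with rfl | h1
    · rw [Finsupp.single_eq_same, Finsupp.single_eq_of_ne hne]; omega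
    rcases eq_or_ne v Q' with rfl | h2
    · rw [Finsupp.single_eq_same, Finsupp.single_eq_of_ne h1]; omega
    · rw [Finsupp.single_eq_of_ne h1, Finsupp.single_eq_of_ne h2]; omega
  have h3 := FF.degree_mono h2
  rw [map_add, Divisor.degree_single, Divisor.degree_single, FF.deg_eq_one, FF.deg_eq_one, hz] at h3
  omega

/-- A curve of genus zero has a coordinate of degree one whose only pole is a given place. -/
private theorem exists_coordinate {K F : Type*} [Field K] [Field F] [Algebra K F] [IsAlgClosed K]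
    [FF.IsFunctionField K F] (hg : genusFF K F = 0) (P₀ : Place K F) :
    ∃ t : F, Transcendental K t ∧ Module.finrank K⟮t⟯ F = 1 ∧
      ∀ v : Place K F, v ≠ P₀ → FF.OrdGE v t 0 := by
  classical
  have hdeg : Divisor.degree (Finsupp.single P₀ (1 : ℤ) : Divisor K F) = 1 := by
    rw [Divisor.degree_single, FF.deg_eq_one]; simp
  -- by Riemann-Roch a nonconstant `t` has at most a simple pole at `P₀` only
  have hell := FF.ell_of_degree_ge (D := Finsupp.single P₀ (1 : ℤ)) (by rw [hdeg, hg]; norm_num)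
  rw [hdeg, hg] at hell
  obtain ⟨t, ht, htc⟩ : ∃ t ∈ riemannRochSpace (Finsupp.single P₀ (1 : ℤ) : Divisor K F),
      t ∉ Set.range (algebraMap K F) := by
    by_contra! hall
    have hle : riemannRochSpace (Finsupp.single P₀ (1 : ℤ) : Divisor K F)
        ≤ (Algebra.linearMap K F).range := fun z hz => hall z hz
    have h1 := Submodule.finrank_mono hle
    have h2 := LinearMap.finrank_range_le (Algebra.linearMap K F)
    rw [Module.finrank_self] at h2
    change FF.ell (Finsupp.single P₀ (1 : ℤ) : Divisor K F) ≤ _ at h1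
    omega
  have htt : Transcendental K t := FF.transcendental_of_not_mem htc
  have ht0 : t ≠ 0 := fun h => htt (h ▸ isAlgebraic_zero)
  rw [FF.mem_riemannRochSpace] at ht
  -- its pole divisor has degree one, so the field is `K(t)`
  have hpd : FF.poleDiv K t ≤ Finsupp.single P₀ (1 : ℤ) := Finsupp.le_def.mpr fun v => by
    have := (ht v).le_ord ht0
    have hnn : (0 : ℤ) ≤ (Finsupp.single P₀ (1 : ℤ) : Divisor K F) v := by
      rw [Finsupp.single_apply]; split <;> norm_num
    rw [FF.poleDiv_apply]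
    omega
  have hfin1 : Module.finrank K⟮t⟯ F = 1 := by
    have h1 := FF.degree_mono hpd
    rw [FF.degree_poleDiv htt, hdeg] at h1
    have := FF.finiteDimensional_adjoin htt
    have h2 : 0 < Module.finrank K⟮t⟯ F := Module.finrank_pos
    omega
  exact ⟨t, htt, hfin1, fun v hv => by
    have := ht v
    rw [Finsupp.single_eq_of_ne hv] at this
    simpa using this⟩

/-- A tower which is separable over the `j`-line is separable over a coordinate of degree one of
the middle field. -/
private theorem isSeparable_adjoin_coordinate {K F F' : Type*} [Field K] [Field F] [Field F']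
    [Algebra K F] [Algebra K F'] [Algebra F F'] [IsScalarTower K F F'] [IsAlgClosed K]
    [FF.IsFunctionField K F] {j t : F} (hj : Algebra.IsSeparable K⟮algebraMap F F' j⟯ F')
    (htt : Transcendental K t) (hfin1 : Module.finrank K⟮t⟯ F = 1) :
    Algebra.IsSeparable K⟮algebraMap F F' t⟯ F' := by
  refine isSeparable_adjoin_map ?_
  have : Algebra.IsSeparable K⟮j⟯ F' := isSeparable_of_adjoin_map hj
  have : Algebra.IsSeparable F F' := Algebra.isSeparable_tower_top_of_isSeparable K⟮j⟯ F F'
  have := FF.finiteDimensional_adjoin htt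
  have hbij : Function.Bijective (algebraMap K⟮t⟯ F) := by
    refine ⟨(algebraMap K⟮t⟯ F).injective, fun z => ?_⟩
    obtain ⟨c, hc⟩ := (Submodule.mem_span_singleton (R := K⟮t⟯) (x := z) (y := (1 : F))).mp (by
      have h1 : Submodule.span K⟮t⟯ ({1} : Set F) = ⊤ :=
        (finrank_eq_one_iff_of_nonzero (1 : F) one_ne_zero).mp hfin1
      rw [h1]; exact Submodule.mem_top)
    exact ⟨c, by rw [← hc, Algebra.smul_def, mul_one]⟩
  exact Algebra.IsSeparable.of_equiv_equiv (RingEquiv.ofBijective _ hbij).symm (RingEquiv.refl F')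
    (RingHom.ext fun c => by
      obtain ⟨c', rfl⟩ := (RingEquiv.ofBijective _ hbij).surjective c
      change algebraMap K⟮t⟯ F' ((RingEquiv.ofBijective _ hbij).symm
        ((RingEquiv.ofBijective _ hbij) c')) = algebraMap F F' (algebraMap K⟮t⟯ F c')
      rw [RingEquiv.symm_apply_apply]
      exact IsScalarTower.algebraMap_apply K⟮t⟯ F F' c')

section GenusZero

variable {F₀ K : Type*} [Field F₀] [Field K] [Algebra k F₀] [Algebra k K] [Algebra F₀ K]
  [IsScalarTower k F₀ K] [FF.IsFunctionField k F₀] [FF.IsFunctionField k K]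

/-- A subfield of genus zero with many poles of `x₀` bounds the genus from below. -/
theorem genus_ge_of_genus_zero {x₀ : F₀} (hx₀ : Transcendental k x₀)
    (hg : genusFF k F₀ = 0) (hsepx : Algebra.IsSeparable k⟮algebraMap F₀ K x₀⟯ K)
    (P : Finset (Place k F₀)) (hP : ∀ Q ∈ P, Q.ord x₀ < 0)
    (hn : (Module.finrank k⟮x₀⟯ F₀ : ℤ) ≤ 6 * ((P.card : ℤ) - 2))
    (S : Finset (Place k K)) (hSm : ∀ v : Place k K, v.ord (algebraMap F₀ K x₀) < 0 → v ∈ S) :
    (Module.finrank k⟮algebraMap F₀ K x₀⟯ K : ℤ) - 6 * S.card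
      ≤ 6 * (2 * (genusFF k K : ℤ) - 2) := by
  classical
  have hff := FF.finite_of_tower k F₀ K
  have : Algebra.IsIntegral F₀ K := Algebra.IsIntegral.of_finite _ _
  -- a coordinate with a single pole, at a zero of `x₀`
  obtain ⟨P₀, hP₀⟩ := FF.exists_place_ord_pos (K := k) hx₀
  obtain ⟨t, htt, hfin1, hne⟩ := exists_coordinate hg P₀
  have hreg : ∀ v : Place k F₀, v.ord x₀ < 0 → FF.OrdGE v t 0 := fun v hv =>
    hne v fun h => by rw [h] at hv; omega
  set T := P.image fun Q => FF.evalAt Q t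
  have hT : T.card = P.card := Finset.card_image_of_injOn fun Q hQ Q' hQ' e => by
    exact eq_of_pos_ord_sub htt hfin1 ((pos_ord_sub_iff htt).mpr ⟨hreg Q (hP Q hQ), rfl⟩)
      ((pos_ord_sub_iff htt).mpr ⟨hreg Q' (hP Q' hQ'), e.symm⟩)
  -- the coordinate upstairs
  set t' := algebraMap F₀ K t
  have ht' : Transcendental k t' := FF.transcendental_algebraMap_fieldHom htt
  obtain ⟨-, hej⟩ := FF.tower_data (F' := K) hx₀
  obtain ⟨-, het⟩ := FF.tower_data (F' := K) htt
  rw [← Module.finrank_mul_finrank k⟮x₀⟯ F₀ K] at hej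
  rw [← Module.finrank_mul_finrank k⟮t⟯ F₀ K, hfin1, one_mul] at het
  have hsep : Algebra.IsSeparable k⟮t'⟯ K := isSeparable_adjoin_coordinate hsepx htt hfin1
  have hcount := genus_ge_of_fibres ht' hsep T S fun v hv hvT => hSm v ?_
  · rw [hT, ← het] at hcount
    have hpsi : (Module.finrank k⟮algebraMap F₀ K x₀⟯ K : ℤ) =
        Module.finrank k⟮x₀⟯ F₀ * Module.finrank F₀ K := by
      rw [← hej]; push_cast; rfl
    have hm : (0 : ℤ) ≤ Module.finrank F₀ K := Int.natCast_nonneg _
    have h1 := mul_le_mul_of_nonneg_right hn hm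
    rw [hpsi]
    linarith
  · obtain ⟨Q, hQ, hQe⟩ := Finset.mem_image.mp hvT
    have hpos : 0 < v.ord (algebraMap F₀ K (t - algebraMap k F₀ (FF.evalAt Q t))) := by
      rw [map_sub, ← IsScalarTower.algebraMap_apply]
      exact (pos_ord_sub_iff ht').mpr ⟨hv, hQe.symm⟩
    have he : (0 : ℤ) ≤ v.ramificationIndex F₀ := Int.natCast_nonneg _
    rw [v.ord_restrict (F := F₀)] at hpos
    have hvQ : v.restrict F₀ = Q := eq_of_pos_ord_sub htt hfin1 (pos_of_mul_pos_right hpos he)
      ((pos_ord_sub_iff htt).mpr ⟨hreg Q (hP Q hQ), rfl⟩)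
    rw [v.ord_restrict (F := F₀), hvQ]
    exact mul_neg_of_pos_of_neg (by exact_mod_cast v.ramificationIndex_pos) (hP Q hQ)

end GenusZero

section Bound

variable [FF.IsFunctionField k (FX k M)]

/-- A sublevel of genus zero with `n` cusps bounds the genus from below. -/
theorem genus_ge_of_sublevel {M₀ : ℕ} [NeZero M₀] (hdvd : M₀ ∣ M) (hM : (M : k) ≠ 0)
    [FF.IsFunctionField k (FX k M₀)] (hg : genusFF k (FX k M₀) = 0)
    (P : Finset (Place k (FX k M₀))) (hP : ∀ Q ∈ P, Q.ord (Model.jX k M₀) < 0)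
    (hn : (dedekindPsi M₀ : ℤ) ≤ 6 * ((P.card : ℤ) - 2)) :
    (dedekindPsi M : ℤ) - 6 * cuspCount M ≤ 6 * (2 * (genusFF k (FX k M) : ℤ) - 2) := by
  classical
  have hM₀ : (M₀ : k) ≠ 0 := natCast_ne_zero_of_dvd hdvd hM
  let : Algebra (FX k M₀) (FX k M) :=
    (IntermediateField.inclusion (full_degeneracyC_le k hdvd)).toRingHom.toAlgebra
  have : IsScalarTower k (FX k M₀) (FX k M) := IsScalarTower.of_algebraMap_eq fun _ => rfl
  have hj' : algebraMap (FX k M₀) (FX k M) (Model.jX k M₀) = Model.jX k M := rfl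
  obtain ⟨ξ, hξ⟩ := exists_isPrimitiveRoot_unit k M hM
  obtain ⟨S, hS, hSm⟩ := exists_finset_poles hξ hM
  have h := genus_ge_of_genus_zero (K := FX k M) transcendental_jX hg
    (by rw [hj']; exact isSeparable_jX hM) P hP (by rwa [finrank_jX hM₀]) S
    fun v hv => hSm v (by rwa [hj'] at hv)
  rw [hj', finrank_jX hM] at h
  linarith

end Bound

section Small

/-- Level `4` has three cusps. -/
theorem exists_three_poles [FF.IsFunctionField k (FX k 4)] (h4 : ((4 : ℕ) : k) ≠ 0) :
    ∃ P : Finset (Place k (FX k 4)), P.card = 3 ∧ ∀ Q ∈ P, Q.ord (Model.jX k 4) < 0 := by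
  classical
  obtain ⟨ξ, hξ⟩ := exists_isPrimitiveRoot_unit k 4 h4
  obtain ⟨ψ₁, h₁, e₁⟩ := exists_branch hξ h4 (i := ⟨1, 0⟩) (by decide)
  obtain ⟨ψ₂, h₂, e₂⟩ := exists_branch hξ h4 (i := ⟨2, 1⟩) (by decide)
  obtain ⟨ψ₃, h₃, e₃⟩ := exists_branch hξ h4 (i := ⟨4, 0⟩) (by decide)
  rw [valAt_eq] at e₁ e₂ e₃
  have : NeZero ((1 : ℕ) * 1) := ⟨by norm_num⟩
  have : NeZero ((2 : ℕ) * 2) := ⟨by norm_num⟩
  have : NeZero ((4 : ℕ) * 4) := ⟨by norm_num⟩
  have h12 := place_ne h₁ h₂ e₁ e₂ (by norm_num)
  have h13 := place_ne h₁ h₃ e₁ e₃ (by norm_num)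
  have h23 := place_ne h₂ h₃ e₂ e₃ (by norm_num)
  refine ⟨{h₁.place, h₂.place, h₃.place}, ?_, ?_⟩
  · simp [h12, h13, h23]
  · simp only [Finset.mem_insert, Finset.mem_singleton]
    rintro Q (rfl | rfl | rfl)
    exacts [h₁.ord_jX_neg, h₂.ord_jX_neg, h₃.ord_jX_neg]

/-- Level `9` has four cusps. -/
theorem exists_four_poles [FF.IsFunctionField k (FX k 9)] (h9 : ((9 : ℕ) : k) ≠ 0) :
    ∃ P : Finset (Place k (FX k 9)), P.card = 4 ∧ ∀ Q ∈ P, Q.ord (Model.jX k 9) < 0 := by
  classical
  obtain ⟨ξ, hξ⟩ := exists_isPrimitiveRoot_unit k 9 h9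
  obtain ⟨ψ₁, h₁, e₁⟩ := exists_branch hξ h9 (i := ⟨1, 0⟩) (by decide)
  obtain ⟨ψ₂, h₂, e₂⟩ := exists_branch hξ h9 (i := ⟨3, 1⟩) (by decide)
  obtain ⟨ψ₃, h₃, e₃⟩ := exists_branch hξ h9 (i := ⟨3, 2⟩) (by decide)
  obtain ⟨ψ₄, h₄, e₄⟩ := exists_branch hξ h9 (i := ⟨9, 0⟩) (by decide)
  rw [valAt_eq] at e₁ e₂ e₃ e₄
  have : NeZero ((1 : ℕ) * 1) := ⟨by norm_num⟩
  have : NeZero ((3 : ℕ) * 3) := ⟨by norm_num⟩
  have : NeZero ((9 : ℕ) * 9) := ⟨by norm_num⟩
  have h12 := place_ne h₁ h₂ e₁ e₂ (by norm_num)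
  have h13 := place_ne h₁ h₃ e₁ e₃ (by norm_num)
  have h14 := place_ne h₁ h₄ e₁ e₄ (by norm_num)
  have h24 := place_ne h₂ h₄ e₂ e₄ (by norm_num)
  have h34 := place_ne h₃ h₄ e₃ e₄ (by norm_num)
  have h23 : h₂.place ≠ h₃.place := by
    refine place_ne' h₂ h₃ (c := ξ ^ (3 * 1)) (c' := ξ ^ (3 * 2)) ?_ ?_ fun e => ?_
    · exact e₂
    · exact e₃
    · have := hξ.pow_inj (i := 3 * 1) (j := 3 * 2) (by norm_num) (by norm_num) e
      omega
  refine ⟨{h₁.place, h₂.place, h₃.place, h₄.place}, ?_, ?_⟩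
  · simp [h12, h13, h14, h23, h24, h34]
  · simp only [Finset.mem_insert, Finset.mem_singleton]
    rintro Q (rfl | rfl | rfl | rfl)
    exacts [h₁.ord_jX_neg, h₂.ord_jX_neg, h₃.ord_jX_neg, h₄.ord_jX_neg]

end Small

end Fermat.RED.Cusps
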