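import Fermat.Agent.FF.API
import Fermat.Agent.RED.UnitArg

/-!
# Riemann-Roch spaces of multiples of the polar divisor

Sections of `n` times the polar divisor of `y` as functions integral over `K[y]` with bounded pole
order, their degree, and a finite separating set of linear forms on a finite dimensional space.
-/

set_option autoImplicit false

noncomputable section

open AlgebraicCurve

namespace Fermat.RED.Model

/-- Finitely many functionals separate a finite dimensional space. -/
theorem exists_separating_finset {k V ι : Type*} [Field k] [AddCommGroup V] [Module k V]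
    (c : ι → V →ₗ[k] k) (hc : ∀ v, (∀ n, c n v = 0) → v = 0) (W : Submodule k V)
    [FiniteDimensional k W] :
    ∃ S : Finset ι, S.card ≤ Module.finrank k W ∧
      ∀ w ∈ W, (∀ n ∈ S, c n w = 0) → w = 0 := by
  classical
  suffices H : ∀ (r : ℕ) (U : Submodule k V), U ≤ W → Module.finrank k U = r →
      ∃ S : Finset ι, S.card ≤ r ∧ ∀ w ∈ U, (∀ n ∈ S, c n w = 0) → w = 0 from
    H _ W le_rfl rfl
  intro r
  induction r using Nat.strong_induction_on with
  | _ r ih =>
    intro U hUW hU
    have : FiniteDimensional k U := Submodule.finiteDimensional_of_le hUW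
    by_cases h0 : U = ⊥
    · exact ⟨∅, by simp, fun w hw _ => by rw [h0, Submodule.mem_bot] at hw; exact hw⟩
    obtain ⟨v, hv, hv0⟩ := U.ne_bot_iff.mp h0
    obtain ⟨n, hn⟩ : ∃ n, c n v ≠ 0 := by
      by_contra! hall
      exact hv0 (hc v hall)
    set U' := U ⊓ LinearMap.ker (c n)
    have hlt : U' < U := lt_of_le_of_ne inf_le_left fun h => hn (by
      have : v ∈ U' := h ▸ hv
      exact LinearMap.mem_ker.mp this.2)
    obtain ⟨S, hS, hsep⟩ := ih _ (hU ▸ Submodule.finrank_lt_finrank_of_lt hlt) U'
      (inf_le_left.trans hUW) rfl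
    refine ⟨insert n S, ?_, fun w hw hzero => hsep w ⟨hw, LinearMap.mem_ker.mpr
      (hzero n (Finset.mem_insert_self n S))⟩ fun m hm => hzero m (Finset.mem_insert_of_mem hm)⟩
    have := Submodule.finrank_lt_finrank_of_lt hlt
    have := Finset.card_insert_le n S
    omega

section PoleDiv

open Fermat.FF

variable {K F : Type*} [Field K] [Field F] [Algebra K F] [IsAlgClosed K] [IsFunctionField K F]

/-- Membership in the space of a multiple of the polar divisor, through integrality at both
charts. -/
theorem mem_nsmul_poleDiv_iff {y : F} (hy : Transcendental K y) (n : ℕ) {f : F} :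
    f ∈ riemannRochSpace (n • poleDiv K y) ↔
      f ∈ intClosure K y ∧ y⁻¹ ^ n * f ∈ intClosure K y⁻¹ := by
  have hy0 : y ≠ 0 := fun h => hy (h ▸ isAlgebraic_zero)
  rw [mem_riemannRochSpace, mem_intClosure_iff, mem_intClosure_iff]
  rcases eq_or_ne f 0 with rfl | hf
  · simp [ordGE_zero]
  simp only [ordGE_iff_of_ne hf, ordGE_iff_of_ne hy0, ordGE_iff_of_ne (inv_ne_zero hy0),
    ordGE_iff_of_ne (mul_ne_zero (pow_ne_zero n (inv_ne_zero hy0)) hf), Finsupp.smul_apply,
    poleDiv_apply]
  constructor
  · refine fun h => ⟨fun v hv => ?_, fun v hv => ?_⟩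
    · have := h v
      rw [max_eq_right (by omega)] at this
      simpa using this
    · have := h v
      rw [v.ord_inv] at hv
      rw [v.ord_mul (pow_ne_zero n (inv_ne_zero hy0)) hf, ord_pow, v.ord_inv]
      rw [max_eq_left (by omega), nsmul_eq_mul] at this
      linarith
  · rintro ⟨h1, h2⟩ v
    rcases le_or_gt 0 (v.ord y) with hv | hv
    · rw [max_eq_right (by omega)]
      simpa using h1 v hv
    · have := h2 v (by rw [v.ord_inv]; omega)
      rw [v.ord_mul (pow_ne_zero n (inv_ne_zero hy0)) hf, ord_pow, v.ord_inv] at this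
      rw [max_eq_left (by omega), nsmul_eq_mul]
      linarith

/-- An integral function lies in such a space for large `n`. -/
theorem exists_mem_nsmul_poleDiv {y f : F}
    (hf : f ∈ intClosure K y) (n₀ : ℕ) :
    ∃ n, n₀ ≤ n ∧ f ∈ riemannRochSpace (n • poleDiv K y) := by
  classical
  set n := n₀ + ∑ v ∈ (finite_setOf_ord_ne_zero (K := K) f).toFinset, (v.ord f).natAbs
  refine ⟨n, Nat.le_add_right _ _, ?_⟩
  rw [mem_riemannRochSpace]
  intro v
  rw [Finsupp.smul_apply, poleDiv_apply]
  rcases eq_or_ne f 0 with rfl | hf0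
  · exact ordGE_zero _ _
  rw [ordGE_iff_of_ne hf0]
  rcases le_or_gt 0 (v.ord y) with hv | hv
  · have := (mem_intClosure_iff.mp hf v (ordGE_iff.mpr (.inr hv))).le_ord hf0
    rw [max_eq_right (by omega)]
    simpa using this
  · rw [max_eq_left (by omega), nsmul_eq_mul]
    by_cases h0 : v.ord f = 0
    · rw [h0]; nlinarith
    have hle := Finset.single_le_sum (f := fun v : Place K F => (v.ord f).natAbs)
      (fun _ _ => Nat.zero_le _) ((finite_setOf_ord_ne_zero (K := K) f).mem_toFinset.mpr h0)
    have hn : ((v.ord f).natAbs : ℤ) ≤ n := by exact_mod_cast hle.trans (Nat.le_add_left _ _)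
    have h1 : -v.ord f ≤ ((v.ord f).natAbs : ℤ) := by omega
    nlinarith

/-- `n` times the polar divisor has degree `n [F : K(y)]`. -/
theorem degree_nsmul_poleDiv {y : F} (hy : Transcendental K y) (n : ℕ) :
    Divisor.degree (n • poleDiv K y) =
      n * (Module.finrank (IntermediateField.adjoin K {y}) F : ℕ) := by
  rw [map_nsmul, degree_poleDiv hy, nsmul_eq_mul]

end PoleDiv

end Fermat.RED.Model
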