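import Fermat.Agent.RED.Model.Chart

/-!
# Models of function fields embedded in Laurent series

`PreModel` and `GoodModel`: a coordinate `x` whose chart has integral expansions and a basis that
stays independent after reduction. Reduction of functions is multiplicative on integral expansions,
and every finite family is a scalar times a primitive one. All of `RED/Model` rests on this.
-/

set_option autoImplicit false

attribute [local instance 10000] SubalgebraClass.toAlgebra HahnSeries.powerSeriesAlgebra

noncomputable section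

open Polynomial

namespace Fermat.RED.Model

variable {L : Type*} [Field L] {A : ValuationSubring L}
variable {k : Type*} [Field k] (π : A →+* k)
variable {F : Type*} [Field F] (ι : F →+* LaurentSeries L)

open Classical in
/-- The reduction of the expansion of `f` (zero unless the expansion is integral). -/
def redF (f : F) : LaurentSeries k :=
  if h : ι f ∈ intSeries A then redHom π ⟨ι f, h⟩ else 0

variable {π ι}

/-- On a function with integral expansion `redF` is the reduction of that expansion. -/
theorem redF_of_mem {f : F} (h : ι f ∈ intSeries A) : redF π ι f = redHom π ⟨ι f, h⟩ := dif_pos h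

/-- `redF` sends `0` to `0`. -/
@[simp] theorem redF_zero : redF π ι 0 = 0 := by
  rw [redF_of_mem (by rw [map_zero]; exact zero_mem _)]
  simp only [map_zero]
  exact map_zero (redHom π)

/-- `redF` sends `1` to `1`. -/
@[simp] theorem redF_one : redF π ι 1 = 1 := by
  rw [redF_of_mem (by rw [map_one]; exact one_mem _)]
  simp only [map_one]
  exact map_one (redHom π)

/-- `redF` is additive on functions with integral expansions. -/
theorem redF_add {f g : F} (hf : ι f ∈ intSeries A) (hg : ι g ∈ intSeries A) :
    redF π ι (f + g) = redF π ι f + redF π ι g := by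
  rw [redF_of_mem hf, redF_of_mem hg, ← map_add,
    redF_of_mem (by rw [map_add]; exact add_mem hf hg)]
  congr 1
  exact Subtype.ext (map_add ι f g)

/-- `redF` is multiplicative on functions with integral expansions. -/
theorem redF_mul {f g : F} (hf : ι f ∈ intSeries A) (hg : ι g ∈ intSeries A) :
    redF π ι (f * g) = redF π ι f * redF π ι g := by
  rw [redF_of_mem hf, redF_of_mem hg, ← map_mul,
    redF_of_mem (by rw [map_mul]; exact mul_mem hf hg)]
  congr 1
  exact Subtype.ext (map_mul ι f g)

/-- `redF` commutes with negation on functions with integral expansions. -/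
theorem redF_neg {f : F} (hf : ι f ∈ intSeries A) : redF π ι (-f) = -redF π ι f := by
  refine eq_neg_of_add_eq_zero_left ?_
  rw [← redF_add (by rw [map_neg]; exact neg_mem hf) hf, neg_add_cancel, redF_zero]

/-- `redF` commutes with subtraction on functions with integral expansions. -/
theorem redF_sub {f g : F} (hf : ι f ∈ intSeries A) (hg : ι g ∈ intSeries A) :
    redF π ι (f - g) = redF π ι f - redF π ι g := by
  rw [sub_eq_add_neg, redF_add hf (by rw [map_neg]; exact neg_mem hg),
    redF_neg hg, ← sub_eq_add_neg]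

/-- `redF` commutes with powers on functions with integral expansions. -/
theorem redF_pow {f : F} (hf : ι f ∈ intSeries A) (n : ℕ) :
    redF π ι (f ^ n) = redF π ι f ^ n := by
  induction n with
  | zero => simp
  | succ n ih => rw [pow_succ, pow_succ, redF_mul (by rw [map_pow]; exact pow_mem hf n) hf, ih]

/-- `redF` commutes with finite sums of functions with integral expansions. -/
theorem redF_sum {α : Type*} (s : Finset α) {f : α → F} (hf : ∀ i ∈ s, ι (f i) ∈ intSeries A) :
    redF π ι (∑ i ∈ s, f i) = ∑ i ∈ s, redF π ι (f i) := by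
  classical
  induction s using Finset.induction with
  | empty => simp
  | insert a s has ih =>
    rw [Finset.sum_insert has, Finset.sum_insert has,
      redF_add (hf a (Finset.mem_insert_self a s)), ih fun i hi =>
        hf i (Finset.mem_insert_of_mem hi)]
    rw [map_sum]
    exact sum_mem fun i hi => hf i (Finset.mem_insert_of_mem hi)

/-- `redF` commutes with finite products of functions with integral expansions. -/
theorem redF_prod {α : Type*} (s : Finset α) {f : α → F} (hf : ∀ i ∈ s, ι (f i) ∈ intSeries A) :
    redF π ι (∏ i ∈ s, f i) = ∏ i ∈ s, redF π ι (f i) := by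
  classical
  induction s using Finset.induction with
  | empty => simp
  | insert a s has ih =>
    rw [Finset.prod_insert has, Finset.prod_insert has,
      redF_mul (hf a (Finset.mem_insert_self a s)), ih fun i hi =>
        hf i (Finset.mem_insert_of_mem hi)]
    rw [map_prod]
    exact prod_mem fun i hi => hf i (Finset.mem_insert_of_mem hi)

variable [Algebra L F]

variable (π ι) in
/-- A model of `F` over `A` in the coordinate `x`: functions integral over `A[x]` have integral
expansions, `x` reduces to a transcendental series, and some `d` functions of the chart span `F`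
over `L(x)` and reduce to series independent over `k(x̄)`. -/
structure PreModel (x : F) (d : ℕ) : Prop where
  /-- `k` is the image of `A`. -/
  surj : Function.Surjective π
  /-- Constants expand as constants. -/
  ι_algebraMap : ∀ c, ι (algebraMap L F c) = algebraMap L (LaurentSeries L) c
  /-- Functions integral over `A[x]` have integral expansions. -/
  int_chart : ∀ f ∈ chart A x, ι f ∈ intSeries A
  /-- The reduction of `x` is transcendental over `k`. -/
  transc : Transcendental k (redF π ι x)
  /-- `d` functions in the chart spanning `F` over `L(x)`, independent after reduction. -/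
  basis : ∃ y : Fin d → F, (∀ i, y i ∈ chart A x) ∧
    (∀ f : F, ∃ D : L[X], D ≠ 0 ∧ ∃ G : Fin d → L[X],
      aeval x D * f = ∑ i, aeval x (G i) * y i) ∧
    ∀ G : Fin d → k[X], ∑ i, aeval (redF π ι x) (G i) * redF π ι (y i) = 0 → G = 0

variable (π ι) in
/-- Good model: a model in which the inverse of the coordinate is integral too. -/
structure GoodModel (x : F) (d : ℕ) : Prop extends PreModel π ι x d where
  /-- The inverse of the coordinate has integral expansion. -/
  int_inv : ι x⁻¹ ∈ intSeries A

namespace PreModel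

variable {x : F} {d : ℕ}

/-- A constant in `A` has integral expansion. -/
theorem int_algebraMap (h : PreModel π ι x d) {c : L} (hc : c ∈ A) :
    ι (algebraMap L F c) ∈ intSeries A := by
  rw [h.ι_algebraMap]; exact algebraMap_mem_intSeries hc

/-- A constant `c ∈ A` reduces to the constant `π c`. -/
theorem redF_algebraMap (h : PreModel π ι x d) {c : L} (hc : c ∈ A) :
    redF π ι (algebraMap L F c) = algebraMap k (LaurentSeries k) (π ⟨c, hc⟩) := by
  rw [redF_of_mem (h.int_algebraMap hc), ← redHom_algebraMap π hc]
  congr 1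
  exact Subtype.ext (h.ι_algebraMap c)

/-- The coordinate has integral expansion. -/
theorem int_self (h : PreModel π ι x d) : ι x ∈ intSeries A := h.int_chart x (self_mem_chart x)

/-- Polynomials in `x` over `A` have integral expansions. -/
theorem int_ax (h : PreModel π ι x d) (D : A[X]) : ι (ax A x D) ∈ intSeries A :=
  h.int_chart _ (ax_mem_chart x D)

/-- The reduction of `D(x)` is the reduced polynomial at the reduction of `x`. -/
theorem redF_ax (h : PreModel π ι x d) (D : A[X]) :
    redF π ι (ax A x D) = aeval (redF π ι x) (D.map π) := by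
  induction D using Polynomial.induction_on' with
  | add p q hp hq =>
    rw [map_add, redF_add (h.int_ax p) (h.int_ax q), hp, hq, Polynomial.map_add, map_add]
  | monomial n a =>
    rw [← C_mul_X_pow_eq_monomial, map_mul, map_pow, ax_C, ax_X, Polynomial.map_mul, map_C,
      Polynomial.map_pow, map_X, map_mul, map_pow, aeval_C, aeval_X,
      redF_mul (h.int_algebraMap a.2) (by rw [map_pow]; exact pow_mem h.int_self n),
      redF_pow h.int_self, h.redF_algebraMap a.2]

/-- A polynomial with nonzero reduction gives a function with nonzero reduction. -/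
theorem redF_ax_ne_zero (h : PreModel π ι x d) {D : A[X]} (hD : D.map π ≠ 0) :
    redF π ι (ax A x D) ≠ 0 := by
  rw [h.redF_ax]
  exact fun h0 => hD (transcendental_iff.mp h.transc _ h0)

/-- A polynomial with nonzero reduction does not vanish at `x`. -/
theorem ax_ne_zero (h : PreModel π ι x d) {D : A[X]} (hD : D.map π ≠ 0) : ax A x D ≠ 0 :=
  fun h0 => h.redF_ax_ne_zero hD (by rw [h0, redF_zero])

/-- The coordinate is transcendental over `L`. -/
theorem transcendental (h : PreModel π ι x d) : Transcendental L x := by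
  refine transcendental_iff.mpr fun P hP => ?_
  by_contra hne
  obtain ⟨a, G, ha, hG, ⟨⟩, hG0⟩ := exists_primitive (π := π) (α := Unit) (fun _ => P) ⟨(), hne⟩
  refine h.ax_ne_zero hG0 ?_
  rw [hG (), map_mul, aeval_C, ← ax_eq] at hP
  exact (mul_eq_zero.mp hP).resolve_left ((_root_.map_ne_zero _).mpr ha)

/-- The coordinate is nonzero. -/
theorem ne_zero (h : PreModel π ι x d) : x ≠ 0 := fun h0 => by
  have := h.transc
  rw [h0, redF_zero] at this
  exact this isAlgebraic_zero

/-- A primitive representation of a finite family in a given integral basis. -/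
theorem exists_repr (h : PreModel π ι x d) {y : Fin d → F}
    (hy : ∀ f : F, ∃ D : L[X], D ≠ 0 ∧ ∃ G : Fin d → L[X],
      aeval x D * f = ∑ i, aeval x (G i) * y i)
    {α : Type*} [Fintype α] (f : α → F) (hf : ∃ i, f i ≠ 0) :
    ∃ (D : A[X]) (c : L) (G : α → Fin d → A[X]), D.map π ≠ 0 ∧ c ≠ 0 ∧
      (∃ i j, (G i j).map π ≠ 0) ∧
      ∀ i, ax A x D * f i = algebraMap L F c * ∑ j, ax A x (G i j) * y j := by
  classical
  choose D hD G hG using fun i => hy (f i)
  set Dt : L[X] := ∏ i, D i
  set Gt : α → Fin d → L[X] := fun i j => (∏ l ∈ Finset.univ.erase i, D l) * G i j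
  have hDt : Dt ≠ 0 := Finset.prod_ne_zero_iff.mpr fun i _ => hD i
  have hGt : ∀ i, aeval x Dt * f i = ∑ j, aeval x (Gt i j) * y j := fun i => by
    simp only [Dt, Gt, ← Finset.mul_prod_erase Finset.univ D (Finset.mem_univ i), map_mul,
      mul_assoc, ← Finset.mul_sum, ← hG i]
    ring
  obtain ⟨a, D', ha, hD', ⟨⟩, hD'0⟩ := exists_primitive (π := π) (α := Unit) (fun _ => Dt) ⟨(), hDt⟩
  have hne : ∃ p : α × Fin d, Gt p.1 p.2 ≠ 0 := by
    by_contra! hall
    obtain ⟨i, hi⟩ := hf
    have := hGt i
    rw [show ∑ j, aeval x (Gt i j) * y j = 0 from Finset.sum_eq_zero fun j _ => by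
      rw [hall (i, j), map_zero, zero_mul]] at this
    exact (mul_ne_zero (fun h0 => hDt (transcendental_iff.mp h.transcendental _ h0)) hi) this
  obtain ⟨b, G', hb, hG', ⟨i₀, j₀⟩, hG'0⟩ :=
    exists_primitive (π := π) (α := α × Fin d) (fun p => Gt p.1 p.2) hne
  refine ⟨D' (), b / a, fun i j => G' (i, j), hD'0, div_ne_zero hb ha, ⟨i₀, j₀, hG'0⟩, fun i => ?_⟩
  have h1 := hGt i
  rw [hD' (), map_mul, aeval_C, ← ax_eq] at h1
  have h2 : ∀ j, aeval x (Gt i j) = algebraMap L F b * ax A x (G' (i, j)) := fun j => by
    rw [hG' (i, j), map_mul, aeval_C, ← ax_eq]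
  simp only [h2, mul_assoc, ← Finset.mul_sum] at h1
  rw [map_div₀, div_mul_eq_mul_div, eq_div_iff ((_root_.map_ne_zero _).mpr ha)]
  linear_combination h1

/-- In a primitive representation, the scalar of an integral element lies in `A`. -/
theorem mem_of_repr (h : PreModel π ι x d) {y : Fin d → F} (hyc : ∀ i, y i ∈ chart A x)
    (hy : ∀ G : Fin d → k[X], ∑ i, aeval (redF π ι x) (G i) * redF π ι (y i) = 0 → G = 0)
    {f : F} (hf : ι f ∈ intSeries A) {D : A[X]} {c : L} (hc : c ≠ 0) {G : Fin d → A[X]}
    (hG : ∃ j, (G j).map π ≠ 0)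
    (e : ax A x D * f = algebraMap L F c * ∑ j, ax A x (G j) * y j) : c ∈ A := by
  by_contra hcA
  have hc' : c⁻¹ ∈ A := (A.mem_or_inv_mem c).resolve_left hcA
  have e' : algebraMap L F c⁻¹ * (ax A x D * f) = ∑ j, ax A x (G j) * y j := by
    rw [e, ← mul_assoc, ← map_mul, inv_mul_cancel₀ hc, map_one, one_mul]
  have hDf : ι (ax A x D * f) ∈ intSeries A := by rw [map_mul]; exact mul_mem (h.int_ax D) hf
  have := congrArg (redF π ι) e'
  rw [redF_mul (h.int_algebraMap hc') hDf, h.redF_algebraMap hc',
    map_eq_zero_of_inv_notMem h.surj (a := ⟨c⁻¹, hc'⟩) (by simpa using hcA), map_zero, zero_mul,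
    redF_sum _ (fun j _ => h.int_chart _ (mul_mem (ax_mem_chart x _) (hyc j)))] at this
  obtain ⟨j, hj⟩ := hG
  refine hj (congrFun (hy (fun j => (G j).map π) ?_) j)
  rw [this]
  refine Finset.sum_congr rfl fun j _ => ?_
  rw [redF_mul (h.int_ax _) (h.int_chart _ (hyc j)), h.redF_ax]

/-- A primitive combination of a basis with independent reductions has nonzero reduction. -/
theorem redF_sum_ne_zero (h : PreModel π ι x d) {y : Fin d → F} (hyc : ∀ i, y i ∈ chart A x)
    (hy : ∀ G : Fin d → k[X], ∑ i, aeval (redF π ι x) (G i) * redF π ι (y i) = 0 → G = 0)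
    {G : Fin d → A[X]} (hG : ∃ j, (G j).map π ≠ 0) :
    redF π ι (∑ j, ax A x (G j) * y j) ≠ 0 := fun h0 => by
  obtain ⟨j, hj⟩ := hG
  refine hj (congrFun (hy (fun j => (G j).map π) ?_) j)
  rw [← h0, redF_sum _ (fun j _ => h.int_chart _ (mul_mem (ax_mem_chart x _) (hyc j)))]
  refine Finset.sum_congr rfl fun j _ => ?_
  rw [redF_mul (h.int_ax _) (h.int_chart _ (hyc j)), h.redF_ax]

/-- Every finite family of functions is a scalar times a primitive family of integral functions
with a common denominator. -/
theorem exists_primitive_family (h : PreModel π ι x d) {α : Type*} [Fintype α] (f : α → F)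
    (hf : ∃ i, f i ≠ 0) :
    ∃ (D : A[X]) (c : L) (g : α → F), D.map π ≠ 0 ∧ c ≠ 0 ∧ (∀ i, g i ∈ chart A x) ∧
      (∃ i, redF π ι (g i) ≠ 0) ∧ ∀ i, ax A x D * f i = algebraMap L F c * g i := by
  obtain ⟨y, hyc, hys, hyi⟩ := h.basis
  obtain ⟨D, c, G, hD, hc, ⟨i₀, j₀, h0⟩, e⟩ := h.exists_repr hys f hf
  exact ⟨D, c, fun i => ∑ j, ax A x (G i j) * y j, hD, hc,
    fun i => sum_mem fun j _ => mul_mem (ax_mem_chart x _) (hyc j),
    ⟨i₀, h.redF_sum_ne_zero hyc hyi ⟨j₀, h0⟩⟩, e⟩

/-- A primitive element of the chart in the line of a given one. -/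
theorem exists_eq_smul_primitive (h : PreModel π ι x d) {f : F} (hf : f ∈ chart A x)
    (hf0 : f ≠ 0) :
    ∃ c : L, c ∈ A ∧ c ≠ 0 ∧ ∃ g ∈ chart A x, redF π ι g ≠ 0 ∧ f = algebraMap L F c * g := by
  obtain ⟨y, hyc, hys, hyi⟩ := h.basis
  obtain ⟨D, c, G, hD, hc, ⟨⟨⟩, hG⟩, e⟩ :=
    h.exists_repr hys (α := Unit) (fun _ => f) ⟨(), hf0⟩
  have hcA := h.mem_of_repr hyc hyi (h.int_chart f hf) hc hG (e ())
  have hcF : algebraMap L F c ≠ 0 := (_root_.map_ne_zero _).mpr hc
  set g := (algebraMap L F c)⁻¹ * f
  have hfg : algebraMap L F c * g = f := by rw [← mul_assoc, mul_inv_cancel₀ hcF, one_mul]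
  have hDg : ax A x D * g = ∑ j, ax A x (G () j) * y j := by
    refine mul_left_cancel₀ hcF ?_
    rw [← e (), mul_left_comm, hfg]
  have hg : g ∈ chart A x := mem_chart_of_mul h.surj h.transcendental hcA hc hD
    (by rw [hfg]; exact hf)
    (by rw [hDg]; exact sum_mem fun j _ => mul_mem (ax_mem_chart x _) (hyc j))
  refine ⟨c, hcA, hc, g, hg, fun h0 => h.redF_sum_ne_zero hyc hyi hG ?_, hfg.symm⟩
  rw [← hDg, redF_mul (h.int_ax D) (h.int_chart g hg), h0, mul_zero]

/-- An element of the chart reducing to `0` is an element of the kernel of `π` times an element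
of the chart. -/
theorem exists_eq_smul_of_redF_eq_zero (h : PreModel π ι x d) {f : F} (hf : f ∈ chart A x)
    (h0 : redF π ι f = 0) :
    ∃ c : A, π c = 0 ∧ ∃ g ∈ chart A x, f = algebraMap L F c * g := by
  rcases eq_or_ne f 0 with rfl | hne
  · exact ⟨0, map_zero π, 0, zero_mem _, by simp⟩
  obtain ⟨c, hcA, hc, g, hg, hg0, e⟩ := h.exists_eq_smul_primitive hf hne
  refine ⟨⟨c, hcA⟩, ?_, g, hg, e⟩
  rw [e, redF_mul (h.int_algebraMap hcA) (h.int_chart g hg), h.redF_algebraMap hcA] at h0
  exact (map_eq_zero_iff _ (RingHom.injective _)).mp ((mul_eq_zero.mp h0).resolve_right hg0)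

end PreModel

namespace GoodModel

variable {x : F} {d : ℕ}

/-- The reflected polynomial at `z⁻¹` is `z⁻ᴺ` times the polynomial at `z`. -/
theorem aeval_inv_eq {R S : Type*} [Field R] [Field S] [Algebra R S] {z : S} (hz : z ≠ 0)
    {N : ℕ} {G : R[X]} (hN : G.natDegree ≤ N) :
    aeval z⁻¹ (G.reflect N) = z⁻¹ ^ N * aeval z G := by
  let : Invertible z := invertibleOfNonzero hz
  have h' := Polynomial.eval₂_reflect_mul_pow (algebraMap R S) z N G hN
  rw [invOf_eq_inv] at h'
  rw [aeval_def, aeval_def, ← h', inv_pow, mul_comm, mul_assoc, mul_inv_cancel₀ (pow_ne_zero _ hz),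
    mul_one]

/-- The model at infinity: a good model in `x` is also a good model in `x⁻¹`. -/
theorem inv (h : GoodModel π ι x d) : GoodModel π ι x⁻¹ d := by
  classical
  have hx := h.ne_zero
  -- a function in the chart at infinity is a power of `x⁻¹` times one in the chart
  have hint : ∀ f ∈ chart A x⁻¹, ι f ∈ intSeries A := fun f hf => by
    obtain ⟨n, hn⟩ := exists_inv_pow_mul_mem_chart (inv_ne_zero hx) hf
    have := hn n le_rfl
    rw [inv_inv] at this
    have e : f = x⁻¹ ^ n * (x ^ n * f) := by
      rw [← mul_assoc, ← mul_pow, inv_mul_cancel₀ hx, one_pow, one_mul]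
    rw [e, map_mul, map_pow]
    exact mul_mem (pow_mem h.int_inv n) (h.int_chart _ this)
  have hs : redF π ι x⁻¹ = (redF π ι x)⁻¹ := by
    refine eq_inv_of_mul_eq_one_left ?_
    rw [← redF_mul h.int_inv h.int_self, inv_mul_cancel₀ hx, redF_one]
  refine ⟨⟨h.surj, h.ι_algebraMap, hint, ?_, ?_⟩, by rw [inv_inv]; exact h.int_self⟩
  · rw [hs]
    intro halg
    exact h.transc (by simpa using halg.inv)
  -- the new basis is the old one times a power of `x⁻¹` moving it into the chart at infinity
  obtain ⟨y, hyc, hys, hyi⟩ := h.basis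
  choose n₀ hn₀ using fun i => exists_inv_pow_mul_mem_chart hx (hyc i)
  set n := Finset.univ.sup n₀
  refine ⟨fun i => x⁻¹ ^ n * y i, fun i => hn₀ i n (Finset.le_sup (Finset.mem_univ i)),
    fun f => ?_, fun G hG => ?_⟩
  · -- spanning: reflect the coefficient polynomials
    obtain ⟨D, hD, G, e⟩ := hys f
    set H : Fin d → L[X] := fun i => G i * X ^ n
    set N := max D.natDegree (Finset.univ.sup fun i => (H i).natDegree)
    refine ⟨D.reflect N, fun h0 => hD (reflect_eq_zero_iff.mp h0), fun i => (H i).reflect N, ?_⟩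
    rw [aeval_inv_eq hx (le_max_left _ _), mul_assoc, e, Finset.mul_sum]
    refine Finset.sum_congr rfl fun i _ => ?_
    rw [aeval_inv_eq hx ((Finset.le_sup (f := fun i => (H i).natDegree) (Finset.mem_univ i)).trans
      (le_max_right _ _))]
    simp only [H, map_mul, map_pow, aeval_X]
    have : x⁻¹ ^ n * x ^ n = 1 := by rw [← mul_pow, inv_mul_cancel₀ hx, one_pow]
    linear_combination -(x⁻¹ ^ N * aeval x (G i) * y i) * this
  · -- independence: reflect a relation and use the independence of the old basis
    have hx' : redF π ι x ≠ 0 := fun h0 => h.transc (by rw [h0]; exact isAlgebraic_zero)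
    set N := Finset.univ.sup fun i => (G i).natDegree
    have := hyi (fun i => (G i).reflect N) ?_
    · funext i
      exact reflect_eq_zero_iff.mp (congrFun this i)
    have hterm : ∀ i, redF π ι (x⁻¹ ^ n * y i) = (redF π ι x)⁻¹ ^ n * redF π ι (y i) := fun i => by
      rw [redF_mul (by rw [map_pow]; exact pow_mem h.int_inv n) (h.int_chart _ (hyc i)),
        redF_pow h.int_inv, hs]
    rw [hs] at hG
    simp only [hterm] at hG
    have e : ∀ i, aeval (redF π ι x) ((G i).reflect N)
        = redF π ι x ^ N * aeval (redF π ι x)⁻¹ (G i) := fun i => by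
      have := aeval_inv_eq (R := k) (inv_ne_zero hx') (N := N) (G := G i)
        (Finset.le_sup (f := fun i => (G i).natDegree) (Finset.mem_univ i))
      rwa [inv_inv] at this
    simp only [e, mul_assoc, ← Finset.mul_sum]
    have : ∑ i, aeval (redF π ι x)⁻¹ (G i) * redF π ι (y i) = 0 := by
      refine (mul_eq_zero.mp ?_).resolve_left (pow_ne_zero n (inv_ne_zero hx'))
      rw [← hG, Finset.mul_sum]
      exact Finset.sum_congr rfl fun i _ => by ring
    rw [this, mul_zero]

end GoodModel

end Fermat.RED.Model
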