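import Fermat.Agent.RED.Model.Basic

/-!
# Quotients of integral expansions with primitive denominator

For one expansion `ι`, the functions `g / u` with `g`, `u` of integral expansion and `u` of nonzero
reduction form the ring `gInt` of functions defined at the generic point of the component, and
`gRed` is their reduction.
-/

set_option autoImplicit false
set_option linter.unusedSectionVars false

noncomputable section

namespace Fermat.RED.Model

variable {L : Type*} [Field L] {A : ValuationSubring L}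
variable {k : Type*} [Field k] (π : A →+* k)
variable {F : Type*} [Field F] [Algebra L F] (ι : F →+* LaurentSeries L)

/-- `f * u = g` with integral expansions and nonzero reduction of `u`. -/
def IsGQuot (f g u : F) : Prop :=
  ι g ∈ intSeries A ∧ ι u ∈ intSeries A ∧ redF π ι u ≠ 0 ∧ f * u = g

variable {π ι}

/-- A product of functions with integral expansions has integral expansion. -/
private theorem int_mul {f g : F} (hf : ι f ∈ intSeries A) (hg : ι g ∈ intSeries A) :
    ι (f * g) ∈ intSeries A := by rw [map_mul]; exact mul_mem hf hg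

/-- `1` has integral expansion. -/
private theorem int_one : ι (1 : F) ∈ intSeries A := by rw [map_one]; exact one_mem _

/-- The product of denominators of a basis is a denominator of the whole space. -/
theorem exists_smul_prod_mul_mem
    (hs : ∀ a ∈ A, ι (algebraMap L F a) ∈ intSeries A) {W : Submodule L F} {n : ℕ}
    (e : Module.Basis (Fin n) L W) {v : Fin n → F} {c : Fin n → L} (hc : ∀ i, c i ≠ 0)
    (hv : ∀ i, ι (v i) ∈ intSeries A) (hcv : ∀ i, ι (c i • ((e i : F) * v i)) ∈ intSeries A)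
    (w : W) : ∃ a : L, a ≠ 0 ∧ ι (a • ((∏ i, v i) * (w : F))) ∈ intSeries A := by
  classical
  have hi : ∀ i, ι (c i • ((∏ j, v j) * (e i : F))) ∈ intSeries A := fun i => by
    rw [show c i • ((∏ j, v j) * (e i : F)) =
      (∏ j ∈ Finset.univ.erase i, v j) * (c i • ((e i : F) * v i)) by
        rw [← Finset.mul_prod_erase Finset.univ v (Finset.mem_univ i)]
        simp only [Algebra.smul_def]
        ring, map_mul, map_prod]
    exact mul_mem (prod_mem fun j _ => hv j) (hcv i)
  obtain ⟨M, hM, hdiv, -⟩ := exists_div_mem (A := A)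
    (Finset.univ.image some ∪ {none}) (fun o : Option _ => o.elim 1 fun i => e.repr w i / c i)
    ⟨none, Finset.mem_union_right _ (Finset.mem_singleton_self none), one_ne_zero⟩
  refine ⟨M⁻¹, inv_ne_zero hM, ?_⟩
  rw [show M⁻¹ • ((∏ j, v j) * (w : F)) =
    ∑ i, algebraMap L F (e.repr w i / c i / M) * (c i • ((∏ j, v j) * (e i : F))) by
      conv_lhs => rw [← e.sum_repr w]
      rw [AddSubmonoidClass.coe_finsetSum, Finset.mul_sum, Finset.smul_sum]
      refine Finset.sum_congr rfl fun i _ => ?_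
      simp only [SetLike.val_smul, Algebra.smul_def, map_div₀, map_inv₀]
      field_simp [hM, hc i], map_sum]
  refine sum_mem fun i _ => ?_
  rw [map_mul]
  exact mul_mem (hs _ (hdiv (some i) (Finset.mem_union_left _
    (Finset.mem_image_of_mem _ (Finset.mem_univ i))))) (hi i)

/-- A function with integral expansion is such a quotient, with denominator `1`. -/
theorem IsGQuot.of_int {f : F} (hf : ι f ∈ intSeries A) : IsGQuot π ι f f 1 :=
  ⟨hf, int_one, by rw [redF_one]; exact one_ne_zero, mul_one f⟩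

/-- Quotient representations multiply. -/
theorem IsGQuot.mul {f g u f' g' u' : F} (h : IsGQuot π ι f g u) (h' : IsGQuot π ι f' g' u') :
    IsGQuot π ι (f * f') (g * g') (u * u') :=
  ⟨int_mul h.1 h'.1, int_mul h.2.1 h'.2.1, by
    rw [redF_mul h.2.1 h'.2.1]; exact mul_ne_zero h.2.2.1 h'.2.2.1, by
    rw [← h.2.2.2, ← h'.2.2.2]; ring⟩

/-- Quotient representations add. -/
theorem IsGQuot.add {f g u f' g' u' : F} (h : IsGQuot π ι f g u) (h' : IsGQuot π ι f' g' u') :
    IsGQuot π ι (f + f') (g * u' + g' * u) (u * u') :=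
  ⟨by rw [map_add]; exact add_mem (int_mul h.1 h'.2.1) (int_mul h'.1 h.2.1),
    int_mul h.2.1 h'.2.1, by
    rw [redF_mul h.2.1 h'.2.1]; exact mul_ne_zero h.2.2.1 h'.2.2.1, by
    rw [← h.2.2.2, ← h'.2.2.2]; ring⟩

/-- Quotient representations negate. -/
theorem IsGQuot.neg {f g u : F} (h : IsGQuot π ι f g u) : IsGQuot π ι (-f) (-g) u :=
  ⟨by rw [map_neg]; exact neg_mem h.1, h.2.1, h.2.2.1, by rw [← h.2.2.2, neg_mul]⟩

variable (π ι) in
/-- The functions defined at the generic point of the component. -/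
def gInt : Subring F where
  carrier := {f | ∃ g u, IsGQuot π ι f g u}
  one_mem' := ⟨1, 1, .of_int int_one⟩
  zero_mem' := ⟨0, 1, .of_int (by rw [map_zero]; exact zero_mem _)⟩
  mul_mem' := fun ⟨_, _, h⟩ ⟨_, _, h'⟩ => ⟨_, _, h.mul h'⟩
  add_mem' := fun ⟨_, _, h⟩ ⟨_, _, h'⟩ => ⟨_, _, h.add h'⟩
  neg_mem' := fun ⟨_, _, h⟩ => ⟨_, _, h.neg⟩

/-- A quotient representation shows membership in `gInt`. -/
theorem IsGQuot.mem {f g u : F} (h : IsGQuot π ι f g u) : f ∈ gInt π ι := ⟨g, u, h⟩

/-- A function with integral expansion lies in `gInt`. -/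
theorem mem_gInt_of_int {f : F} (hf : ι f ∈ intSeries A) : f ∈ gInt π ι := (IsGQuot.of_int hf).mem

variable (π ι) in
open Classical in
/-- The reduction at the generic point of the component. -/
def gRed (f : F) : LaurentSeries k :=
  if h : ∃ g u, IsGQuot π ι f g u then redF π ι h.choose / redF π ι h.choose_spec.choose else 0

/-- `gRed` may be computed from any quotient representation. -/
theorem IsGQuot.gRed_eq {f g u : F} (h : IsGQuot π ι f g u) :
    gRed π ι f = redF π ι g / redF π ι u := by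
  have hex : ∃ g u, IsGQuot π ι f g u := ⟨g, u, h⟩
  obtain ⟨hg', hu', hu'0, e'⟩ := hex.choose_spec.choose_spec
  obtain ⟨hg, hu, hu0, e⟩ := h
  rw [gRed, dif_pos hex, div_eq_div_iff hu'0 hu0, ← redF_mul hg' hu, ← redF_mul hg hu']
  congr 1
  linear_combination -u * e' + hex.choose_spec.choose * e

/-- `gRed` is zero outside `gInt`. -/
theorem gRed_of_notMem {f : F} (h : f ∉ gInt π ι) : gRed π ι f = 0 := dif_neg h

/-- `gRed` extends the reduction of integral expansions. -/
theorem gRed_of_int {f : F} (hf : ι f ∈ intSeries A) : gRed π ι f = redF π ι f := by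
  rw [(IsGQuot.of_int hf).gRed_eq, redF_one, div_one]

/-- `gRed` sends `0` to `0`. -/
@[simp] theorem gRed_zero : gRed π ι (0 : F) = 0 := by
  rw [gRed_of_int (by rw [map_zero]; exact zero_mem _), redF_zero]

/-- `gRed` sends `1` to `1`. -/
@[simp] theorem gRed_one : gRed π ι (1 : F) = 1 := by rw [gRed_of_int int_one, redF_one]

/-- `gRed` is multiplicative on `gInt`. -/
theorem gRed_mul {f f' : F} (hf : f ∈ gInt π ι) (hf' : f' ∈ gInt π ι) :
    gRed π ι (f * f') = gRed π ι f * gRed π ι f' := by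
  obtain ⟨g, u, h⟩ := hf
  obtain ⟨g', u', h'⟩ := hf'
  rw [(h.mul h').gRed_eq, h.gRed_eq, h'.gRed_eq, redF_mul h.1 h'.1, redF_mul h.2.1 h'.2.1,
    div_mul_div_comm]

/-- `gRed` is additive on `gInt`. -/
theorem gRed_add {f f' : F} (hf : f ∈ gInt π ι) (hf' : f' ∈ gInt π ι) :
    gRed π ι (f + f') = gRed π ι f + gRed π ι f' := by
  obtain ⟨g, u, h⟩ := hf
  obtain ⟨g', u', h'⟩ := hf'
  rw [(h.add h').gRed_eq, h.gRed_eq, h'.gRed_eq, div_add_div _ _ h.2.2.1 h'.2.2.1,
    redF_add (int_mul h.1 h'.2.1) (int_mul h'.1 h.2.1), redF_mul h.1 h'.2.1, redF_mul h'.1 h.2.1,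
    redF_mul h.2.1 h'.2.1, mul_comm (redF π ι g') (redF π ι u)]

/-- `gRed` commutes with negation on `gInt`. -/
theorem gRed_neg {f : F} (hf : f ∈ gInt π ι) : gRed π ι (-f) = -gRed π ι f := by
  obtain ⟨g, u, h⟩ := hf
  rw [h.neg.gRed_eq, h.gRed_eq, redF_neg h.1, neg_div]

/-- `gRed` commutes with subtraction on `gInt`. -/
theorem gRed_sub {f f' : F} (hf : f ∈ gInt π ι) (hf' : f' ∈ gInt π ι) :
    gRed π ι (f - f') = gRed π ι f - gRed π ι f' := by
  rw [sub_eq_add_neg, gRed_add hf (neg_mem hf'), gRed_neg hf', ← sub_eq_add_neg]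

/-- `gRed` commutes with powers on `gInt`. -/
theorem gRed_pow {f : F} (hf : f ∈ gInt π ι) (n : ℕ) : gRed π ι (f ^ n) = gRed π ι f ^ n := by
  induction n with
  | zero => simp
  | succ n ih => rw [pow_succ, pow_succ, gRed_mul (pow_mem hf n) hf, ih]

/-- A function of nonzero reduction has its inverse in `gInt`, with inverse reduction. -/
theorem inv_mem_gInt {f : F} (hf : f ∈ gInt π ι) (h0 : gRed π ι f ≠ 0) :
    f⁻¹ ∈ gInt π ι ∧ gRed π ι f⁻¹ = (gRed π ι f)⁻¹ := by
  have hf0 : f ≠ 0 := fun e => h0 (by rw [e, gRed_zero])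
  obtain ⟨g, u, hg, hu, hu0, e⟩ := id hf
  have hg0 : redF π ι g ≠ 0 := fun e0 => h0 (by
    rw [IsGQuot.gRed_eq ⟨hg, hu, hu0, e⟩, e0, zero_div])
  have hq : IsGQuot π ι f⁻¹ u g := ⟨hu, hg, hg0, by
    rw [← e, ← mul_assoc, inv_mul_cancel₀ hf0, one_mul]⟩
  refine ⟨hq.mem, ?_⟩
  rw [hq.gRed_eq, IsGQuot.gRed_eq ⟨hg, hu, hu0, e⟩, inv_div]

/-- `gRed` commutes with finite sums in `gInt`. -/
theorem gRed_sum {α : Type*} (s : Finset α) {f : α → F} (hf : ∀ i ∈ s, f i ∈ gInt π ι) :
    gRed π ι (∑ i ∈ s, f i) = ∑ i ∈ s, gRed π ι (f i) := by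
  classical
  induction s using Finset.induction with
  | empty => simp
  | insert a s has ih =>
    rw [Finset.sum_insert has, Finset.sum_insert has, gRed_add (hf a (Finset.mem_insert_self a s))
      (sum_mem fun i hi => hf i (Finset.mem_insert_of_mem hi)),
      ih fun i hi => hf i (Finset.mem_insert_of_mem hi)]

/-- A field containing the reductions of integral expansions contains all values of `gRed`. -/
theorem gRed_mem {K : Subfield (LaurentSeries k)}
    (hK : ∀ f, ι f ∈ intSeries A → redF π ι f ∈ K) (f : F) : gRed π ι f ∈ K := by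
  by_cases h : f ∈ gInt π ι
  · obtain ⟨g, u, h⟩ := h
    rw [h.gRed_eq]
    exact div_mem (hK g h.1) (hK u h.2.1)
  · rw [gRed_of_notMem h]
    exact zero_mem _

/-- A ring map compatible with two expansions preserves reductions. -/
theorem gRed_transfer {F' : Type*} [Field F'] [Algebra L F'] {ι' : F' →+* LaurentSeries L}
    (φ : F →+* F') (h : ∀ x, ι' (φ x) = ι x) {f : F} (hf : f ∈ gInt π ι) :
    φ f ∈ gInt π ι' ∧ gRed π ι' (φ f) = gRed π ι f := by
  obtain ⟨a, u, hau⟩ := hf
  have hr : ∀ x, ι x ∈ intSeries A → redF π ι' (φ x) = redF π ι x := fun x hx => by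
    rw [redF_of_mem hx, redF_of_mem (show ι' (φ x) ∈ intSeries A by rw [h]; exact hx)]
    exact congrArg _ (Subtype.ext (h x))
  have hq : IsGQuot π ι' (φ f) (φ a) (φ u) :=
    ⟨by rw [h]; exact hau.1, by rw [h]; exact hau.2.1, by rw [hr _ hau.2.1]; exact hau.2.2.1,
      by rw [← map_mul, hau.2.2.2]⟩
  exact ⟨hq.mem, by rw [hq.gRed_eq, hau.gRed_eq, hr _ hau.1, hr _ hau.2.1]⟩

end Fermat.RED.Model

end
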