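import Fermat.Agent.RED.Model.IntSeries

/-!
# The chart `A[x]~` of a function field over a valuation ring

For a valuation ring `A` of `L` and a function `x`, the ring of functions integral over `A[x]`,
with the divisibility property that makes it saturated and the change to the chart of `x⁻¹`. The
first layer of the models in `RED/Model`.
-/

set_option autoImplicit false

noncomputable section

open Polynomial

namespace Fermat.RED.Model

variable {L : Type*} [Field L] (A : ValuationSubring L)
variable {F : Type*} [Field F] [Algebra L F]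

/-- Evaluation of polynomials with coefficients in `A` at `x`. -/
def ax (x : F) : A[X] →+* F := eval₂RingHom ((algebraMap L F).comp A.subtype) x

/-- `ax` is evaluation at `x` of the polynomial with coefficients in `L`. -/
theorem ax_eq (x : F) (D : A[X]) : ax A x D = aeval x (D.map A.subtype) := by
  rw [aeval_def, eval₂_map]; rfl

/-- `ax` sends a constant to that constant. -/
@[simp] theorem ax_C (x : F) (a : A) : ax A x (Polynomial.C a) = algebraMap L F a := by simp [ax]

/-- `ax` sends the variable to `x`. -/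
@[simp] theorem ax_X (x : F) : ax A x X = x := by simp [ax]

/-- Evaluation at a transcendental element is injective. -/
theorem ax_injective {x : F} (hx : Transcendental L x) : Function.Injective (ax A x) := by
  intro p q h
  rw [ax_eq, ax_eq] at h
  exact Polynomial.map_injective _ Subtype.val_injective (transcendental_iff_injective.mp hx h)

/-- The elements integral over `A[x]`. -/
def chart (x : F) : Subring F :=
  letI := (ax A x).toAlgebra
  (integralClosure A[X] F).toSubring

variable {A}

/-- Membership in the chart is integrality over `A[x]`. -/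
theorem mem_chart {x f : F} : f ∈ chart A x ↔ (ax A x).IsIntegralElem f := Iff.rfl

/-- Polynomials in `x` over `A` lie in the chart. -/
theorem ax_mem_chart (x : F) (D : A[X]) : ax A x D ∈ chart A x :=
  mem_chart.mpr (RingHom.isIntegralElem_map _)

/-- Constants in `A` lie in the chart. -/
theorem algebraMap_mem_chart (x : F) {c : L} (hc : c ∈ A) : algebraMap L F c ∈ chart A x := by
  simpa using ax_mem_chart x (Polynomial.C (⟨c, hc⟩ : A))

/-- The coordinate lies in its chart. -/
theorem self_mem_chart (x : F) : x ∈ chart A x := by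
  simpa using ax_mem_chart x (X : A[X])

/-- If `x` lies in the chart of `x'`, the chart of `x` is contained in that of `x'`. -/
theorem mem_chart_trans {x x' f : F} (hx : x ∈ chart A x') (hf : f ∈ chart A x) :
    f ∈ chart A x' := by
  have hr : ∀ D : A[X], ax A x D ∈ chart A x' := fun D => by
    induction D using Polynomial.induction_on' with
    | add p q hp hq => rw [map_add]; exact add_mem hp hq
    | monomial n a =>
      rw [← Polynomial.C_mul_X_pow_eq_monomial, map_mul, map_pow, ax_C, ax_X]
      exact mul_mem (algebraMap_mem_chart x' a.2) (pow_mem hx n)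
  obtain ⟨P, hP, hPf⟩ := hf
  let := (ax A x').toAlgebra
  have hf' : IsIntegral (integralClosure A[X] F) f := by
    refine ⟨P.map (RingHom.codRestrict (ax A x) (integralClosure A[X] F).toSubring hr),
      hP.map _, ?_⟩
    rw [eval₂_map]
    exact hPf
  exact isIntegral_trans (R := A[X]) (A := integralClosure A[X] F) f hf'

/-- A root of a monic polynomial over the chart lies in the chart. -/
theorem mem_chart_of_root {x f : F} {P : (chart A x)[X]} (hP : P.Monic)
    (h : P.eval₂ (chart A x).subtype f = 0) : f ∈ chart A x := by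
  let := (ax A x).toAlgebra
  exact isIntegral_trans (R := A[X]) (A := integralClosure A[X] F) f ⟨P, hP, h⟩

/-- If `D * P = c * Q` in `A[X]` with `D` nonzero modulo the kernel of `π`, then `c` divides `P`. -/
theorem exists_eq_of_C_mul_eq {k : Type*} [Field k] {π : A →+* k} (hπ : Function.Surjective π)
    {c : A} {D P Q : A[X]} (hD : D.map π ≠ 0) (h : D * P = Polynomial.C c * Q) :
    ∃ R, P = Polynomial.C c * R := by
  exact C_dvd_of_dvd_mul hπ hD (c := c) (P := P) ⟨Q, h⟩

/-- If `c g` and `D(x) g` are integral over `A[x]`, with `c ≠ 0` and `D` nonzero modulo the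
maximal ideal, then so is `g`. -/
theorem mem_chart_of_mul {k : Type*} [Field k] {π : A →+* k} (hπ : Function.Surjective π)
    {x : F} (hx : Transcendental L x) {c : L} (hcA : c ∈ A) (hc : c ≠ 0) {D : A[X]}
    (hD : D.map π ≠ 0) {g : F} (h1 : algebraMap L F c * g ∈ chart A x)
    (h2 : ax A x D * g ∈ chart A x) : g ∈ chart A x := by
  let := (ax A x).toAlgebra
  have : FaithfulSMul A[X] F := (faithfulSMul_iff_algebraMap_injective _ _).mpr (ax_injective A hx)
  let := FractionRing.liftAlgebra A[X] F
  set K' := FractionRing A[X]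
  have hne : ∀ {r : A[X]}, r ≠ 0 → algebraMap A[X] K' r ≠ 0 := fun hr =>
    (_root_.map_ne_zero_iff _ (IsFractionRing.injective A[X] K')).mpr hr
  -- scaling of minimal polynomials
  have key : ∀ r : A[X], r ≠ 0 → IsIntegral A[X] (algebraMap A[X] F r * g) →
      IsIntegral K' g ∧ ∀ i, ∃ P : A[X], (minpoly K' g).coeff i
        * (algebraMap A[X] K' r) ^ ((minpoly K' g).natDegree - i) = algebraMap A[X] K' P := by
    intro r hr hint
    set r' := algebraMap A[X] K' r
    have hr' : algebraMap A[X] F r = algebraMap K' F r' := IsScalarTower.algebraMap_apply _ _ _ r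
    have hKint : IsIntegral K' g := by
      have h' : IsIntegral K' (algebraMap A[X] F r * g) := hint.tower_top
      have : IsIntegral K' (algebraMap K' F r'⁻¹ * (algebraMap A[X] F r * g)) :=
        isIntegral_algebraMap.mul h'
      rwa [← mul_assoc, hr', ← map_mul, inv_mul_cancel₀ (hne hr), map_one, one_mul] at this
    refine ⟨hKint, fun i => ?_⟩
    set P := minpoly K' g
    have hroot : aeval (algebraMap A[X] F r * g) (P.scaleRoots r') = 0 := by
      rw [hr']
      exact scaleRoots_aeval_eq_zero (minpoly.aeval K' g)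
    have hmin : minpoly K' (algebraMap A[X] F r * g) = P.scaleRoots r' := by
      refine (minpoly.eq_of_irreducible_of_monic ?_ hroot
        ((monic_scaleRoots_iff r').mpr (minpoly.monic hKint))).symm
      refine (Polynomial.Monic.irreducible_iff_natDegree'
        ((monic_scaleRoots_iff r').mpr (minpoly.monic hKint))).mpr ⟨fun h1' => ?_, ?_⟩
      · have := congrArg natDegree h1'
        rw [natDegree_scaleRoots, natDegree_one] at this
        exact (minpoly.natDegree_pos hKint).ne' this
      rintro f g' hf hg' hfg hdeg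
      rw [Finset.mem_Ioc] at hdeg
      -- a proper factor would give a smaller polynomial killing `g`
      have hfg' : aeval (algebraMap A[X] F r * g) f * aeval (algebraMap A[X] F r * g) g' = 0 := by
        rw [← map_mul, hfg, hroot]
      have hsc : ∀ Q : K'[X], Q.Monic → aeval (algebraMap A[X] F r * g) Q = 0 →
          P.natDegree ≤ Q.natDegree := fun Q hQ hQ0 => by
        have h' : aeval g (Q.scaleRoots r'⁻¹) = 0 := by
          have := scaleRoots_aeval_eq_zero (r := r'⁻¹) hQ0
          rwa [← mul_assoc, hr', ← map_mul, inv_mul_cancel₀ (hne hr), map_one, one_mul] at this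
        exact (Polynomial.natDegree_le_of_dvd (minpoly.dvd K' g h')
          ((monic_scaleRoots_iff _).mpr hQ).ne_zero).trans_eq (natDegree_scaleRoots _ _)
      have hsum : f.natDegree + g'.natDegree = P.natDegree := by
        rw [← hf.natDegree_mul hg', hfg, natDegree_scaleRoots]
      rw [natDegree_scaleRoots] at hdeg
      have hP0 : 0 < P.natDegree := minpoly.natDegree_pos hKint
      change 0 < g'.natDegree ∧ g'.natDegree ≤ P.natDegree / 2 at hdeg
      rcases mul_eq_zero.mp hfg' with h' | h'
      · have := hsc f hf h'; omega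
      · have := hsc g' hg' h'; omega
    rw [minpoly.isIntegrallyClosed_eq_field_fractions' K' hint] at hmin
    refine ⟨(minpoly A[X] (algebraMap A[X] F r * g)).coeff i, ?_⟩
    rw [← coeff_map, hmin, coeff_scaleRoots]
  have hc' : (⟨c, hcA⟩ : A) ≠ 0 := fun h => hc (congrArg Subtype.val h)
  have hD0 : D ≠ 0 := fun h => hD (by rw [h, Polynomial.map_zero])
  obtain ⟨hgint, hc1⟩ := key (Polynomial.C ⟨c, hcA⟩) (by simpa using hc')
    (by
      have : algebraMap A[X] F (Polynomial.C (⟨c, hcA⟩ : A)) = algebraMap L F c := ax_C A x _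
      rw [this]; exact h1)
  obtain ⟨-, hD1⟩ := key D hD0 h2
  -- the coefficients have denominators dividing powers of `c` and of `D`, so none at all
  have hcoeff : ∀ i, ∃ P : A[X], algebraMap A[X] K' P = (minpoly K' g).coeff i := by
    intro i
    obtain ⟨P, hP⟩ := hc1 i
    obtain ⟨Q, hQ⟩ := hD1 i
    set m := (minpoly K' g).natDegree - i
    have h3 : D ^ m * P = Polynomial.C ((⟨c, hcA⟩ : A) ^ m) * Q := by
      apply IsFractionRing.injective A[X] K'
      rw [map_mul, map_mul, ← hP, ← hQ, map_pow, map_pow, map_pow]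
      ring
    obtain ⟨R, hR⟩ := exists_eq_of_C_mul_eq hπ
      (by rw [Polynomial.map_pow]; exact pow_ne_zero m hD) h3
    refine ⟨R, mul_right_cancel₀ (pow_ne_zero m (hne (r := Polynomial.C ⟨c, hcA⟩)
      (by simpa using hc'))) ?_⟩
    rw [hP, hR, map_mul, map_pow, map_pow, mul_comm]
  obtain ⟨P, hPm, -, hPmonic⟩ := Polynomial.lifts_and_natDegree_eq_and_monic
    ((Polynomial.lifts_iff_coeff_lifts _).mpr hcoeff) (minpoly.monic hgint)
  refine ⟨P, hPmonic, ?_⟩
  have := minpoly.aeval K' g
  rw [← hPm, aeval_map_algebraMap] at this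
  exact this

/-- Anything integral over `L[x]` is integral over `A[x]` after scaling. -/
theorem exists_scale_mem_chart {x g : F} {P : L[X][X]} (hP : P.Monic)
    (hPg : P.eval₂ (aeval x : L[X] →ₐ[L] F).toRingHom g = 0) :
    ∃ c : L, c ≠ 0 ∧ c ∈ A ∧ algebraMap L F c * g ∈ chart A x := by
  classical
  -- `c` clears all coefficients
  obtain ⟨c, hc, hcA, hcoeff⟩ : ∃ c : L, c ≠ 0 ∧ c ∈ A ∧
      ∀ i n, c * (P.coeff i).coeff n ∈ A := by
    obtain ⟨a, ha, hdiv, -⟩ := exists_div_mem (A := A)
      (insert none ((P.support.sigma fun i => (P.coeff i).support).map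
        ⟨some, Option.some_injective _⟩))
      (fun o => o.elim 1 fun p => (P.coeff p.1).coeff p.2)
      ⟨none, Finset.mem_insert_self _ _, one_ne_zero⟩
    refine ⟨a⁻¹, inv_ne_zero ha, by simpa using hdiv none (Finset.mem_insert_self _ _),
      fun i n => ?_⟩
    by_cases h : (P.coeff i).coeff n = 0
    · rw [h, mul_zero]; exact zero_mem A
    · rw [inv_mul_eq_div]
      refine hdiv (some ⟨i, n⟩) (Finset.mem_insert_of_mem (Finset.mem_map.mpr
        ⟨⟨i, n⟩, ?_, rfl⟩))
      simp only [Finset.mem_sigma, Polynomial.mem_support_iff]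
      exact ⟨fun h0 => h (by rw [h0]; simp), h⟩
  refine ⟨c, hc, hcA, ?_⟩
  -- scale the roots by `c`
  set Q := P.scaleRoots (Polynomial.C c)
  have hQm : Q.Monic := (monic_scaleRoots_iff _).mpr hP
  have hlift : Q ∈ Polynomial.lifts (mapRingHom (A.subtype : A →+* L)) := by
    refine (Polynomial.lifts_iff_coeff_lifts _).mpr fun i => ?_
    rw [coeff_scaleRoots]
    rcases (lt_trichotomy i P.natDegree) with h | rfl | h
    · obtain ⟨j, hj⟩ : ∃ j, P.natDegree - i = j + 1 := ⟨P.natDegree - i - 1, by omega⟩
      obtain ⟨G, hG⟩ := exists_map_eq_of_coeff_mem A (G := P.coeff i * Polynomial.C c) fun n => by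
        rw [coeff_mul_C, mul_comm]; exact hcoeff i n
      refine ⟨G * Polynomial.C ((⟨c, hcA⟩ : A) ^ j), ?_⟩
      simp only [map_mul, coe_mapRingHom, hG, map_C, map_pow, hj]
      simp only [pow_succ', mul_assoc]
      rfl
    · exact ⟨1, by simp [hP.coeff_natDegree]⟩
    · exact ⟨0, by simp [coeff_eq_zero_of_natDegree_lt h]⟩
  -- which gives a monic equation over the integral polynomials
  obtain ⟨Q', hQ', -, hQ'm⟩ := Polynomial.lifts_and_natDegree_eq_and_monic hlift hQm
  refine ⟨Q', hQ'm, ?_⟩
  have hhom : ax A x = (aeval x : L[X] →ₐ[L] F).toRingHom.comp (mapRingHom A.subtype) :=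
    RingHom.ext fun D => ax_eq A x D
  change Q'.eval₂ (ax A x) _ = 0
  rw [hhom, ← eval₂_map, hQ']
  have := scaleRoots_eval₂_eq_zero (aeval x : L[X] →ₐ[L] F).toRingHom hPg (s := Polynomial.C c)
  simpa using this

/-- Passing to the chart at infinity. -/
theorem exists_inv_pow_mul_mem_chart {x f : F} (hx : x ≠ 0) (hf : f ∈ chart A x) :
    ∃ n₀ : ℕ, ∀ n, n₀ ≤ n → x⁻¹ ^ n * f ∈ chart A x⁻¹ := by
  obtain ⟨P, hP, hPf⟩ := hf
  refine ⟨P.support.sup fun i => (P.coeff i).natDegree, fun n hn => ?_⟩
  set d := P.natDegree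
  have key : ∀ i, i < d → ∃ b : A[X], ax A x⁻¹ b = (x⁻¹ ^ n) ^ (d - i) * ax A x (P.coeff i) := by
    intro i hi
    refine ⟨(P.coeff i).reflect (n * (d - i)), ?_⟩
    have hdeg : (P.coeff i).natDegree ≤ n * (d - i) := by
      by_cases h : P.coeff i = 0
      · simp [h]
      · calc (P.coeff i).natDegree ≤ n :=
              (Finset.le_sup (f := fun i => (P.coeff i).natDegree)
                (Polynomial.mem_support_iff.mpr h)).trans hn
          _ = n * 1 := (mul_one n).symm
          _ ≤ n * (d - i) := Nat.mul_le_mul_left n (by omega)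
    let : Invertible x := invertibleOfNonzero hx
    have h' := Polynomial.eval₂_reflect_mul_pow ((algebraMap L F).comp A.subtype) x
      (n * (d - i)) (P.coeff i) hdeg
    rw [invOf_eq_inv] at h'
    rw [← pow_mul]
    change eval₂ _ x⁻¹ _ = _ * eval₂ _ x _
    rw [← h', inv_pow, ← mul_assoc, mul_comm ((x ^ (n * (d - i)))⁻¹) (eval₂ _ x⁻¹ _), mul_assoc,
      inv_mul_cancel₀ (pow_ne_zero _ hx), mul_one]
  -- so `x⁻ⁿ f` satisfies the scaled equation, with coefficients in `A[x⁻¹]`
  choose b hb using key
  set Q : A[X][X] := X ^ d + ∑ i : Fin d, Polynomial.C (b i i.2) * X ^ (i : ℕ)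
  refine ⟨Q, monic_X_pow_add ?_, ?_⟩
  · exact (degree_sum_fin_lt _)
  · have hPf' : P.eval₂ (ax A x) f = 0 := hPf
    change Q.eval₂ (ax A x⁻¹) _ = 0
    have e : P.eval₂ (ax A x) f
        = f ^ d + ∑ i : Fin d, ax A x (P.coeff i) * f ^ (i : ℕ) := by
      conv_lhs => rw [hP.as_sum]
      rw [eval₂_add, eval₂_X_pow, eval₂_finsetSum, Finset.sum_range]
      simp only [eval₂_mul, eval₂_C, eval₂_X_pow]
      rfl
    simp only [Q, eval₂_add, eval₂_X_pow, eval₂_finsetSum, eval₂_mul, eval₂_C, hb]
    rw [show (0 : F) = (x⁻¹ ^ n) ^ d * P.eval₂ (ax A x) f by rw [hPf', mul_zero], e, mul_add,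
      mul_pow, Finset.mul_sum]
    congr 1
    refine Finset.sum_congr rfl fun i _ => ?_
    have : (x⁻¹ ^ n) ^ d = (x⁻¹ ^ n) ^ (d - (i : ℕ)) * (x⁻¹ ^ n) ^ (i : ℕ) := by
      rw [← pow_add]; congr 1; omega
    rw [mul_pow, this]
    ring

end Fermat.RED.Model
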