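import Fermat.Agent.RED.Model.Separate
import Fermat.Agent.RED.Model.Place

/-!
# Generation by sections and a criterion of normality

Sections of large order are generated by lower ones, integral functions with prescribed orders
exist, and a subalgebra with all fractions that separates points and tangents is integrally closed.
-/

set_option autoImplicit false

noncomputable section

open Polynomial AlgebraicCurve IntermediateField

namespace Fermat.RED.Model

variable {K F : Type*} [Field K] [Field F] [Algebra K F] [IsAlgClosed K] [FF.IsFunctionField K F]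

/-- For large `n` the sections of order `n + 1` are `L_n + y L_n`. -/
theorem exists_koszul {y : F} (hy : Transcendental K y) :
    ∃ n₀ : ℕ, ∀ n, n₀ ≤ n → ∀ f ∈ riemannRochSpace ((n + 1) • FF.poleDiv K y),
      ∃ a ∈ riemannRochSpace (n • FF.poleDiv K y), ∃ b ∈ riemannRochSpace (n • FF.poleDiv K y),
        f = a + y * b := by
  classical
  set d := Module.finrank K⟮y⟯ F
  have hd : 0 < d := by
    have := FF.finiteDimensional_adjoin hy
    exact Module.finrank_pos
  refine ⟨2 * genusFF K F + 1, fun n hn f hf => ?_⟩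
  have hy0 : y ≠ 0 := fun h => hy (h ▸ isAlgebraic_zero)
  set Ln := riemannRochSpace (n • FF.poleDiv K y)
  set U : Submodule K F := Submodule.map (LinearMap.mulLeft K y) Ln
  have hincl : Ln ≤ riemannRochSpace ((n + 1) • FF.poleDiv K y) := by
    intro g hg
    rw [mem_nsmul_poleDiv_iff hy] at hg ⊢
    refine ⟨hg.1, ?_⟩
    rw [pow_succ', mul_assoc]
    exact mul_mem (FF.self_mem_intClosure _) hg.2
  have hU : U ≤ riemannRochSpace ((n + 1) • FF.poleDiv K y) := by
    rintro _ ⟨g, hg, rfl⟩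
    rw [LinearMap.mulLeft_apply]
    rw [SetLike.mem_coe, mem_nsmul_poleDiv_iff hy] at hg
    rw [mem_nsmul_poleDiv_iff hy]
    refine ⟨mul_mem (FF.self_mem_intClosure _) hg.1, ?_⟩
    rw [pow_succ, mul_assoc, inv_mul_cancel_left₀ hy0]
    exact hg.2
  -- the intersection comes from one level lower
  have hinf : Ln ⊓ U ≤ Submodule.map (LinearMap.mulLeft K y)
      (riemannRochSpace ((n - 1) • FF.poleDiv K y)) := by
    rintro g ⟨hg, b, hb, rfl⟩
    refine ⟨b, ?_, rfl⟩
    rw [LinearMap.mulLeft_apply, SetLike.mem_coe, mem_nsmul_poleDiv_iff hy] at hg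
    rw [SetLike.mem_coe, mem_nsmul_poleDiv_iff hy] at hb
    rw [SetLike.mem_coe, mem_nsmul_poleDiv_iff hy]
    refine ⟨hb.1, ?_⟩
    have := hg.2
    rw [show n = n - 1 + 1 by omega, pow_succ, mul_assoc, inv_mul_cancel_left₀ hy0] at this
    exact this
  -- Riemann-Roch dimensions
  have hell : ∀ m : ℕ, 2 * genusFF K F ≤ m →
      (Module.finrank K (riemannRochSpace (m • FF.poleDiv K y)) : ℤ)
        = (m : ℤ) * d + 1 - genusFF K F := fun m hm => by
    have h := FF.ell_of_degree_ge (D := m • FF.poleDiv K y) (by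
      rw [degree_nsmul_poleDiv hy]
      change 2 * (genusFF K F : ℤ) - 1 ≤ (m : ℤ) * d
      have : (m : ℤ) ≤ (m : ℤ) * d := le_mul_of_one_le_right (by positivity) (by exact_mod_cast hd)
      omega)
    rw [degree_nsmul_poleDiv hy] at h
    exact h
  have hUdim : Module.finrank K U = Module.finrank K Ln :=
    (LinearEquiv.finrank_eq (Submodule.equivMapOfInjective _
      (fun _ _ h => mul_left_cancel₀ hy0 h) Ln)).symm
  have hinfdim : Module.finrank K (Ln ⊓ U : Submodule K F)
      ≤ Module.finrank K (riemannRochSpace ((n - 1) • FF.poleDiv K y)) := by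
    refine (Submodule.finrank_mono hinf).trans ?_
    exact (LinearEquiv.finrank_eq (Submodule.equivMapOfInjective _
      (fun _ _ h => mul_left_cancel₀ hy0 h) _)).symm.le
  have hsum := Submodule.finrank_sup_add_finrank_inf_eq Ln U
  have e1 := hell n (by omega)
  have e2 := hell (n + 1) (by omega)
  have e3 := hell (n - 1) (by omega)
  have hle : Ln ⊔ U ≤ riemannRochSpace ((n + 1) • FF.poleDiv K y) := sup_le hincl hU
  -- so the sum is everything, by counting
  have heq := Submodule.eq_of_le_of_finrank_le hle (by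
    have e3' : ((n - 1 : ℕ) : ℤ) = (n : ℤ) - 1 := by omega
    rw [e3'] at e3
    push_cast at e2
    exact (Nat.cast_le (α := ℤ)).mp (by
      have := (Nat.cast_le (α := ℤ)).mpr hinfdim
      nlinarith))
  rw [← heq, Submodule.mem_sup] at hf
  obtain ⟨a, ha, _, ⟨b, hb, rfl⟩, rfl⟩ := hf
  exact ⟨a, ha, b, hb, rfl⟩

/-- Integral functions with prescribed nonnegative orders at finitely many places. -/
theorem exists_integral_ord {y : F} (hy : Transcendental K y) (S : Finset (Place K F))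
    (hS : ∀ v ∈ S, FF.OrdGE v y 0) (n : Place K F → ℕ) :
    ∃ f ∈ FF.intClosure K y, f ≠ 0 ∧ ∀ v ∈ S, v.ord f = n v := by
  classical
  set T : Finset (Place K F) :=
    -- prescribed orders on the finitely many places over the values at `S`
    ((S.image fun v => FF.evalAt v y).biUnion fun a => (FF.finite_setOf_value hy a).toFinset)
  have hST : S ⊆ T := fun v hv => Finset.mem_biUnion.mpr ⟨FF.evalAt v y,
    Finset.mem_image_of_mem _ hv, (FF.finite_setOf_value hy _).mem_toFinset.mpr ⟨hS v hv, rfl⟩⟩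
  obtain ⟨g, hg0, hg⟩ := FF.exists_ord_eq_on T fun v => if v ∈ S then (n v : ℤ) else 0
  set P : Finset (Place K F) :=
    (FF.finite_setOf_ord_ne_zero (K := K) g).toFinset.filter fun p => FF.OrdGE p y 0 ∧ p ∉ T
  set N : ℕ := ∑ p ∈ P, (p.ord g).natAbs
  set lin : Place K F → F := fun p => y - algebraMap K F (FF.evalAt p y)
  -- multiply away the remaining finite poles
  have hlin0 : ∀ p, lin p ≠ 0 := fun p h => hy ((sub_eq_zero.mp h) ▸ isAlgebraic_algebraMap _)
  have hlin : ∀ p v : Place K F, FF.OrdGE v y 0 → FF.OrdGE v (lin p) 0 := fun p v hv =>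
    hv.sub (FF.ordGE_algebraMap v _)
  set q : F := ∏ p ∈ P, lin p ^ N
  have hq0 : q ≠ 0 := Finset.prod_ne_zero_iff.mpr fun p _ => pow_ne_zero _ (hlin0 p)
  have hqord : ∀ v : Place K F, v.ord q = ∑ p ∈ P, (N : ℤ) * v.ord (lin p) := fun v => by
    simp only [q]
    rw [FF.ord_prod v P _ fun p _ => pow_ne_zero _ (hlin0 p)]
    -- the product is integral and has the orders at `S`
    exact Finset.sum_congr rfl fun p _ => FF.ord_pow v _ _
  have hqnn : ∀ v : Place K F, FF.OrdGE v y 0 → ∀ p ∈ P, (0 : ℤ) ≤ (N : ℤ) * v.ord (lin p) :=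
    fun v hv p _ => mul_nonneg (Int.natCast_nonneg _) ((hlin p v hv).le_ord (hlin0 p))
  refine ⟨g * q, FF.mem_intClosure_iff.mpr fun v hv => ?_, mul_ne_zero hg0 hq0, fun v hv => ?_⟩
  · rw [FF.ordGE_iff_of_ne (mul_ne_zero hg0 hq0), v.ord_mul hg0 hq0, hqord]
    have hsum := Finset.sum_nonneg (hqnn v hv)
    by_cases hvT : v ∈ T
    · rw [hg v hvT]
      split <;> omega
    · by_cases h0 : v.ord g = 0
      · omega
      have hvP : v ∈ P := Finset.mem_filter.mpr
        ⟨(FF.finite_setOf_ord_ne_zero (K := K) g).mem_toFinset.mpr h0, hv, hvT⟩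
      have hN : (v.ord g).natAbs ≤ N :=
        Finset.single_le_sum (f := fun p : Place K F => (p.ord g).natAbs)
          (fun _ _ => Nat.zero_le _) hvP
      have h1 := Finset.single_le_sum (hqnn v hv) hvP
      have h2 := (FF.evalAt_spec hv).le_ord (hlin0 v)
      have h3 : (N : ℤ) * 1 ≤ (N : ℤ) * v.ord (lin v) :=
        mul_le_mul_of_nonneg_left h2 (Int.natCast_nonneg _)
      omega
  · rw [v.ord_mul hg0 hq0, hg v (hST hv), if_pos hv, hqord, Finset.sum_eq_zero fun p hp => ?_,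
      add_zero]
    have hp' := (Finset.mem_filter.mp hp).2
    refine mul_eq_zero_of_right _ ?_
    by_contra hne
    have hpos : 0 < v.ord (lin p) := lt_of_le_of_ne ((hlin p v (hS v hv)).le_ord (hlin0 p))
      (Ne.symm hne)
    obtain ⟨-, he⟩ := (pos_ord_sub_iff hy).mp hpos
    exact hp'.2 (Finset.mem_biUnion.mpr ⟨FF.evalAt v y, Finset.mem_image_of_mem _ hv,
      (FF.finite_setOf_value hy _).mem_toFinset.mpr ⟨hp'.1, he.symm⟩⟩)

/-- A ring with all fractions contains a polynomial multiple of the integral closure. -/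
theorem exists_conductor_poly {y : F} (hy : Transcendental K y) (R : Subalgebra K F) (hyR : y ∈ R)
    (hfrac : ∀ f : F, ∃ D : K[X], D ≠ 0 ∧ aeval y D * f ∈ R) :
    ∃ D₀ : K[X], D₀ ≠ 0 ∧ ∀ f ∈ FF.intClosure K y, aeval y D₀ * f ∈ R := by
  classical
  obtain ⟨n₀, hn₀⟩ := exists_koszul hy
  set V := riemannRochSpace (n₀ • FF.poleDiv K y)
  set B := Module.finBasis K V
  choose D hD hDR using fun i => hfrac (B i : F)
  set D₀ := ∏ i, D i
  have hD0 : D₀ ≠ 0 := Finset.prod_ne_zero_iff.mpr fun i _ => hD i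
  have hP : ∀ P : K[X], aeval y P ∈ R := fun P =>
    Algebra.adjoin_le (by simpa using hyR) (aeval_mem_adjoin_singleton K y)
  have hV : ∀ f ∈ V, aeval y D₀ * f ∈ R := fun f hf => by
    rw [show f = ((∑ i, B.repr ⟨f, hf⟩ i • B i : V) : F) by rw [B.sum_repr],
      Submodule.coe_sum, Finset.mul_sum]
    refine sum_mem fun i _ => ?_
    rw [Submodule.coe_smul, mul_smul_comm]
    refine R.smul_mem ?_ _
    simp only [D₀, ← Finset.mul_prod_erase _ D (Finset.mem_univ i), map_mul]
    rw [mul_assoc, mul_left_comm]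
    exact mul_mem (hP _) (hDR i)
  refine ⟨D₀, hD0, fun f hf => ?_⟩
  obtain ⟨n, hn, hfn⟩ := exists_mem_nsmul_poleDiv hf n₀
  clear hf
  induction n, hn using Nat.le_induction generalizing f with
  | base => exact hV f hfn
  | succ m hm ih =>
    obtain ⟨a, ha, b, hb, rfl⟩ := hn₀ m hm f hfn
    rw [mul_add, mul_left_comm]
    exact add_mem (ih a ha) (mul_mem hyR (ih b hb))

/-- An integral function is approximated to every order at finitely many places by a ring which
separates points and tangents. -/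
theorem exists_approx_at {y : F} (R : Subalgebra K F)
    (hR : R ≤ FF.intClosure K y)
    (hsep : ∀ Q Q' : Place K F, FF.OrdGE Q y 0 → FF.OrdGE Q' y 0 → Q ≠ Q' →
      ∃ r ∈ R, FF.evalAt Q r = 1 ∧ FF.evalAt Q' r = 0)
    (hunif : ∀ Q : Place K F, FF.OrdGE Q y 0 → ∃ r ∈ R, Q.ord r = 1)
    (Z : Finset (Place K F)) (hZ : ∀ Q ∈ Z, FF.OrdGE Q y 0) {f : F}
    (hf : f ∈ FF.intClosure K y) (m : ℕ) : ∃ r ∈ R, ∀ Q ∈ Z, FF.OrdGE Q (f - r) m := by
  classical
  -- indicator elements at the places of `Z`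
  have hreg : ∀ {r : F}, r ∈ R → ∀ {Q : Place K F}, FF.OrdGE Q y 0 → FF.OrdGE Q r 0 :=
    fun hr _ hQ => FF.mem_intClosure_iff.mp (hR hr) _ hQ
  choose p hp hp1 using fun Q : Z => hunif Q (hZ Q Q.2)
  have hind : ∀ Q : Z, ∃ e ∈ R, FF.evalAt (Q : Place K F) e = 1 ∧
      ∀ Q' : Z, Q' ≠ Q → FF.evalAt (Q' : Place K F) e = 0 := by
    intro Q
    choose r hr hr1 hr0 using fun Q' : {Q' : Z // Q' ≠ Q} =>
      hsep Q Q'.1 (hZ _ Q.2) (hZ _ Q'.1.2) (fun h => Q'.2 (Subtype.ext h.symm))
    refine ⟨∏ Q', r Q', prod_mem fun i _ => hr i, ?_, fun Q' hne => ?_⟩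
    · rw [(FF.evalAt_prod Finset.univ r fun i _ => hreg (hr i) (hZ _ Q.2)).2]
      exact Finset.prod_eq_one fun i _ => hr1 i
    -- induction on the precision
    · rw [(FF.evalAt_prod Finset.univ r fun i _ => hreg (hr i) (hZ _ Q'.2)).2]
      exact Finset.prod_eq_zero (Finset.mem_univ ⟨Q', hne⟩) (hr0 ⟨Q', hne⟩)
  choose e he he1 he0 using hind
  induction m with
  | zero =>
    refine ⟨0, zero_mem R, fun Q hQ => ?_⟩
    rw [sub_zero]
    simpa using FF.mem_intClosure_iff.mp hf Q (hZ Q hQ)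
  | succ m ih =>
    obtain ⟨r, hr, hrm⟩ := ih
    set c : Z → K := fun Q => FF.evalAt (Q : Place K F) ((f - r) / p Q ^ m)
    refine ⟨r + ∑ Q : Z, c Q • (p Q ^ m * e Q ^ (m + 1)),
      add_mem hr (sum_mem fun Q _ =>
        R.smul_mem (mul_mem (pow_mem (hp Q) m) (pow_mem (he Q) _)) _),
      fun Q hQ => ?_⟩
    rw [← sub_sub, ← Finset.add_sum_erase _ _ (Finset.mem_univ (⟨Q, hQ⟩ : Z)), ← sub_sub]
    refine FF.OrdGE.sub ?_ (FF.OrdGE.sum fun Q' hQ' => ?_)
    · set Q₀ : Z := ⟨Q, hQ⟩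
      have hp0 : p Q₀ ≠ 0 := fun h => by have := hp1 Q₀; rw [h, Place.ord_zero] at this; omega
      have hpm : Q.ord (p Q₀ ^ m) = m := by
        rw [FF.ord_pow, show Q.ord (p Q₀) = 1 from hp1 Q₀, mul_one]
      have hu : FF.OrdGE Q ((f - r) / p Q₀ ^ m) 0 := by
        rw [div_eq_mul_inv]
        exact ((hrm Q hQ).mul (FF.ordGE_ord Q _)).mono (by rw [Q.ord_inv, hpm]; omega)
      have heQ : FF.OrdGE Q (e Q₀ ^ (m + 1)) 0 :=
        ((hreg (he Q₀) (hZ Q hQ)).pow _).mono (by simp)
      have h1 : FF.OrdGE Q ((f - r) / p Q₀ ^ m - algebraMap K F (c Q₀) * e Q₀ ^ (m + 1)) 1 := by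
        refine (FF.evalAt_eq_zero_iff
          (hu.sub (((FF.ordGE_algebraMap Q _).mul heQ).mono (by simp)))).mp ?_
        rw [FF.evalAt_sub hu (((FF.ordGE_algebraMap Q _).mul heQ).mono (by simp)),
          FF.evalAt_mul (FF.ordGE_algebraMap Q _) heQ, FF.evalAt_algebraMap,
          FF.evalAt_pow (hreg (he Q₀) (hZ Q hQ)), he1 Q₀, one_pow, mul_one, sub_self]
      have h2 := (FF.ordGE_ord Q (p Q₀ ^ m)).mul h1
      rw [hpm, mul_sub, mul_div_cancel₀ _ (pow_ne_zero m hp0)] at h2
      rw [Algebra.smul_def, mul_left_comm]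
      exact h2.mono (by push_cast; omega)
    · rw [Algebra.smul_def]
      have hne : (Q' : Place K F) ≠ Q := fun h =>
        (Finset.mem_erase.mp hQ').1 (Subtype.ext h)
      have heQ' : FF.OrdGE Q (e Q') 1 := (FF.evalAt_eq_zero_iff (hreg (he Q') (hZ Q hQ))).mp
        (he0 Q' ⟨Q, hQ⟩ fun h => hne (congrArg Subtype.val h).symm)
      refine ((FF.ordGE_algebraMap Q _).mul
        (((hreg (hp Q') (hZ Q hQ)).pow m).mul (heQ'.pow (m + 1)))).mono ?_
      simp

/-- A ring with the fractions and which separates points and tangents is normal. -/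
theorem intClosure_le_of_separates {y : F} (hy : Transcendental K y) (R : Subalgebra K F)
    (hyR : y ∈ R) (hR : R ≤ FF.intClosure K y)
    (hfrac : ∀ f : F, ∃ D : K[X], D ≠ 0 ∧ aeval y D * f ∈ R)
    (hsep : ∀ Q Q' : Place K F, FF.OrdGE Q y 0 → FF.OrdGE Q' y 0 → Q ≠ Q' →
      ∃ r ∈ R, FF.evalAt Q r = 1 ∧ FF.evalAt Q' r = 0)
    (hunif : ∀ Q : Place K F, FF.OrdGE Q y 0 → ∃ r ∈ R, Q.ord r = 1) :
    FF.intClosure K y ≤ R := by
  classical
  obtain ⟨D₀, hD0, hcond⟩ := exists_conductor_poly hy R hyR hfrac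
  intro f hf
  set Z : Finset (Place K F) :=
    (FF.finite_setOf_ord_ne_zero (K := K) (aeval y D₀)).toFinset.filter fun Q => FF.OrdGE Q y 0
  have hZ : ∀ Q ∈ Z, FF.OrdGE Q y 0 := fun Q hQ => (Finset.mem_filter.mp hQ).2
  have happ := exists_approx_at R hR hsep hunif Z hZ hf
  set N := ∑ Q ∈ Z, (Q.ord (aeval y D₀)).natAbs
  obtain ⟨r, hr, hrN⟩ := happ N
  have hD' : aeval y D₀ ≠ 0 := fun h => hD0 (transcendental_iff.mp hy _ h)
  have hh : (f - r) / aeval y D₀ ∈ FF.intClosure K y := by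
    refine FF.mem_intClosure_iff.mpr fun Q hQ => ?_
    rw [div_eq_mul_inv]
    by_cases h0 : Q.ord (aeval y D₀) = 0
    · refine ((FF.mem_intClosure_iff.mp (sub_mem hf (hR hr)) Q hQ).mul
        (FF.ordGE_ord Q _)).mono ?_
      rw [Q.ord_inv, h0]; simp
    · have hQZ : Q ∈ Z := Finset.mem_filter.mpr
        ⟨(FF.finite_setOf_ord_ne_zero (K := K) (aeval y D₀)).mem_toFinset.mpr h0, hQ⟩
      refine ((hrN Q hQZ).mul (FF.ordGE_ord Q _)).mono ?_
      have := Finset.single_le_sum (f := fun v : Place K F => (v.ord (aeval y D₀)).natAbs)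
        (fun _ _ => Nat.zero_le _) hQZ
      change _ ≤ N at this
      rw [Q.ord_inv]
      omega
  have := hcond _ hh
  rw [mul_div_cancel₀ _ hD'] at this
  simpa using add_mem this hr

end Fermat.RED.Model
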