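import Fermat.Agent.RED.Model.Gauss
import Fermat.Agent.RED.Model.GenusEq

/-!
# Injectivity of reduction on torsion prime to the residue characteristic

On a normal good model, a divisor class killed by `m`, invertible in the residue field, whose
reduction is principal is itself principal: the nonspecial divisor argument.
-/

set_option autoImplicit false

attribute [local instance 10000] SubalgebraClass.toAlgebra HahnSeries.powerSeriesAlgebra

noncomputable section

open AlgebraicCurve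

namespace Fermat.RED.Model

/-- An effective divisor with `ℓ = 1` has only constant sections. -/
theorem mem_range_of_mem_riemannRochSpace {K E : Type*} [Field K] [Field E] [Algebra K E]
    [IsAlgClosed K] [FF.IsFunctionField K E] {Eb : Divisor K E} (h0 : 0 ≤ Eb)
    (h1 : FF.ell Eb = 1) {z : E} (hz : z ∈ riemannRochSpace Eb) :
    z ∈ Set.range (algebraMap K E) := by
  rw [← Submodule.eq_of_le_of_finrank_le (FF.riemannRochSpace_mono h0) (by
    change FF.ell Eb ≤ FF.ell (0 : Divisor K E)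
    rw [h1, FF.ell_zero]), FF.riemannRochSpace_zero] at hz
  exact hz

open Classical in
/-- The pushforward of a divisor at a point is the sum over the points above it. -/
theorem mapDomain_apply_eq_sum {α β : Type*} (r : α → β) (D : α →₀ ℤ) (Q : β) :
    Finsupp.mapDomain r D Q = ∑ P ∈ D.support.filter (r · = Q), D P := by
  rw [Finsupp.mapDomain, Finsupp.sum_apply, Finsupp.sum, Finset.sum_filter]
  exact Finset.sum_congr rfl fun P _ => by rw [Finsupp.single_apply]

/-- An effective divisor pushed forward to zero at a point vanishes above it. -/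
theorem eq_zero_of_mapDomain_eq_zero {α β : Type*} {r : α → β} {D : α →₀ ℤ}
    (hnn : ∀ P, 0 ≤ D P) {Q : β} (h : Finsupp.mapDomain r D Q = 0) {P : α} (hP : r P = Q) :
    D P = 0 := by
  classical
  rw [mapDomain_apply_eq_sum] at h
  by_contra hne
  exact hne ((Finset.sum_eq_zero_iff_of_nonneg fun P _ => hnn P).mp h P
    (Finset.mem_filter.mpr ⟨Finsupp.mem_support_iff.mpr hne, hP⟩))

open Classical in
/-- An effective divisor whose pushforward has multiplicity one at a point is a single point, of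
multiplicity one, above it. -/
theorem exists_eq_single_of_mapDomain_eq_one {α β : Type*} {r : α → β} {D : α →₀ ℤ}
    (hnn : ∀ P, 0 ≤ D P) {Q : β} (h1 : Finsupp.mapDomain r D Q = 1) :
    ∃ P₁, r P₁ = Q ∧ ∀ P, r P = Q → D P = if P = P₁ then 1 else 0 := by
  rw [mapDomain_apply_eq_sum] at h1
  obtain ⟨P₁, hP₁, hne⟩ := Finset.exists_ne_zero_of_sum_ne_zero (by rw [h1]; exact one_ne_zero)
  have h2 := Finset.add_sum_erase _ (fun P => D P) hP₁
  have h3 := Finset.sum_nonneg (s := (D.support.filter (r · = Q)).erase P₁) fun P _ => hnn P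
  have h4 := hnn P₁
  refine ⟨P₁, (Finset.mem_filter.mp hP₁).2, fun P hP => ?_⟩
  split
  · next e => subst e; omega
  · next e =>
    by_contra hne'
    have := Finset.single_le_sum (f := fun P => D P) (fun P _ => hnn P)
      (Finset.mem_erase.mpr ⟨e, Finset.mem_filter.mpr ⟨Finsupp.mem_support_iff.mpr hne', hP⟩⟩ :
        P ∈ (D.support.filter (r · = Q)).erase P₁)
    have := hnn P
    omega

variable {L : Type*} [Field L] {A : ValuationSubring L}
variable {k : Type*} [Field k] {π : A →+* k}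
variable {F : Type*} [Field F] [Algebra L F] {ι : F →+* LaurentSeries L}
variable {x : F} {d : ℕ}
variable [IsAlgClosed L] [IsAlgClosed k]
variable [FF.IsFunctionField L F] [FF.IsFunctionField k (specField π ι)]
variable {r : Place L F → Place k (specField π ι)}

namespace GoodModel

/-- The order at `Q` of the value is the sum of the orders above. -/
theorem ord_gVal_eq (h : GoodModel π ι x d) (hn : Normal A π ι x) (hn' : Normal A π ι x⁻¹)
    (hr : IsReduction A π ι x r) {f : F} (hf : f ∈ gInt π ι) (h0 : gVal π ι f ≠ 0)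
    (Q : Place k (specField π ι)) [DecidableEq (Place k (specField π ι))] :
    Q.ord (gVal π ι f) = ∑ P ∈ (FF.divOf L f).support.filter (r · = Q), P.ord f := by
  classical
  rw [← FF.divOf_apply (K := k), ← h.mapDomain_divOf_gVal hn hn' hr hf h0, Finsupp.mapDomain,
    Finsupp.sum_apply, Finsupp.sum, Finset.sum_filter]
  exact Finset.sum_congr rfl fun P _ => by rw [Finsupp.single_apply, FF.divOf_apply]

/-- A function with no pole above `Q` has a value with no pole at `Q`. -/
theorem ord_gVal_nonneg (h : GoodModel π ι x d) (hn : Normal A π ι x) (hn' : Normal A π ι x⁻¹)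
    (hr : IsReduction A π ι x r) {f : F} (hf : f ∈ gInt π ι) (h0 : gVal π ι f ≠ 0)
    {Q : Place k (specField π ι)} (hreg : ∀ P, r P = Q → 0 ≤ P.ord f) :
    0 ≤ Q.ord (gVal π ι f) := by
  classical
  rw [h.ord_gVal_eq hn hn' hr hf h0 Q]
  exact Finset.sum_nonneg fun P hP => hreg P (Finset.mem_filter.mp hP).2

open Classical in
/-- A parameter with a simple zero at a given point and no other zero or pole in its disc. -/
theorem exists_parameter (h : GoodModel π ι x d) (hn : Normal A π ι x) (hn' : Normal A π ι x⁻¹)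
    (hr : IsReduction A π ι x r) (Q : Place k (specField π ι)) :
    ∃ φ : F, ι φ ∈ intSeries A ∧ Q.ord (redS π ι φ) = 1 ∧
      ∀ P₀, r P₀ = Q → ∃ a : A, π a = 0 ∧
        ∀ P, r P = Q → P.ord (φ - algebraMap L F a) = if P = P₀ then 1 else 0 := by
  classical
  -- it suffices to work in a chart where `Q` is finite
  suffices key : ∀ {y : F} (hy : GoodModel π ι y d), Normal A π ι y →
      FF.OrdGE Q (redS π ι y) 0 → (∀ P, r P = Q ↔ Reduces A π ι y P Q) →
      ∃ φ : F, ι φ ∈ intSeries A ∧ Q.ord (redS π ι φ) = 1 ∧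
        ∀ P₀, r P₀ = Q → ∃ a : A, π a = 0 ∧
          ∀ P, r P = Q → P.ord (φ - algebraMap L F a) = if P = P₀ then 1 else 0 by
    by_cases hQ : FF.OrdGE Q (redS π ι x) 0
    · exact key h hn hQ fun P => hr.finite_iff P Q hQ
    · exact key h.inv hn' ((h.not_ordGE_iff Q).mp hQ).1 fun P => hr.infinite_iff P Q hQ
  intro y hy hny hQ hiff
  -- lift a uniformiser at `Q`
  obtain ⟨z, hz, hz0, hzord⟩ := exists_integral_ord hy.transcendental_redS {Q}
    (by simpa using hQ) fun _ => 1
  obtain ⟨φ, hφ, rfl⟩ := hny z hz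
  have hQ1 : Q.ord (redS π ι φ) = 1 := by simpa using hzord Q (Finset.mem_singleton_self Q)
  have hQge : FF.OrdGE Q (redS π ι φ) 1 := (FF.ordGE_iff_of_ne hz0).mpr (by rw [hQ1])
  have hQ0 : FF.evalAt Q (redS π ι φ) = 0 :=
    (FF.evalAt_eq_zero_iff (hQge.mono zero_le_one)).mpr hQge
  refine ⟨φ, hy.int_chart φ hφ, hQ1, fun P₀ hP₀ => ?_⟩
  have hred₀ := (hiff P₀).mp hP₀
  obtain ⟨ha, hae⟩ := hred₀.eval φ hφ
  refine ⟨⟨_, ha⟩, hae.trans hQ0, ?_⟩
  set G := φ - algebraMap L F (FF.evalAt P₀ φ)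
  have hGc : G ∈ chart A y := sub_mem hφ (algebraMap_mem_chart y ha)
  have hGval : redS π ι G = redS π ι φ := by
    rw [redS_sub (hy.int_chart φ hφ) (hy.int_algebraMap ha), hy.redS_algebraMap ha, hae, hQ0,
      map_zero, sub_zero]
  have hG0 : G ≠ 0 := fun h0 => hz0 (by rw [← hGval, h0, redS_zero])
  have hnn : ∀ P, r P = Q → 0 ≤ P.ord G := fun P hP =>
    ((evalAt_mem hGc ((hiff P).mp hP).ord_left ((hiff P).mp hP).inChart.2).1).le_ord hG0
  have hreg₀ := (evalAt_mem hφ hred₀.ord_left hred₀.inChart.2).1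
  have hpos : 1 ≤ P₀.ord G := (FF.evalAt_spec hreg₀).le_ord hG0
  -- the orders over `Q` sum to one
  have hsum : ∑ P ∈ (FF.divOf L G).support.filter (r · = Q), P.ord G = 1 := by
    rw [← hQ1, ← hGval, ← gVal_of_int (hy.int_chart _ hGc)]
    exact (h.ord_gVal_eq hn hn' hr (mem_gInt_of_int (hy.int_chart _ hGc))
      (by rw [gVal_of_int (hy.int_chart _ hGc), hGval]; exact hz0) Q).symm
  have hmem₀ : P₀ ∈ (FF.divOf L G).support.filter (r · = Q) := Finset.mem_filter.mpr
    ⟨Finsupp.mem_support_iff.mpr (by rw [FF.divOf_apply]; omega), hP₀⟩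
  rw [← Finset.add_sum_erase _ _ hmem₀] at hsum
  have hrest := Finset.sum_nonneg (s := ((FF.divOf L G).support.filter (r · = Q)).erase P₀)
    fun P hP => hnn P (Finset.mem_filter.mp (Finset.mem_erase.mp hP).2).2
  intro P hP
  show P.ord G = _
  split
  · next e => subst e; omega
  · next e =>
    by_contra hne
    have hmem : P ∈ ((FF.divOf L G).support.filter (r · = Q)).erase P₀ := Finset.mem_erase.mpr
      ⟨e, Finset.mem_filter.mpr ⟨Finsupp.mem_support_iff.mpr (by rwa [FF.divOf_apply]), hP⟩⟩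
    have := Finset.single_le_sum (f := fun P : Place L F => P.ord G)
      (fun P hP => hnn P (Finset.mem_filter.mp (Finset.mem_erase.mp hP).2).2) hmem
    have := hnn P hP
    omega

omit [IsAlgClosed L] [IsAlgClosed k] [FF.IsFunctionField L F]
  [FF.IsFunctionField k (specField π ι)] in
/-- If `c z = b w` with `z̄ ≠ 0` and `b ≠ 0`, the value of `w` is a scalar times that of `z`. -/
theorem gVal_eq_of_smul_eq (h : GoodModel π ι x d) {c b : L} (hb : b ≠ 0) {z w : F}
    (hz : z ∈ gInt π ι) (hz0 : gVal π ι z ≠ 0) (hw : w ∈ gInt π ι)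
    (e : algebraMap L F c * z = algebraMap L F b * w) :
    ∃ γ : k, gVal π ι w = algebraMap k (specField π ι) γ * gVal π ι z := by
  have hbF : algebraMap L F b ≠ 0 := (_root_.map_ne_zero _).mpr hb
  have e' : algebraMap L F (c / b) * z = w := by
    rw [map_div₀, div_mul_eq_mul_div, e, mul_div_cancel_left₀ _ hbF]
  have hA := h.mem_of_smul_mem hz0 hw e'
  exact ⟨π ⟨_, hA⟩, by rw [← e', gVal_mul (h.algebraMap_mem_gInt hA) hz, h.gVal_algebraMap hA]⟩

omit [IsAlgClosed L] [IsAlgClosed k] [FF.IsFunctionField L F]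
  [FF.IsFunctionField k (specField π ι)] in
/-- An element `U` of `gInt` is `1 + e W` with `e ∈ A` and `W̄ ≠ 0`. -/
theorem exists_eq_one_add (h : GoodModel π ι x d) {U : F} (hU : U ∈ gInt π ι) :
    ∃ e : A, ∃ W ∈ gInt π ι, gVal π ι W ≠ 0 ∧ U = 1 + algebraMap L F e * W ∧
      ((e : L) = 0 → W = 1) := by
  rcases eq_or_ne U 1 with rfl | hne
  · exact ⟨0, 1, one_mem _, by simp, by simp, fun _ => rfl⟩
  obtain ⟨c, hc, W, hW, hW0, e⟩ := h.exists_eq_smul_gInt (sub_ne_zero.mpr hne)
  refine ⟨⟨c, h.mem_of_smul_mem hW0 (sub_mem hU (one_mem _)) e.symm⟩, W, hW, hW0, ?_,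
    fun h0 => absurd h0 hc⟩
  rw [← e]; ring

omit [IsAlgClosed L] [IsAlgClosed k] [FF.IsFunctionField L F]
  [FF.IsFunctionField k (specField π ι)] in
/-- The value of a geometric sum of two functions with the same value. -/
private theorem gVal_geom_sum {φb : specField π ι} {T T' : F} (hTR : T ∈ gInt π ι)
    (hT'R : T' ∈ gInt π ι) (hTv : gVal π ι T = φb) (hT'v : gVal π ι T' = φb) (m : ℕ) :
    ∑ i ∈ Finset.range m, T' ^ i * T ^ (m - 1 - i) ∈ gInt π ι ∧
      gVal π ι (∑ i ∈ Finset.range m, T' ^ i * T ^ (m - 1 - i))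
        = (m : specField π ι) * φb ^ (m - 1) := by
  refine ⟨sum_mem fun i _ => mul_mem (pow_mem hT'R i) (pow_mem hTR _), ?_⟩
  rw [gVal_sum _ fun i _ => mul_mem (pow_mem hT'R i) (pow_mem hTR _)]
  rw [Finset.sum_congr rfl (g := fun _ => φb ^ (m - 1)) fun i hi => by
    rw [gVal_mul (pow_mem hT'R i) (pow_mem hTR _), gVal_pow hT'R, gVal_pow hTR,
      hT'v, hTv, ← pow_add,
      show i + (m - 1 - i) = m - 1 by have := Finset.mem_range.mp hi; omega],
    Finset.sum_const, Finset.card_range, nsmul_eq_mul]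

omit [IsAlgClosed L] [IsAlgClosed k] [FF.IsFunctionField L F]
  [FF.IsFunctionField k (specField π ι)] in
/-- The estimate at `Q` from the identity `b v T^m = e W T'^m + δ S` with `S` the geometric sum of
`T'` and `T`, both lifting a parameter at `Q`. -/
private theorem neg_one_le_ord_of_identity (h : GoodModel π ι x d) {m : ℕ} (hm : (m : k) ≠ 0)
    {Q : Place k (specField π ι)} {φb : specField π ι} (hQ1 : Q.ord φb = 1) {T T' W v : F}
    (hTR : T ∈ gInt π ι) (hT'R : T' ∈ gInt π ι) (hTv : gVal π ι T = φb)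
    (hT'v : gVal π ι T' = φb) (hWR : W ∈ gInt π ι) (hW0 : gVal π ι W ≠ 0)
    (hWQ : 0 ≤ Q.ord (gVal π ι W)) {b e δ : A} (hb0 : (b : L) ≠ 0) (hv : v ∈ gInt π ι)
    (hv0 : gVal π ι v ≠ 0)
    (hkey : algebraMap L F e * (W * T' ^ m) + algebraMap L F δ *
        ∑ i ∈ Finset.range m, T' ^ i * T ^ (m - 1 - i) = algebraMap L F b * (v * T ^ m)) :
    -1 ≤ Q.ord (gVal π ι v) := by
  classical
  have hφ0 : φb ≠ 0 := fun h0 => by rw [h0, Place.ord_zero] at hQ1; omega
  set S := ∑ i ∈ Finset.range m, T' ^ i * T ^ (m - 1 - i)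
  obtain ⟨hSR, hSv⟩ := gVal_geom_sum hTR hT'R hTv hT'v m
  -- extract the scalar
  obtain ⟨c, α, β, hce, hcd, hαβ⟩ : ∃ c α β : A, (e : L) = c * α ∧ (δ : L) = c * β ∧
      (π β = 0 → α = 1) := by
    rcases (ValuationRing.iff_dvd_total.mp inferInstance).total e δ with hd | hd
    · obtain ⟨β, hβ⟩ := hd
      exact ⟨e, 1, β, by simp, by rw [hβ]; rfl, fun _ => rfl⟩
    · obtain ⟨α, hα⟩ := hd
      exact ⟨δ, α, 1, by rw [hα]; rfl, by simp, fun h1 => absurd h1 (by simp)⟩
  set inner := algebraMap k (specField π ι) (π α) * (gVal π ι W * φb)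
    + algebraMap k (specField π ι) (π β * m)
  have hWφ : FF.OrdGE Q (gVal π ι W * φb) 1 :=
    (((FF.ordGE_iff_of_ne hW0).mpr hWQ).mul ((FF.ordGE_iff_of_ne hφ0).mpr
      (show (1 : ℤ) ≤ Q.ord φb by rw [hQ1]))).mono (by simp)
  have hin : inner ≠ 0 ∧ FF.OrdGE Q inner 0 := by
    refine ⟨?_, ((((FF.ordGE_algebraMap Q _).mul hWφ).mono (by simp)).add
      (FF.ordGE_algebraMap Q _))⟩
    intro h0
    by_cases hβ : π β = 0
    · simp only [inner, hαβ hβ, map_one, one_mul, hβ, zero_mul, map_zero, add_zero] at h0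
      exact mul_ne_zero hW0 hφ0 h0
    · refine mul_ne_zero hβ hm (FF.eq_zero_of_ordGE_one (v := Q) ?_)
      rw [show algebraMap k (specField π ι) (π β * (m : k))
        = -(algebraMap k (specField π ι) (π α) * (gVal π ι W * φb))
          from eq_neg_of_add_eq_zero_right h0]
      exact (((FF.ordGE_algebraMap Q _).mul hWφ).mono (by simp)).neg
  set z := algebraMap L F α * (W * T' ^ m) + algebraMap L F β * S
  have hzR : z ∈ gInt π ι := add_mem
    (mul_mem (h.algebraMap_mem_gInt α.2) (mul_mem hWR (pow_mem hT'R m)))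
    (mul_mem (h.algebraMap_mem_gInt β.2) hSR)
  have hm0 : m ≠ 0 := fun h0 => hm (by rw [h0, Nat.cast_zero])
  have hzv : gVal π ι z = φb ^ (m - 1) * inner := by
    rw [gVal_add (mul_mem (h.algebraMap_mem_gInt α.2) (mul_mem hWR (pow_mem hT'R m)))
        (mul_mem (h.algebraMap_mem_gInt β.2) hSR),
      gVal_mul (h.algebraMap_mem_gInt α.2) (mul_mem hWR (pow_mem hT'R m)),
      gVal_mul (h.algebraMap_mem_gInt β.2) hSR, gVal_mul hWR (pow_mem hT'R m), gVal_pow hT'R, hT'v,
      hSv, h.gVal_algebraMap α.2, h.gVal_algebraMap β.2,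
      show φb ^ m = φb ^ (m - 1) *
        φb by rw [← pow_succ, Nat.sub_add_cancel (Nat.one_le_iff_ne_zero.mpr hm0)]]
    simp only [inner, map_mul, map_natCast]
    ring
  have heq : algebraMap L F c * z = algebraMap L F b * (v * T ^ m) := by
    rw [← hkey, hce, hcd, map_mul, map_mul]
    simp only [z]
    ring
  obtain ⟨γ, hγ⟩ := h.gVal_eq_of_smul_eq hb0 hzR
    (by rw [hzv]; exact mul_ne_zero (pow_ne_zero _ hφ0) hin.1) (mul_mem hv (pow_mem hTR m)) heq
  rw [hzv, gVal_mul hv (pow_mem hTR m), gVal_pow hTR, hTv] at hγ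
  have hvφ : gVal π ι v * φb = algebraMap k (specField π ι) γ * inner := by
    refine mul_right_cancel₀ (pow_ne_zero (m - 1) hφ0) ?_
    rw [mul_assoc, ← pow_succ', Nat.sub_add_cancel (Nat.one_le_iff_ne_zero.mpr hm0), hγ]
    ring
  have hfin : FF.OrdGE Q (gVal π ι v * φb) 0 :=
    hvφ ▸ ((FF.ordGE_algebraMap Q γ).mul hin.2).mono (by simp)
  have hle := hfin.le_ord (mul_ne_zero hv0 hφ0)
  rw [Q.ord_mul hv0 hφ0, hQ1] at hle
  omega

open Classical in
/-- The key local estimate: if `f = 1 + b v` has on the disc over `Q` the divisor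
`m (P₁ - P₀)`, then `v̄` has at most a simple pole at `Q`. -/
theorem neg_one_le_ord (h : GoodModel π ι x d) (hn : Normal A π ι x) (hn' : Normal A π ι x⁻¹)
    (hr : IsReduction A π ι x r) {m : ℕ} (hm : (m : k) ≠ 0) {f v : F} {b : A} (hb : π b = 0)
    (hb0 : (b : L) ≠ 0) (hv : v ∈ gInt π ι) (hv0 : gVal π ι v ≠ 0)
    (hf : f = 1 + algebraMap L F b * v)
    {Q : Place k (specField π ι)} {P₀ P₁ : Place L F} (h₀ : r P₀ = Q) (h₁ : r P₁ = Q)
    (hord : ∀ P, r P = Q →
      P.ord f = (if P = P₁ then (m : ℤ) else 0) - (if P = P₀ then (m : ℤ) else 0)) :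
    -1 ≤ Q.ord (gVal π ι v) := by
  classical
  obtain ⟨φ, hφ, hQ1, hpar⟩ := h.exists_parameter hn hn' hr Q
  obtain ⟨a, ha, hTord⟩ := hpar P₀ h₀
  obtain ⟨a', ha', hT'ord⟩ := hpar P₁ h₁
  set T := φ - algebraMap L F a
  set T' := φ - algebraMap L F a'
  set φb := gVal π ι φ
  have hφb : φb = redS π ι φ := gVal_of_int hφ
  have hφ0 : φb ≠ 0 := fun h0 => by
    rw [hφb] at h0; rw [h0, Place.ord_zero] at hQ1; omega
  have hφR : φ ∈ gInt π ι := mem_gInt_of_int hφ
  have hTR : T ∈ gInt π ι := sub_mem hφR (h.algebraMap_mem_gInt a.2)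
  have hT'R : T' ∈ gInt π ι := sub_mem hφR (h.algebraMap_mem_gInt a'.2)
  have hTv : gVal π ι T = φb := by
    rw [gVal_sub hφR (h.algebraMap_mem_gInt a.2), h.gVal_algebraMap a.2, ha, map_zero, sub_zero]
  have hT'v : gVal π ι T' = φb := by
    rw [gVal_sub hφR (h.algebraMap_mem_gInt a'.2), h.gVal_algebraMap a'.2, ha', map_zero, sub_zero]
  have hfR : f ∈ gInt π ι := hf ▸ add_mem (one_mem _) (mul_mem (h.algebraMap_mem_gInt b.2) hv)
  have hfv : gVal π ι f = 1 := by
    rw [hf, gVal_add (one_mem _) (mul_mem (h.algebraMap_mem_gInt b.2) hv), gVal_one,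
      gVal_mul (h.algebraMap_mem_gInt b.2) hv, h.gVal_algebraMap b.2, hb, map_zero, zero_mul,
      add_zero]
  have hT0 : T ≠ 0 := fun h0 => hφ0 (by rw [← hTv, h0, gVal_zero])
  have hT'0 : T' ≠ 0 := fun h0 => hφ0 (by rw [← hT'v, h0, gVal_zero])
  have hf0 : f ≠ 0 := fun h0 => one_ne_zero (hfv.symm.trans (by rw [h0, gVal_zero]))
  -- a function with no zero or pole in the disc
  set U := f * T ^ m * (T' ^ m)⁻¹
  obtain ⟨hinvR, hinvv⟩ := gVal_inv (pow_mem hT'R m)
    (by rw [gVal_pow hT'R, hT'v]; exact pow_ne_zero m hφ0)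
  have hUR : U ∈ gInt π ι := mul_mem (mul_mem hfR (pow_mem hTR m)) hinvR
  have hUord : ∀ P, r P = Q → P.ord U = 0 := fun P hP => by
    simp only [U]
    rw [P.ord_mul (mul_ne_zero hf0 (pow_ne_zero m hT0)) (inv_ne_zero (pow_ne_zero m hT'0)),
      P.ord_mul hf0 (pow_ne_zero m hT0), P.ord_inv, FF.ord_pow, FF.ord_pow, hord P hP, hTord P hP,
      hT'ord P hP]
    split_ifs <;> simp
  obtain ⟨e, W, hWR, hW0, hUe, hWone⟩ := h.exists_eq_one_add hUR
  have hWreg : ∀ P, r P = Q → 0 ≤ P.ord W := fun P hP => by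
    by_cases he : (e : L) = 0
    · rw [hWone he, P.ord_one]
    have heF : algebraMap L F e ≠ 0 := (_root_.map_ne_zero _).mpr he
    have hW' : W ≠ 0 := fun h0 => hW0 (by rw [h0, gVal_zero])
    have h1 : FF.OrdGE P (U - 1) 0 :=
      (FF.ordGE_of_ord_eq_zero (hUord P hP)).sub (FF.ordGE_one P)
    rw [hUe, add_sub_cancel_left] at h1
    have := h1.le_ord (mul_ne_zero heF hW')
    rwa [P.ord_mul heF hW', FF.ord_algebraMap, zero_add] at this
  have hWQ : 0 ≤ Q.ord (gVal π ι W) := h.ord_gVal_nonneg hn hn' hr hWR hW0 hWreg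
  have hkey : algebraMap L F e * (W * T' ^ m) + algebraMap L F ((a - a' : A) : L) *
      ∑ i ∈ Finset.range m, T' ^ i * T ^ (m - 1 - i) = algebraMap L F b * (v * T ^ m) := by
    have h1 : U * T' ^ m = f * T ^ m := by
      simp only [U]
      rw [inv_mul_cancel_right₀ (pow_ne_zero m hT'0)]
    have h3 : T' - T = algebraMap L F ((a - a' : A) : L) := by
      simp only [T, T', AddSubgroupClass.coe_sub, map_sub]; ring
    rw [← h3, mul_comm (T' - T), geom_sum₂_mul T' T m]
    linear_combination h1 - T' ^ m * hUe + T ^ m * hf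
  exact neg_one_le_ord_of_identity h hm (hφb ▸ hQ1) hTR hT'R hTv hT'v hWR hW0 hWQ hb0 hv hv0 hkey

/-- A class reducing to zero, moved by a lift of a nonspecial divisor, has an effective
representative reducing to that divisor. -/
theorem exists_effective_mapDomain_eq (h : GoodModel π ι x d) (hn : Normal A π ι x)
    (hn' : Normal A π ι x⁻¹) (hr : IsReduction A π ι x r) {D E : Divisor L F}
    {Eb : Divisor k (specField π ι)} (hD : Divisor.degree D = 0)
    (hE : Divisor.degree E = genusFF L F) (hrE : Finsupp.mapDomain r E = Eb) (hEb0 : 0 ≤ Eb)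
    (hEb1 : FF.ell Eb = 1)
    (hred : ∃ z : specField π ι, z ≠ 0 ∧ Finsupp.mapDomain r D = FF.divOf k z) :
    ∃ s : F, s ≠ 0 ∧ (∀ P, 0 ≤ (D + E + FF.divOf L s) P) ∧
      Finsupp.mapDomain r (D + E + FF.divOf L s) = Eb := by
  classical
  obtain ⟨hb, hhb0, hhbD⟩ := hred
  obtain ⟨s, hs0, hs⟩ := FF.exists_effective_of_ell_ne_zero (D := D + E) (by
    have := FF.riemann_inequality (D + E)
    rw [map_add, hD, hE] at this
    omega)
  refine ⟨s, hs0, fun P => Finsupp.le_def.mp hs P, ?_⟩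
  obtain ⟨cs, hcs, ws, hws, hws0, hse⟩ := h.exists_eq_smul_gInt hs0
  have hsw : FF.divOf L s = FF.divOf L ws := by
    ext P
    rw [FF.divOf_apply, FF.divOf_apply, hse, P.ord_mul ((_root_.map_ne_zero _).mpr hcs)
      (fun h0 => hws0 (by rw [h0, gVal_zero])), FF.ord_algebraMap, zero_add]
  have hrD' : Finsupp.mapDomain r (D + E + FF.divOf L s)
      = Eb + FF.divOf k (hb * gVal π ι ws) := by
    simp only [Finsupp.mapDomain_add, hhbD, hrE, hsw,
      h.mapDomain_divOf_gVal hn hn' hr hws hws0, FF.divOf_mul hhb0 hws0]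
    abel
  have h0 : 0 ≤ Eb + FF.divOf k (hb * gVal π ι ws) := by
    rw [← hrD']
    refine Finsupp.le_def.mpr fun Q => ?_
    rw [mapDomain_apply_eq_sum]
    exact Finset.sum_nonneg fun P _ => Finsupp.le_def.mp hs P
  obtain ⟨c, hc⟩ := mem_range_of_mem_riemannRochSpace hEb0 hEb1
    ((FF.nonneg_add_divOf_iff (mul_ne_zero hhb0 hws0)).mp h0)
  rw [hrD', show FF.divOf k (hb * gVal π ι ws) = 0 from Finsupp.ext fun Q => by
    rw [FF.divOf_apply, ← hc]; exact FF.ord_algebraMap Q c, add_zero]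

omit [IsAlgClosed L] [IsAlgClosed k] [FF.IsFunctionField L F]
  [FF.IsFunctionField k (specField π ι)] in
/-- Series proportional modulo the maximal ideal can be scaled to agree exactly at a coefficient
where the second is a unit. -/
theorem exists_scalar_coeff_eq (h : GoodModel π ι x d) {g u : F} (hg : ι g ∈ intSeries A)
    (hu : ι u ∈ intSeries A) (hu0 : redS π ι u ≠ 0) {κ : k} (hκ0 : κ ≠ 0)
    (hgκ : redF π ι g = algebraMap k (LaurentSeries k) κ * redF π ι u) :
    ∃ (n : ℤ) (lam μ : A), (μ : L) * lam = 1 ∧ π lam = κ ∧ (redF π ι u).coeff n ≠ 0 ∧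
      (ι (algebraMap L F μ * g - u)).coeff n = 0 := by
  obtain ⟨n, hun⟩ : ∃ n, (redF π ι u).coeff n ≠ 0 := by
    by_contra! hall
    exact hu0 (Subtype.ext (HahnSeries.ext (funext hall)))
  have hgn : (redF π ι g).coeff n = κ * (redF π ι u).coeff n := by
    rw [hgκ, coeff_algebraMap_mul]
  set γn : A := ⟨(ι g).coeff n, mem_intSeries_iff.mp hg n⟩
  set υn : A := ⟨(ι u).coeff n, mem_intSeries_iff.mp hu n⟩
  have hγ : (redF π ι g).coeff n = π γn := by rw [redF_of_mem hg, redHom_coeff]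
  have hυn : (redF π ι u).coeff n = π υn := by rw [redF_of_mem hu, redHom_coeff]
  obtain ⟨w, hw⟩ : IsUnit υn := isUnit_of_map_ne_zero h.surj (by rw [← hυn]; exact hun)
  set lam : A := γn * (w⁻¹ : Aˣ)
  have hlamπ : π lam = κ := by
    have h1 : π lam * π υn = π γn := by
      rw [← map_mul, mul_assoc, ← hw, Units.inv_mul, mul_one]
    rw [← hυn, ← hγ, hgn] at h1
    exact mul_right_cancel₀ hun h1
  obtain ⟨li, hli⟩ : IsUnit lam := isUnit_of_map_ne_zero h.surj (by rw [hlamπ]; exact hκ0)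
  have hμ : (((li⁻¹ : Aˣ) : A) : L) * lam = 1 := by
    rw [← hli]
    exact congrArg Subtype.val (Units.inv_mul li)
  refine ⟨n, lam, ((li⁻¹ : Aˣ) : A), hμ, hlamπ, hun, ?_⟩
  simp only [map_sub, map_mul, h.ι_algebraMap, HahnSeries.coeff_sub, coeff_algebraMap_mul]
  have : (γn : L) = lam * υn := by
    simp only [lam]
    push_cast
    rw [mul_assoc, ← Subring.coe_mul, ← hw, Units.inv_mul]
    simp
  change (((li⁻¹ : Aˣ) : A) : L) * γn - υn = 0
  rw [this, ← mul_assoc, hμ, one_mul, sub_self]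

omit [IsAlgClosed L] [IsAlgClosed k] [FF.IsFunctionField L F]
  [FF.IsFunctionField k (specField π ι)] in
/-- A series of reduction zero with a vanishing coefficient where `ū` does not vanish is `b v u`
with `π b = 0` and `v̄` not a constant. -/
theorem exists_nonconstant_of_coeff_eq_zero (h : GoodModel π ι x d) {u y : F}
    (hu : ι u ∈ intSeries A) (hu0 : redS π ι u ≠ 0) (hyc : y ∈ chart A x) (hy0 : y ≠ 0)
    (hyred : redS π ι y = 0) {n : ℤ} (hun : (redF π ι u).coeff n ≠ 0)
    (hyn : (ι y).coeff n = 0) :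
    ∃ b : A, π b = 0 ∧ (b : L) ≠ 0 ∧ ∃ v ∈ gInt π ι,
      gVal π ι v ∉ Set.range (algebraMap k (specField π ι)) ∧ y = algebraMap L F b * v * u := by
  obtain ⟨cb, hcbA, hcb0, w, hwc, hw0, hye⟩ := h.exists_eq_smul_primitive hyc hy0
  have hune : u ≠ 0 := fun h0 => hu0 (by rw [h0, redS_zero])
  have hbπ : π ⟨cb, hcbA⟩ = 0 := by
    have := congrArg Subtype.val hyred
    rw [coe_redS, hye, redF_mul (h.int_algebraMap hcbA) (h.int_chart _ hwc),
      h.redF_algebraMap hcbA] at this
    exact (map_eq_zero_iff _ (RingHom.injective _)).mp ((mul_eq_zero.mp this).resolve_right hw0)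
  have hrep : IsGQuot π ι (w / u) w u :=
    ⟨h.int_chart _ hwc, hu, fun h' => hu0 (Subtype.ext h'), div_mul_cancel₀ _ hune⟩
  refine ⟨⟨cb, hcbA⟩, hbπ, hcb0, w / u, hrep.mem,
    ?_, by rw [mul_assoc, div_mul_cancel₀ _ hune]; exact hye⟩
  rintro ⟨c, hc⟩
  rw [hrep.gVal_eq, eq_div_iff hu0] at hc
  have hcw := congrArg (fun z : specField π ι => (z : LaurentSeries k).coeff n) hc
  change (algebraMap k (LaurentSeries k) c * redF π ι u).coeff n = (redF π ι w).coeff n at hcw
  rw [coeff_algebraMap_mul, redF_of_mem (h.int_chart _ hwc), redHom_coeff] at hcw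
  have hwn : (ι w).coeff n = 0 := by
    have h1 := hyn
    rw [hye, map_mul, h.ι_algebraMap, coeff_algebraMap_mul] at h1
    exact (mul_eq_zero.mp h1).resolve_left hcb0
  rw [show (⟨(ι w).coeff n, mem_intSeries_iff.mp (h.int_chart _ hwc) n⟩ : A) = 0 from
    Subtype.ext hwn, map_zero] at hcw
  have hc0 : c = 0 := (mul_eq_zero.mp hcw).resolve_right hun
  rw [hc0] at hc
  have hwS : redS π ι w ≠ 0 := fun h0 => hw0 (congrArg Subtype.val h0)
  refine hwS (hc.symm.trans ?_)
  change algebraMap k (specField π ι) 0 * _ = 0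
  rw [map_zero, zero_mul]

/-- A function whose divisor reduces to zero is constant, or a scalar multiple of it is `1 + b v`
with `π b = 0` and `v̄` not a constant. -/
theorem ord_eq_zero_or_exists_one_add (h : GoodModel π ι x d) (hn : Normal A π ι x)
    (hn' : Normal A π ι x⁻¹) (hr : IsReduction A π ι x r) {f : F} (hf : f ≠ 0)
    (hdiv : Finsupp.mapDomain r (FF.divOf L f) = 0) :
    (∀ P : Place L F, P.ord f = 0) ∨ ∃ c : L, c ≠ 0 ∧ ∃ b : A, π b = 0 ∧ (b : L) ≠ 0 ∧
      ∃ v ∈ gInt π ι, gVal π ι v ∉ Set.range (algebraMap k (specField π ι)) ∧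
        algebraMap L F c * f = 1 + algebraMap L F b * v := by
  classical
  obtain ⟨Dp, c₀, g, hDp, hc₀, hg, ⟨⟨⟩, hg0⟩, hge⟩ :=
    h.exists_primitive_family (α := Unit) (fun _ => f) ⟨(), hf⟩
  set u := ax A x Dp
  have hu0 : redS π ι u ≠ 0 := fun h0 => h.redF_ax_ne_zero hDp (congrArg Subtype.val h0)
  have hg0' : redS π ι (g ()) ≠ 0 := fun h0 => hg0 (congrArg Subtype.val h0)
  have hune : u ≠ 0 := h.ax_ne_zero hDp
  have hc₀F : algebraMap L F c₀ ≠ 0 := (_root_.map_ne_zero _).mpr hc₀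
  have hrep : IsGQuot π ι (g () / u) (g ()) u :=
    ⟨h.int_chart _ (hg ()), h.int_ax Dp, h.redF_ax_ne_zero hDp, div_mul_cancel₀ _ hune⟩
  have hq : g () / u = algebraMap L F c₀⁻¹ * f := by
    rw [div_eq_iff hune, map_inv₀, mul_assoc, mul_comm f u, hge (), inv_mul_cancel_left₀ hc₀F]
  have hqord : ∀ P : Place L F, P.ord (g () / u) = P.ord f := fun P => by
    rw [hq, P.ord_mul ((_root_.map_ne_zero _).mpr (inv_ne_zero hc₀)) hf,
      FF.ord_algebraMap, zero_add]
  have hκ : FF.divOf k (redS π ι (g ()) / redS π ι u) = 0 := by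
    rw [← hrep.gVal_eq, ← h.mapDomain_divOf_gVal hn hn' hr hrep.mem
      (by rw [hrep.gVal_eq]; exact div_ne_zero hg0' hu0), show FF.divOf L (g () / u) = FF.divOf L f
      from Finsupp.ext fun P => by rw [FF.divOf_apply, FF.divOf_apply, hqord], hdiv]
  obtain ⟨κ, hκe⟩ := FF.mem_range_of_forall_ordGE (K := k) (f := redS π ι (g ()) / redS π ι u)
    fun Q => FF.ordGE_of_ord_eq_zero (by rw [← FF.divOf_apply, hκ]; rfl)
  have hκ0 : κ ≠ 0 := fun h0 => div_ne_zero hg0' hu0 (by rw [← hκe, h0, map_zero])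
  have hgκ : redF π ι (g ()) = algebraMap k (LaurentSeries k) κ * redF π ι u :=
    congrArg Subtype.val (((eq_div_iff hu0).mp hκe).symm)
  obtain ⟨n, lam, μ, hμ, hlamπ, hun, hyn⟩ :=
    h.exists_scalar_coeff_eq (h.int_chart _ (hg ())) (h.int_ax Dp) hu0 hκ0 hgκ
  -- `g₂ = μ g` agrees with `u` at `q ^ n` and modulo the place
  set g₂ := algebraMap L F μ * g ()
  have hg₂c : g₂ ∈ chart A x := mul_mem (algebraMap_mem_chart x μ.2) (hg ())
  rcases eq_or_ne (g₂ - u) 0 with hy0 | hy0
  · refine Or.inl fun P => ?_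
    rw [← hqord P, show g () / u = algebraMap L F lam by
      rw [div_eq_iff hune, ← sub_eq_zero.mp hy0]
      simp only [g₂]
      rw [← mul_assoc, ← map_mul, mul_comm (lam : L), hμ, map_one, one_mul], FF.ord_algebraMap]
  have hyred : redS π ι (g₂ - u) = 0 := by
    refine Subtype.ext ?_
    rw [coe_redS, redF_sub (h.int_chart _ hg₂c) (h.int_ax Dp),
      redF_mul (h.int_algebraMap μ.2) (h.int_chart _ (hg ())), h.redF_algebraMap μ.2,
      hgκ, ← mul_assoc,
      ← map_mul, ← hlamπ, ← map_mul π]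
    rw [show (⟨(μ : L), μ.2⟩ * lam : A) = 1 from Subtype.ext hμ, map_one, map_one,
      one_mul, sub_self]
    rfl
  obtain ⟨b, hb, hb0, v, hv, hvc, hy⟩ := h.exists_nonconstant_of_coeff_eq_zero (h.int_ax Dp) hu0
    (sub_mem hg₂c (ax_mem_chart x Dp)) hy0 hyred hun hyn
  have hμ0 : (μ : L) ≠ 0 := fun h0 => one_ne_zero (by rw [← hμ, h0, zero_mul])
  refine Or.inr ⟨μ * c₀⁻¹, mul_ne_zero hμ0 (inv_ne_zero hc₀), b, hb, hb0, v, hv, hvc, ?_⟩
  rw [map_mul, mul_assoc, ← hq, ← mul_div_assoc, div_eq_iff hune]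
  simp only [g₂] at hy
  linear_combination hy

open Classical in
/-- If `1 + b v` has divisor `m (D' - E)`, both effective with the same reduced divisor `∑ T`, then
`v̄` is a section of `∑ T`. -/
theorem gVal_mem_riemannRochSpace (h : GoodModel π ι x d) (hn : Normal A π ι x)
    (hn' : Normal A π ι x⁻¹) (hr : IsReduction A π ι x r) {m : ℕ} (hm : (m : k) ≠ 0)
    (T : Finset (Place k (specField π ι))) {p : Place k (specField π ι) → Place L F}
    (hp : ∀ Q, r (p Q) = Q) {D' : Divisor L F} (hnn : ∀ P, 0 ≤ D' P)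
    (hrD' : Finsupp.mapDomain r D' = ∑ Q ∈ T, Finsupp.single Q 1)
    {f v : F} {b : A} (hb : π b = 0) (hb0 : (b : L) ≠ 0) (hv : v ∈ gInt π ι)
    (hv0 : gVal π ι v ≠ 0) (hf : f = 1 + algebraMap L F b * v)
    (hord : ∀ P, P.ord f = (m : ℤ) * (D' P - (∑ Q ∈ T, Finsupp.single (p Q) 1 : Divisor L F) P)) :
    gVal π ι v ∈ riemannRochSpace (∑ Q ∈ T, Finsupp.single Q 1 : Divisor k (specField π ι)) := by
  -- both divisors as indicators
  have hEb : ∀ Q, (∑ Q' ∈ T, Finsupp.single Q' 1 : Divisor k (specField π ι)) Q =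
      if Q ∈ T then 1 else 0 := fun Q => by
    simp only [Finsupp.finsetSum_apply, Finsupp.single_apply, Finset.sum_ite_eq']
  have hE : ∀ P, (∑ Q ∈ T, Finsupp.single (p Q) 1 : Divisor L F) P =
      if r P ∈ T ∧ p (r P) = P then 1 else 0 := fun P => by
    simp only [Finsupp.finsetSum_apply, Finsupp.single_apply]
    split
    · next hP =>
      rw [Finset.sum_eq_single_of_mem (r P) hP.1 (fun Q _ hne => if_neg fun e =>
        hne (by rw [← e, hp])), if_pos hP.2]
    · next hP =>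
      exact Finset.sum_eq_zero fun Q hQ => if_neg fun e => hP (by rw [← e, hp]; exact ⟨hQ, rfl⟩)
  rw [FF.mem_riemannRochSpace]
  intro Q
  rw [FF.ordGE_iff_of_ne hv0, hEb]
  split
  -- on `T` the pole is at most simple
  · next hQ =>
    obtain ⟨P₁, hP₁, hP₁'⟩ := exists_eq_single_of_mapDomain_eq_one (Q := Q) hnn
      (by rw [hrD', hEb, if_pos hQ])
    refine h.neg_one_le_ord hn hn' hr hm hb hb0 hv hv0 hf (hp Q) hP₁ fun P hP => ?_
    rw [hord, hP₁' P hP, hE, hP]
    simp only [hQ, true_and, eq_comm (a := p Q)]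
    split_ifs <;> ring
  · next hQ =>
    -- elsewhere `f` is a unit on the fibre, so there is no pole
    rw [neg_zero]
    refine h.ord_gVal_nonneg hn hn' hr hv hv0 fun P hP => ?_
    have hP0 : P.ord f = 0 := by
      rw [hord, eq_zero_of_mapDomain_eq_zero hnn (by rw [hrD', hEb, if_neg hQ]) hP, hE,
        if_neg fun hh => hQ (hP ▸ hh.1)]
      ring
    have h1 : FF.OrdGE P (f - 1) 0 := (FF.ordGE_of_ord_eq_zero hP0).sub (FF.ordGE_one P)
    rw [hf, add_sub_cancel_left] at h1
    have hvne : v ≠ 0 := fun h0 => hv0 (by rw [h0, gVal_zero])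
    have := h1.le_ord (mul_ne_zero ((_root_.map_ne_zero _).mpr hb0) hvne)
    rwa [P.ord_mul ((_root_.map_ne_zero _).mpr hb0) hvne, FF.ord_algebraMap, zero_add] at this

/-- A torsion class of order prime to the residue characteristic that reduces to zero is zero. -/
theorem isPrincipal_of_torsion (h : GoodModel π ι x d) (hn : Normal A π ι x)
    (hn' : Normal A π ι x⁻¹) (hr : IsReduction A π ι x r) {m : ℕ} (hm : (m : k) ≠ 0)
    {D : Divisor L F} (hD : Divisor.degree D = 0) (hmD : ∃ f : F, f ≠ 0 ∧ m • D = FF.divOf L f)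
    (hred : ∃ z : specField π ι, z ≠ 0 ∧ Finsupp.mapDomain r D = FF.divOf k z) :
    ∃ f : F, f ≠ 0 ∧ D = FF.divOf L f := by
  classical
  obtain ⟨f, hf0, hfD⟩ := hmD
  have hgenus := h.genus_eq_of_normal hn hn'
  obtain ⟨T, hTcard, -, hT1, -⟩ :=
    FF.exists_nonspecial (K := k) (F := specField π ι) ∅ Set.finite_empty
  choose p hp using h.surjective_of_isReduction hn hn' hr
  set E : Divisor L F := ∑ Q ∈ T, Finsupp.single (p Q) 1 with hEdef
  have hrE : Finsupp.mapDomain r E = ∑ Q ∈ T, Finsupp.single Q (1 : ℤ) := by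
    simp only [E, Finsupp.mapDomain_finsetSum, Finsupp.mapDomain_single, hp]
  have hdegE : Divisor.degree E = genusFF L F := by
    simp only [E, map_sum, Divisor.degree_single, FF.deg_eq_one]
    simp [hTcard, hgenus]
  have hEb0 : (0 : Divisor k (specField π ι)) ≤ ∑ Q ∈ T, Finsupp.single Q 1 :=
    Finset.sum_nonneg fun Q _ => by simp
  obtain ⟨s, hs0, hnn, hrD'⟩ :=
    h.exists_effective_mapDomain_eq hn hn' hr hD hdegE hrE hEb0 hT1 hred
  set D' := D + E + FF.divOf L s
  -- the multiple is the divisor of a normalised function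
  set f₀ := f * s ^ m
  have hf₀0 : f₀ ≠ 0 := mul_ne_zero hf0 (pow_ne_zero m hs0)
  have hf₀ : ∀ P, P.ord f₀ = (m : ℤ) * (D' P - E P) := fun P => by
    have := congrArg (fun v => v P) hfD
    simp only [Finsupp.smul_apply, FF.divOf_apply, nsmul_eq_mul] at this
    simp only [f₀, D', Finsupp.add_apply, FF.divOf_apply]
    rw [P.ord_mul hf0 (pow_ne_zero m hs0), FF.ord_pow, ← this]
    ring
  have hdiv₀ : Finsupp.mapDomain r (FF.divOf L f₀) = 0 := by
    rw [show FF.divOf L f₀ = m • (D' - E) from Finsupp.ext fun P => by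
      rw [FF.divOf_apply, hf₀, Finsupp.smul_apply, Finsupp.sub_apply, nsmul_eq_mul],
      show Finsupp.mapDomain r (m • (D' - E)) = m • Finsupp.mapDomain r (D' - E) from
        map_nsmul (Finsupp.mapDomain.addMonoidHom r) m (D' - E),
      Finsupp.mapDomain_sub, hrD', hrE, sub_self, smul_zero]
  rcases h.ord_eq_zero_or_exists_one_add hn hn' hr hf₀0 hdiv₀ with
    hc | ⟨c, hc, b, hb, hb0, v, hv, hvc, he⟩
  · -- the function is constant
    refine ⟨s⁻¹, inv_ne_zero hs0, Finsupp.ext fun P => ?_⟩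
    have h2 := hf₀ P
    rw [hc P] at h2
    have hm0 : (m : ℤ) ≠ 0 := Int.natCast_ne_zero.mpr fun h0 => hm (by rw [h0, Nat.cast_zero])
    have h3 := (mul_eq_zero.mp h2.symm).resolve_left hm0
    rw [FF.divOf_apply, P.ord_inv]
    simp only [D', Finsupp.add_apply, FF.divOf_apply] at h3
    linarith
  -- otherwise the value of `v` would be a nonconstant section of the nonspecial divisor
  exfalso
  have hv0 : gVal π ι v ≠ 0 := fun h0 => hvc ⟨0, by rw [map_zero, h0]⟩
  exact hvc (mem_range_of_mem_riemannRochSpace hEb0 hT1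
    (h.gVal_mem_riemannRochSpace hn hn' hr hm T hp hnn hrD' hb hb0 hv hv0 he fun P => by
      rw [P.ord_mul ((_root_.map_ne_zero _).mpr hc) hf₀0, FF.ord_algebraMap, zero_add]
      exact hf₀ P))

end GoodModel

end Fermat.RED.Model
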