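import Fermat.Agent.RED.Model.LevelGenus
import Mathlib.FieldTheory.SeparableDegree

/-!
# Branch families at the poles of a coordinate

A family of as many embeddings into Laurent series as the degree over `k(x)`: separability and the
poles of `x`. Used by `RED/Full/Spec`.
-/

set_option autoImplicit false
set_option linter.unusedSectionVars false

attribute [local instance 10000] SubalgebraClass.toAlgebra HahnSeries.powerSeriesAlgebra

noncomputable section

open Polynomial IntermediateField AlgebraicCurve

namespace Fermat.RED.Cusps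

variable {k K : Type*} [Field k] [Field K] [Algebra k K] [IsAlgClosed k] [FF.IsFunctionField k K]
  {x : K}

/-- A family of embeddings into Laurent series agreeing on `x`, as many as the degree over
`k(x)`, each with a pole at `x`. -/
structure IsBranchFamily {ι' : Type*} (x : K) (emb : ι' → K →ₐ[k] LaurentSeries k) : Prop where
  /-- `x` is transcendental. -/
  transc : Transcendental k x
  /-- The embeddings agree on `x`. -/
  agree : ∀ q q', emb q x = emb q' x
  /-- `x` has a pole in each. -/
  pole : ∀ q, emb q x ∉ regSeries k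
  /-- The embeddings are distinct. -/
  inj : Function.Injective emb
  /-- Their number is the degree over `k(x)`. -/
  card : Module.finrank k⟮x⟯ K = Nat.card ι'

namespace IsBranchFamily

variable {ι' : Type*} [Finite ι'] [Nonempty ι'] {emb : ι' → K →ₐ[k] LaurentSeries k}
  (h : IsBranchFamily x emb)
include h

/-- The branches agree on `k(x)`. -/
theorem agree_adjoin (q q' : ι') (c : k⟮x⟯) : emb q (c : K) = emb q' (c : K) := by
  obtain ⟨c, hc⟩ := c
  obtain ⟨P, R, rfl⟩ := (mem_adjoin_simple_iff k c).mp hc
  simp only [map_div₀, ← Polynomial.aeval_algHom_apply, h.agree q q']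

omit h in
/-- All branches give `k(x)` the same embedding in the algebraic closure of the series field. -/
theorem commutes_aux (h : IsBranchFamily x emb) (q₀ q : ι') (c : k⟮x⟯) :
    algebraMap (LaurentSeries k) (AlgebraicClosure (LaurentSeries k)) (emb q (c : K)) =
      algebraMap (LaurentSeries k) (AlgebraicClosure (LaurentSeries k)) (emb q₀ (c : K)) := by
  rw [h.agree_adjoin q q₀]

/-- Separability over `k(x)`, and every embedding is one of the family. -/
theorem separable_and_surjective :
    Algebra.IsSeparable k⟮x⟯ K ∧ ∀ (q₀ : ι') (φ : K →+* AlgebraicClosure (LaurentSeries k)),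
      (∀ c : k⟮x⟯, φ (c : K) = algebraMap (LaurentSeries k) _ (emb q₀ (c : K))) →
      ∃ q, ∀ f, φ f = algebraMap (LaurentSeries k) _ (emb q f) := by
  classical
  have := FF.finiteDimensional_adjoin h.transc
  have key : ∀ q₀ : ι', Algebra.IsSeparable k⟮x⟯ K ∧
      ∀ (φ : K →+* AlgebraicClosure (LaurentSeries k)),
      (∀ c : k⟮x⟯, φ (c : K) = algebraMap (LaurentSeries k) _ (emb q₀ (c : K))) →
      ∃ q, ∀ f, φ f = algebraMap (LaurentSeries k) _ (emb q f) := by
    intro q₀
    let : Algebra k⟮x⟯ (AlgebraicClosure (LaurentSeries k)) :=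
      (((algebraMap (LaurentSeries k) (AlgebraicClosure (LaurentSeries k))).comp
        (emb q₀).toRingHom).comp (algebraMap k⟮x⟯ K)).toAlgebra
    let Φ : ι' → (K →ₐ[k⟮x⟯] AlgebraicClosure (LaurentSeries k)) := fun q =>
      { (algebraMap (LaurentSeries k) (AlgebraicClosure (LaurentSeries k))).comp
          (emb q).toRingHom with
        commutes' := fun c => h.commutes_aux q₀ q c }
    have hΦ : Function.Injective Φ := fun q q' e => h.inj (AlgHom.ext fun f =>
      (algebraMap (LaurentSeries k) (AlgebraicClosure (LaurentSeries k))).injective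
        (AlgHom.congr_fun e f))
    have hd := Field.finSepDegree_eq_of_isAlgClosed k⟮x⟯ K (AlgebraicClosure (LaurentSeries k))
    have h1 := Nat.card_le_card_of_injective Φ hΦ
    have h2 := Field.finSepDegree_le_finrank k⟮x⟯ K
    rw [← hd, ← h.card] at h1
    have heq := le_antisymm h2 h1
    refine ⟨(Field.finSepDegree_eq_finrank_iff _ _).mp heq, fun φ hφ => ?_⟩
    have hbij : Function.Bijective Φ :=
      (Nat.bijective_iff_injective_and_card Φ).mpr ⟨hΦ, by rw [← hd, heq, h.card]⟩
    obtain ⟨q, hq⟩ := hbij.2 { φ with commutes' := hφ }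
    exact ⟨q, fun f => (AlgHom.congr_fun hq f).symm⟩
  exact ⟨(key (Classical.arbitrary ι')).1, fun q₀ => (key q₀).2⟩

/-- The field is separable over `k(x)`. -/
theorem isSeparable : Algebra.IsSeparable k⟮x⟯ K := h.separable_and_surjective.1

/-- The place of a branch. -/
def place (q : ι') : Place k K :=
  FF.placeOfValuationSubring (V := (regSeries k).comap (emb q).toRingHom)
    (fun c => by
      rw [ValuationSubring.mem_comap]
      change emb q (algebraMap k K c) ∈ regSeries k
      rw [AlgHom.commutes, ModularCurve.algebraMap_laurentSeries_eq_single, mem_regSeries_iff]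
      exact fun n hn => HahnSeries.coeff_single_of_ne hn.ne)
    (fun htop => h.pole q (ValuationSubring.mem_comap.mp (htop ▸ ValuationSubring.mem_top x)))

/-- Regularity at the place of a branch is regularity of the series. -/
theorem ordGE_place (q : ι') (f : K) : FF.OrdGE (h.place q) f 0 ↔ emb q f ∈ regSeries k := by
  rw [← FF.mem_iff_ordGE]
  exact ValuationSubring.mem_comap

/-- The places of the branches are poles of `x`. -/
theorem ord_place_neg (q : ι') : (h.place q).ord x < 0 := by
  by_contra hle
  exact h.pole q ((h.ordGE_place q x).mp (FF.ordGE_iff.mpr (.inr (not_lt.mp hle))))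

/-- Regularity on all branches gives regularity at each pole of `x`. -/
theorem ordGE_of_forall {f : K} (hf : ∀ q, emb q f ∈ regSeries k) {Q : Place k K}
    (hQ : Q.ord x < 0) : FF.OrdGE Q f 0 := by
  classical
  have := FF.finiteDimensional_adjoin h.transc
  obtain ⟨q₀⟩ := (inferInstance : Nonempty ι')
  set Ω := AlgebraicClosure (LaurentSeries k)
  let alg : Algebra k⟮x⟯ Ω :=
    (((algebraMap (LaurentSeries k) Ω).comp (emb q₀).toRingHom).comp
      (algebraMap k⟮x⟯ K)).toAlgebra
  set g := minpoly k⟮x⟯ f
  have hg : IsIntegral k⟮x⟯ f := IsIntegral.of_finite _ _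
  set R := (algebraMap (LaurentSeries k) Ω).comp (regSeries k).toSubring.subtype
  -- the conjugates of `f` are regular series
  have hroots : ∀ r ∈ (g.map (algebraMap k⟮x⟯ Ω)).roots, r ∈ R.range := by
    intro r hr
    have hmem : r ∈ g.rootSet Ω := by
      rw [Polynomial.rootSet_def, Finset.mem_coe, Multiset.mem_toFinset]
      exact hr
    rw [← Algebra.IsAlgebraic.range_eval_eq_rootSet_minpoly] at hmem
    obtain ⟨φ, rfl⟩ := hmem
    obtain ⟨q, hq⟩ := h.separable_and_surjective.2 q₀ φ.toRingHom φ.commutes
    exact ⟨⟨emb q f, hf q⟩, (hq f).symm⟩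
  -- so the coefficients of its minimal polynomial are
  have hcoeff : ∀ n, emb q₀ ((g.coeff n : k⟮x⟯) : K) ∈ regSeries k := fun n => by
    have hl : g.map (algebraMap k⟮x⟯ Ω) ∈ Polynomial.lifts R := by
      rw [(IsAlgClosed.splits (g.map (algebraMap k⟮x⟯ Ω))).eq_prod_roots,
        show (g.map (algebraMap k⟮x⟯ Ω)).leadingCoeff = 1 from
          ((minpoly.monic hg).map _).leadingCoeff, map_one, one_mul]
      refine multiset_prod_mem _ fun p hp => ?_
      obtain ⟨r, hr, rfl⟩ := Multiset.mem_map.mp hp
      obtain ⟨z, hz⟩ := hroots r hr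
      exact ⟨X - Polynomial.C z, by simp [hz]⟩
    obtain ⟨z, hz⟩ := (Polynomial.lifts_iff_coeff_lifts _).mp hl n
    rw [coeff_map] at hz
    exact (algebraMap (LaurentSeries k) Ω).injective hz ▸ z.2
  have hne : ∀ {P : k[X]}, P ≠ 0 → aeval x P ≠ 0 := fun hP h0 =>
    hP (transcendental_iff.mp h.transc _ h0)
  -- hence these are regular at `Q`
  have hreg : ∀ n, ((g.coeff n : k⟮x⟯) : K) ∈ Q.toValuationSubring := fun n => by
    rw [FF.mem_iff_ordGE]
    set c : K := ((g.coeff n : k⟮x⟯) : K) with hc
    obtain ⟨P, R, hPR⟩ := (mem_adjoin_simple_iff k c).mp (g.coeff n).2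
    rcases eq_or_ne c 0 with h0 | h0
    · rw [h0]; exact FF.ordGE_zero _ _
    have hR : R ≠ 0 := fun hR => h0 (by rw [hPR, hR, map_zero, div_zero])
    have hP : P ≠ 0 := fun hP => h0 (by rw [hPR, hP, map_zero, zero_div])
    have e : c * aeval x R = aeval x P := by rw [hPR, div_mul_cancel₀ _ (hne hR)]
    have key : ∀ v : Place k K, v.ord x < 0 →
        v.ord c = ((P.natDegree : ℤ) - R.natDegree) * v.ord x := by
      intro v hv
      have := congrArg v.ord e
      rw [v.ord_mul h0 (hne hR), FF.ord_aeval_of_neg hv hR, FF.ord_aeval_of_neg hv hP] at this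
      linarith
    have h1 := ((h.ordGE_place q₀ c).mpr (hcoeff n)).le_ord h0
    have h2 := key _ (h.ord_place_neg q₀)
    have h4 := h.ord_place_neg q₀
    have : (P.natDegree : ℤ) ≤ R.natDegree := by nlinarith
    exact (FF.ordGE_iff_of_ne h0).mpr (by rw [key Q hQ]; nlinarith)
  rw [← FF.mem_iff_ordGE]
  -- integrality finishes the proof
  obtain ⟨G, hG, -, hGm⟩ := Polynomial.lifts_and_natDegree_eq_and_monic
    (f := Q.toValuationSubring.subtype) (p := g.map (algebraMap k⟮x⟯ K))
    ((Polynomial.lifts_iff_coeff_lifts _).mpr fun n => ⟨⟨_, hreg n⟩, by rw [coeff_map]; rfl⟩)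
    ((minpoly.monic hg).map _)
  obtain ⟨y, hy⟩ := IsIntegrallyClosed.isIntegral_iff.mp (⟨G, hGm, by
    rw [← eval_map]
    change (G.map Q.toValuationSubring.subtype).eval f = 0
    rw [hG, eval_map, ← aeval_def, minpoly.aeval]⟩ : IsIntegral Q.toValuationSubring f)
  exact hy ▸ y.2

/-- The poles of `x` are at most as many as the classes of branches. -/
theorem exists_finset_poles {O : Type*} [Finite O] (cls : ι' → O)
    (hcls : ∀ q q', cls q = cls q' → ∀ f, emb q f ∈ regSeries k ↔ emb q' f ∈ regSeries k) :
    ∃ S : Finset (Place k K), S.card ≤ Nat.card O ∧ ∀ Q : Place k K, Q.ord x < 0 → Q ∈ S := by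
  classical
  have : Fintype O := Fintype.ofFinite _
  have : Fintype ι' := Fintype.ofFinite _
  set T' : Finset O := Finset.univ.image cls
  have hr : ∀ o : T', ∃ q, cls q = o := fun o => by
    obtain ⟨q, -, hq⟩ := Finset.mem_image.mp o.2
    exact ⟨q, hq⟩
  choose r hr using hr
  refine ⟨T'.attach.image fun o => h.place (r o), Finset.card_image_le.trans (by
    rw [Finset.card_attach, Nat.card_eq_fintype_card]; exact Finset.card_le_univ _), fun Q hQ => ?_⟩
  by_contra hQS
  obtain ⟨f, hfQ, hfT⟩ := exists_pole_at hQ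
  refine hfQ (h.ordGE_of_forall (fun q => ?_) hQ)
  set o : T' := ⟨cls q, Finset.mem_image.mpr ⟨q, Finset.mem_univ q, rfl⟩⟩
  rw [← hcls (r o) q (hr o) f, ← h.ordGE_place]
  exact hfT _ (h.ord_place_neg _) fun hne =>
    hQS (Finset.mem_image.mpr ⟨o, Finset.mem_attach _ _, hne⟩)

end IsBranchFamily

end Fermat.RED.Cusps
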