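import Mathlib

/-!
# A discriminant clearing denominators

For a generator integral over a subring `R` of the ground field, the discriminant multiplies every
element integral over `R` into the algebra generated by it. Used by `RED/Model/X0`.
-/

set_option autoImplicit false

noncomputable section

namespace Fermat.RED.Model

variable {J F : Type*} [Field J] [Field F] [Algebra J F] {R : Type*} [CommRing R]
  [IsIntegrallyClosed R] [Algebra R J] [IsFractionRing R J] [Algebra R F] [IsScalarTower R J F]
  [Algebra.IsSeparable J F] (E : Type*) [Field E] [Algebra J E] [IsAlgClosed E]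

/-- The discriminant of an integral generator clears the denominators of integral elements. -/
theorem exists_disc (pb : PowerBasis J F) (hint : IsIntegral R pb.gen) :
    ∃ D : R, (∃ e : Fin pb.dim → (F →ₐ[J] E), Function.Injective (fun i => e i pb.gen) ∧
        algebraMap J E (algebraMap R J D)
          = ∏ i : Fin pb.dim, ∏ j ∈ Finset.Ioi i, (e j pb.gen - e i pb.gen) ^ 2) ∧
      ∀ z : F, IsIntegral R z → algebraMap R F D * z ∈ Algebra.adjoin R ({pb.gen} : Set F) := by
  have := pb.finite
  have hcard : Fintype.card (F →ₐ[J] E) = pb.dim := by
    rw [AlgHom.card J F E, pb.finrank]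
  set e : Fin pb.dim ≃ (F →ₐ[J] E) := (Fintype.equivFinOfCardEq hcard).symm
  have hdint : IsIntegral R (Algebra.discr J pb.basis) := by
    refine Algebra.discr_isIntegral J (R := R) fun i => ?_
    rw [PowerBasis.coe_basis]
    exact hint.pow _
  obtain ⟨D, hD⟩ := IsIntegrallyClosed.isIntegral_iff.mp hdint
  refine ⟨D, ⟨e, fun i j h => e.injective (pb.algHom_ext h), ?_⟩, fun z hz => ?_⟩
  · rw [hD]
    exact Algebra.discr_powerBasis_eq_prod J E pb e
  · have := Algebra.discr_mul_isIntegral_mem_adjoin J hint hz
    rwa [← hD, algebraMap_smul, Algebra.smul_def] at this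

omit [Algebra.IsSeparable J F] in
/-- The same for a generating element in characteristic zero. -/
theorem exists_disc_of_generator [CharZero J] (hfin : 0 < Module.finrank J F) {y : F}
    (hint : IsIntegral R y) (htop : IntermediateField.adjoin J {y} = ⊤) :
    ∃ D : R, (∃ e : Fin (minpoly J y).natDegree → (F →ₐ[J] E),
        Function.Injective (fun i => e i y) ∧
        algebraMap J E (algebraMap R J D)
          = ∏ i, ∏ j ∈ Finset.Ioi i, (e j y - e i y) ^ 2) ∧
      ∀ z : F, IsIntegral R z → algebraMap R F D * z ∈ Algebra.adjoin R ({y} : Set F) := by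
  have : Module.Finite J F := Module.finite_of_finrank_pos hfin
  have : PerfectField J := PerfectField.ofCharZero
  have : Algebra.IsSeparable J F := Algebra.IsAlgebraic.isSeparable_of_perfectField
  have hy : IsIntegral J y := hint.tower_top
  have htop' : Algebra.adjoin J {y} = ⊤ := by
    rw [← IntermediateField.adjoin_simple_toSubalgebra_of_isAlgebraic hy.isAlgebraic, htop,
      IntermediateField.top_toSubalgebra]
  exact exists_disc E ((Algebra.adjoin.powerBasis hy).map
    ((Subalgebra.equivOfEq _ ⊤ htop').trans Subalgebra.topEquiv)) hint

end Fermat.RED.Model
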