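import Fermat.Agent.RED.Model.Basic
import Fermat.Agent.RED.Model.Disc
import Fermat.Agent.RED.FullField

/-!
# The good model of `X₀(M)` at a place not dividing `M`

Over a valuation ring whose residue characteristic does not divide `M`, the expansion at infinity
and the coordinate `j` give a good model of the function field of level `M`, of degree `ψ(M)`.
-/

set_option autoImplicit false

attribute [local instance 10000] SubalgebraClass.toAlgebra HahnSeries.powerSeriesAlgebra

noncomputable section

open ModularCurve Polynomial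

namespace Fermat.RED.Model

variable {L : Type*} [Field L] {A : ValuationSubring L}
variable {k : Type*} [Field k] {π : A →+* k}

/-- The `q`-expansion of `j` over `A` maps to the one over `L`. -/
theorem coeffMap_subtype_jqModC : coeffMap A.subtype (jqModC A) = jqModC L := coeffMap_jqModC _

/-- The expansion of `j` is integral. -/
theorem jqModC_mem_intSeries : jqModC L ∈ intSeries A := ⟨jqModC A, coeffMap_subtype_jqModC⟩

/-- The expansion of `1/j` is integral: the leading coefficient of `j` is `1`. -/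
theorem inv_jqModC_mem_intSeries (hπ : Function.Surjective π) :
    (jqModC L)⁻¹ ∈ intSeries A := by
  refine inv_mem_intSeries hπ jqModC_mem_intSeries ?_
  have hord : (jqModC L).order = -1 := by
    have h := order_jb (k := L) 1 1
    rwa [jb_one, qExpand_one_apply, Nat.cast_one] at h
  have h1 : (⟨(jqModC L).leadingCoeff, by
      rw [HahnSeries.leadingCoeff_eq]; exact mem_intSeries_iff.mp jqModC_mem_intSeries _⟩ :
        A) = 1 :=
    Subtype.ext (by
      change (jqModC L).leadingCoeff = (1 : L)
      rw [HahnSeries.leadingCoeff_eq, hord, coeff_jqModC_neg_one])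
  rw [h1, map_one]
  exact one_ne_zero

/-- If `M ≠ 0` in `k` then `M ≠ 0` in `L` and `M` is a unit of `A`. -/
theorem natCast_ne_zero_of_residue {M : ℕ} (hM : (M : k) ≠ 0) (hπ : Function.Surjective π) :
    (M : L) ≠ 0 ∧ IsUnit (M : A) := by
  have hu : IsUnit (M : A) := isUnit_of_map_ne_zero hπ (by rwa [map_natCast])
  refine ⟨?_, hu⟩
  have := hu.map A.subtype
  rw [map_natCast] at this
  exact this.ne_zero

variable (L)

/-- The function field of level `M`. -/
abbrev FX (M : ℕ) : Type _ := ↥(modularFunctionFieldFullC L M)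

/-- Its expansion at infinity. -/
abbrev expX (M : ℕ) : FX L M →+* LaurentSeries L := (modularFunctionFieldFullC L M).val.toRingHom

/-- The function `j`. -/
def jX (M : ℕ) : FX L M := ⟨jqModC L, jqModC_mem_full L M⟩

/-- The function `j(q^d)`. -/
def jdX (M d : ℕ) [NeZero d] (h : d ∣ M) : FX L M :=
  ⟨jb L 1 d, by rw [jb_one]; exact jqModCd_mem_full L M h⟩

variable {L}

/-- The expansion of the function `j` is the series `j`. -/
@[simp] theorem expX_jX (M : ℕ) : expX L M (jX L M) = jqModC L := rfl

/-- The expansion of `j(q^d)` is the branch series `jb 1 d`. -/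
@[simp] theorem expX_jdX (M d : ℕ) [NeZero d] (h : d ∣ M) : expX L M (jdX L M d h) = jb L 1 d := rfl

/-- The expansion `j(q^d)` is integral. -/
theorem jb_one_mem_intSeries (d : ℕ) [NeZero d] : jb L 1 d ∈ intSeries A :=
  ⟨jb A 1 d, by rw [coeffMap_jb, map_one]⟩

/-- Constants expand as constants. -/
theorem expX_algebraMap (M : ℕ) (c : L) :
    expX L M (algebraMap L (FX L M) c) = algebraMap L (LaurentSeries L) c :=
  (modularFunctionFieldFullC L M).val.commutes c

/-- The expansion of a polynomial in `j` is the polynomial in the series `j`. -/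
theorem expX_aeval (M : ℕ) (G : L[X]) : expX L M (aeval (jX L M) G) = aeval (jqModC L) G := by
  rw [← expX_jX M]
  exact (Polynomial.aeval_algHom_apply (modularFunctionFieldFullC L M).val (jX L M) G).symm

/-- The function `j` is nonzero. -/
theorem jX_ne_zero (M : ℕ) : jX L M ≠ 0 := fun h =>
  jqModC_ne_zero_of_nontrivial L (congrArg Subtype.val h)

/-- `j(q^(pm))` is a root of the modular polynomial of level `p` at `j(q^m)`; no root of unity is
assumed. -/
theorem eval_modular_self_mul_any {p : ℕ} [Fact p.Prime] (hp : (p : L) ≠ 0) (m : ℕ) [NeZero m] :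
    ((levelOne p).Φ.map (evalAt L (jb L 1 m))).eval (jb L 1 (p * m)) = 0 := by
  have : NeZero (p * m) := ⟨Nat.mul_ne_zero (NeZero.ne p) (NeZero.ne m)⟩
  set f := algebraMap L (AlgebraicClosure L)
  have hp' : (p : AlgebraicClosure L) ≠ 0 := by
    rw [← map_natCast f]; exact (_root_.map_ne_zero f).mpr hp
  obtain ⟨ζ, hζ⟩ := exists_isPrimitiveRoot_unit (AlgebraicClosure L) p hp'
  apply coeffMap_injective f f.injective
  rw [map_zero, ← eval_modular_self_mul hζ m, ← eval₂_at_apply, ← eval_map, Polynomial.map_map,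
    coeffMap_jb_one]
  congr 2
  refine Polynomial.ringHom_ext' (RingHom.ext_int _ _) ?_
  simp [evalAt, coeffMap_jb_one]

/-- `j(q^d)` is integral over `A[j]`. -/
theorem jdX_mem_chart (M : ℕ) (hM : (M : L) ≠ 0) :
    ∀ (d : ℕ) [NeZero d] (h : d ∣ M), jdX L M d h ∈ chart A (jX L M) := by
  intro d
  induction d using Nat.strong_induction_on with
  | _ d ih =>
    intro hne h
    by_cases hd1 : d = 1
    · subst hd1
      have : jdX L M 1 h = jX L M := Subtype.ext (by simp [jdX, jX, jb_one, qExpand_one_apply])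
      rw [this]
      exact self_mem_chart _
    · obtain ⟨p, hp, m, rfl⟩ : ∃ p, p.Prime ∧ ∃ m, d = p * m :=
        ⟨d.minFac, Nat.minFac_prime hd1, d / d.minFac, (Nat.mul_div_cancel' d.minFac_dvd).symm⟩
      have := Fact.mk hp
      have : NeZero m := ⟨fun h0 => NeZero.ne (p * m) (by rw [h0, mul_zero])⟩
      have hm : m ∣ M := (dvd_mul_left m p).trans h
      have hpL : (p : L) ≠ 0 := natCast_ne_zero_of_dvd ((dvd_mul_right p m).trans h) hM
      have hy := ih m (lt_mul_of_one_lt_left (Nat.pos_of_neZero m) hp.one_lt) hm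
      set y : chart A (jX L M) := ⟨_, hy⟩
      refine mem_chart_of_root ((levelOne p).monic_Φ.map
        (eval₂RingHom (Int.castRingHom (chart A (jX L M))) y)) ?_
      apply (expX L M).injective
      rw [map_zero, hom_eval₂, eval₂_map, ← eval_map, expX_jdX,
        ← eval_modular_self_mul_any hpL m]
      congr 2
      refine Polynomial.ringHom_ext' (RingHom.ext_int _ _) ?_
      simp only [evalAt, RingHom.coe_comp, Function.comp_apply, coe_eval₂RingHom, eval₂_X]
      rfl

section Closed

/-- The difference of two branch series is a unit when the leading terms differ modulo the place. -/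
theorem sub_unit_lead (hπ : Function.Surjective π) {c c' : Lˣ} {e e' : ℕ} [NeZero e] [NeZero e']
    (hA : jb L c e ∈ intSeries A) (hA' : jb L c' e' ∈ intSeries A)
    (hc : ∀ h : ((c⁻¹ : Lˣ) : L) ∈ A, π ⟨_, h⟩ ≠ 0)
    (hne : e = e' → ∀ h : ((c⁻¹ : Lˣ) : L) - (c'⁻¹ : Lˣ) ∈ A, π ⟨_, h⟩ ≠ 0)
    (hlt : e' ≤ e) : (jb L c e - jb L c' e')⁻¹ ∈ intSeries A := by
  set f := jb L c e - jb L c' e'
  have hf : f ∈ intSeries A := sub_mem hA hA'
  -- the coefficient of exponent `-e` is the leading one
  have hval : f.coeff (-(e : ℤ)) = if e = e' then ((c⁻¹ : Lˣ) : L) - (c'⁻¹ : Lˣ)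
      else (c⁻¹ : Lˣ) := by
    rw [HahnSeries.coeff_sub, coeff_jb_neg]
    split
    · rename_i h
      subst h
      rw [coeff_jb_neg]
    · rename_i h
      rw [coeff_jb_of_lt c' e' (by omega), sub_zero]
  -- it is nonzero modulo the place, by the hypotheses
  have hπne : π ⟨f.coeff (-(e : ℤ)), mem_intSeries_iff.mp hf _⟩ ≠ 0 := by
    have hmem := mem_intSeries_iff.mp hf (-(e : ℤ))
    rw [hval] at hmem
    by_cases h : e = e'
    · rw [if_pos h] at hmem
      rw [show (⟨f.coeff (-(e : ℤ)), mem_intSeries_iff.mp hf _⟩ : A) = ⟨_, hmem⟩ from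
        Subtype.ext (hval.trans (if_pos h))]
      exact hne h hmem
    · rw [if_neg h] at hmem
      rw [show (⟨f.coeff (-(e : ℤ)), mem_intSeries_iff.mp hf _⟩ : A) = ⟨_, hmem⟩ from
        Subtype.ext (hval.trans (if_neg h))]
      exact hc hmem
  have hc0 : f.coeff (-(e : ℤ)) ≠ 0 := fun h => hπne (by
    rw [show (⟨f.coeff (-(e : ℤ)), mem_intSeries_iff.mp hf _⟩ : A) = 0 from Subtype.ext h,
      map_zero])
  -- so it is the leading coefficient, and the inverse is integral
  have hord : f.order = -(e : ℤ) := by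
    refine le_antisymm (HahnSeries.order_le_of_coeff_ne_zero hc0) (le_of_not_gt fun hlt' => ?_)
    have hf0 : f ≠ 0 := fun h => hc0 (by rw [h, HahnSeries.coeff_zero])
    refine hf0 (HahnSeries.coeff_order_eq_zero.mp ?_)
    rw [HahnSeries.coeff_sub, coeff_jb_of_lt c e hlt',
      coeff_jb_of_lt c' e' (lt_of_lt_of_le hlt' (by omega)), sub_zero]
  refine inv_mem_intSeries hπ hf ?_
  intro h0
  refine hπne (Eq.trans (congrArg π (Subtype.ext ?_)) h0)
  change f.coeff (-(e : ℤ)) = f.leadingCoeff
  rw [HahnSeries.leadingCoeff_eq, hord]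

/-- Powers of a primitive root are units which stay distinct in the residue field. -/
theorem root_unit {M : ℕ} [NeZero M] (hM : (M : k) ≠ 0) {ξ : Lˣ}
    (hξ : IsPrimitiveRoot ξ M) (a : ℕ) :
    ∃ h : ((ξ ^ a : Lˣ) : L) ∈ A, π ⟨_, h⟩ ≠ 0 ∧
      (((ξ ^ a)⁻¹ : Lˣ) : L) ∈ A ∧
        ∀ b, (∀ h' : (((ξ ^ a)⁻¹ : Lˣ) : L) - ((ξ ^ b)⁻¹ : Lˣ) ∈ A, π ⟨_, h'⟩ = 0) →
          ξ ^ a = ξ ^ b := by
  have hmemA : ∀ c : Lˣ, c ^ M = 1 → ((c : L)) ∈ A := fun c hc => by
    rw [← A.valuation_le_one_iff]
    have : A.valuation (c : L) ^ M = 1 := by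
      rw [← map_pow, ← Units.val_pow_eq_pow_val, hc, Units.val_one, map_one]
    exact (((pow_eq_one_iff).mp this).resolve_right (NeZero.ne M)).le
  have hξA : ((ξ : L)) ∈ A := hmemA ξ hξ.pow_eq_one
  set ξA : A := ⟨ξ, hξA⟩
  have hprimA : IsPrimitiveRoot ξA M := IsPrimitiveRoot.of_map_of_injective (f := A.subtype)
    (by exact IsPrimitiveRoot.map_of_injective (f := Units.coeHom L) hξ Units.val_injective)
    Subtype.val_injective
  -- the reduction of ξ is still primitive, as X ^ M - 1 is separable over k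
  have hprim : IsPrimitiveRoot (π ξA) M := by
    have : NeZero (M : k) := ⟨hM⟩
    refine ⟨by rw [← map_pow, hprimA.pow_eq_one, map_one], fun l hl => ?_⟩
    have hnd : ((X : k[X]) ^ M - 1).roots.Nodup := by
      refine Polynomial.nodup_roots ?_
      simpa using Polynomial.separable_X_pow_sub_C (1 : k) hM one_ne_zero
    rw [X_pow_sub_one_eq_prod (Nat.pos_of_neZero M) hprimA |> fun h => show ((X : k[X]) ^ M - 1)
        = ((nthRootsFinset M (1 : A)).val.map fun z => X - C (π z)).prod by
      have := congrArg (Polynomial.map π) h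
      rw [Polynomial.map_sub, Polynomial.map_pow, map_X, Polynomial.map_one,
        Polynomial.map_prod] at this
      rw [this, Finset.prod_eq_multiset_prod]
      simp only [Polynomial.map_sub, map_X, map_C]] at hnd
    rw [show (nthRootsFinset M (1 : A)).val.map (fun z => X - Polynomial.C (π z))
        = ((nthRootsFinset M (1 : A)).val.map π).map (fun z => X - Polynomial.C z) from
      (Multiset.map_map (fun z => X - Polynomial.C z) π _).symm, roots_multiset_prod_X_sub_C] at hnd
    have hinj := Multiset.inj_on_of_nodup_map hnd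
    have : ξA ^ (l % M) = 1 := by
      refine hinj _ (by rw [Finset.mem_val, mem_nthRootsFinset (Nat.pos_of_neZero M), ← pow_mul,
          mul_comm, pow_mul, hprimA.pow_eq_one, one_pow]) _
        (by rw [Finset.mem_val, mem_nthRootsFinset (Nat.pos_of_neZero M), one_pow]) ?_
      rw [map_one, map_pow, ← hl, ← pow_eq_pow_mod l
        (by rw [← map_pow, hprimA.pow_eq_one, map_one])]
    rw [Nat.dvd_iff_mod_eq_zero]
    by_contra h0
    exact hprimA.pow_ne_one_of_pos_of_lt h0 (Nat.mod_lt _ (Nat.pos_of_neZero M)) this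
  -- powers of ξ⁻¹ lie in A as well
  have hinvA : ∀ b, (((ξ ^ b)⁻¹ : Lˣ) : L) ∈ A := fun b =>
    hmemA _ (by rw [inv_pow, ← pow_mul, mul_comm, pow_mul, hξ.pow_eq_one, one_pow, inv_one])
  refine ⟨hmemA _ (by rw [← pow_mul, mul_comm, pow_mul, hξ.pow_eq_one, one_pow]), ?_, hinvA a,
    fun b hb => ?_⟩
  · rw [show (⟨((ξ ^ a : Lˣ) : L), _⟩ : A) = ξA ^ a from Subtype.ext (by simp [ξA]), map_pow]
    exact pow_ne_zero _ (hprim.ne_zero (NeZero.ne M))
  -- reduce (ξ^a ξ^b) (ξ^-a - ξ^-b) = ξ^b - ξ^a: the powers agree in k, hence in L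
  · have hd := hb (sub_mem (hinvA a) (hinvA b))
    have e : (ξA ^ a * ξA ^ b) * (⟨(((ξ ^ a)⁻¹ : Lˣ) : L) - ((ξ ^ b)⁻¹ : Lˣ),
        sub_mem (hinvA a) (hinvA b)⟩ : A) = ξA ^ b - ξA ^ a := by
      apply Subtype.ext
      simp only [MulMemClass.coe_mul, SubmonoidClass.coe_pow, AddSubgroupClass.coe_sub, ξA,
        ← Units.val_pow_eq_pow_val]
      simp only [mul_sub, Units.val_inv_eq_inv_val]
      field_simp
    have := congrArg π e
    rw [map_mul, hd, mul_zero, map_sub, map_pow, map_pow, eq_comm, sub_eq_zero] at this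
    set ξk : kˣ := Units.mk0 (π ξA) (hprim.ne_zero (NeZero.ne M))
    have hprimU : IsPrimitiveRoot ξk M := IsPrimitiveRoot.coe_units_iff.mp hprim
    rw [pow_eq_pow_iff_modEq, ← hξ.eq_orderOf, hprimU.eq_orderOf, ← pow_eq_pow_iff_modEq]
    exact Units.ext (by simpa [ξk] using this.symm)

/-- Differences of distinct branch values are units. -/
theorem sub_inv_mem_intSeries (hπ : Function.Surjective π) {M : ℕ} [NeZero M] (hM : (M : k) ≠ 0)
    {ξ : Lˣ} (hξ : IsPrimitiveRoot ξ M) {a b e e' : ℕ} [NeZero e] [NeZero e']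
    (hne : jb L (ξ ^ a) e ≠ jb L (ξ ^ b) e') :
    (jb L (ξ ^ a) e - jb L (ξ ^ b) e')⁻¹ ∈ intSeries A := by
  have hmem : ∀ c e, NeZero e → jb L (ξ ^ c) e ∈ intSeries A := by
    intro c e he
    obtain ⟨h, hu, -, -⟩ := root_unit (π := π) hM hξ c
    obtain ⟨u, hu'⟩ := isUnit_of_map_ne_zero hπ hu
    refine ⟨jb A u e, ?_⟩
    rw [coeffMap_jb]
    congr 1
    exact Units.ext (congrArg Subtype.val hu')
  have hlead : ∀ c (h : (((ξ ^ c)⁻¹ : Lˣ) : L) ∈ A), π ⟨_, h⟩ ≠ 0 := by
    intro c h h0
    obtain ⟨hc, hu, -, -⟩ := root_unit (π := π) hM hξ c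
    refine hu ?_
    have : (⟨_, hc⟩ : A) * ⟨_, h⟩ = 1 := Subtype.ext (by
      change ((ξ ^ c : Lˣ) : L) * (((ξ ^ c)⁻¹ : Lˣ) : L) = 1
      exact Units.mul_inv _)
    have := congrArg π this
    rw [map_mul, h0, mul_zero, map_one] at this
    exact absurd this zero_ne_one
  wlog hle : e' ≤ e generalizing a b e e'
  · have := this (a := b) (b := a) (e := e') (e' := e) hne.symm (le_of_not_ge hle)
    rw [← neg_sub, inv_neg]
    exact neg_mem this
  refine sub_unit_lead hπ (hmem a e inferInstance) (hmem b e' inferInstance) (hlead a)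
    (fun he h h0 => hne ?_) hle
  obtain ⟨-, -, -, hsep⟩ := root_unit (π := π) hM hξ a
  rw [hsep b fun _ => h0, he]

end Closed

section Integral

/-- `L(j)` is the fraction field of `A[j]`. -/
theorem isFractionRing_jField :
    letI := (ax A (⟨jqModC L, jqModC_mem_jField L⟩ : jField L)).toAlgebra
    IsFractionRing A[X] (jField L) := by
  let := (ax A (⟨jqModC L, jqModC_mem_jField L⟩ : jField L)).toAlgebra
  have htr : Transcendental L (⟨jqModC L, jqModC_mem_jField L⟩ : jField L) := fun h =>
    transcendental_jqModC (k := L) (h.algHom (jField L).val)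
  have : FaithfulSMul A[X] (jField L) :=
    (faithfulSMul_iff_algebraMap_injective _ _).mpr (ax_injective A htr)
  refine IsFractionRing.of_field A[X] (jField L) fun z => ?_
  obtain ⟨r, s, hrs⟩ := (IntermediateField.mem_adjoin_simple_iff L (z : LaurentSeries L)).mp z.2
  by_cases hs : s = 0
  · refine ⟨0, 1, Subtype.ext ?_⟩
    rw [hrs, hs, map_zero, div_zero, map_zero, zero_div]
    rfl
  obtain ⟨a, G, ha, hG, -⟩ := exists_primitive (A := A) (π := IsLocalRing.residue A) ![r, s] ⟨1, hs⟩
  refine ⟨G 0, G 1, Subtype.ext ?_⟩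
  have h0 := hG 0
  have h1 := hG 1
  simp only [Matrix.cons_val_zero, Matrix.cons_val_one] at h0 h1
  have hax : ∀ D : A[X], ((algebraMap A[X] (jField L) D : jField L) : LaurentSeries L)
      = aeval (jqModC L) (D.map A.subtype) := fun D => by
    rw [show algebraMap A[X] (jField L) D = ax A _ D from rfl, ax_eq]
    exact (Polynomial.aeval_algHom_apply (jField L).val _ _).symm
  have hvdiv : ∀ u v : jField L, ((u / v : jField L) : LaurentSeries L)
      = (u : LaurentSeries L) / v := fun u v => map_div₀ (jField L).val u v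
  rw [hrs, h0, h1, map_mul, map_mul, aeval_C, hvdiv, hax, hax,
    mul_div_mul_left _ _ ((_root_.map_ne_zero _).mpr ha)]

variable [IsAlgClosed L] [CharZero L]

/-- Functions integral over `A[j]` have integral expansion. -/
theorem expX_mem_intSeries (hπ : Function.Surjective π) {M : ℕ} [NeZero M] (hM : (M : k) ≠ 0)
    {f : FX L M} (hf : f ∈ chart A (jX L M)) : expX L M f ∈ intSeries A := by
  classical
  obtain ⟨hML, -⟩ := natCast_ne_zero_of_residue hM hπ
  obtain ⟨ξ, hξ⟩ := exists_isPrimitiveRoot_unit L M hML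
  -- `A[j] → L(j) → L(j)(j_M)`, with `w` the expansion
  set jT : jField L := ⟨jqModC L, jqModC_mem_jField L⟩
  let := (ax A jT).toAlgebra
  have := isFractionRing_jField (L := L) (A := A)
  let : Algebra A[X] (levelField L M) :=
    ((algebraMap (jField L) (levelField L M)).comp (algebraMap A[X] (jField L))).toAlgebra
  have : IsScalarTower A[X] (jField L) (levelField L M) := IsScalarTower.of_algebraMap_eq' rfl
  set w : levelField L M →+* LaurentSeries L := (levelField L M).val.toRingHom
  have hwR : ∀ D : A[X], w (algebraMap A[X] (levelField L M) D)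
      = aeval (jqModC L) (D.map A.subtype) := fun D => by
    change ((ax A jT D : jField L) : LaurentSeries L) = _
    rw [ax_eq]
    exact (Polynomial.aeval_algHom_apply (jField L).val _ _).symm
  have hwint : ∀ D : A[X], w (algebraMap A[X] (levelField L M) D) ∈ intSeries A := fun D => by
    rw [hwR, aeval_def, eval₂_map, eval₂_eq_sum_range]
    refine sum_mem fun i _ => mul_mem ?_ (pow_mem jqModC_mem_intSeries i)
    exact algebraMap_mem_intSeries (D.coeff i).2
  -- transport the integral equation
  have hsame : ∀ g : FX L M, (g : LaurentSeries L) ∈ levelField L M := fun g => by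
    rw [← IntermediateField.mem_restrictScalars L, levelField_restrictScalars]
    exact g.2
  have hint : ∀ g : FX L M, g ∈ chart A (jX L M) →
      IsIntegral A[X] (⟨_, hsame g⟩ : levelField L M) := by
    rintro g ⟨P, hP, hPg⟩
    refine ⟨P, hP, w.injective ?_⟩
    rw [map_zero, hom_eval₂]
    have h0 := congrArg (expX L M) hPg
    rw [map_zero, hom_eval₂] at h0
    refine Eq.trans ?_ h0
    congr 1
    refine RingHom.ext fun D => ?_
    rw [RingHom.comp_apply, hwR, RingHom.comp_apply]
    change _ = expX L M (ax A (jX L M) D)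
    rw [ax_eq, expX_aeval]
  have hy : IsIntegral A[X] (jE L M M dvd_rfl) := by
    have := hint _ (jdX_mem_chart (A := A) M hML M dvd_rfl)
    exact this
  -- the discriminant of `j_M` kills the denominators; its expansion has integral inverse
  have hfr := finrank_levelField (k := L) M hML
  obtain ⟨D, ⟨e, he, hDprod⟩, hD⟩ := exists_disc_of_generator (E := Branch L M)
    (hfr ▸ dedekindPsi_pos (NeZero.ne M)) hy (adjoin_jE_eq_top hML)
  choose a b ha hab using fun i => exists_val_of_algHom hξ M dvd_rfl (e i)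
  have hne0 : ∀ i, NeZero (a i * a i) := fun i => ⟨by
    have := fun h : a i = 0 => NeZero.ne M (Nat.eq_zero_of_zero_dvd (h ▸ ha i))
    exact mul_ne_zero this this⟩
  have hval : ∀ i, val L ξ M M (a i) (b i) = jb L (ξ ^ (a i * b i)) (a i * a i) := fun i =>
    valAt_eq ξ ⟨a i, b i⟩
  set P := ∏ i, ∏ j ∈ Finset.Ioi i,
    (val L ξ M M (a j) (b j) - val L ξ M M (a i) (b i)) ^ 2
  have hPeq : qExpand L M (w (algebraMap A[X] (levelField L M) D)) = P := by
    apply inc_injective L M
    simp only [P, map_prod, map_pow, map_sub, ← hab]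
    rw [← hDprod, algebraMap_branch]
    rfl
  have hPinv : P⁻¹ ∈ intSeries A := by
    simp only [P, ← Finset.prod_inv_distrib, ← inv_pow]
    refine prod_mem fun i _ => prod_mem fun j hj => pow_mem ?_ 2
    have := hne0 i
    have := hne0 j
    rw [hval i, hval j]
    refine sub_inv_mem_intSeries hπ hM hξ fun h => ?_
    rw [← hval i, ← hval j] at h
    exact (Finset.mem_Ioi.mp hj).ne' (he ((hab j).trans ((congrArg _ h).trans (hab i).symm)))
  have hDinv : (w (algebraMap A[X] (levelField L M) D))⁻¹ ∈ intSeries A := by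
    rw [mem_intSeries_iff]
    intro n
    rw [← qExpand_coeff_mul (N := M), map_inv₀, hPeq]
    exact mem_intSeries_iff.mp hPinv _
  -- so `D f` lies in `A[j, j_M]`, whose expansions are integral; divide by `D`
  have hz := hD _ (hint f hf)
  have hadj : ∀ u ∈ Algebra.adjoin A[X] ({jE L M M dvd_rfl} : Set (levelField L M)),
      w u ∈ intSeries A := by
    intro u hu
    induction hu using Algebra.adjoin_induction with
    | mem u hu =>
      rw [Set.mem_singleton_iff] at hu
      subst hu
      exact jb_one_mem_intSeries M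
    | algebraMap D => exact hwint D
    | add u v _ _ h1 h2 => rw [map_add]; exact add_mem h1 h2
    | mul u v _ _ h1 h2 => rw [map_mul]; exact mul_mem h1 h2
  have hDf := hadj _ hz
  rw [map_mul] at hDf
  have hD0 : w (algebraMap A[X] (levelField L M) D) ≠ 0 := fun h => by
    rw [h, map_zero] at hPeq
    refine Finset.prod_ne_zero_iff.mpr (fun i _ => Finset.prod_ne_zero_iff.mpr fun j hj =>
      pow_ne_zero 2 (sub_ne_zero.mpr fun h' => ?_)) hPeq.symm
    exact (Finset.mem_Ioi.mp hj).ne' (he ((hab j).trans ((congrArg _ h').trans (hab i).symm)))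
  have := mul_mem hDinv hDf
  rw [← mul_assoc, inv_mul_cancel₀ hD0, one_mul] at this
  exact this

end Integral

section GoodModel

/-- A valuation subring extends along any field embedding. -/
theorem exists_extension_valuationSubring {K : Type*} [Field K] (A : ValuationSubring L)
    (φ : L →+* K) : ∃ B : ValuationSubring K, ∀ a, φ a ∈ B ↔ a ∈ A := by
  obtain ⟨B, hB, hloc⟩ := IsLocalRing.exists_factor_valuationRing (φ.comp A.subtype)
  refine ⟨B, fun a => ⟨fun ha => ?_, fun ha => hB ⟨a, ha⟩⟩⟩
  by_contra haA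
  have hinv : a⁻¹ ∈ A := (A.mem_or_inv_mem a).resolve_left haA
  have ha0 : a ≠ 0 := fun h => haA (h ▸ zero_mem A)
  have hu : IsUnit (⟨a⁻¹, hinv⟩ : A) := by
    refine hloc.map_nonunit _ (IsUnit.of_mul_eq_one ⟨φ a, ha⟩ (Subtype.ext ?_))
    change φ a⁻¹ * φ a = 1
    rw [← map_mul, inv_mul_cancel₀ ha0, map_one]
  obtain ⟨c, hc⟩ := hu.exists_right_inv
  have hc' : a⁻¹ * (c : L) = 1 := congrArg Subtype.val hc
  exact haA (by
    have : (c : L) = a := by
      rw [← mul_one a, ← hc', ← mul_assoc, mul_inv_cancel₀ ha0, one_mul]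
    exact this ▸ c.2)

/-- Functions integral over `A[j]` have integral expansion, without assuming `L` algebraically
closed. -/
theorem expX_mem_intSeries_of_charZero [CharZero L] (hπ : Function.Surjective π) {M : ℕ} [NeZero M]
    (hM : (M : k) ≠ 0) {f : FX L M} (hf : f ∈ chart A (jX L M)) :
    expX L M f ∈ intSeries A := by
  -- extend the valuation ring to an algebraic closure; `M` stays nonzero in the residue field
  set K := AlgebraicClosure L
  set φ := algebraMap L K
  obtain ⟨B, hB⟩ := exists_extension_valuationSubring A φ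
  have : CharZero K := charZero_of_injective_algebraMap φ.injective
  have hM' : (M : IsLocalRing.ResidueField B) ≠ 0 := by
    obtain ⟨-, hu⟩ := natCast_ne_zero_of_residue hM hπ
    obtain ⟨c, hc⟩ := hu.exists_right_inv
    have hc' : ((M : L)) * (c : L) = 1 := by exact_mod_cast congrArg Subtype.val hc
    rw [← map_natCast (IsLocalRing.residue B)]
    refine (IsLocalRing.residue_ne_zero_iff_isUnit _).mpr ?_
    refine IsUnit.of_mul_eq_one ⟨φ c, (hB _).mpr c.2⟩ (Subtype.ext ?_)
    change ((M : B) : K) * φ c = 1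
    rw [show ((M : B) : K) = φ (M : L) by simp, ← map_mul, hc', map_one]
  have hmem : coeffMap φ (expX L M f) ∈ modularFunctionFieldFullC K M := coeffMap_mem_full φ f.2
  -- the image of `f` is still integral over the polynomials in `j`
  have hfK : (⟨_, hmem⟩ : FX K M) ∈ chart B (jX K M) := by
    obtain ⟨P, hP, hPf⟩ := hf
    set g : A →+* B := (φ.comp A.subtype).codRestrict B.toSubring fun a => (hB _).mpr a.2
    refine ⟨P.map (mapRingHom g), hP.map _, ?_⟩
    change eval₂ (ax B (jX K M)) _ _ = 0
    apply (expX K M).injective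
    have hPf' : P.eval₂ (ax A (jX L M)) f = 0 := hPf
    have h0 := congrArg ((coeffMap φ).comp (expX L M)) hPf'
    rw [map_zero, hom_eval₂] at h0
    rw [map_zero, hom_eval₂, eval₂_map]
    refine Eq.trans ?_ h0
    refine congrArg (fun h => eval₂ h (coeffMap φ (expX L M f)) P) ?_
    refine Polynomial.ringHom_ext (fun a => ?_) ?_
    · simp only [RingHom.comp_apply, coe_mapRingHom, Polynomial.map_C,
        ax_C, expX_algebraMap,
        algebraMap_laurentSeries_eq_single, coeffMap_single]
      rfl
    · simp only [RingHom.comp_apply, coe_mapRingHom, Polynomial.map_X,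
        ax_X, expX_jX, coeffMap_jqModC]
  -- apply the algebraically closed case and descend the coefficients
  have h := expX_mem_intSeries (π := IsLocalRing.residue B) IsLocalRing.residue_surjective hM' hfK
  rw [mem_intSeries_iff] at h ⊢
  exact fun n => (hB _).mp (h n)

/-- `X₀(M)` has a good model at `A`. -/
theorem goodModel_X0 [CharZero L] (hπ : Function.Surjective π) {M : ℕ} [NeZero M]
    (hM : (M : k) ≠ 0) : GoodModel π (expX L M) (jX L M) (dedekindPsi M) := by
  obtain ⟨hML, -⟩ := natCast_ne_zero_of_residue hM hπ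
  have hred : redF π (expX L M) (jX L M) = jqModC k := by
    rw [redF_of_mem (by rw [expX_jX]; exact jqModC_mem_intSeries)]
    refine Eq.trans ?_ (coeffMap_jqModC π)
    rw [← redHom_coeffMap π (jqModC A) ⟨_, rfl⟩]
    exact congrArg _ (Subtype.ext coeffMap_subtype_jqModC.symm)
  have hredy : redF π (expX L M) (jdX L M M dvd_rfl) = jb k 1 M := by
    have e : coeffMap A.subtype (jb A 1 M) = jb L 1 M := by rw [coeffMap_jb, map_one]
    rw [redF_of_mem (by rw [expX_jdX]; exact jb_one_mem_intSeries M)]
    refine Eq.trans ?_ (show coeffMap π (jb A 1 M) = jb k 1 M by rw [coeffMap_jb, map_one])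
    rw [← redHom_coeffMap π (jb A 1 M) ⟨_, rfl⟩]
    exact congrArg _ (Subtype.ext e.symm)
  -- the basis is `j_M ^ i` for `i < ψ(M)`
  refine ⟨⟨hπ, expX_algebraMap M, fun f hf => expX_mem_intSeries_of_charZero hπ hM hf, ?_,
    fun i => jdX L M M dvd_rfl ^ (i : ℕ), fun i => ?_, fun f => ?_, fun G hG => ?_⟩, ?_⟩
  rotate_left 4
  · rw [map_inv₀, expX_jX]; exact inv_jqModC_mem_intSeries hπ
  · rw [hred]; exact transcendental_jqModC
  · exact pow_mem (jdX_mem_chart M hML M dvd_rfl) _
  · obtain ⟨D, hD, G, e⟩ := exists_sum_jb hML f.2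
    refine ⟨D, hD, G, (expX L M).injective ?_⟩
    simp only [map_mul, map_sum, map_pow, expX_aeval, expX_jdX]
    exact e
  · rw [hred] at hG
    refine eq_zero_of_sum_jb_eq_zero hM ?_
    rw [← hG]
    refine Finset.sum_congr rfl fun i _ => ?_
    rw [redF_pow (by rw [expX_jdX]; exact jb_one_mem_intSeries M), hredy]

end GoodModel

end Fermat.RED.Model
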