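import Fermat.Agent.RED.Model.Lattice

/-!
# Separating coordinates

For `f` in a chart and `n` large, `t = f + c (x - a)ⁿ` gives a model of degree `n d` with the same
chart, along with the linear algebra of bases over `K(t)`. Used to compare orders in
`RED/Model/Place`.
-/

set_option autoImplicit false

attribute [local instance 10000] SubalgebraClass.toAlgebra HahnSeries.powerSeriesAlgebra

noncomputable section

open Polynomial AlgebraicCurve IntermediateField

namespace Fermat.RED.Model

section FunctionField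

variable {K F : Type*} [Field K] [Field F] [Algebra K F] [IsAlgClosed K] [FF.IsFunctionField K F]

/-- The coordinate `f + c (y - a) ^ n` has the same chart and degree `n d`. -/
theorem poleDiv_add_pow {y : F} (hy : Transcendental K y) {f : F}
    (hf : f ∈ FF.intClosure K y) {c : K} (hc : c ≠ 0) (a : K) {n : ℕ} (hn : 0 < n)
    (hbig : ∀ v : Place K F, v.ord f ≠ 0 → -v.ord f < n) :
    Transcendental K (f + algebraMap K F c * (y - algebraMap K F a) ^ n) ∧
    (∀ v : Place K F,
      FF.OrdGE v (f + algebraMap K F c * (y - algebraMap K F a) ^ n) 0 ↔ FF.OrdGE v y 0) ∧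
    Module.finrank K⟮f + algebraMap K F c * (y - algebraMap K F a) ^ n⟯ F
      = n * Module.finrank K⟮y⟯ F := by
  set w := algebraMap K F c * (y - algebraMap K F a) ^ n
  set t := f + w
  have hy0 : y ≠ 0 := fun h => hy (h ▸ isAlgebraic_zero)
  have hfy := FF.mem_intClosure_iff.mp hf
  have hreg : ∀ v : Place K F, FF.OrdGE v y 0 → FF.OrdGE v t 0 := fun v hv =>
    (hfy v hv).add (((FF.ordGE_algebraMap v c).mul
      ((hv.sub (FF.ordGE_algebraMap v a)).pow n)).mono (by simp))
  have hsub : ∀ v : Place K F, v.ord y < 0 →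
      v.ord (y - algebraMap K F a) = v.ord y ∧ y - algebraMap K F a ≠ 0 := by
    intro v hv
    rw [sub_eq_add_neg]
    exact FF.ord_eq_of_ordGE_lt v hy0 ((FF.ordGE_algebraMap v a).neg.mono (by omega))
  -- at a pole of `y` the new function has pole order `n` times that
  have hpole : ∀ v : Place K F, v.ord y < 0 → v.ord t = n * v.ord y ∧ t ≠ 0 := by
    intro v hv
    obtain ⟨h1, h1'⟩ := hsub v hv
    have hw0 : w ≠ 0 := mul_ne_zero ((_root_.map_ne_zero _).mpr hc) (pow_ne_zero n h1')
    have hw : v.ord w = n * v.ord y := by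
      rw [v.ord_mul ((_root_.map_ne_zero _).mpr hc) (pow_ne_zero n h1'), FF.ord_algebraMap,
        FF.ord_pow, h1, zero_add]
    have hfv : FF.OrdGE v f (v.ord w + 1) := by
      rw [FF.ordGE_iff, hw]
      right
      have hn1 : (n : ℤ) * v.ord y ≤ -(n : ℤ) := by nlinarith
      by_cases h0 : v.ord f = 0
      · rw [h0]
        have : (0 : ℤ) < n := by exact_mod_cast hn
        omega
      · have := hbig v h0
        omega
    have := FF.ord_eq_of_ordGE_lt v hw0 hfv
    rw [add_comm] at this
    rw [← hw]
    exact this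
  obtain ⟨v₀, hv₀⟩ := FF.exists_ord_neg (f := y) fun ⟨r, hr⟩ =>
    hy (hr ▸ isAlgebraic_algebraMap r)
  -- it is transcendental
  have ht : Transcendental K t := FF.transcendental_of_not_mem fun ⟨r, hr⟩ => by
    have h2 := (hpole v₀ hv₀).1
    rw [← hr, FF.ord_algebraMap] at h2
    nlinarith
  refine ⟨ht, fun v => ⟨fun h => ?_, hreg v⟩, ?_⟩
  · by_contra hv
    rw [FF.ordGE_iff, not_or, not_le] at hv
    have := hpole v hv.2
    have := h.le_ord this.2
    nlinarith [hv.2]
  -- its pole divisor is `n` times that of `y`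
  · have hdiv : FF.poleDiv K t = n • FF.poleDiv K y := by
      refine Finsupp.ext fun v => ?_
      rw [Finsupp.smul_apply, FF.poleDiv_apply, FF.poleDiv_apply, nsmul_eq_mul]
      rcases le_or_gt 0 (v.ord y) with hv | hv
      · rw [max_eq_right (show -v.ord y ≤ 0 by omega), max_eq_right, mul_zero]
        rcases FF.ordGE_iff.mp (hreg v (FF.ordGE_iff.mpr (.inr hv))) with h | h
        · rw [h]; simp
        · omega
      · rw [max_eq_left (show (0 : ℤ) ≤ -v.ord y by omega), (hpole v hv).1,
          max_eq_left (by nlinarith), mul_neg]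
    have h1 := FF.degree_poleDiv ht
    rw [hdiv, degree_nsmul_poleDiv hy] at h1
    exact_mod_cast h1.symm

omit [IsAlgClosed K] [FF.IsFunctionField K F] in
/-- Clearing denominators in a basis over `K(t)`. -/
theorem poly_span_of_basis {t : F} (ht : Transcendental K t) {d : ℕ}
    (B : Module.Basis (Fin d) K⟮t⟯ F) :
    (∀ f : F, ∃ D : K[X], D ≠ 0 ∧ ∃ G : Fin d → K[X],
      aeval t D * f = ∑ i, aeval t (G i) * B i) ∧
    ∀ G : Fin d → K[X], ∑ i, aeval t (G i) * B i = 0 → G = 0 := by
  classical
  have hmem : ∀ P : K[X], aeval t P ∈ K⟮t⟯ := fun P =>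
    algebra_adjoin_le_adjoin K _ (aeval_mem_adjoin_singleton K t)
  refine ⟨fun f => ?_, fun G hG => ?_⟩
  · choose r s hrs using fun i =>
      (IntermediateField.mem_adjoin_simple_iff K (B.repr f i : F)).mp (B.repr f i).2
    set s' : Fin d → K[X] := fun i => if s i = 0 then 1 else s i
    set r' : Fin d → K[X] := fun i => if s i = 0 then 0 else r i
    have hs' : ∀ i, s' i ≠ 0 := fun i => by
      simp only [s']; split <;> [exact one_ne_zero; assumption]
    have hrs' : ∀ i, aeval t (s' i) * (B.repr f i : F) = aeval t (r' i) := fun i => by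
      simp only [r', s']
      split
      · rename_i h; rw [hrs i, h, map_zero, div_zero, mul_zero]
      · rename_i h
        rw [hrs i, mul_div_cancel₀ _ fun h0 => h (transcendental_iff.mp ht _ h0)]
    refine ⟨∏ i, s' i, Finset.prod_ne_zero_iff.mpr fun i _ => hs' i,
      fun i => (∏ l ∈ Finset.univ.erase i, s' l) * r' i, ?_⟩
    conv_lhs => rw [← B.sum_repr f, Finset.mul_sum]
    refine Finset.sum_congr rfl fun i _ => ?_
    rw [← Finset.mul_prod_erase _ s' (Finset.mem_univ i), map_mul, map_mul, Algebra.smul_def,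
      IntermediateField.algebraMap_apply, ← hrs' i]
    ring
  · have hind := Fintype.linearIndependent_iff.mp B.linearIndependent
      (fun i => (⟨aeval t (G i), hmem _⟩ : K⟮t⟯)) (by
        rw [← hG]
        refine Finset.sum_congr rfl fun i _ => ?_
        rw [Algebra.smul_def, IntermediateField.algebraMap_apply])
    funext i
    exact transcendental_iff.mp ht _ (congrArg Subtype.val (hind i))

omit [IsAlgClosed K] in
/-- A set closed under multiplication generating the field spans it over any `K(t)` with `t` in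
the set. -/
theorem span_eq_top_of_fractions {t : F} (ht : Transcendental K t) (S : Subalgebra K F)
    (hS : ∀ f : F, ∃ s ∈ S, ∃ r ∈ S, s ≠ 0 ∧ f = r / s) :
    Submodule.span K⟮t⟯ (S : Set F) = ⊤ := by
  have := FF.finiteDimensional_adjoin ht
  set U := Submodule.span K⟮t⟯ (S : Set F)
  set B : Subalgebra K⟮t⟯ F := U.toSubalgebra (Submodule.subset_span S.one_mem) (by
    intro a b ha hb
    induction ha, hb using Submodule.span_induction₂ with
    | mem_mem u v hu hv => exact Submodule.subset_span (S.mul_mem hu hv)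
    | zero_left v _ => rw [zero_mul]; exact zero_mem _
    | zero_right u _ => rw [mul_zero]; exact zero_mem _
    | add_left u u' v _ _ _ h1 h2 => rw [add_mul]; exact add_mem h1 h2
    | add_right u v v' _ _ _ h1 h2 => rw [mul_add]; exact add_mem h1 h2
    | smul_left r u v _ _ h1 => rw [smul_mul_assoc]; exact Submodule.smul_mem _ _ h1
    | smul_right r u v _ _ h1 => rw [mul_smul_comm]; exact Submodule.smul_mem _ _ h1)
  refine eq_top_iff.mpr fun f _ => ?_
  obtain ⟨s, hs, r, hr, -, rfl⟩ := hS f
  have : Algebra.IsAlgebraic K⟮t⟯ F := Algebra.IsAlgebraic.of_finite _ _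
  change r / s ∈ B
  rw [div_eq_mul_inv]
  exact B.mul_mem (Submodule.subset_span hr) (B.inv_mem_of_algebraic
    (x := ⟨s, Submodule.subset_span hs⟩) (Algebra.IsAlgebraic.isAlgebraic s))

omit [IsAlgClosed K] in
/-- A basis over `K(t)` inside a subalgebra generating the field, in polynomial form. -/
theorem exists_indep_of_fractions {t : F} (ht : Transcendental K t) (S : Subalgebra K F)
    (hS : ∀ f : F, ∃ s ∈ S, ∃ r ∈ S, s ≠ 0 ∧ f = r / s) {m : ℕ}
    (hm : Module.finrank K⟮t⟯ F = m) :
    ∃ y : Fin m → F, (∀ i, y i ∈ S) ∧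
      ∀ G : Fin m → K[X], ∑ i, aeval t (G i) * y i = 0 → G = 0 := by
  classical
  have := FF.finiteDimensional_adjoin ht
  have hspan := span_eq_top_of_fractions ht S hS
  obtain ⟨bs, hbsS, hbspan, hbli⟩ := exists_linearIndependent K⟮t⟯ (S : Set F)
  rw [hspan] at hbspan
  let B0 : Module.Basis bs K⟮t⟯ F :=
    Module.Basis.mk hbli (by rw [Subtype.range_coe, hbspan])
  have : Fintype bs := FiniteDimensional.fintypeBasisIndex B0
  have hcard : Fintype.card bs = m := by rw [← Module.finrank_eq_card_basis B0, hm]
  let B1 := B0.reindex (Fintype.equivFinOfCardEq hcard)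
  refine ⟨B1, fun i => ?_, (poly_span_of_basis ht B1).2⟩
  rw [Module.Basis.reindex_apply, Module.Basis.mk_apply]
  exact hbsS (Subtype.coe_prop _)

omit [IsAlgClosed K] in
/-- An independent family with as many members as the degree spans. -/
theorem poly_span_of_indep {t : F} (ht : Transcendental K t) {m : ℕ} (hm0 : 0 < m)
    (hm : Module.finrank K⟮t⟯ F = m) {z : Fin m → F}
    (hz : ∀ G : Fin m → K[X], ∑ i, aeval t (G i) * z i = 0 → G = 0) (f : F) :
    ∃ D : K[X], D ≠ 0 ∧ ∃ G : Fin m → K[X], aeval t D * f = ∑ i, aeval t (G i) * z i := by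
  classical
  have := FF.finiteDimensional_adjoin ht
  have : Nonempty (Fin m) := ⟨⟨0, hm0⟩⟩
  -- independence over `K(t)`: clear denominators in a relation
  have hli : LinearIndependent K⟮t⟯ z := by
    rw [Fintype.linearIndependent_iff]
    intro u hu
    choose r s hrs using fun i => (IntermediateField.mem_adjoin_simple_iff K (u i : F)).mp (u i).2
    set s' : Fin m → K[X] := fun i => if s i = 0 then 1 else s i
    set r' : Fin m → K[X] := fun i => if s i = 0 then 0 else r i
    have hs' : ∀ i, s' i ≠ 0 := fun i => by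
      simp only [s']; split <;> [exact one_ne_zero; assumption]
    have hrs' : ∀ i, aeval t (s' i) * (u i : F) = aeval t (r' i) := fun i => by
      simp only [r', s']
      split
      · rename_i h; rw [hrs i, h, map_zero, div_zero, mul_zero]
      · rename_i h
        rw [hrs i, mul_div_cancel₀ _ fun h0 => h (transcendental_iff.mp ht _ h0)]
    have := hz (fun i => (∏ l ∈ Finset.univ.erase i, s' l) * r' i) (by
      refine Eq.trans ?_ (mul_zero (aeval t (∏ l, s' l)))
      rw [← hu, Finset.mul_sum]
      refine Finset.sum_congr rfl fun i _ => ?_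
      rw [← Finset.mul_prod_erase _ s' (Finset.mem_univ i), map_mul, map_mul, ← hrs' i,
        Algebra.smul_def, IntermediateField.algebraMap_apply]
      ring)
    intro i
    have h1 : r' i = 0 := (mul_eq_zero.mp (congrFun this i)).resolve_left
      (Finset.prod_ne_zero_iff.mpr fun l _ => hs' l)
    refine Subtype.ext ((mul_eq_zero.mp ?_).resolve_left
      fun h0 => hs' i (transcendental_iff.mp ht _ h0))
    rw [hrs' i, h1, map_zero]
  -- hence a basis, so every element is a combination
  have h := (poly_span_of_basis ht (basisOfLinearIndependentOfCardEqFinrank hli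
    (by rw [Fintype.card_fin, hm]))).1 f
  simpa using h

end FunctionField

variable {L : Type*} [Field L] {A : ValuationSubring L}
variable {k : Type*} [Field k] {π : A →+* k}
variable {F : Type*} [Field F] [Algebra L F] {ι : F →+* LaurentSeries L}
variable {x : F} {d : ℕ}

/-- For `n` large and `c` a unit, `f + c (x - a)^n` has the same chart as `x`. -/
theorem chart_add_pow {f : F} (hf : f ∈ chart A x) :
    ∃ n₀ : ℕ, ∀ n, n₀ ≤ n → ∀ c : A, IsUnit c → ∀ a : A,
      chart A (f + algebraMap L F c * (x - algebraMap L F a) ^ n) = chart A x := by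
  obtain ⟨P, hP, hPf⟩ := id hf
  set B := P.support.sup fun i => (P.coeff i).natDegree
  refine ⟨B + 1, fun n hn c hc a => ?_⟩
  set t := f + algebraMap L F c * (x - algebraMap L F a) ^ n with ht
  have htx : t ∈ chart A x := add_mem hf (mul_mem (algebraMap_mem_chart x c.2)
    (pow_mem (sub_mem (self_mem_chart x) (algebraMap_mem_chart x a.2)) n))
  refine le_antisymm (fun g hg => mem_chart_trans htx hg) (fun g hg => mem_chart_trans ?_ hg)
  -- an equation for `x` over `A[t]`
  set q : A[X][X] := Polynomial.C (Polynomial.C c) * (X - Polynomial.C (Polynomial.C a)) ^ n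
  set Y : A[X][X] := Polynomial.C (X : A[X]) - q
  set S : A[X][X] := ∑ i ∈ Finset.range P.natDegree,
    (P.coeff i).map (Polynomial.C : A →+* A[X]) * Y ^ i
  set R : A[X][X] := Y ^ P.natDegree + S
  have hqdeg : q.natDegree ≤ n := by
    refine natDegree_mul_le.trans ?_
    rw [natDegree_C, natDegree_pow, natDegree_X_sub_C, mul_one, zero_add]
  have hYdeg : Y.natDegree ≤ n :=
    (natDegree_sub_le _ _).trans (max_le (by simp) hqdeg)
  have hYn : Y.coeff n = -Polynomial.C c := by
    have hq : q.coeff n = Polynomial.C c := by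
      rw [coeff_C_mul]
      have hm := ((monic_X_sub_C (Polynomial.C a)).pow n).coeff_natDegree
      rw [natDegree_pow, natDegree_X_sub_C, mul_one] at hm
      rw [hm, mul_one]
    rw [coeff_sub, coeff_C, if_neg (by omega), hq, zero_sub]
  have hSdeg : S.natDegree < n * P.natDegree ∨ S = 0 := by
    by_cases h0 : P.natDegree = 0
    · right; simp [S, h0]
    left
    refine Nat.lt_of_le_of_lt (natDegree_sum_le_of_forall_le _ _ (n := B + n * (P.natDegree - 1))
      fun i hi => natDegree_mul_le.trans ?_) ?_
    · refine Nat.add_le_add (natDegree_map_le.trans ?_) ((natDegree_pow_le).trans ?_)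
      · by_cases h : P.coeff i = 0
        · simp [h]
        · exact Finset.le_sup (f := fun i => (P.coeff i).natDegree)
            (Polynomial.mem_support_iff.mpr h)
      · calc i * Y.natDegree ≤ (P.natDegree - 1) * n :=
              Nat.mul_le_mul (by have := Finset.mem_range.mp hi; omega) hYdeg
          _ = n * (P.natDegree - 1) := mul_comm _ _
    · have : n * P.natDegree = n * (P.natDegree - 1) + n := by
        rw [← Nat.mul_succ]; congr 1; omega
      omega
  have hSn : S.coeff (n * P.natDegree) = 0 ∧ S.natDegree ≤ n * P.natDegree := by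
    rcases hSdeg with h | h
    · exact ⟨coeff_eq_zero_of_natDegree_lt h, h.le⟩
    · simp [h]
  have hYm : (Y ^ P.natDegree).natDegree ≤ n * P.natDegree :=
    natDegree_pow_le.trans (by rw [mul_comm n]; exact Nat.mul_le_mul_left _ hYdeg)
  obtain ⟨u, hu⟩ : IsUnit ((-Polynomial.C c : A[X]) ^ P.natDegree) :=
    ((hc.map Polynomial.C).neg).pow _
  have hRc : R.coeff (n * P.natDegree) = (u : A[X]) := by
    rw [coeff_add, hSn.1, add_zero, mul_comm n, coeff_pow_of_natDegree_le hYdeg, hYn, hu]
  refine ⟨Polynomial.C ((u⁻¹ : A[X]ˣ) : A[X]) * R,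
    monic_of_natDegree_le_of_coeff_eq_one (n * P.natDegree)
      ((natDegree_C_mul_le _ _).trans ((natDegree_add_le _ _).trans (max_le hYm hSn.2)))
      (by rw [coeff_C_mul, hRc, Units.inv_mul]), ?_⟩
  change eval₂ (ax A t) x _ = 0
  rw [eval₂_mul]
  refine mul_eq_zero_of_right _ ?_
  have hPf' : P.eval₂ (ax A x) f = 0 := hPf
  have hY : eval₂ (ax A t) x Y = f := by
    simp only [Y, q, eval₂_sub, eval₂_mul, eval₂_C, eval₂_pow, eval₂_X, ax_C, ax_X, ht]
    ring
  have hcoe : ∀ G : A[X], eval₂ (ax A t) x (G.map (Polynomial.C : A →+* A[X])) = ax A x G :=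
    fun G => by
      rw [eval₂_map]
      simp only [ax, coe_eval₂RingHom]
      congr 1
      exact RingHom.ext fun a => by simp
  rw [hP.as_sum, eval₂_add, eval₂_X_pow, eval₂_finsetSum] at hPf'
  rw [← hPf']
  simp only [R, S, eval₂_add, eval₂_pow, eval₂_finsetSum, eval₂_mul, hY, hcoe, eval₂_C, eval₂_X]

/-- Reduction commutes with integral polynomials in the coordinate. -/
theorem redF_ax' (hια : ∀ c, ι (algebraMap L F c) = algebraMap L (LaurentSeries L) c) {t : F}
    (hint : ∀ f ∈ chart A t, ι f ∈ intSeries A) (P : A[X]) :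
    redF π ι (ax A t P) = aeval (redF π ι t) (P.map π) := by
  have hc : ∀ u : A, redF π ι (algebraMap L F u) = algebraMap k (LaurentSeries k) (π u) := by
    intro u
    rw [redF_of_mem (by rw [hια]; exact algebraMap_mem_intSeries u.2), ← redHom_algebraMap π u.2]
    congr 1
    exact Subtype.ext (hια u)
  induction P using Polynomial.induction_on' with
  | add p q hp hq =>
    rw [map_add, redF_add (hint _ (ax_mem_chart t p)) (hint _ (ax_mem_chart t q)), hp, hq,
      Polynomial.map_add, map_add]
  | monomial m u =>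
    rw [← C_mul_X_pow_eq_monomial, map_mul, map_pow, ax_C, ax_X, Polynomial.map_mul, map_C,
      Polynomial.map_pow, map_X, map_mul, map_pow, aeval_C, aeval_X,
      redF_mul (by rw [hια]; exact algebraMap_mem_intSeries u.2)
        (by rw [map_pow]; exact pow_mem (hint t (self_mem_chart t)) m),
      redF_pow (hint t (self_mem_chart t)), hc]

/-- A model from a family with independent reductions of the right size. -/
theorem PreModel.of_indep [FF.IsFunctionField L F] (hπ : Function.Surjective π)
    (hια : ∀ c, ι (algebraMap L F c) = algebraMap L (LaurentSeries L) c) {t : F}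
    (hint : ∀ f ∈ chart A t, ι f ∈ intSeries A) (htr : Transcendental k (redF π ι t))
    {m : ℕ} (hm0 : 0 < m) (hm : Module.finrank L⟮t⟯ F = m) {z : Fin m → F}
    (hz : ∀ i, z i ∈ chart A t)
    (hzi : ∀ G : Fin m → k[X], ∑ i, aeval (redF π ι t) (G i) * redF π ι (z i) = 0 → G = 0) :
    PreModel π ι t m := by
  classical
  have htt : Transcendental L t := by
    refine transcendental_iff.mpr fun P hP => ?_
    by_contra hne
    obtain ⟨u, G, hu, hG, ⟨⟩, hG0⟩ := exists_primitive (π := π) (α := Unit) (fun _ => P) ⟨(), hne⟩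
    rw [hG (), map_mul, aeval_C, ← ax_eq] at hP
    have h0 := (mul_eq_zero.mp hP).resolve_left ((_root_.map_ne_zero _).mpr hu)
    refine hG0 (transcendental_iff.mp htr _ ?_)
    rw [← redF_ax' hια hint, h0, redF_zero]
  refine ⟨hπ, hια, hint, htr, z, hz, poly_span_of_indep htt hm0 hm (fun G hG => ?_), hzi⟩
  by_contra hG0
  obtain ⟨u, G', hu, hG', j, hj⟩ := exists_primitive (π := π) G (by
    by_contra! hall
    exact hG0 (funext hall))
  have h1 : ∑ i, ax A t (G' i) * z i = 0 := by
    refine (mul_eq_zero.mp ?_).resolve_left ((_root_.map_ne_zero (algebraMap L F)).mpr hu)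
    rw [← hG, Finset.mul_sum]
    refine Finset.sum_congr rfl fun i _ => ?_
    rw [hG' i, map_mul, aeval_C, ← ax_eq, mul_assoc]
  refine hj (congrFun (hzi (fun i => (G' i).map π) ?_) j)
  rw [show (0 : LaurentSeries k) = redF π ι (∑ i, ax A t (G' i) * z i) by rw [h1, redF_zero],
    redF_sum _ fun i _ => hint _ (mul_mem (ax_mem_chart t _) (hz i))]
  refine Finset.sum_congr rfl fun i _ => ?_
  rw [redF_mul (hint _ (ax_mem_chart t _)) (hint _ (hz i)), redF_ax' hια hint]

namespace GoodModel

variable [IsAlgClosed L] [IsAlgClosed k] [FF.IsFunctionField L F]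
  [FF.IsFunctionField k (specField π ι)]

/-- The separating coordinate is a model. -/
theorem preModel_add_pow (h : GoodModel π ι x d) {f : F} (hf : f ∈ chart A x) :
    ∃ n₀ : ℕ, ∀ n, n₀ ≤ n → 0 < n → ∀ c : A, π c ≠ 0 → ∀ a : A,
      chart A (f + algebraMap L F c * (x - algebraMap L F a) ^ n) = chart A x ∧
      PreModel π ι (f + algebraMap L F c * (x - algebraMap L F a) ^ n) (n * d) ∧
      redS π ι (f + algebraMap L F c * (x - algebraMap L F a) ^ n)
        = redS π ι f + algebraMap k (specField π ι) (π c)
            * (redS π ι x - algebraMap k (specField π ι) (π a)) ^ n := by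
  classical
  obtain ⟨n₁, hn₁⟩ := chart_add_pow hf
  set b₁ := ∑ v ∈ (FF.finite_setOf_ord_ne_zero (K := L) f).toFinset, (v.ord f).natAbs
  set b₂ := ∑ v ∈ (FF.finite_setOf_ord_ne_zero (K := k) (redS π ι f)).toFinset,
    (v.ord (redS π ι f)).natAbs
  refine ⟨n₁ + b₁ + b₂ + 1, fun n hn hn0 c hc a => ?_⟩
  have hcu := isUnit_of_map_ne_zero h.surj hc
  have hchart := hn₁ n (by omega) c hcu a
  set t := f + algebraMap L F c * (x - algebraMap L F a) ^ n
  have hint : ι (x - algebraMap L F a) ∈ intSeries A :=
    h.int_chart _ (sub_mem (self_mem_chart x) (algebraMap_mem_chart x a.2))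
  have hred : redS π ι t = redS π ι f + algebraMap k (specField π ι) (π c)
      * (redS π ι x - algebraMap k (specField π ι) (π a)) ^ n := by
    rw [redS_add (h.int_chart f hf) (by
        rw [map_mul, map_pow]; exact mul_mem (h.int_algebraMap c.2) (pow_mem hint n)),
      redS_mul (h.int_algebraMap c.2) (by rw [map_pow]; exact pow_mem hint n),
      redS_pow hint, redS_sub h.int_self (h.int_algebraMap a.2), h.redS_algebraMap c.2,
      h.redS_algebraMap a.2]
  obtain ⟨-, -, e1⟩ := poleDiv_add_pow h.transcendental (mem_intClosure_of_mem_chart hf)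
    (c := (c : L)) (fun h0 => hc (by rw [show c = 0 from Subtype.ext h0, map_zero])) (a : L) hn0
    (fun v hv => by
      have := Finset.single_le_sum (f := fun v : Place L F => (v.ord f).natAbs)
        (fun _ _ => Nat.zero_le _)
        ((FF.finite_setOf_ord_ne_zero (K := L) f).mem_toFinset.mpr hv)
      change _ ≤ b₁ at this
      omega)
  obtain ⟨ht2, -, e2⟩ := poleDiv_add_pow h.transcendental_redS (h.redS_mem_intClosure hf) hc (π a)
    hn0 (fun v hv => by
      have := Finset.single_le_sum (f := fun v : Place k (specField π ι) =>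
          (v.ord (redS π ι f)).natAbs) (fun _ _ => Nat.zero_le _)
        ((FF.finite_setOf_ord_ne_zero (K := k) (redS π ι f)).mem_toFinset.mpr hv)
      change _ ≤ b₂ at this
      omega)
  rw [h.finrank_adjoin] at e1
  rw [h.finrank_spec, ← hred] at e2
  rw [← hred] at ht2
  refine ⟨hchart, ?_, hred⟩
  -- reduced chart
  let S : Subalgebra k (specField π ι) :=
    { carrier := {z | ∃ g ∈ chart A x, redS π ι g = z}
      mul_mem' := by
        rintro u v ⟨g, hg, rfl⟩ ⟨g', hg', rfl⟩
        exact ⟨g * g', mul_mem hg hg', redS_mul (h.int_chart g hg) (h.int_chart g' hg')⟩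
      add_mem' := by
        rintro u v ⟨g, hg, rfl⟩ ⟨g', hg', rfl⟩
        exact ⟨g + g', add_mem hg hg', redS_add (h.int_chart g hg) (h.int_chart g' hg')⟩
      algebraMap_mem' := fun r => by
        obtain ⟨⟨r', hr'⟩, rfl⟩ := h.surj r
        exact ⟨_, algebraMap_mem_chart x hr', h.redS_algebraMap hr'⟩ }
  have hfrac : ∀ z : specField π ι, ∃ s ∈ S, ∃ r ∈ S, s ≠ 0 ∧ z = r / s := by
    intro z
    obtain ⟨y, hyc, hys, hyi⟩ := h.basis
    obtain ⟨D, hD, G, e⟩ := h.exists_sum_of_mem hyc hys hyi z.2
    have hP : ∀ P : k[X], aeval (redS π ι x) P ∈ S := fun P => by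
      obtain ⟨P', hP'⟩ := Polynomial.map_surjective π h.surj P
      exact ⟨_, ax_mem_chart x P', by rw [h.redS_ax, hP']⟩
    refine ⟨aeval (redS π ι x) D, hP D, ∑ i, aeval (redS π ι x) (G i) * redS π ι (y i),
      sum_mem fun i _ => S.mul_mem (hP _) ⟨_, hyc i, rfl⟩,
      fun h0 => hD (transcendental_iff.mp h.transcendental_redS _ h0), ?_⟩
    rw [eq_div_iff fun h0 => hD (transcendental_iff.mp h.transcendental_redS _ h0), mul_comm]
    refine (specField π ι).val.toRingHom.injective ?_
    simp only [AlgHom.toRingHom_eq_coe, RingHom.coe_coe, map_mul, map_sum,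
      ← Polynomial.aeval_algHom_apply]
    exact e
  obtain ⟨y, hyS, hyi⟩ := exists_indep_of_fractions ht2 S hfrac e2
  choose z hz hzy using hyS
  have htr : Transcendental k (redF π ι t) := fun halg =>
    ht2 ((isAlgebraic_algHom_iff (specField π ι).val (specField π ι).val.injective).mp halg)
  refine PreModel.of_indep h.surj h.ι_algebraMap (hchart.symm ▸ h.int_chart) htr
    (Nat.mul_pos hn0 h.finrank_eq_pos) e1 (z := z) (fun i => hchart.symm ▸ hz i) fun G hG => ?_
  refine hyi G ((specField π ι).val.toRingHom.injective ?_)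
  simp only [AlgHom.toRingHom_eq_coe, RingHom.coe_coe, map_mul, map_sum, map_zero,
    ← Polynomial.aeval_algHom_apply, ← hzy]
  exact hG

end GoodModel

end Fermat.RED.Model
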