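import Fermat.Agent.RED.Model.Basic
import Fermat.Agent.RED.UnitArg

/-!
# Base change of a chart is a domain

For a model, the chart stays a domain after tensoring with any field over the residue field. Used
by `RED/Igusa` for the special fibre of the Igusa model.
-/

set_option autoImplicit false

noncomputable section

open ModularCurve TensorProduct

namespace Fermat.RED.Model

variable {L : Type*} [Field L] {A : ValuationSubring L}
variable {k : Type*} [Field k] {π : A →+* k}
variable {F : Type*} [Field F] [Algebra L F] {ι : F →+* LaurentSeries L}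
variable {x : F} {d : ℕ}
variable {Z R K : Type*} [CommRing Z] [CommRing R] [Field K] [Algebra Z R] [Algebra Z K]

/-- The chart tensored with a field over the residue field is a domain. -/
theorem PreModel.isDomain_tensorProduct (h : PreModel π ι x d) (g : Z →+* A)
    (hg : Function.Surjective g) (ψ : k →+* K) (hψ : ∀ z, algebraMap Z K z = ψ (π (g z)))
    (j : R →+* F) (hj : Function.Injective j) (hrange : ∀ f, f ∈ chart A x ↔ ∃ r, j r = f)
    (hjz : ∀ z, j (algebraMap Z R z) = algebraMap L F (g z)) :
    IsDomain (R ⊗[Z] K) := by
  classical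
  let := ψ.toAlgebra
  -- coefficientwise reduction of the expansions
  have hmem : ∀ r, j r ∈ chart A x := fun r => (hrange _).mpr ⟨r, rfl⟩
  have hint : ∀ r, ι (j r) ∈ intSeries A := fun r => h.int_chart _ (hmem r)
  let red : R →+* LaurentSeries k :=
    { toFun := fun r => redF π ι (j r)
      map_one' := by simp
      map_mul' := fun a b => by rw [map_mul]; exact redF_mul (hint a) (hint b)
      map_zero' := by simp
      map_add' := fun a b => by rw [map_add]; exact redF_add (hint a) (hint b) }
  have hredz : ∀ z, red (algebraMap Z R z) = algebraMap k (LaurentSeries k) (π (g z)) := fun z => by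
    change redF π ι (j _) = _
    rw [hjz, h.redF_algebraMap (g z).2]
  let : Algebra Z (LaurentSeries K) :=
    ((algebraMap K (LaurentSeries K)).comp (algebraMap Z K)).toAlgebra
  let f1 : R →ₐ[Z] LaurentSeries K :=
    { toRingHom := (coeffMap ψ).comp red
      commutes' := fun z => by
        change coeffMap ψ (red (algebraMap Z R z)) = algebraMap K _ (algebraMap Z K z)
        rw [hredz, hψ, algebraMap_laurentSeries_eq_single, coeffMap_single,
          algebraMap_laurentSeries_eq_single] }
  let f2 : K →ₐ[Z] LaurentSeries K :=
    { toRingHom := algebraMap K (LaurentSeries K)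
      commutes' := fun z => rfl }
  set Θ := Algebra.TensorProduct.productMap f1 f2 with hΘ
  have hΘinj : Function.Injective Θ := by
    rw [injective_iff_map_eq_zero]
    intro z hz
    obtain ⟨S, rfl⟩ := TensorProduct.exists_finset z
    set V := Submodule.span k ((fun p : R × K => p.2) '' (S : Set (R × K)))
    have : Module.Finite k V :=
      Module.Finite.span_of_finite k ((Finset.finite_toSet S).image _)
    set b := Module.finBasis k V
    set e : Fin (Module.finrank k V) → K := fun s => (b s : K)
    have hdec : ∀ p ∈ S, ∃ a : Fin (Module.finrank k V) → Z,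
        p.2 = ∑ s, algebraMap Z K (a s) * e s := by
      intro p hp
      have hv : p.2 ∈ V := Submodule.subset_span ⟨p, hp, rfl⟩
      choose a ha using fun s => (h.surj.comp hg) (b.repr ⟨p.2, hv⟩ s)
      refine ⟨a, ?_⟩
      have := congrArg Subtype.val (b.sum_repr ⟨p.2, hv⟩).symm
      simp only [Submodule.coe_sum, Submodule.coe_smul, Algebra.smul_def] at this
      rw [this]
      refine Finset.sum_congr rfl fun s _ => ?_
      rw [hψ, ← ha s]
      rfl
    choose a ha using hdec
    set r : Fin (Module.finrank k V) → R := fun s =>
      ∑ p ∈ S.attach, algebraMap Z R (a p.1 p.2 s) * p.1.1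
    have hz' : ∑ p ∈ S, p.1 ⊗ₜ[Z] p.2 = ∑ s, r s ⊗ₜ[Z] e s := by
      simp only [r, TensorProduct.sum_tmul]
      rw [Finset.sum_comm, ← Finset.sum_attach S]
      refine Finset.sum_congr rfl fun p _ => ?_
      conv_lhs => rw [ha p.1 p.2, TensorProduct.tmul_sum]
      refine Finset.sum_congr rfl fun s _ => ?_
      rw [← Algebra.smul_def, ← Algebra.smul_def, TensorProduct.smul_tmul]
    rw [hz'] at hz ⊢
    simp only [map_sum, hΘ, Algebra.TensorProduct.productMap_apply_tmul] at hz
    have hind : ∀ s, red (r s) = 0 := by
      have hli : LinearIndependent k e := b.linearIndependent.map' V.subtype V.ker_subtype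
      rw [Fintype.linearIndependent_iff] at hli
      intro s
      ext n
      have hn := congrArg (fun w : LaurentSeries K => w.coeff n) hz
      simp only [HahnSeries.coeff_sum, HahnSeries.coeff_zero] at hn
      refine hli (fun t => (red (r t)).coeff n) ?_ s
      rw [← hn]
      refine Finset.sum_congr rfl fun t _ => ?_
      change _ = (coeffMap ψ (red (r t)) * algebraMap K (LaurentSeries K) (e t)).coeff n
      rw [mul_comm (coeffMap ψ _), coeff_algebraMap_mul, coeffMap_coeff, Algebra.smul_def, mul_comm]
      rfl
    refine Finset.sum_eq_zero fun s _ => ?_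
    obtain ⟨c, hc, f, hf, hfe⟩ := h.exists_eq_smul_of_redF_eq_zero (hmem (r s)) (hind s)
    obtain ⟨r', rfl⟩ := (hrange f).mp hf
    obtain ⟨z₀, rfl⟩ := hg c
    have : r s = z₀ • r' := hj (by rw [Algebra.smul_def, map_mul, hjz, hfe])
    rw [this, TensorProduct.smul_tmul, Algebra.smul_def, hψ, hc, map_zero, zero_mul,
      TensorProduct.tmul_zero]
  exact hΘinj.isDomain Θ.toRingHom

end Fermat.RED.Model
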