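import Fermat.Agent.RED.Model.Basic
import Fermat.Agent.FF.Constructions

/-!
# The special fibre field of a model

The field generated by the reductions of integral expansions has the same degree `d` over the
reduced coordinate as the function field over `x`, and both are function fields of one variable.
-/

set_option autoImplicit false

attribute [local instance 10000] SubalgebraClass.toAlgebra HahnSeries.powerSeriesAlgebra

noncomputable section

open Polynomial IntermediateField

namespace Fermat.RED.Model

section Basis

variable {K E : Type*} [Field K] [Field E] [Algebra K E] {x : E}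

/-- A polynomial basis over `K[x]` is a basis over `K(x)`. -/
theorem exists_basis_adjoin (hx : Transcendental K x) {d : ℕ} (y : Fin d → E)
    (hs : ∀ f : E, ∃ D : K[X], D ≠ 0 ∧ ∃ G : Fin d → K[X],
      aeval x D * f = ∑ i, aeval x (G i) * y i)
    (hi : ∀ G : Fin d → K[X], ∑ i, aeval x (G i) * y i = 0 → G = 0) :
    ∃ b : Module.Basis (Fin d) K⟮x⟯ E, ⇑b = y := by
  classical
  refine ⟨Module.Basis.mk (v := y) ?_ ?_, Module.Basis.coe_mk _ _⟩
  · rw [Fintype.linearIndependent_iff]
    intro c hc
    -- independence: write the coefficients as fractions in `x`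
    choose r s hrs using fun i => (IntermediateField.mem_adjoin_simple_iff K (c i : E)).mp (c i).2
    set r' : Fin d → K[X] := fun i => if s i = 0 then 0 else r i
    set s' : Fin d → K[X] := fun i => if s i = 0 then 1 else s i
    have hs' : ∀ i, s' i ≠ 0 := fun i => by
      simp only [s']; split <;> [exact one_ne_zero; assumption]
    have hne : ∀ {P : K[X]}, P ≠ 0 → aeval x P ≠ 0 := fun hP h =>
      hP (transcendental_iff.mp hx _ h)
    have hrs' : ∀ i, (c i : E) = aeval x (r' i) / aeval x (s' i) := fun i => by
      simp only [r', s']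
      split
      · rename_i h; rw [hrs i, h, map_zero, div_zero, zero_div]
      · exact hrs i
    -- and clear the denominators
    have h0 := hi (fun i => (∏ l ∈ Finset.univ.erase i, s' l) * r' i) ?_
    · intro i
      have h1 : r' i = 0 := (mul_eq_zero.mp (congrFun h0 i)).resolve_left
        (Finset.prod_ne_zero_iff.mpr fun l _ => hs' l)
      refine Subtype.ext ?_
      rw [hrs' i, h1, map_zero, zero_div]
      rfl
    · refine Eq.trans ?_ (mul_zero (aeval x (∏ l, s' l)))
      rw [← hc, Finset.mul_sum]
      refine Finset.sum_congr rfl fun i _ => ?_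
      rw [← Finset.mul_prod_erase _ s' (Finset.mem_univ i), map_mul, map_mul, Algebra.smul_def,
        IntermediateField.algebraMap_apply, hrs' i]
      field_simp [hne (hs' i)]
  · intro f _
    -- spanning: divide the relation by the denominator
    obtain ⟨D, hD, G, e⟩ := hs f
    have hD' : aeval x D ≠ 0 := fun h => hD (transcendental_iff.mp hx _ h)
    have hmem : ∀ P : K[X], aeval x P ∈ K⟮x⟯ := fun P =>
      algebra_adjoin_le_adjoin K _ (aeval_mem_adjoin_singleton K x)
    have : f = ∑ i, (⟨aeval x (G i) / aeval x D, div_mem (hmem _) (hmem _)⟩ : K⟮x⟯) • y i := by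
      simp only [Algebra.smul_def, IntermediateField.algebraMap_apply, div_mul_eq_mul_div,
        ← Finset.sum_div, ← e]
      rw [mul_div_cancel_left₀ _ hD']
    rw [this]
    exact sum_mem fun i _ => Submodule.smul_mem _ _ (Submodule.subset_span ⟨i, rfl⟩)

end Basis

variable {L : Type*} [Field L] {A : ValuationSubring L}
variable {k : Type*} [Field k] (π : A →+* k)
variable {F : Type*} [Field F] (ι : F →+* LaurentSeries L)

/-- The field generated by the reductions of the integral expansions. -/
def specField : IntermediateField k (LaurentSeries k) :=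
  IntermediateField.adjoin k (redF π ι '' {f | ι f ∈ intSeries A})

/-- Reductions lie in the special field. -/
theorem redF_mem_specField (f : F) : redF π ι f ∈ specField π ι := by
  by_cases h : ι f ∈ intSeries A
  · exact subset_adjoin k _ ⟨f, h, rfl⟩
  · rw [redF, dif_neg h]
    exact zero_mem _

/-- The reduction of a function, in the special fibre field. -/
def redS (f : F) : specField π ι := ⟨redF π ι f, redF_mem_specField π ι f⟩

/-- `redS` is `redF` in the series field. -/
@[simp] theorem coe_redS (f : F) : (redS π ι f : LaurentSeries k) = redF π ι f := rfl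

/-- `redS` sends `0` to `0`. -/
@[simp] theorem redS_zero : redS π ι 0 = 0 := Subtype.ext redF_zero

/-- `redS` sends `1` to `1`. -/
@[simp] theorem redS_one : redS π ι 1 = 1 := Subtype.ext redF_one

variable {π ι}

/-- `redS` is additive on functions with integral expansions. -/
theorem redS_add {f g : F} (hf : ι f ∈ intSeries A) (hg : ι g ∈ intSeries A) :
    redS π ι (f + g) = redS π ι f + redS π ι g := Subtype.ext (redF_add hf hg)

/-- `redS` commutes with subtraction on functions with integral expansions. -/
theorem redS_sub {f g : F} (hf : ι f ∈ intSeries A) (hg : ι g ∈ intSeries A) :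
    redS π ι (f - g) = redS π ι f - redS π ι g := Subtype.ext (redF_sub hf hg)

/-- `redS` is multiplicative on functions with integral expansions. -/
theorem redS_mul {f g : F} (hf : ι f ∈ intSeries A) (hg : ι g ∈ intSeries A) :
    redS π ι (f * g) = redS π ι f * redS π ι g := Subtype.ext (redF_mul hf hg)

/-- `redS` commutes with powers on functions with integral expansions. -/
theorem redS_pow {f : F} (hf : ι f ∈ intSeries A) (n : ℕ) :
    redS π ι (f ^ n) = redS π ι f ^ n := Subtype.ext (by
  rw [coe_redS, redF_pow hf]; rfl)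

/-- `redS` commutes with finite sums of functions with integral expansions. -/
theorem redS_sum {α : Type*} (s : Finset α) {f : α → F} (hf : ∀ i ∈ s, ι (f i) ∈ intSeries A) :
    redS π ι (∑ i ∈ s, f i) = ∑ i ∈ s, redS π ι (f i) := Subtype.ext (by
  rw [coe_redS, redF_sum s hf]; simp)

variable [Algebra L F]

namespace PreModel

variable {x : F} {d : ℕ}

/-- A constant `c ∈ A` reduces to the constant `π c` in the special field. -/
theorem redS_algebraMap (h : PreModel π ι x d) {c : L} (hc : c ∈ A) :
    redS π ι (algebraMap L F c) = algebraMap k (specField π ι) (π ⟨c, hc⟩) :=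
  Subtype.ext (h.redF_algebraMap hc)

/-- The reduction of `D(x)` is the reduced polynomial at the reduced coordinate. -/
theorem redS_ax (h : PreModel π ι x d) (D : A[X]) :
    redS π ι (ax A x D) = aeval (redS π ι x) (D.map π) := by
  refine Subtype.ext ((h.redF_ax D).trans ?_)
  exact Polynomial.aeval_algHom_apply (specField π ι).val (redS π ι x) (D.map π)

/-- The reduced coordinate is transcendental. -/
theorem transcendental_redS (h : PreModel π ι x d) : Transcendental k (redS π ι x) := fun halg =>
  h.transc (halg.algHom (specField π ι).val)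

/-- The special fibre field is spanned by the reductions of a basis. -/
theorem exists_sum_of_mem (h : PreModel π ι x d) {y : Fin d → F} (hyc : ∀ i, y i ∈ chart A x)
    (hys : ∀ f : F, ∃ D : L[X], D ≠ 0 ∧ ∃ G : Fin d → L[X],
      aeval x D * f = ∑ i, aeval x (G i) * y i)
    (hyi : ∀ G : Fin d → k[X], ∑ i, aeval (redF π ι x) (G i) * redF π ι (y i) = 0 → G = 0)
    {z : LaurentSeries k} (hz : z ∈ specField π ι) :
    ∃ D : k[X], D ≠ 0 ∧ ∃ G : Fin d → k[X],
      aeval (redF π ι x) D * z = ∑ i, aeval (redF π ι x) (G i) * redF π ι (y i) := by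
  classical
  set X0 := redF π ι x
  -- the set of such elements
  set S : Set (LaurentSeries k) := {z | ∃ D : k[X], D ≠ 0 ∧ ∃ G : Fin d → k[X],
    aeval X0 D * z = ∑ i, aeval X0 (G i) * redF π ι (y i)}
  have hne : ∀ {P : k[X]}, P ≠ 0 → aeval X0 P ≠ 0 := fun hP h0 =>
    hP (transcendental_iff.mp h.transc _ h0)
  have hint : ∀ f : F, ι f ∈ intSeries A → redF π ι f ∈ S := by
    intro f hf
    rcases eq_or_ne f 0 with rfl | hf0
    · exact ⟨1, one_ne_zero, 0, by simp⟩
    obtain ⟨D, c, G, hD, hc, ⟨⟨⟩, hG⟩, e⟩ := h.exists_repr hys (α := Unit) (fun _ => f) ⟨(), hf0⟩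
    have hcA := h.mem_of_repr hyc hyi hf hc hG (e ())
    refine ⟨D.map π, hD, fun i => Polynomial.C (π ⟨c, hcA⟩) * (G () i).map π, ?_⟩
    have hterm : ∀ i, ι (ax A x (G () i) * y i) ∈ intSeries A := fun i =>
      h.int_chart _ (mul_mem (ax_mem_chart x _) (hyc i))
    have := congrArg (redF π ι) (e ())
    rw [redF_mul (h.int_ax D) hf, h.redF_ax,
      redF_mul (h.int_algebraMap hcA) (by rw [map_sum]; exact sum_mem fun i _ => hterm i),
      h.redF_algebraMap hcA, redF_sum _ (fun i _ => hterm i), Finset.mul_sum] at this
    rw [this]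
    refine Finset.sum_congr rfl fun i _ => ?_
    rw [redF_mul (h.int_ax _) (h.int_chart _ (hyc i)), h.redF_ax, map_mul, aeval_C, mul_assoc]
  have hadd : ∀ a ∈ S, ∀ b ∈ S, a + b ∈ S := by
    rintro a ⟨D, hD, G, e⟩ b ⟨D', hD', G', e'⟩
    refine ⟨D * D', mul_ne_zero hD hD', fun i => D' * G i + D * G' i, ?_⟩
    simp only [map_mul, map_add, add_mul, Finset.sum_add_distrib, mul_assoc, ← Finset.mul_sum, ← e,
      ← e']
    ring
  have hscal : ∀ (P : k[X]), ∀ a ∈ S, aeval X0 P * a ∈ S := by
    rintro P a ⟨D, hD, G, e⟩
    refine ⟨D, hD, fun i => P * G i, ?_⟩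
    simp only [map_mul, mul_assoc, ← Finset.mul_sum, ← e]
    ring
  have hdiv : ∀ (P : k[X]), P ≠ 0 → ∀ a, aeval X0 P * a ∈ S → a ∈ S := by
    rintro P hP a ⟨D, hD, G, e⟩
    exact ⟨D * P, mul_ne_zero hD hP, G, by rw [← e, map_mul, mul_assoc]⟩
  have hsum : ∀ {α : Type} (s : Finset α) (g : α → LaurentSeries k), (∀ i ∈ s, g i ∈ S) →
      ∑ i ∈ s, g i ∈ S := fun {α} s g hg => Finset.sum_induction g (· ∈ S)
    (fun a b ha hb => hadd a ha b hb) ⟨1, one_ne_zero, 0, by simp⟩ hg
  have hmul : ∀ a ∈ S, ∀ b ∈ S, a * b ∈ S := by
    rintro a ⟨D, hD, G, e⟩ b ⟨D', hD', G', e'⟩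
    refine hdiv (D * D') (mul_ne_zero hD hD') _ ?_
    rw [map_mul, mul_mul_mul_comm, e, e', Finset.sum_mul_sum]
    refine hsum _ _ fun i _ => hsum _ _ fun j _ => ?_
    rw [mul_mul_mul_comm, ← map_mul]
    refine hscal _ _ ?_
    rw [← redF_mul (h.int_chart _ (hyc i)) (h.int_chart _ (hyc j))]
    exact hint _ (h.int_chart _ (mul_mem (hyc i) (hyc j)))
  have hone : (1 : LaurentSeries k) ∈ S := by
    have := hint 1 (by rw [map_one]; exact one_mem _)
    rwa [redF_one] at this
  have hconst : ∀ c : k, algebraMap k (LaurentSeries k) c ∈ S := fun c => by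
    simpa using hscal (Polynomial.C c) 1 hone
  -- inverses by finiteness
  have hinv : ∀ a ∈ S, a⁻¹ ∈ S := by
    intro a ha
    rcases eq_or_ne a 0 with rfl | ha0
    · simpa using ha
    set B : Subalgebra k⟮X0⟯ (LaurentSeries k) :=
      { carrier := S
        mul_mem' := fun {u v} hu hv => hmul u hu v hv
        add_mem' := fun {u v} hu hv => hadd u hu v hv
        algebraMap_mem' := fun r => by
          obtain ⟨p, q, hpq⟩ :=
            (IntermediateField.mem_adjoin_simple_iff k (r : LaurentSeries k)).mp r.2
          change (r : LaurentSeries k) ∈ S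
          by_cases hq : q = 0
          · rw [hpq, hq, map_zero, div_zero, ← map_zero (algebraMap k (LaurentSeries k))]
            exact hconst 0
          refine hdiv q hq _ ?_
          rw [hpq, mul_div_cancel₀ _ (hne hq), ← mul_one (aeval X0 p)]
          exact hscal p 1 hone }
    have : Module.Finite k⟮X0⟯ B := by
      refine Module.Finite.of_surjective
        (LinearMap.codRestrict (Subalgebra.toSubmodule B)
          ((Fintype.linearCombination k⟮X0⟯ fun i => redF π ι (y i)))
          fun c => ?_) ?_
      · change _ ∈ B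
        rw [Fintype.linearCombination_apply]
        exact sum_mem fun i _ => B.smul_mem (hint _ (h.int_chart _ (hyc i))) _
      · rintro ⟨u, D, hD, G, e⟩
        have hmem : ∀ P : k[X], aeval X0 P ∈ k⟮X0⟯ := fun P =>
          algebra_adjoin_le_adjoin k _ (aeval_mem_adjoin_singleton k X0)
        refine ⟨fun i => ⟨aeval X0 (G i) / aeval X0 D, div_mem (hmem _) (hmem _)⟩, Subtype.ext ?_⟩
        rw [LinearMap.codRestrict_apply, Fintype.linearCombination_apply]
        simp only [Algebra.smul_def, IntermediateField.algebraMap_apply, div_mul_eq_mul_div,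
          ← Finset.sum_div, ← e]
        rw [mul_div_cancel_left₀ _ (hne hD)]
    have : Algebra.IsAlgebraic k⟮X0⟯ B := Algebra.IsAlgebraic.of_finite _ _
    exact B.inv_mem_of_algebraic (x := ⟨a, ha⟩)
      ((Algebra.IsAlgebraic.isAlgebraic (⟨a, ha⟩ : B)).algHom B.val)
  induction hz using IntermediateField.adjoin_induction with
  | mem w hw =>
    obtain ⟨f, hf, rfl⟩ := hw
    exact hint f hf
  | algebraMap c => exact hconst c
  | add a b _ _ ha hb => exact hadd a ha b hb
  | inv a _ ha => exact hinv a ha
  | mul a b _ _ ha hb => exact hmul a ha b hb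

/-- A basis of the function field and one of the special fibre field. -/
theorem exists_bases (h : PreModel π ι x d) : ∃ y : Fin d → F, (∀ i, y i ∈ chart A x) ∧
    Nonempty (Module.Basis (Fin d) L⟮x⟯ F) ∧
    Nonempty (Module.Basis (Fin d) k⟮redS π ι x⟯ (specField π ι)) := by
  obtain ⟨y, hyc, hys, hyi⟩ := h.basis
  refine ⟨y, hyc, (exists_basis_adjoin h.transcendental y hys fun G hG => ?_).elim fun b _ => ⟨b⟩,
    (exists_basis_adjoin h.transcendental_redS (fun i => redS π ι (y i)) (fun z => ?_)
      fun G hG => ?_).elim fun b _ => ⟨b⟩⟩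
  · by_contra hG0
    obtain ⟨a, G', ha, hG', hne⟩ := exists_primitive (π := π) G (by
      by_contra! hall
      exact hG0 (funext hall))
    refine h.redF_sum_ne_zero hyc hyi hne ?_
    have : algebraMap L F a * ∑ j, ax A x (G' j) * y j = 0 := by
      rw [← hG, Finset.mul_sum]
      refine Finset.sum_congr rfl fun i _ => ?_
      rw [hG' i, map_mul, aeval_C, ← ax_eq, mul_assoc]
    rw [(mul_eq_zero.mp this).resolve_left ((_root_.map_ne_zero _).mpr ha), redF_zero]
  · obtain ⟨D, hD, G, e⟩ := h.exists_sum_of_mem hyc hys hyi z.2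
    refine ⟨D, hD, G, (specField π ι).val.toRingHom.injective ?_⟩
    simp only [AlgHom.toRingHom_eq_coe, RingHom.coe_coe, map_mul, map_sum,
      ← Polynomial.aeval_algHom_apply]
    exact e
  · refine hyi G ?_
    have := congrArg (specField π ι).val hG
    simp only [map_mul, map_sum, map_zero, ← Polynomial.aeval_algHom_apply] at this
    exact this

/-- The function field has degree `d` over `L(x)`. -/
theorem finrank_adjoin (h : PreModel π ι x d) : Module.finrank L⟮x⟯ F = d := by
  obtain ⟨y, -, ⟨b⟩, -⟩ := h.exists_bases
  rw [Module.finrank_eq_card_basis b, Fintype.card_fin]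

/-- The special field has degree `d` over the reduced coordinate. -/
theorem finrank_spec (h : PreModel π ι x d) :
    Module.finrank k⟮redS π ι x⟯ (specField π ι) = d := by
  obtain ⟨y, -, -, ⟨b⟩⟩ := h.exists_bases
  rw [Module.finrank_eq_card_basis b, Fintype.card_fin]

/-- The field of a model is a function field. -/
theorem isFunctionField [PerfectField L] (h : PreModel π ι x d) : FF.IsFunctionField L F := by
  obtain ⟨y, -, ⟨b⟩, -⟩ := h.exists_bases
  exact FF.isFunctionField_of_finite h.transcendental (Module.Finite.of_basis b)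

/-- The special field of a model is a function field. -/
theorem isFunctionField_spec [PerfectField k] (h : PreModel π ι x d) :
    FF.IsFunctionField k (specField π ι) := by
  obtain ⟨y, -, -, ⟨b⟩⟩ := h.exists_bases
  exact FF.isFunctionField_of_finite h.transcendental_redS (Module.Finite.of_basis b)

end PreModel

end Fermat.RED.Model
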