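import Fermat.Agent.RED.Values
import Fermat.Agent.RED.FullField
import Fermat.Agent.RED.Model.X0
import Fermat.Agent.RED.Model.Special
import Fermat.Agent.FF.PoleOrd
import Fermat.Agent.FF.API
import Fermat.Prelude.Def_ModularCurve_GenusNumerics

/-!
# The cusps of level `M` as branches at infinity

The places over `j = ∞` of the field of level `M` come from embeddings into Laurent series, listed
by the values of `j(q^M)`. There are at most `cuspCount M` of them, and branches with different
invariants give different places.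
-/

set_option autoImplicit false

noncomputable section

open ModularCurve Polynomial AlgebraicCurve
open scoped IntermediateField

namespace Fermat.RED.Cusps

-- these lead to searches that take seconds to fail on subfields of Laurent series
attribute [-instance] IsLocalRing.ResidueField.algebraOfIsIntegral IntermediateField.algebra'
  RCLike.charZero_rclike NormedAlgebra.toAlgebra

open Fermat.RED.Model

/-- Shortcut: ring homomorphisms are additive. The generic search first tries normed and linear
structures, and takes seconds. -/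
private local instance addMonoidHomClassRingHom {R S : Type*} [NonAssocSemiring R]
    [NonAssocSemiring S] : AddMonoidHomClass (R →+* S) R S :=
  RingHomClass.toAddMonoidHomClass

variable {k : Type*} [Field k]

variable (k) in
/-- The Laurent series without polar part. -/
def regSeries : ValuationSubring (LaurentSeries k) where
  toSubring := (HahnSeries.ofPowerSeries ℤ k).range
  mem_or_inv_mem' f := by
    rcases eq_or_ne f 0 with rfl | hf
    · exact .inl (HahnSeries.ofPowerSeries ℤ k).range.zero_mem
    have hmem : ∀ g : LaurentSeries k, g ≠ 0 → 0 ≤ g.order →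
        g ∈ (HahnSeries.ofPowerSeries ℤ k).range := fun g _ h => by
      refine ⟨PowerSeries.X ^ g.order.toNat * g.powerSeriesPart, ?_⟩
      rw [map_mul, map_pow, HahnSeries.ofPowerSeries_X, HahnSeries.single_pow, one_pow,
        nsmul_one, Int.toNat_of_nonneg h, LaurentSeries.single_order_mul_powerSeriesPart]
    rcases le_total 0 f.order with h | h
    · exact .inl (hmem f hf h)
    · refine .inr (hmem f⁻¹ (inv_ne_zero hf) ?_)
      have := HahnSeries.order_mul hf (inv_ne_zero hf)
      rw [mul_inv_cancel₀ hf, HahnSeries.order_one] at this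
      omega

/-- A series is in `regSeries` iff its coefficients in negative degrees vanish. -/
theorem mem_regSeries_iff {f : LaurentSeries k} :
    f ∈ regSeries k ↔ ∀ n < (0 : ℤ), f.coeff n = 0 := by
  constructor
  · rintro ⟨g, rfl⟩ n hn
    exact ofPowerSeries_coeff_of_neg g hn
  · intro h
    rcases eq_or_ne f 0 with rfl | hf
    · exact zero_mem _
    have h0 : 0 ≤ f.order := by
      by_contra hlt
      exact hf (HahnSeries.coeff_order_eq_zero.mp (h _ (not_le.mp hlt)))
    refine ⟨PowerSeries.X ^ f.order.toNat * f.powerSeriesPart, ?_⟩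
    rw [map_mul, map_pow, HahnSeries.ofPowerSeries_X, HahnSeries.single_pow, one_pow,
      nsmul_one, Int.toNat_of_nonneg h0, LaurentSeries.single_order_mul_powerSeriesPart]

/-- Twisting does not affect membership in `regSeries`. -/
theorem twist_mem_regSeries_iff (c : kˣ) {f : LaurentSeries k} :
    twist c f ∈ regSeries k ↔ f ∈ regSeries k := by
  simp only [mem_regSeries_iff, twist_coeff, Units.mul_right_eq_zero]

/-- A branch series `jb c e` has a pole. -/
theorem jb_not_mem_regSeries (c : kˣ) (e : ℕ) [NeZero e] : jb k c e ∉ regSeries k := fun h => by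
  have := mem_regSeries_iff.mp h (-(e : ℤ)) (by simpa using Nat.pos_of_neZero e)
  rw [coeff_jb_neg] at this
  exact (c⁻¹).ne_zero this

variable {M : ℕ} [NeZero M]

omit [NeZero M] in
/-- The field of level `M` over `k(j)` has the elements of the one over `k`. -/
theorem mem_levelField_iff {f : LaurentSeries k} :
    f ∈ levelField k M ↔ f ∈ modularFunctionFieldFullC k M := by
  rw [← levelField_restrictScalars k M, IntermediateField.mem_restrictScalars]

variable (k M) in
/-- The identity, from the field of level `M` over `k` to the same field regarded over `k(j)`. -/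
def toLevel : FX k M →+* levelField k M where
  toFun x := ⟨x.1, mem_levelField_iff.mpr x.2⟩
  map_one' := rfl
  map_mul' _ _ := rfl
  map_zero' := rfl
  map_add' _ _ := rfl

omit [NeZero M] in
/-- `toLevel` keeps the series. Cite it instead of `rfl`, which is slow for the kernel. -/
theorem coe_toLevel (y : FX k M) : ((toLevel k M y : levelField k M) : LaurentSeries k) = y :=
  have h : toLevel k M y = ⟨y.1, mem_levelField_iff.mpr y.2⟩ := rfl
  (congrArg Subtype.val h).trans (Subtype.coe_mk (y.1) (mem_levelField_iff.mpr y.2))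

omit [NeZero M] in
/-- An element which `toLevel` sends to the image of `c ∈ k(j)` has the series of `c`. -/
theorem coe_eq_of_toLevel_eq {y : FX k M} {c : jField k}
    (hy : toLevel k M y = algebraMap (jField k) (levelField k M) c) : (y : LaurentSeries k) = c :=
  (coe_toLevel y).symm.trans ((congrArg Subtype.val hy).trans (coe_algebraMap_levelField M c))

omit [NeZero M] in
/-- An element with the series of `c ∈ k(j)` is sent by `toLevel` to the image of `c`. -/
theorem toLevel_eq_of_coe_eq {y : FX k M} {c : jField k} (h : (y : LaurentSeries k) = c) :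
    toLevel k M y = algebraMap (jField k) (levelField k M) c :=
  Subtype.ext ((coe_toLevel y).trans (h.trans (coe_algebraMap_levelField M c).symm))

omit [NeZero M] in
/-- The two fields of level `M` have the same elements. -/
theorem toLevel_surjective : Function.Surjective (toLevel k M) :=
  fun z => ⟨⟨z.1, mem_levelField_iff.mp z.2⟩, rfl⟩

/-- A `k`-embedding along a branch over `j = ∞`. -/
structure IsBranchHom (ψ : FX k M →+* LaurentSeries k) : Prop where
  /-- Constants go to constants. -/
  const : ∀ c, ψ (algebraMap k (FX k M) c) = algebraMap k (LaurentSeries k) c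
  /-- `j` goes to `j(q^M)`. -/
  jX : ψ (jX k M) = jb k 1 M

omit [NeZero M] in
/-- A nonzero polynomial in `j` is nonzero. -/
theorem aeval_jX_ne_zero {P : k[X]} (hP : P ≠ 0) :
    aeval (Model.jX k M) P ≠ 0 := fun h0 => hP (transcendental_iff.mp
      transcendental_jqModC P (by rw [← expX_aeval M P, h0, map_zero]))

namespace IsBranchHom

variable {ψ ψ' : FX k M →+* LaurentSeries k}

omit [NeZero M] in
/-- A branch sends a polynomial in `j` to the same polynomial in `j(q^M)`. -/
theorem aeval_jX (h : IsBranchHom ψ) (P : k[X]) :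
    ψ (aeval (Model.jX k M) P) = aeval (jb k 1 M) P := by
  rw [aeval_def, hom_eval₂, h.jX, aeval_def]
  congr 1
  exact RingHom.ext h.const

/-- Two branches agreeing at `j_M` are equal. -/
theorem ext (hM : (M : k) ≠ 0) (h : IsBranchHom ψ) (h' : IsBranchHom ψ')
    (e : ψ (jdX k M M dvd_rfl) = ψ' (jdX k M M dvd_rfl)) : ψ = ψ' := by
  refine RingHom.ext fun f => ?_
  obtain ⟨D, hD, G, eq⟩ := exists_sum_jb hM f.2
  have eq' : aeval (Model.jX k M) D * f
      = ∑ i, aeval (Model.jX k M) (G i) * jdX k M M dvd_rfl ^ (i : ℕ) := (expX k M).injective (by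
    simp only [map_mul, map_sum, map_pow, expX_aeval, expX_jdX]
    exact eq)
  have h1 := congrArg ψ eq'
  have h2 := congrArg ψ' eq'
  simp only [map_mul, map_sum, map_pow, h.aeval_jX, h'.aeval_jX] at h1 h2
  rw [e] at h1
  refine mul_left_cancel₀ ?_ (h1.trans h2.symm)
  rw [← h.aeval_jX]
  exact (_root_.map_ne_zero ψ).mpr (aeval_jX_ne_zero hD)

/-- Twisting a branch by an `M`-th root of unity gives a branch. -/
theorem twist_comp (h : IsBranchHom ψ) {η : kˣ} (hη : η ^ M = 1) :
    IsBranchHom ((twist η).comp ψ) where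
  const c := by
    rw [RingHom.comp_apply, h.const, algebraMap_laurentSeries_eq_single]
    ext n
    rw [twist_coeff]
    by_cases hn : n = 0
    · subst hn; simp
    · simp [HahnSeries.coeff_single_of_ne hn]
  jX := by rw [RingHom.comp_apply, h.jX, twist_jb, hη, one_mul]

/-- `j` has a pole along every branch. -/
theorem not_mem (h : IsBranchHom ψ) : Model.jX k M ∉ (regSeries k).comap ψ := fun hm => by
  rw [ValuationSubring.mem_comap, h.jX] at hm
  exact jb_not_mem_regSeries 1 M hm

/-- The place of a branch. -/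
def place [IsAlgClosed k] [FF.IsFunctionField k (FX k M)] (h : IsBranchHom ψ) : Place k (FX k M) :=
  FF.placeOfValuationSubring (V := (regSeries k).comap ψ)
    (fun c => by
      rw [ValuationSubring.mem_comap, h.const, algebraMap_laurentSeries_eq_single,
        mem_regSeries_iff]
      exact fun n hn => HahnSeries.coeff_single_of_ne hn.ne)
    (fun htop => h.not_mem (htop ▸ ValuationSubring.mem_top _))

end IsBranchHom

section Field

omit [NeZero M] in
/-- The function `j` is transcendental. -/
theorem transcendental_jX : Transcendental k (Model.jX k M) := fun h =>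
  transcendental_jqModC (h.algHom (modularFunctionFieldFullC k M).val)

/-- The field of level `M` has a basis of `ψ(M)` elements over `k(j)`. -/
theorem nonempty_basis_jX (hM : (M : k) ≠ 0) :
    Nonempty (Module.Basis (Fin (dedekindPsi M)) k⟮Model.jX k M⟯ (FX k M)) := by
  obtain ⟨b, -⟩ := exists_basis_adjoin (transcendental_jX (k := k) (M := M))
    (fun i : Fin (dedekindPsi M) => jdX k M M dvd_rfl ^ (i : ℕ))
    (fun f => by
      obtain ⟨D, hD, G, e⟩ := exists_sum_jb hM f.2
      exact ⟨D, hD, G, (expX k M).injective (by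
        simp only [map_mul, map_sum, map_pow, expX_aeval, expX_jdX]
        exact e)⟩)
    fun G hG => eq_zero_of_sum_jb_eq_zero hM (by
      have := congrArg (expX k M) hG
      simp only [map_mul, map_sum, map_pow, map_zero, expX_aeval, expX_jdX] at this
      exact this)
  exact ⟨b⟩

/-- The field of level `M` has degree `ψ(M)` over `k(j)`. -/
theorem finrank_jX (hM : (M : k) ≠ 0) :
    Module.finrank k⟮Model.jX k M⟯ (FX k M) = dedekindPsi M :=
  (nonempty_basis_jX hM).elim fun b => by rw [Module.finrank_eq_card_basis b, Fintype.card_fin]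

variable [IsAlgClosed k]

/-- The field of level `M` over `k` is a function field. -/
theorem isFunctionField (hM : (M : k) ≠ 0) : FF.IsFunctionField k (FX k M) :=
  (nonempty_basis_jX hM).elim fun b =>
    FF.isFunctionField_of_finite transcendental_jX (Module.Finite.of_basis b)

variable [FF.IsFunctionField k (FX k M)]

/-- Regularity at the place of a branch is regularity of the series. -/
theorem IsBranchHom.ordGE_place {ψ : FX k M →+* LaurentSeries k} (h : IsBranchHom ψ) (f : FX k M) :
    FF.OrdGE h.place f 0 ↔ ψ f ∈ regSeries k := by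
  rw [← FF.mem_iff_ordGE]
  exact ValuationSubring.mem_comap

/-- The place of a branch is a pole of `j`. -/
theorem IsBranchHom.ord_jX_neg {ψ : FX k M →+* LaurentSeries k} (h : IsBranchHom ψ) :
    h.place.ord (Model.jX k M) < 0 := by
  by_contra hle
  exact h.not_mem ((h.ordGE_place _).mp (FF.ordGE_iff.mpr (.inr (not_lt.mp hle))))

/-- Branches with the same regular functions have the same place. -/
theorem IsBranchHom.place_congr {ψ ψ' : FX k M →+* LaurentSeries k} (h : IsBranchHom ψ)
    (h' : IsBranchHom ψ') (e : ∀ f, ψ f ∈ regSeries k ↔ ψ' f ∈ regSeries k) :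
    h.place = h'.place :=
  FF.place_eq_of_le fun f hf => (FF.mem_iff_ordGE _).mpr
    ((h'.ordGE_place f).mpr ((e f).mp ((h.ordGE_place f).mp ((FF.mem_iff_ordGE _).mp hf))))

variable {ξ : kˣ}

omit [IsAlgClosed k] [FF.IsFunctionField k (FX k M)] in
/-- A polynomial in `j(q^M)` is obtained from the polynomial in `j` by `q ↦ q ^ M`. -/
theorem aeval_qExpand (P : k[X]) :
    aeval (jb k 1 M) P = qExpand k M (aeval (jqModC k) P) := by
  rw [jb_one]
  exact Polynomial.aeval_algHom_apply (qExpandAlgHomC k M) (jqModC k) P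

omit [IsAlgClosed k] [FF.IsFunctionField k (FX k M)] in
/-- A branch is `q ↦ q ^ M` on `k(j)`. -/
theorem IsBranchHom.apply_of_coe_eq {φ : FX k M →+* LaurentSeries k} (hφ : IsBranchHom φ)
    {y : FX k M} {c : jField k} (hy : (y : LaurentSeries k) = c) :
    φ y = qExpand k M (c : LaurentSeries k) := by
  obtain ⟨P, R, hPR⟩ := (IntermediateField.mem_adjoin_simple_iff k _).mp c.2
  rcases eq_or_ne R 0 with rfl | hR
  · rw [map_zero, div_zero] at hPR
    rw [show y = 0 from Subtype.ext (hy.trans hPR), map_zero, hPR, map_zero]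
  have hR' : aeval (jqModC k) R ≠ 0 := fun h => hR (transcendental_iff.mp transcendental_jqModC _ h)
  have e : y * aeval (Model.jX k M) R = aeval (Model.jX k M) P := (expX k M).injective (by
    rw [map_mul, expX_aeval, expX_aeval]
    change (y : LaurentSeries k) * _ = _
    rw [hy, hPR, div_mul_cancel₀ _ hR'])
  have h1 := congrArg φ e
  rw [map_mul, hφ.aeval_jX, hφ.aeval_jX, aeval_qExpand, aeval_qExpand] at h1
  refine mul_right_cancel₀ ((_root_.map_ne_zero _).mpr hR') (h1.trans ?_)
  rw [← map_mul, hPR, div_mul_cancel₀ _ hR']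

/-- A homomorphism with values in the range of a field embedding factors through it. -/
theorem exists_comp_eq {A B C : Type*} [Semiring A] [Field B] [Field C] (i : B →+* C)
    (f : A →+* C) (hf : ∀ y, f y ∈ i.fieldRange) : ∃ ψ : A →+* B, ∀ y, i (ψ y) = f y :=
  let e := RingEquiv.ofBijective i.rangeRestrictField i.rangeRestrictField_bijective
  ⟨e.symm.toRingHom.comp (f.codRestrict i.fieldRange hf),
    fun y => congrArg Subtype.val (e.apply_symm_apply ⟨f y, hf y⟩)⟩

omit [FF.IsFunctionField k (FX k M)] in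
/-- An embedding of the level field gives a branch. -/
theorem exists_branch_of_algHom (hξ : IsPrimitiveRoot ξ M) (hM : (M : k) ≠ 0)
    (φ : levelField k M →ₐ[jField k] Branch k M) :
    ∃ ψ : FX k M →+* LaurentSeries k, IsBranchHom ψ ∧ ∀ y, inc k M (ψ y) = φ (toLevel k M y) := by
  obtain ⟨a, b, -, hab⟩ := exists_val_of_algHom hξ M dvd_rfl φ
  have hrange : ∀ y : levelField k M, φ y ∈ (inc k M).fieldRange := fun y => by
    have hy : y ∈ IntermediateField.adjoin (jField k)
        ({jE k M M dvd_rfl} : Set (levelField k M)) := by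
      rw [adjoin_jE_eq_top hM]; exact IntermediateField.mem_top
    induction hy using IntermediateField.adjoin_induction with
    | mem z hz => rw [Set.mem_singleton_iff] at hz; subst hz; exact ⟨_, hab.symm⟩
    | algebraMap c => rw [φ.commutes]; exact ⟨_, rfl⟩
    | add a b _ _ ha hb => rw [map_add]; exact add_mem ha hb
    | inv a _ ha => rw [map_inv₀]; exact inv_mem ha
    | mul a b _ _ ha hb => rw [map_mul]; exact mul_mem ha hb
  obtain ⟨ψ, hψ⟩ : ∃ ψ : FX k M →+* LaurentSeries k, ∀ y, inc k M (ψ y) = φ (toLevel k M y) :=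
    exists_comp_eq (inc k M) (φ.toRingHom.comp (toLevel k M)) fun y => hrange _
  have hJ : ∀ (y : FX k M) (c : jField k), (y : LaurentSeries k) = c →
      ψ y = qExpand k M (c : LaurentSeries k) := fun y c hyc => inc_injective k M (by
    rw [hψ, toLevel_eq_of_coe_eq hyc, φ.commutes, algebraMap_branch])
  refine ⟨ψ, ⟨fun c => ?_, ?_⟩, hψ⟩
  · rw [hJ _ (algebraMap k (jField k) c) ((IntermediateField.coe_algebraMap_apply _ c).trans
      (IntermediateField.coe_algebraMap_apply (jField k) c).symm),
      IntermediateField.coe_algebraMap_apply]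
    exact (qExpandAlgHomC k M).commutes c
  · rw [hJ (Model.jX k M) ⟨jqModC k, jqModC_mem_jField k⟩ rfl, jb_one]

attribute [local instance 10000] SubalgebraClass.toAlgebra HahnSeries.powerSeriesAlgebra

omit [FF.IsFunctionField k (FX k M)] in
/-- Each listed value of `j_M` comes from a branch. -/
theorem exists_branch (hξ : IsPrimitiveRoot ξ M) (hM : (M : k) ≠ 0) {i : Σ _ : ℕ, ℕ}
    (hi : i ∈ valIndex M) :
    ∃ ψ : FX k M →+* LaurentSeries k, IsBranchHom ψ ∧ ψ (jdX k M M dvd_rfl) = valAt ξ M i := by
  obtain ⟨φ, hφ⟩ := exists_algHom_valAt hξ hM hi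
  obtain ⟨ψ, hψ, hψφ⟩ := exists_branch_of_algHom hξ hM φ
  refine ⟨ψ, hψ, inc_injective k M ?_⟩
  rw [hψφ, ← hφ]
  exact congrArg φ (Subtype.ext rfl)

/-- A root stays a root along an embedding of the scalars which extends to the field. -/
theorem eval₂_eq_zero_of_surjective {J A F B : Type*} [Field J] [Field A] [Field F] [Field B]
    [Algebra J A] {p : J[X]} {a : A} (hp : aeval a p = 0) (t : F →+* A)
    (ht : Function.Surjective t) (φ : F →+* B) (φ₀ : J →+* B)
    (h : ∀ y c, t y = algebraMap J A c → φ y = φ₀ c) {x : F} (hx : t x = a) :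
    p.eval₂ φ₀ (φ x) = 0 := by
  let e := RingEquiv.ofBijective t ⟨t.injective, ht⟩
  rw [show φ₀ = φ.comp (e.symm.toRingHom.comp (algebraMap J A)) from
      RingHom.ext fun c => (h _ c (e.apply_symm_apply _)).symm,
    ← hom_eval₂, show x = e.symm.toRingHom a from hx ▸ (e.symm_apply_apply x).symm,
    ← hom_eval₂, ← aeval_def, hp, map_zero, map_zero]

omit [FF.IsFunctionField k (FX k M)] in
/-- Every branch has one of the listed values. -/
theorem exists_eq_valAt (hξ : IsPrimitiveRoot ξ M) (hM : (M : k) ≠ 0)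
    {φ : FX k M →+* LaurentSeries k} (hφ : IsBranchHom φ) :
    ∃ a b, (⟨a, b⟩ : Σ _ : ℕ, ℕ) ∈ valIndex M ∧ φ (jdX k M M dvd_rfl) = valAt ξ M ⟨a, b⟩ := by
  classical
  -- otherwise the minimal polynomial of `j_M` would have more than `ψ(M)` roots
  by_contra! hne
  set p := minpoly (jField k) (jE k M M dvd_rfl)
  have hp0 : p ≠ 0 := minpoly.ne_zero (isIntegral_of_finrank_pos _
    (finrank_levelField (k := k) M hM ▸ dedekindPsi_pos (NeZero.ne M)) _)
  set φ₀ := (qExpand k M).comp (jField k).val.toRingHom
  have hroot : ∀ (φ : FX k M →+* LaurentSeries k), IsBranchHom φ →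
      φ (jdX k M M dvd_rfl) ∈ (p.map φ₀).roots.toFinset := by
    intro φ hφ
    rw [Multiset.mem_toFinset, mem_roots (Polynomial.map_ne_zero hp0), IsRoot.def, eval_map]
    exact eval₂_eq_zero_of_surjective (minpoly.aeval (jField k) (jE k M M dvd_rfl)) (toLevel k M)
      toLevel_surjective φ φ₀ (fun y c hy => hφ.apply_of_coe_eq
        (coe_eq_of_toLevel_eq hy)) rfl
  have hsub : insert (φ (jdX k M M dvd_rfl)) ((valIndex M).image (valAt ξ M))
      ⊆ (p.map φ₀).roots.toFinset := by
    refine Finset.insert_subset (hroot φ hφ) fun r hr => ?_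
    obtain ⟨i, hi, rfl⟩ := Finset.mem_image.mp hr
    obtain ⟨ψ', hψ', hψ'j⟩ := exists_branch hξ hM hi
    exact hψ'j ▸ hroot ψ' hψ'
  have := (Finset.card_le_card hsub).trans ((Multiset.toFinset_card_le _).trans (card_roots' _))
  rw [natDegree_map, natDegree_minpoly_jE hM,
    Finset.card_insert_of_notMem (by
      simp only [Finset.mem_image, not_exists, not_and]
      exact fun i hi => (hne i.1 i.2 hi).symm),
    Finset.card_image_of_injOn (valAt_injOn hξ), card_valIndex] at this
  omega

/-- A root of a monic polynomial with coefficients in a valuation subring lies in it. -/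
theorem mem_of_monic_aeval_eq_zero {J A F : Type*} [Field J] [Field A] [Field F] [Algebra J A]
    (t : F →+* A) (V : ValuationSubring F) {f : F} {g : J[X]} (hg : g.Monic)
    (h0 : aeval (t f) g = 0) (c : ℕ → F) (hc : ∀ n, t (c n) = algebraMap J A (g.coeff n))
    (hV : ∀ n, c n ∈ V) : f ∈ V := by
  have hint : IsIntegral V f := by
    refine ⟨∑ n ∈ Finset.range (g.natDegree + 1), Polynomial.C (⟨c n, hV n⟩ : V) * X ^ n, ?_, ?_⟩
    · refine monic_of_natDegree_le_of_coeff_eq_one g.natDegree
        (natDegree_sum_le_of_forall_le _ _ fun n hn =>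
          (natDegree_C_mul_X_pow_le _ n).trans (by simpa [Nat.lt_succ_iff] using hn)) ?_
      rw [finsetSum_coeff]
      simp only [coeff_C_mul, coeff_X_pow, mul_ite, mul_one, mul_zero, Finset.sum_ite_eq,
        Finset.mem_range, Nat.lt_succ_self, if_true]
      refine Subtype.ext (t.injective ?_)
      rw [OneMemClass.coe_one, map_one, hc, hg.coeff_natDegree, map_one]
    · rw [eval₂_finsetSum]
      refine t.injective ?_
      rw [map_zero, ← h0, aeval_eq_sum_range, map_sum]
      refine Finset.sum_congr rfl fun n _ => ?_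
      rw [eval₂_mul, eval₂_C, eval₂_X_pow, map_mul, map_pow, Algebra.smul_def, ← hc n]
      rfl
  obtain ⟨y, hy⟩ := IsIntegrallyClosed.isIntegral_iff.mp hint
  exact hy ▸ y.2

/-- Regularity on all branches gives regularity at each pole of `j`. -/
theorem ordGE_of_forall_branch (hξ : IsPrimitiveRoot ξ M) (hM : (M : k) ≠ 0) {f : FX k M}
    (hf : ∀ ψ : FX k M →+* LaurentSeries k, IsBranchHom ψ → ψ f ∈ regSeries k)
    {Q : Place k (FX k M)} (hQ : Q.ord (Model.jX k M) < 0) : FF.OrdGE Q f 0 := by
  classical
  -- shortcut: the generic search unfolds the algebra structure of Laurent series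
  let : Algebra (jField k) (levelField k M) := inferInstance
  -- given directly, as the search for it takes seconds
  have : Module.Free (jField k) (levelField k M) := Module.Free.of_divisionRing _ _
  have hfin : Module.Finite (jField k) (levelField k M) := Module.finite_of_finrank_pos
    (finrank_levelField (k := k) M hM ▸ dedekindPsi_pos (NeZero.ne M))
  have halg : Algebra.IsAlgebraic (jField k) (levelField k M) := Algebra.IsAlgebraic.of_finite _ _
  set g := minpoly (jField k) (toLevel k M f)
  have hg : IsIntegral (jField k) (toLevel k M f) := IsIntegral.of_finite _ _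
  set R := (inc k M).comp (regSeries k).toSubring.subtype
  -- the roots along the branches
  have hroots : ∀ r ∈ (g.map (algebraMap (jField k) (Branch k M))).roots, r ∈ R.range := by
    intro r hr
    have hmem : r ∈ g.rootSet (Branch k M) := by
      rw [Polynomial.rootSet_def, Finset.mem_coe, Multiset.mem_toFinset]
      exact hr
    rw [← Algebra.IsAlgebraic.range_eval_eq_rootSet_minpoly] at hmem
    obtain ⟨φ, rfl⟩ := hmem
    obtain ⟨ψ, hψ, hψφ⟩ := exists_branch_of_algHom hξ hM φ
    exact ⟨⟨ψ f, hf ψ hψ⟩, hψφ f⟩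
  -- hence the coefficients are regular
  have hcoeff : ∀ n, qExpand k M (g.coeff n : LaurentSeries k) ∈ regSeries k := fun n => by
    have hl : g.map (algebraMap (jField k) (Branch k M)) ∈ Polynomial.lifts R := by
      rw [(IsAlgClosed.splits (g.map (algebraMap (jField k) (Branch k M)))).eq_prod_roots,
        show (g.map (algebraMap (jField k) (Branch k M))).leadingCoeff = 1 from
          ((minpoly.monic hg).map _).leadingCoeff, map_one, one_mul]
      refine multiset_prod_mem _ fun p hp => ?_
      obtain ⟨r, hr, rfl⟩ := Multiset.mem_map.mp hp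
      obtain ⟨z, hz⟩ := hroots r hr
      exact ⟨X - Polynomial.C z, by simp [hz]⟩
    obtain ⟨z, hz⟩ := (Polynomial.lifts_iff_coeff_lifts _).mp hl n
    rw [coeff_map, algebraMap_branch] at hz
    exact inc_injective k M hz ▸ z.2
  -- a coefficient is rational in `j`, so regular at one pole of `j` means regular at all
  obtain ⟨i, hi⟩ : (valIndex M).Nonempty :=
    Finset.card_pos.mp (card_valIndex M ▸ dedekindPsi_pos (NeZero.ne M))
  obtain ⟨ψ₁, hψ₁, -⟩ := exists_branch hξ hM hi
  have hreg : ∀ n, ∃ c : FX k M, toLevel k M c = algebraMap (jField k)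
    (levelField k M) (g.coeff n) ∧
      FF.OrdGE Q c 0 := fun n => by
    obtain ⟨y, hy⟩ := toLevel_surjective (algebraMap (jField k) (levelField k M) (g.coeff n))
    have hyc : (y : LaurentSeries k) = g.coeff n := coe_eq_of_toLevel_eq hy
    refine ⟨y, hy, ?_⟩
    rcases eq_or_ne (g.coeff n) 0 with h0 | h0
    · rw [show y = 0 from Subtype.ext (by simpa [h0] using hyc)]
      exact FF.ordGE_zero _ _
    obtain ⟨P, R, hPR⟩ := (IntermediateField.mem_adjoin_simple_iff k _).mp (g.coeff n).2
    have hR : R ≠ 0 := fun h => h0 (Subtype.ext (by rw [hPR, h, map_zero, div_zero]; rfl))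
    have hP : P ≠ 0 := fun h => h0 (Subtype.ext (by rw [hPR, h, map_zero, zero_div]; rfl))
    have e : y * aeval (Model.jX k M) R = aeval (Model.jX k M) P :=
      (expX k M).injective (by
        rw [map_mul, expX_aeval, expX_aeval]
        change (y : LaurentSeries k) * _ = _
        rw [hyc, hPR, div_mul_cancel₀]
        exact fun h => hR (transcendental_iff.mp transcendental_jqModC _ h))
    have hc0 : y ≠ 0 := fun h =>
      h0 (Subtype.ext (hyc.symm.trans (congrArg Subtype.val h)))
    have key : ∀ v : Place k (FX k M), v.ord (Model.jX k M) < 0 →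
        v.ord y = ((P.natDegree : ℤ) - R.natDegree) * v.ord (Model.jX k M) := by
      intro v hv
      have := congrArg v.ord e
      rw [v.ord_mul hc0 (aeval_jX_ne_zero hR), FF.ord_aeval_of_neg hv hR,
        FF.ord_aeval_of_neg hv hP] at this
      linarith
    have h1 : FF.OrdGE hψ₁.place y 0 := (hψ₁.ordGE_place _).mpr (by
      rw [hψ₁.apply_of_coe_eq hyc]
      exact hcoeff n)
    have h2 := key _ hψ₁.ord_jX_neg
    have h3 := h1.le_ord hc0
    have h4 := hψ₁.ord_jX_neg
    have : (P.natDegree : ℤ) ≤ R.natDegree := by nlinarith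
    exact (FF.ordGE_iff_of_ne hc0).mpr (by rw [key Q hQ]; nlinarith)
  choose c hc hcQ using hreg
  -- an integral equation
  rw [← FF.mem_iff_ordGE]
  exact mem_of_monic_aeval_eq_zero (toLevel k M) _ (minpoly.monic hg) (minpoly.aeval _ _) c hc
    fun n => (FF.mem_iff_ordGE Q).mpr (hcQ n)

/-- The cusp classes of level `M`. -/
def classIndex (M : ℕ) : Finset (Σ _ : ℕ, ℕ) :=
  M.divisors.sigma fun a => (Finset.range (Nat.gcd a (M / a))).filter (Nat.gcd a (M / a)).Coprime

/-- There are `cuspCount M` cusp classes. -/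
theorem card_classIndex (M : ℕ) : (classIndex M).card = cuspCount M := by
  rw [classIndex, Finset.card_sigma, cuspCount]
  exact Finset.sum_congr rfl fun a _ => (Nat.totient_eq_card_coprime _).symm

omit [IsAlgClosed k] [FF.IsFunctionField k (FX k M)] in
/-- The cusp classes index some of the listed values. -/
theorem classIndex_subset : classIndex M ⊆ valIndex M := by
  rintro ⟨a, b⟩ hi
  simp only [classIndex, Finset.mem_sigma, Finset.mem_filter, Finset.mem_range,
    Nat.mem_divisors] at hi
  rw [mem_valIndex]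
  refine ⟨hi.1, hi.2.1.trans_le (Nat.le_of_dvd ?_ (Nat.gcd_dvd_right _ _)), hi.2.2⟩
  exact Nat.div_pos (Nat.le_of_dvd (Nat.pos_of_neZero M) hi.1.1)
    (Nat.pos_of_ne_zero fun h => hi.1.2 (Nat.eq_zero_of_zero_dvd (h ▸ hi.1.1)))

/-- At each pole `Q` of `x` there is a function with a pole at `Q` and none at the other poles
of `x`. -/
theorem exists_pole_at {K : Type*} [Field K] [Algebra k K] [FF.IsFunctionField k K] {x : K}
    {Q : Place k K} (hQ : Q.ord x < 0) :
    ∃ f : K, ¬ FF.OrdGE Q f 0 ∧ ∀ v : Place k K, v.ord x < 0 → v ≠ Q → FF.OrdGE v f 0 := by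
  classical
  have hT : ∀ v : Place k K, v.ord x < 0 → v ∈ (FF.finite_setOf_ord_ne_zero (K := k) x).toFinset :=
    fun v hv => (FF.finite_setOf_ord_ne_zero (K := k) x).mem_toFinset.mpr hv.ne
  obtain ⟨u, hu0, hu⟩ := FF.exists_ord_eq Q (-1)
  obtain ⟨f, hf⟩ := FF.exists_approx _ (fun v => if v = Q then u else 0) 0
  refine ⟨f, fun h => ?_, fun v hv hne => ?_⟩
  · have h' := hf Q (hT Q hQ)
    rw [if_pos rfl] at h'
    have := h.sub h'
    rw [sub_sub_cancel] at this
    have := this.le_ord hu0
    omega
  · have := hf v (hT v hv)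
    rwa [if_neg hne, sub_zero] at this

/-- `j` has at most `cuspCount M` poles. -/
theorem exists_finset_poles (hξ : IsPrimitiveRoot ξ M) (hM : (M : k) ≠ 0) :
    ∃ S : Finset (Place k (FX k M)), S.card ≤ cuspCount M ∧
      ∀ Q : Place k (FX k M), Q.ord (Model.jX k M) < 0 → Q ∈ S := by
  classical
  choose ψ hψ hψj using fun i : classIndex M => exists_branch hξ hM (classIndex_subset i.2)
  refine ⟨(classIndex M).attach.image fun i => (hψ i).place,
    Finset.card_image_le.trans (by rw [Finset.card_attach, card_classIndex]), fun Q hQ => ?_⟩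
  by_contra hQS
  -- a function with a pole at `Q` only, among the poles of `j`
  obtain ⟨f, hfQ, hfT⟩ := exists_pole_at hQ
  refine hfQ (ordGE_of_forall_branch hξ hM (fun φ hφ => ?_) hQ)
  refine (hφ.ordGE_place f).mp (hfT _ hφ.ord_jX_neg fun hne => hQS ?_)
  rw [Finset.mem_image, ← hne]
  -- every branch is a twist of a chosen one
  obtain ⟨a, b, hab⟩ := exists_eq_valAt hξ hM hφ
  obtain ⟨hi, hφj⟩ := hab
  rw [mem_valIndex] at hi
  simp only at hi
  set g := Nat.gcd a (M / a)
  have ha0 : a ≠ 0 := fun h => NeZero.ne M (Nat.eq_zero_of_zero_dvd (h ▸ hi.1.1))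
  have hg0 : 0 < g := Nat.gcd_pos_of_pos_left _ (Nat.pos_of_ne_zero ha0)
  have hmem : (⟨a, b % g⟩ : Σ _ : ℕ, ℕ) ∈ classIndex M := by
    simp only [classIndex, Finset.mem_sigma, Finset.mem_filter, Finset.mem_range, Nat.mem_divisors]
    exact ⟨hi.1, Nat.mod_lt _ hg0,
      by rw [Nat.coprime_comm, Nat.coprime_iff_gcd_eq_one, ← Nat.gcd_rec]; exact hi.2.2⟩
  refine ⟨⟨_, hmem⟩, Finset.mem_attach _ _, ?_⟩
  -- Bezout
  obtain ⟨s, t, hst⟩ : ∃ s t : ℤ, (b : ℤ) - (b % g : ℕ) = a * s + (M / a : ℕ) * t := by
    refine ⟨(b / g : ℕ) * Nat.gcdA a (M / a), (b / g : ℕ) * Nat.gcdB a (M / a), ?_⟩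
    have h1 : (g : ℤ) = a * Nat.gcdA a (M / a) + (M / a : ℕ) * Nat.gcdB a (M / a) :=
      Nat.gcd_eq_gcd_ab a (M / a)
    have h2 : (b : ℤ) = (b % g : ℕ) + g *
      (b / g : ℕ) := by exact_mod_cast (Nat.mod_add_div b g).symm
    linear_combination h2 + (b / g : ℕ) * h1
  have hη : (ξ ^ s) ^ M = 1 := by
    rw [← zpow_natCast, ← zpow_mul, mul_comm, zpow_mul, zpow_natCast, hξ.pow_eq_one, one_zpow]
  have : NeZero (a * a) := ⟨mul_ne_zero ha0 ha0⟩
  have hφeq : φ = (twist (ξ ^ s)).comp (ψ ⟨_, hmem⟩) := by
    refine hφ.ext hM ((hψ _).twist_comp hη) ?_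
    rw [RingHom.comp_apply, hψj, hφj, valAt_eq, valAt_eq, twist_jb]
    congr 1
    simp only [← zpow_natCast, ← zpow_mul, ← zpow_add]
    have hone : ξ ^ ((M : ℤ) * t) = 1 := by rw [zpow_mul, zpow_natCast, hξ.pow_eq_one, one_zpow]
    have hMa : (M : ℤ) = a * (M / a : ℕ) := by exact_mod_cast (Nat.mul_div_cancel' hi.1.1).symm
    rw [← mul_one (ξ ^ (s * ((a * a : ℕ) : ℤ) + ((a * (b % g) : ℕ) : ℤ))), ← hone, ← zpow_add]
    congr 1
    push_cast at hst hMa ⊢
    linear_combination (a : ℤ) * hst - t * hMa
  exact (hψ _).place_congr hφ fun f => by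
    rw [hφeq, RingHom.comp_apply, twist_mem_regSeries_iff]

/-- Branches with different exponents give different places. -/
theorem place_ne {ψ ψ' : FX k M →+* LaurentSeries k} (h : IsBranchHom ψ) (h' : IsBranchHom ψ')
    {c c' : kˣ} {e e' : ℕ} [NeZero e] [NeZero e'] (he : ψ (jdX k M M dvd_rfl) = jb k c e)
    (he' : ψ' (jdX k M M dvd_rfl) = jb k c' e') (hne : e ≠ e') : h.place ≠ h'.place := by
  -- `j_M ^ M / j ^ e` has order zero along `ψ` and a nonzero one along `ψ'`
  intro heq
  have hj0 := jX_ne_zero (L := k) M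
  have hord : ∀ (φ : FX k M →+* LaurentSeries k) (hφ : IsBranchHom φ) (c : kˣ) (e₁ : ℕ) [NeZero e₁],
      φ (jdX k M M dvd_rfl) = jb k c e₁ →
      (φ (jdX k M M dvd_rfl ^ M / Model.jX k M ^ e)).order = (M : ℤ) * ((e : ℤ) - e₁) := by
    intro φ hφ c e₁ _ he₁
    rw [map_div₀, map_pow, map_pow, he₁, hφ.jX]
    have h1 := jb_ne_zero (k := k) c e₁
    have h2 := jb_ne_zero (k := k) (1 : kˣ) M
    have h3 : jb k c e₁ ^ M / jb k 1 M ^ e * jb k 1 M ^ e = jb k c e₁ ^ M :=
      div_mul_cancel₀ _ (pow_ne_zero _ h2)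
    have h4 := congrArg HahnSeries.order h3
    rw [HahnSeries.order_mul (div_ne_zero (pow_ne_zero _ h1) (pow_ne_zero _ h2)) (pow_ne_zero _ h2),
      HahnSeries.order_pow, HahnSeries.order_pow, order_jb, order_jb, nsmul_eq_mul,
      nsmul_eq_mul] at h4
    linear_combination h4
  have key : ∀ (φ : FX k M →+* LaurentSeries k) (f : FX k M), f ≠ 0 →
      (φ f ∈ regSeries k ↔ 0 ≤ (φ f).order) := fun φ f hf => by
    rw [mem_regSeries_iff]
    constructor
    · intro h0
      by_contra hlt
      exact (_root_.map_ne_zero φ).mpr hf (HahnSeries.coeff_order_eq_zero.mp (h0 _ (not_le.mp hlt)))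
    · exact fun h0 n hn => HahnSeries.coeff_eq_zero_of_lt_order (hn.trans_le h0)
  set f := jdX k M M dvd_rfl ^ M / Model.jX k M ^ e
  have hf : f ≠ 0 := div_ne_zero (pow_ne_zero _ fun h0 => jb_ne_zero (k := k) (1 : kˣ) M
    (congrArg Subtype.val h0)) (pow_ne_zero _ hj0)
  have hM0 : (0 : ℤ) < M := by exact_mod_cast Nat.pos_of_neZero M
  have e1 := hord ψ h c e he
  have e2 := hord ψ' h' c' e' he'
  have i1 : ∀ u : FX k M, u ≠ 0 → (0 ≤ (ψ u).order ↔ 0 ≤ (ψ' u).order) := fun u hu => by
    rw [← key ψ u hu, ← key ψ' u hu, ← h.ordGE_place, ← h'.ordGE_place, heq]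
  have o1 := i1 f hf
  have o2 := i1 f⁻¹ (inv_ne_zero hf)
  have hinv : ∀ φ : FX k M →+* LaurentSeries k, (φ f⁻¹).order = -(φ f).order := fun φ => by
    have := HahnSeries.order_mul ((_root_.map_ne_zero φ).mpr hf)
      ((_root_.map_ne_zero φ).mpr (inv_ne_zero hf))
    rw [← map_mul, mul_inv_cancel₀ hf, map_one, HahnSeries.order_one] at this
    omega
  rw [hinv, hinv, e1, e2, sub_self, mul_zero, neg_zero] at o2
  rw [e1, e2, sub_self, mul_zero] at o1
  have : (e : ℤ) = e' := by nlinarith [o1.mp le_rfl, o2.mp le_rfl]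
  exact hne (by exact_mod_cast this)

/-- Branches with the same exponent and different leading coefficients give different places. -/
theorem place_ne' {ψ ψ' : FX k M →+* LaurentSeries k} (h : IsBranchHom ψ) (h' : IsBranchHom ψ')
    {c c' : kˣ} (he : ψ (jdX k M M dvd_rfl) = jb k c M)
    (he' : ψ' (jdX k M M dvd_rfl) = jb k c' M) (hne : c ≠ c') : h.place ≠ h'.place := by
  -- `(j_M - c⁻¹ j) / j` has a zero along `ψ` and none along `ψ'`
  intro heq
  set u := jdX k M M dvd_rfl - algebraMap k (FX k M) ((c⁻¹ : kˣ) : k) * Model.jX k M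
  have hco : ∀ (φ : FX k M →+* LaurentSeries k), IsBranchHom φ → ∀ d : kˣ,
      φ (jdX k M M dvd_rfl) = jb k d M → ∀ n ≤ -(M : ℤ),
      (φ u).coeff n = if n = -(M : ℤ) then ((d⁻¹ : kˣ) : k) - ((c⁻¹ : kˣ) : k) else 0 := by
    intro φ hφ d hd n hn
    simp only [u, map_sub, map_mul, hd, hφ.const, hφ.jX, HahnSeries.coeff_sub,
      algebraMap_laurentSeries_eq_single, HahnSeries.coeff_single_zero_mul]
    split
    · next h => subst h; simp [coeff_jb_neg]
    · next h => simp [coeff_jb_of_lt _ M (lt_of_le_of_ne hn h)]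
  set f := u / Model.jX k M
  have hj0 := jX_ne_zero (L := k) M
  have hu' : (ψ' u).coeff (-(M : ℤ)) ≠ 0 := by
    rw [hco ψ' h' c' he' _ le_rfl, if_pos rfl, sub_ne_zero]
    exact fun e => hne (inv_injective (Units.ext e)).symm
  have hu0 : u ≠ 0 := fun h0 => hu' (by rw [h0, map_zero, HahnSeries.coeff_zero])
  have hf0 : f ≠ 0 := div_ne_zero hu0 hj0
  have horder : ∀ φ : FX k M →+* LaurentSeries k, IsBranchHom φ →
      (φ f).order = (φ u).order + M := fun φ hφ => by
    have h3 : φ f * φ (Model.jX k M) = φ u := by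
      rw [← map_mul]; exact congrArg φ (div_mul_cancel₀ _ hj0)
    have h4 := congrArg HahnSeries.order h3
    rw [HahnSeries.order_mul ((_root_.map_ne_zero φ).mpr hf0) ((_root_.map_ne_zero φ).mpr hj0),
      hφ.jX, order_jb] at h4
    omega
  have h1 : 0 < (ψ f).order := by
    rw [horder ψ h]
    by_contra hle
    refine (_root_.map_ne_zero ψ).mpr hu0 (HahnSeries.coeff_order_eq_zero.mp ?_)
    rw [hco ψ h c he _ (by omega)]
    simp
  have h2 : (ψ' f).order = 0 := by
    rw [horder ψ' h']
    have hle := HahnSeries.order_le_of_coeff_ne_zero hu'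
    by_contra hlt
    refine (_root_.map_ne_zero ψ').mpr hu0 (HahnSeries.coeff_order_eq_zero.mp ?_)
    rw [hco ψ' h' c' he' _ hle, if_neg (by omega)]
  have hfi : ψ' f⁻¹ ∈ regSeries k := by
    rw [mem_regSeries_iff]
    intro n hn
    refine HahnSeries.coeff_eq_zero_of_lt_order ?_
    have := HahnSeries.order_mul ((_root_.map_ne_zero ψ').mpr hf0)
      ((_root_.map_ne_zero ψ').mpr (inv_ne_zero hf0))
    rw [← map_mul, mul_inv_cancel₀ hf0, map_one, HahnSeries.order_one, h2] at this
    omega
  have h3 : ψ f⁻¹ ∈ regSeries k := by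
    rw [← h.ordGE_place, heq, h'.ordGE_place]; exact hfi
  rw [mem_regSeries_iff] at h3
  have h4 := HahnSeries.order_mul ((_root_.map_ne_zero ψ).mpr hf0)
    ((_root_.map_ne_zero ψ).mpr (inv_ne_zero hf0))
  rw [← map_mul, mul_inv_cancel₀ hf0, map_one, HahnSeries.order_one] at h4
  refine (_root_.map_ne_zero ψ).mpr (inv_ne_zero hf0)
    (HahnSeries.coeff_order_eq_zero.mp (h3 _ ?_))
  omega

end Field

end Fermat.RED.Cusps
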