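import Fermat.Agent.RED.Model.Place

/-!
# Reduction of divisors

On a normal good model the reductions on the charts of `x` and `x⁻¹` glue to a surjection of places
which carries the divisor of a primitive function to the divisor of its reduction.
-/

set_option autoImplicit false

attribute [local instance 10000] SubalgebraClass.toAlgebra HahnSeries.powerSeriesAlgebra

noncomputable section

open AlgebraicCurve

namespace Fermat.RED.Model

variable {L : Type*} [Field L] {A : ValuationSubring L}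
variable {k : Type*} [Field k] {π : A →+* k}
variable {F : Type*} [Field F] [Algebra L F] {ι : F →+* LaurentSeries L}
variable {x : F} {d : ℕ}
variable [IsAlgClosed L] [IsAlgClosed k]
variable [FF.IsFunctionField L F] [FF.IsFunctionField k (specField π ι)]

variable (A π ι) in
/-- `r` is reduction of places: on the chart of `x` where it applies, else on that of `x⁻¹`. -/
structure IsReduction (x : F) (r : Place L F → Place k (specField π ι)) : Prop where
  /-- Over the finite places of `x` reduction is `Reduces` on the chart of `x`. -/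
  finite_iff : ∀ P Q, FF.OrdGE Q (redS π ι x) 0 → (r P = Q ↔ Reduces A π ι x P Q)
  /-- Over the poles of `x` reduction is `Reduces` on the chart of `x⁻¹`. -/
  infinite_iff : ∀ P Q, ¬ FF.OrdGE Q (redS π ι x) 0 → (r P = Q ↔ Reduces A π ι x⁻¹ P Q)

namespace GoodModel

omit [IsAlgClosed k] [FF.IsFunctionField k (specField π ι)] in
/-- Every place lies in one of the two charts. -/
theorem inChart_or (h : GoodModel π ι x d) (P : Place L F) :
    InChart A x P ∨ InChart A x⁻¹ P ∧ Small π (FF.evalAt P x⁻¹) := by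
  classical
  by_cases hx : InChart A x P
  · exact .inl hx
  refine .inr ?_
  have hx0 := h.ne_zero
  by_cases hreg : FF.OrdGE P x 0
  · have hc : FF.evalAt P x ∉ A := fun hc => hx ⟨hreg, hc⟩
    have hne : FF.evalAt P x ≠ 0 := fun h0 => hc (h0 ▸ zero_mem A)
    have hord : P.ord x = 0 := by
      have h0 := hreg.le_ord hx0
      by_contra hne'
      exact hne ((FF.evalAt_eq_zero_iff hreg).mpr ((FF.ordGE_iff_of_ne hx0).mpr (by omega)))
    have hi : FF.OrdGE P x⁻¹ 0 := FF.ordGE_of_ord_eq_zero (by rw [P.ord_inv, hord, neg_zero])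
    have he := FF.evalAt_inv (v := P) hx0 hord
    have hA : (FF.evalAt P x)⁻¹ ∈ A := (A.mem_or_inv_mem _).resolve_left hc
    refine ⟨⟨hi, he ▸ hA⟩, he ▸ hA, ?_⟩
    exact map_eq_zero_of_inv_notMem h.surj (a := ⟨_, he ▸ hA⟩)
      (show (FF.evalAt P x⁻¹)⁻¹ ∉ A by rw [he, inv_inv]; exact hc)
  · rw [FF.ordGE_iff, not_or, not_le] at hreg
    have hi : FF.OrdGE P x⁻¹ 1 := (FF.ordGE_iff_of_ne (inv_ne_zero hx0)).mpr
      (by rw [P.ord_inv]; omega)
    have he : FF.evalAt P x⁻¹ = 0 := (FF.evalAt_eq_zero_iff (hi.mono zero_le_one)).mpr hi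
    refine ⟨⟨hi.mono zero_le_one, he ▸ zero_mem A⟩, he ▸ zero_mem A, ?_⟩
    rw [show (⟨FF.evalAt P x⁻¹, he ▸ zero_mem A⟩ : A) = 0 from Subtype.ext he, map_zero]

omit [IsAlgClosed k] [FF.IsFunctionField k (specField π ι)] in
/-- A point where `1/x` is small is outside the chart of `x`. -/
theorem not_inChart_of_small (_h : GoodModel π ι x d) {P : Place L F}
    (hi : FF.OrdGE P x⁻¹ 0) (hs : Small π (FF.evalAt P x⁻¹)) : ¬ InChart A x P := by
  rintro ⟨hreg, hc⟩
  obtain ⟨hA, h0⟩ := hs
  rcases eq_or_ne x 0 with rfl | hx0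
  · exact _h.ne_zero rfl
  have h1 : FF.evalAt P x * FF.evalAt P x⁻¹ = 1 := by
    rw [← FF.evalAt_mul hreg hi, mul_inv_cancel₀ hx0, FF.evalAt_one]
  have := congrArg π (Subtype.ext h1 : (⟨_, hc⟩ * ⟨_, hA⟩ : A) = 1)
  rw [map_mul, h0, mul_zero, map_one] at this
  exact zero_ne_one this

omit [IsAlgClosed L] [FF.IsFunctionField L F] in
/-- The poles of the reduced coordinate are the zeros of the reduction of `1/x`. -/
theorem not_ordGE_iff (h : GoodModel π ι x d) (Q : Place k (specField π ι)) :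
    ¬ FF.OrdGE Q (redS π ι x) 0 ↔
      FF.OrdGE Q (redS π ι x⁻¹) 0 ∧ FF.evalAt Q (redS π ι x⁻¹) = 0 := by
  have hne : redS π ι x ≠ 0 := fun h0 => h.transcendental_redS (h0 ▸ isAlgebraic_zero)
  rw [h.redS_inv, FF.ordGE_iff_of_ne hne]
  constructor
  · intro hQ
    have h1 : FF.OrdGE Q (redS π ι x)⁻¹ 1 :=
      (FF.ordGE_iff_of_ne (inv_ne_zero hne)).mpr (by rw [Q.ord_inv]; omega)
    exact ⟨h1.mono zero_le_one, (FF.evalAt_eq_zero_iff (h1.mono zero_le_one)).mpr h1⟩
  · rintro ⟨h1, h2⟩
    have := ((FF.evalAt_eq_zero_iff h1).mp h2).le_ord (inv_ne_zero hne)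
    rw [Q.ord_inv] at this
    omega

/-- A normal good model has a reduction map of places. -/
theorem exists_isReduction (h : GoodModel π ι x d) (hn : Normal A π ι x)
    (hn' : Normal A π ι x⁻¹) : ∃ r, IsReduction A π ι x r := by
  classical
  have hinf : ∀ {P}, ¬ InChart A x P → InChart A x⁻¹ P ∧ Small π (FF.evalAt P x⁻¹) :=
    fun {P} hP => (h.inChart_or P).resolve_left hP
  let r : Place L F → Place k (specField π ι) := fun P =>
    if hP : InChart A x P then (exists_reduces h.toPreModel hn hP).choose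
    else (exists_reduces h.inv.toPreModel hn' (hinf hP).1).choose
  have hpole : ∀ {P Q}, Reduces A π ι x⁻¹ P Q → Small π (FF.evalAt P x⁻¹) →
      ¬ FF.OrdGE Q (redS π ι x) 0 := fun {P Q} hr hs => by
    obtain ⟨_, e⟩ := hr.eval _ (self_mem_chart x⁻¹)
    exact (h.not_ordGE_iff Q).mpr ⟨hr.ord_right, e.symm.trans hs.2⟩
  refine ⟨r, fun P Q hQ => ⟨fun e => ?_, fun hr => ?_⟩, fun P Q hQ => ⟨fun e => ?_, fun hr => ?_⟩⟩
  · by_cases hP : InChart A x P
    · simp only [r, dif_pos hP] at e
      exact e ▸ (exists_reduces h.toPreModel hn hP).choose_spec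
    · simp only [r, dif_neg hP] at e
      exact absurd (e ▸ hQ) (hpole (exists_reduces h.inv.toPreModel hn' (hinf hP).1).choose_spec
        (hinf hP).2)
  · have hP := hr.inChart
    simp only [r, dif_pos hP]
    exact Reduces.unique h.toPreModel hn (exists_reduces h.toPreModel hn hP).choose_spec hr
  · by_cases hP : InChart A x P
    · simp only [r, dif_pos hP] at e
      exact absurd (exists_reduces h.toPreModel hn hP).choose_spec.ord_right (e ▸ hQ)
    · simp only [r, dif_neg hP] at e
      exact e ▸ (exists_reduces h.inv.toPreModel hn' (hinf hP).1).choose_spec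
  · obtain ⟨hA, e⟩ := hr.eval _ (self_mem_chart x⁻¹)
    have hP : ¬ InChart A x P :=
      h.not_inChart_of_small hr.ord_left ⟨hA, e.trans ((h.not_ordGE_iff Q).mp hQ).2⟩
    simp only [r, dif_neg hP]
    exact Reduces.unique h.inv.toPreModel hn'
      (exists_reduces h.inv.toPreModel hn' (hinf hP).1).choose_spec hr

end GoodModel

/-- Orders of `f` push forward to orders of its reduction at `Q`. -/
def CompatAt (r : Place L F → Place k (specField π ι)) (f : F) (Q : Place k (specField π ι)) :
    Prop :=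
  Finsupp.mapDomain r (FF.divOf L f) Q = Q.ord (redS π ι f)

omit [IsAlgClosed k] [FF.IsFunctionField k (specField π ι)] in
/-- `CompatAt` is stable under products. -/
theorem CompatAt.mul {r : Place L F → Place k (specField π ι)} {f g : F}
    {Q : Place k (specField π ι)} (hf : ι f ∈ intSeries A) (hg : ι g ∈ intSeries A)
    (hf0 : redS π ι f ≠ 0) (hg0 : redS π ι g ≠ 0)
    (h1 : CompatAt r f Q) (h2 : CompatAt r g Q) : CompatAt r (f * g) Q := by
  rw [CompatAt] at *
  rw [FF.divOf_mul (fun h => hf0 (by rw [h, redS_zero])) (fun h => hg0 (by rw [h, redS_zero])),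
    Finsupp.mapDomain_add, Finsupp.add_apply, redS_mul hf hg, Q.ord_mul hf0 hg0, h1, h2]

omit [IsAlgClosed k] [FF.IsFunctionField k (specField π ι)] in
/-- `CompatAt` for `f * g` and for `g` gives it for `f`. -/
theorem CompatAt.cancel {r : Place L F → Place k (specField π ι)} {f g : F}
    {Q : Place k (specField π ι)} (hf : ι f ∈ intSeries A) (hg : ι g ∈ intSeries A)
    (hf0 : redS π ι f ≠ 0) (hg0 : redS π ι g ≠ 0)
    (h1 : CompatAt r (f * g) Q) (h2 : CompatAt r g Q) : CompatAt r f Q := by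
  rw [CompatAt] at *
  rw [FF.divOf_mul (fun h => hf0 (by rw [h, redS_zero])) (fun h => hg0 (by rw [h, redS_zero])),
    Finsupp.mapDomain_add, Finsupp.add_apply, redS_mul hf hg, Q.ord_mul hf0 hg0, h2] at h1
  exact add_right_cancel h1

omit [IsAlgClosed k] [FF.IsFunctionField k (specField π ι)] in
open Classical in
/-- `CompatAt` as a sum of orders over the points above `Q`. -/
theorem compatAt_iff {r : Place L F → Place k (specField π ι)} {f : F}
    {Q : Place k (specField π ι)} :
    CompatAt r f Q ↔ ∑ P ∈ (FF.divOf L f).support.filter (r · = Q), P.ord f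
      = Q.ord (redS π ι f) := by
  rw [CompatAt]
  refine Eq.congr_left ?_
  rw [Finsupp.mapDomain, Finsupp.sum_apply, Finsupp.sum, Finset.sum_filter]
  exact Finset.sum_congr rfl fun P _ => by rw [Finsupp.single_apply, FF.divOf_apply]

/-- Primitive elements of a normal chart are compatible at the finite places of the chart. -/
theorem PreModel.compatAt_of_chart {t : F} (hgood : GoodModel π ι t d) (hn : Normal A π ι t)
    {r : Place L F → Place k (specField π ι)} {Q : Place k (specField π ι)}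
    (hQ : FF.OrdGE Q (redS π ι t) 0) (hr : ∀ P, r P = Q ↔ Reduces A π ι t P Q)
    {g : F} (hg : g ∈ chart A t) (hg0 : redS π ι g ≠ 0) : CompatAt r g Q := by
  classical
  rw [compatAt_iff]
  refine hgood.sum_ord_eq hn hg hg0 hQ _ fun P => ?_
  rw [Finset.mem_filter, Finsupp.mem_support_iff, FF.divOf_apply, hr]

namespace GoodModel

variable {r : Place L F → Place k (specField π ι)}

/-- Reduction of places is compatible with the divisors of primitive functions. -/
theorem compatAt (h : GoodModel π ι x d) (hn : Normal A π ι x) (hn' : Normal A π ι x⁻¹)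
    (hr : IsReduction A π ι x r) {f : F} (hf : ι f ∈ intSeries A) (hf0 : redS π ι f ≠ 0)
    (Q : Place k (specField π ι)) : CompatAt r f Q := by
  classical
  have hfne : f ≠ 0 := fun h0 => hf0 (by rw [h0, redS_zero])
  have hxi0 : redS π ι x⁻¹ ≠ 0 := fun h0 =>
    h.inv.transcendental_redS (h0 ▸ isAlgebraic_zero)
  -- elements of the chart of `x`
  have hchart : ∀ g ∈ chart A x, redS π ι g ≠ 0 → CompatAt r g Q := by
    intro g hg hg0
    by_cases hQ : FF.OrdGE Q (redS π ι x) 0
    · exact PreModel.compatAt_of_chart h hn hQ (fun P => hr.finite_iff P Q hQ) hg hg0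
    have hQ' := ((h.not_ordGE_iff Q).mp hQ).1
    have hc : ∀ u ∈ chart A x⁻¹, redS π ι u ≠ 0 → CompatAt r u Q := fun u hu hu0 =>
      PreModel.compatAt_of_chart h.inv hn' hQ' (fun P => hr.infinite_iff P Q hQ) hu hu0
    obtain ⟨n, hn0⟩ := exists_inv_pow_mul_mem_chart h.ne_zero hg
    have hpint : ι (x⁻¹ ^ n) ∈ intSeries A := by rw [map_pow]; exact pow_mem h.int_inv n
    have hp0 : redS π ι (x⁻¹ ^ n) ≠ 0 := by rw [redS_pow h.int_inv]; exact pow_ne_zero n hxi0
    refine CompatAt.cancel (h.int_chart g hg) hpint hg0 hp0 ?_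
      (hc _ (pow_mem (self_mem_chart x⁻¹) n) hp0)
    rw [mul_comm]
    refine hc _ (hn0 n le_rfl) ?_
    rw [redS_mul hpint (h.int_chart g hg)]
    exact mul_ne_zero hp0 hg0
  obtain ⟨D, c, g, hD, hc, hg, ⟨⟨⟩, hg0⟩, e⟩ :=
    h.exists_primitive_family (α := Unit) (fun _ => f) ⟨(), hfne⟩
  have hgS : redS π ι (g ()) ≠ 0 := fun h0 => hg0 (congrArg Subtype.val h0)
  have hDS : redS π ι (ax A x D) ≠ 0 := fun h0 => h.redF_ax_ne_zero hD (congrArg Subtype.val h0)
  have hDf : ι (ax A x D * f) ∈ intSeries A := by rw [map_mul]; exact mul_mem (h.int_ax D) hf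
  have hcA : c ∈ A := by
    by_contra hcA
    have hc' : c⁻¹ ∈ A := (A.mem_or_inv_mem c).resolve_left hcA
    have e' : algebraMap L F c⁻¹ * (ax A x D * f) = g () := by
      rw [e (), ← mul_assoc, ← map_mul, inv_mul_cancel₀ hc, map_one, one_mul]
    refine hgS ?_
    rw [← e', redS_mul (h.int_algebraMap hc') hDf, h.redS_algebraMap hc',
      map_eq_zero_of_inv_notMem h.surj (a := ⟨c⁻¹, hc'⟩) (by simpa using hcA), map_zero, zero_mul]
  have hcπ : π ⟨c, hcA⟩ ≠ 0 := fun h0 => by
    have := congrArg (redS π ι) (e ())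
    rw [redS_mul (h.int_ax D) hf, redS_mul (h.int_algebraMap hcA) (h.int_chart _ (hg ())),
      h.redS_algebraMap hcA, h0, map_zero, zero_mul] at this
    exact mul_ne_zero hDS hf0 this
  refine CompatAt.cancel hf (h.int_ax D) hf0 hDS ?_ (hchart _ (ax_mem_chart x D) hDS)
  rw [mul_comm, e ()]
  refine CompatAt.mul (h.int_algebraMap hcA) (h.int_chart _ (hg ())) ?_ hgS ?_
    (hchart _ (hg ()) hgS)
  · rw [h.redS_algebraMap hcA]
    exact (_root_.map_ne_zero _).mpr hcπ
  · have : FF.divOf L (algebraMap L F c) = 0 := by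
      ext P; rw [FF.divOf_apply, FF.ord_algebraMap]; rfl
    rw [CompatAt, this, Finsupp.mapDomain_zero, h.redS_algebraMap hcA, FF.ord_algebraMap]
    rfl

/-- Reduction of a principal divisor. -/
theorem mapDomain_divOf (h : GoodModel π ι x d) (hn : Normal A π ι x) (hn' : Normal A π ι x⁻¹)
    (hr : IsReduction A π ι x r) {f : F} (hf : ι f ∈ intSeries A) (hf0 : redS π ι f ≠ 0) :
    Finsupp.mapDomain r (FF.divOf L f) = FF.divOf k (redS π ι f) :=
  Finsupp.ext fun Q => (h.compatAt hn hn' hr hf hf0 Q).trans (FF.divOf_apply _ Q).symm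

omit [FF.IsFunctionField k (specField π ι)] [IsAlgClosed k] in
/-- The divisor of a function is that of a quotient of integral functions with nonzero
reductions. -/
theorem exists_divOf_eq (h : GoodModel π ι x d) {f : F} (hf : f ≠ 0) :
    ∃ g u : F, ι g ∈ intSeries A ∧ ι u ∈ intSeries A ∧ redS π ι g ≠ 0 ∧ redS π ι u ≠ 0 ∧
      FF.divOf L f = FF.divOf L g - FF.divOf L u := by
  obtain ⟨D, c, g, hD, hc, hg, ⟨⟨⟩, hg0⟩, e⟩ :=
    h.exists_primitive_family (α := Unit) (fun _ => f) ⟨(), hf⟩
  have hDS : redS π ι (ax A x D) ≠ 0 := fun h0 => h.redF_ax_ne_zero hD (congrArg Subtype.val h0)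
  refine ⟨g (), ax A x D, h.int_chart _ (hg ()), h.int_ax D,
    fun h0 => hg0 (congrArg Subtype.val h0), hDS, ?_⟩
  have hg' : g () ≠ 0 := fun h0 => hg0 (by rw [h0, redF_zero])
  have := congrArg (FF.divOf L) (e ())
  rw [FF.divOf_mul (h.ax_ne_zero hD) hf, FF.divOf_mul ((_root_.map_ne_zero _).mpr hc) hg'] at this
  have h0 : FF.divOf L (algebraMap L F c) = 0 := by
    ext P; rw [FF.divOf_apply, FF.ord_algebraMap]; rfl
  rw [h0, zero_add] at this
  rw [← this, add_sub_cancel_left]

/-- Reduction of places is surjective. -/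
theorem surjective_of_isReduction (h : GoodModel π ι x d) (hn : Normal A π ι x)
    (hn' : Normal A π ι x⁻¹) (hr : IsReduction A π ι x r) : Function.Surjective r := by
  classical
  intro Q
  suffices ∃ f : F, ι f ∈ intSeries A ∧ redS π ι f ≠ 0 ∧ Q.ord (redS π ι f) ≠ 0 by
    obtain ⟨f, hf, hf0, hord⟩ := this
    by_contra hne
    refine hord ?_
    rw [← h.compatAt hn hn' hr hf hf0 Q, Finsupp.mapDomain_of_notMem_range]
    exact fun ⟨P, hP⟩ => hne ⟨P, hP⟩
  by_cases hQ : FF.OrdGE Q (redS π ι x) 0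
  · obtain ⟨⟨a, ha⟩, hae⟩ := h.surj (FF.evalAt Q (redS π ι x))
    have e : redS π ι (x - algebraMap L F a)
        = redS π ι x - algebraMap k (specField π ι) (FF.evalAt Q (redS π ι x)) := by
      rw [redS_sub h.int_self (h.int_algebraMap ha), h.redS_algebraMap ha, hae]
    have hne : redS π ι x - algebraMap k (specField π ι) (FF.evalAt Q (redS π ι x)) ≠ 0 :=
      fun h0 => h.transcendental_redS (by rw [sub_eq_zero.mp h0]; exact isAlgebraic_algebraMap _)
    refine ⟨x - algebraMap L F a, by rw [map_sub]; exact sub_mem h.int_self (h.int_algebraMap ha),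
      e ▸ hne, ?_⟩
    rw [e]
    exact ((pos_ord_sub_iff h.transcendental_redS).mpr ⟨hQ, rfl⟩).ne'
  · have hne : redS π ι x⁻¹ ≠ 0 := fun h0 => h.inv.transcendental_redS (h0 ▸ isAlgebraic_zero)
    obtain ⟨h1, h2⟩ := (h.not_ordGE_iff Q).mp hQ
    have := ((FF.evalAt_eq_zero_iff h1).mp h2).le_ord hne
    exact ⟨x⁻¹, h.int_inv, hne, by omega⟩

end GoodModel

end Fermat.RED.Model
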