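import Fermat.Agent.RED.Model.Divisor
import Fermat.Agent.RED.Model.Generic

/-!
# The value at the generic point of the special fibre

The value map from `gInt` to the special fibre field, compatible with the reduction of divisors.
Used by `RED/Model/Torsion`.
-/

set_option autoImplicit false

attribute [local instance 10000] SubalgebraClass.toAlgebra HahnSeries.powerSeriesAlgebra

noncomputable section

open AlgebraicCurve

namespace Fermat.RED.Model

variable {L : Type*} [Field L] {A : ValuationSubring L}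
variable {k : Type*} [Field k] {π : A →+* k}
variable {F : Type*} [Field F] [Algebra L F] {ι : F →+* LaurentSeries L}
variable {x : F} {d : ℕ}

variable (π ι) in
/-- The value at the generic point of the special fibre, in the special field. -/
def gVal (f : F) : specField π ι :=
  ⟨gRed π ι f, gRed_mem (K := (specField π ι).toSubfield) (fun g _ => redF_mem_specField π ι g) f⟩

/-- `gVal` is `gRed` in the series field. -/
@[simp] theorem coe_gVal (f : F) : (gVal π ι f : LaurentSeries k) = gRed π ι f := rfl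

/-- The value may be computed from any representation. -/
theorem IsGQuot.gVal_eq {f g u : F} (h : IsGQuot π ι f g u) :
    gVal π ι f = redS π ι g / redS π ι u := Subtype.ext h.gRed_eq

/-- On integral expansions the value is the reduction. -/
theorem gVal_of_int {f : F} (hf : ι f ∈ intSeries A) : gVal π ι f = redS π ι f :=
  Subtype.ext (gRed_of_int hf)

/-- The value of `1` is `1`. -/
@[simp] theorem gVal_one : gVal π ι 1 = 1 := Subtype.ext gRed_one

/-- The value of `0` is `0`. -/
@[simp] theorem gVal_zero : gVal π ι 0 = 0 := Subtype.ext gRed_zero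

/-- The value is multiplicative on `gInt`. -/
theorem gVal_mul {f f' : F} (hf : f ∈ gInt π ι) (hf' : f' ∈ gInt π ι) :
    gVal π ι (f * f') = gVal π ι f * gVal π ι f' := Subtype.ext (gRed_mul hf hf')

/-- The value is additive on `gInt`. -/
theorem gVal_add {f f' : F} (hf : f ∈ gInt π ι) (hf' : f' ∈ gInt π ι) :
    gVal π ι (f + f') = gVal π ι f + gVal π ι f' := Subtype.ext (gRed_add hf hf')

/-- The value commutes with subtraction on `gInt`. -/
theorem gVal_sub {f f' : F} (hf : f ∈ gInt π ι) (hf' : f' ∈ gInt π ι) :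
    gVal π ι (f - f') = gVal π ι f - gVal π ι f' := Subtype.ext (gRed_sub hf hf')

/-- The value commutes with powers on `gInt`. -/
theorem gVal_pow {f : F} (hf : f ∈ gInt π ι) (n : ℕ) : gVal π ι (f ^ n) = gVal π ι f ^ n :=
  Subtype.ext (by simp [gRed_pow hf])

/-- The value commutes with finite sums in `gInt`. -/
theorem gVal_sum {α : Type*} (s : Finset α) {f : α → F} (hf : ∀ i ∈ s, f i ∈ gInt π ι) :
    gVal π ι (∑ i ∈ s, f i) = ∑ i ∈ s, gVal π ι (f i) := Subtype.ext (by simp [gRed_sum s hf])

/-- An element with nonzero value is invertible in `gInt`, with inverse value. -/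
theorem gVal_inv {f : F} (hf : f ∈ gInt π ι) (h0 : gVal π ι f ≠ 0) :
    f⁻¹ ∈ gInt π ι ∧ gVal π ι f⁻¹ = (gVal π ι f)⁻¹ :=
  have h := inv_mem_gInt hf fun e => h0 (Subtype.ext e)
  ⟨h.1, Subtype.ext h.2⟩

namespace GoodModel

/-- Constants in `A` lie in `gInt`. -/
theorem algebraMap_mem_gInt (h : GoodModel π ι x d) {c : L} (hc : c ∈ A) :
    algebraMap L F c ∈ gInt π ι := mem_gInt_of_int (h.int_algebraMap hc)

/-- The value of a constant `c ∈ A` is `π c`. -/
theorem gVal_algebraMap (h : GoodModel π ι x d) {c : L} (hc : c ∈ A) :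
    gVal π ι (algebraMap L F c) = algebraMap k (specField π ι) (π ⟨c, hc⟩) := by
  rw [gVal_of_int (h.int_algebraMap hc), h.redS_algebraMap hc]

/-- Every function is a scalar times one with nonzero value. -/
theorem exists_eq_smul_gInt (h : GoodModel π ι x d) {f : F} (hf : f ≠ 0) :
    ∃ c : L, c ≠ 0 ∧ ∃ w ∈ gInt π ι, gVal π ι w ≠ 0 ∧ f = algebraMap L F c * w := by
  obtain ⟨D, c, g, hD, hc, hg, ⟨⟨⟩, hg0⟩, e⟩ :=
    h.exists_primitive_family (α := Unit) (fun _ => f) ⟨(), hf⟩
  have hDS : redS π ι (ax A x D) ≠ 0 := fun h0 => h.redF_ax_ne_zero hD (congrArg Subtype.val h0)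
  have hw : IsGQuot π ι (g () / ax A x D) (g ()) (ax A x D) :=
    ⟨h.int_chart _ (hg ()), h.int_ax D, h.redF_ax_ne_zero hD, div_mul_cancel₀ _ (h.ax_ne_zero hD)⟩
  refine ⟨c, hc, _, hw.mem, ?_, ?_⟩
  · rw [hw.gVal_eq]
    exact div_ne_zero (fun h0 => hg0 (congrArg Subtype.val h0)) hDS
  · rw [← mul_div_assoc, ← e (), mul_div_cancel_left₀ _ (h.ax_ne_zero hD)]

/-- A scalar bringing a primitive function into the ring is integral. -/
theorem mem_of_smul_mem (h : GoodModel π ι x d) {c : L} {w z : F}
    (hw0 : gVal π ι w ≠ 0) (hz : z ∈ gInt π ι) (e : algebraMap L F c * w = z) : c ∈ A := by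
  by_contra hc
  have hc0 : c ≠ 0 := fun h0 => hc (h0 ▸ zero_mem A)
  have hc' : c⁻¹ ∈ A := (A.mem_or_inv_mem c).resolve_left hc
  refine hw0 ?_
  have e' : w = algebraMap L F c⁻¹ * z := by
    rw [← e, ← mul_assoc, ← map_mul, inv_mul_cancel₀ hc0, map_one, one_mul]
  rw [e', gVal_mul (h.algebraMap_mem_gInt hc') hz, h.gVal_algebraMap hc',
    map_eq_zero_of_inv_notMem h.surj (a := ⟨c⁻¹, hc'⟩) (by simpa using hc), map_zero, zero_mul]

variable [IsAlgClosed L] [IsAlgClosed k]
variable [FF.IsFunctionField L F] [FF.IsFunctionField k (specField π ι)]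
variable {r : Place L F → Place k (specField π ι)}

/-- The divisor of a function with nonzero value reduces to the divisor of the value. -/
theorem mapDomain_divOf_gVal (h : GoodModel π ι x d) (hn : Normal A π ι x)
    (hn' : Normal A π ι x⁻¹) (hr : IsReduction A π ι x r) {f : F} (hf : f ∈ gInt π ι)
    (h0 : gVal π ι f ≠ 0) :
    Finsupp.mapDomain r (FF.divOf L f) = FF.divOf k (gVal π ι f) := by
  obtain ⟨g, u, hrep⟩ := hf
  rw [hrep.gVal_eq] at h0 ⊢
  obtain ⟨hg, hu, hu1, e⟩ := hrep
  have hu0 : redS π ι u ≠ 0 := fun h' => hu1 (congrArg Subtype.val h')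
  have hg0 : redS π ι g ≠ 0 := fun h' => h0 (by rw [h', zero_div])
  have hg' : g ≠ 0 := fun h' => hg0 (by rw [h', redS_zero])
  have hu' : u ≠ 0 := fun h' => hu0 (by rw [h', redS_zero])
  rw [show f = g / u by rw [← e, mul_div_cancel_right₀ _ hu'], div_eq_mul_inv, div_eq_mul_inv,
    FF.divOf_mul hg' (inv_ne_zero hu'), FF.divOf_mul hg0 (inv_ne_zero hu0),
    FF.divOf_inv, FF.divOf_inv,
    Finsupp.mapDomain_add, h.mapDomain_divOf hn hn' hr hg hg0,
    ← h.mapDomain_divOf hn hn' hr hu hu0]
  congr 1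
  exact map_neg (Finsupp.mapDomain.addMonoidHom r) _

end GoodModel

end Fermat.RED.Model
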