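import Fermat.Agent.RED.Model.Special
import Fermat.Agent.RED.Model.Separate

/-!
# Integral sections and the genus of the special fibre

Integral sections of `n` times the polar divisor reduce injectively, so the special fibre has genus
at most that of the generic fibre. With equality the reduced chart is integrally closed (`Normal`).
-/

set_option autoImplicit false

noncomputable section

open Polynomial AlgebraicCurve

namespace Fermat.RED.Model

variable {L : Type*} [Field L] {A : ValuationSubring L}
variable {k : Type*} [Field k] {π : A →+* k}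
variable {F : Type*} [Field F] [Algebra L F] {ι : F →+* LaurentSeries L}
variable {x : F} {d : ℕ}

variable (A π ι) in
/-- The reduced chart is the whole ring of functions regular where `x̄` is. -/
def Normal (x : F) : Prop :=
  ∀ z ∈ FF.intClosure k (redS π ι x), ∃ g ∈ chart A x, redS π ι g = z

/-- Elements of the chart are integral over `L[x]`. -/
theorem mem_intClosure_of_mem_chart {g : F} (hg : g ∈ chart A x) :
    g ∈ FF.intClosure L x := by
  obtain ⟨P, hP, hPg⟩ := hg
  have hax : ∀ D : A[X], ax A x D ∈ Algebra.adjoin L {x} := fun D => by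
    rw [ax_eq]; exact aeval_mem_adjoin_singleton L x
  refine FF.mem_intClosure.mpr ⟨P.map ((ax A x).codRestrict (Algebra.adjoin L {x}).toSubring hax),
    hP.map _, ?_⟩
  rw [eval₂_map]
  exact hPg

/-- A function integral over `L[x]` scales into the chart. -/
theorem exists_scale_of_mem_intClosure {g : F}
    (hg : g ∈ FF.intClosure L x) :
    ∃ c : L, c ≠ 0 ∧ c ∈ A ∧ algebraMap L F c * g ∈ chart A x := by
  obtain ⟨P, hP, hPg⟩ := FF.mem_intClosure.mp hg
  have hlift : P.map (algebraMap (Algebra.adjoin L {x}) F)
      ∈ Polynomial.lifts (aeval x : L[X] →ₐ[L] F).toRingHom := by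
    refine (Polynomial.lifts_iff_coeff_lifts _).mpr fun n => ?_
    rw [coeff_map]
    obtain ⟨p, hp⟩ := (AlgHom.mem_range _).mp
      ((Algebra.adjoin_singleton_eq_range_aeval L x).le (P.coeff n).2)
    exact ⟨p, hp⟩
  obtain ⟨Q, hQ, -, hQm⟩ := Polynomial.lifts_and_natDegree_eq_and_monic hlift (hP.map _)
  refine exists_scale_mem_chart hQm ?_
  rw [← eval_map, hQ, eval_map]
  exact hPg

namespace PreModel

/-- An element of the chart reduces to one integral over the reduced coordinate. -/
theorem redS_mem_intClosure (h : PreModel π ι x d) {g : F} (hg : g ∈ chart A x) :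
    redS π ι g ∈ FF.intClosure k (redS π ι x) := by
  obtain ⟨P, hP, hPg⟩ := id hg
  set ρ : A[X] →+* Algebra.adjoin k {redS π ι x} :=
    ((aeval (⟨redS π ι x, Algebra.self_mem_adjoin_singleton k _⟩ :
      Algebra.adjoin k {redS π ι x})).toRingHom).comp (mapRingHom π)
  set ξ := redS π ι g
  refine FF.mem_intClosure.mpr ⟨P.map ρ, hP.map _, ?_⟩
  have hρ : ∀ D : A[X], (algebraMap (Algebra.adjoin k {redS π ι x}) (specField π ι)) (ρ D)
      = redS π ι (ax A x D) := fun D => by
    rw [h.redS_ax]
    exact (Polynomial.aeval_algHom_apply (Algebra.adjoin k {redS π ι x}).val _ _).symm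
  have hint : ∀ i, ι (ax A x (P.coeff i) * g ^ i) ∈ intSeries A := fun i =>
    h.int_chart _ (mul_mem (ax_mem_chart x _) (pow_mem hg i))
  have hPg' : P.eval₂ (ax A x) g = 0 := hPg
  rw [eval₂_map, eval₂_eq_sum_range]
  rw [eval₂_eq_sum_range] at hPg'
  have := congrArg (redS π ι) hPg'
  rw [redS_zero, redS_sum _ (fun i _ => hint i)] at this
  rw [← this]
  refine Finset.sum_congr rfl fun i _ => ?_
  rw [RingHom.comp_apply, hρ, redS_mul (h.int_ax _)
    (by rw [map_pow]; exact pow_mem (h.int_chart g hg) i), redS_pow (h.int_chart g hg)]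

end PreModel

namespace GoodModel

/-- The reduction of `1/x` is the inverse of the reduction of `x`. -/
theorem redS_inv (h : GoodModel π ι x d) : redS π ι x⁻¹ = (redS π ι x)⁻¹ := by
  refine eq_inv_of_mul_eq_one_left ?_
  rw [← redS_mul h.int_inv h.int_self, inv_mul_cancel₀ h.ne_zero, redS_one]

/-- For `g` in the chart, `x⁻ⁿ g` is in the chart at infinity once it is integral over `L[x⁻¹]`. -/
theorem inv_pow_mul_mem_chart (h : GoodModel π ι x d) {g : F} (hg : g ∈ chart A x) {n : ℕ}
    (hn : x⁻¹ ^ n * g ∈ FF.intClosure L x⁻¹) : x⁻¹ ^ n * g ∈ chart A x⁻¹ := by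
  obtain ⟨c, hc, hcA, hcg⟩ := exists_scale_of_mem_intClosure hn
  obtain ⟨N, hN⟩ := exists_inv_pow_mul_mem_chart h.ne_zero hg
  refine mem_chart_of_mul h.surj h.inv.transcendental hcA hc (D := (X : A[X]) ^ N)
    (by rw [Polynomial.map_pow, map_X]; exact pow_ne_zero _ X_ne_zero) hcg ?_
  rw [map_pow, ax_X, ← mul_assoc, ← pow_add]
  exact hN _ (Nat.le_add_right _ _)

variable [IsAlgClosed L] [IsAlgClosed k]
variable [FF.IsFunctionField L F] [FF.IsFunctionField k (specField π ι)]

/-- Every section upstairs has a primitive multiple that reduces to a section downstairs. -/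
theorem exists_primitive_section (h : GoodModel π ι x d) {n : ℕ} {v : F}
    (hv : v ∈ riemannRochSpace (n • FF.poleDiv L x)) (hv0 : v ≠ 0) :
    ∃ c : L, c ≠ 0 ∧ ∃ g ∈ chart A x, x⁻¹ ^ n * g ∈ chart A x⁻¹ ∧ redS π ι g ≠ 0 ∧
      algebraMap L F c * v = g ∧
      redS π ι g ∈ riemannRochSpace (n • FF.poleDiv k (redS π ι x)) := by
  obtain ⟨h1, h2⟩ := (mem_nsmul_poleDiv_iff h.transcendental n).mp hv
  obtain ⟨c, hc, -, hcv⟩ := exists_scale_of_mem_intClosure h1
  obtain ⟨c', -, hc', g, hg, hg0, e⟩ := h.exists_eq_smul_primitive hcv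
    (mul_ne_zero ((_root_.map_ne_zero _).mpr hc) hv0)
  have hgv : algebraMap L F (c / c') * v = g := by
    rw [map_div₀, div_mul_eq_mul_div, e, mul_div_cancel_left₀ _ ((_root_.map_ne_zero _).mpr hc')]
  have h2' : x⁻¹ ^ n * g ∈ FF.intClosure L x⁻¹ := by
    rw [← hgv, mul_left_comm]
    exact mul_mem (Subalgebra.algebraMap_mem _ _) h2
  have h3 := h.inv_pow_mul_mem_chart hg h2'
  refine ⟨c / c', div_ne_zero hc hc', g, hg, h3, fun h0 => hg0 (congrArg Subtype.val h0), hgv,
    (mem_nsmul_poleDiv_iff h.transcendental_redS n).mpr ⟨h.redS_mem_intClosure hg, ?_⟩⟩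
  have := h.inv.redS_mem_intClosure h3
  rwa [h.redS_inv, redS_mul (by rw [map_pow]; exact pow_mem h.int_inv n) (h.int_chart g hg),
    redS_pow h.int_inv, h.redS_inv] at this

/-- The reductions of the integral sections. -/
def sectionSpan (n : ℕ) (x : F) : Submodule k (specField π ι) :=
  Submodule.span k {z | ∃ g ∈ chart A x, redS π ι g = z ∧
    z ∈ riemannRochSpace (n • FF.poleDiv k (redS π ι x))}

/-- The reductions of integral sections have at least the generic dimension. -/
theorem ell_le_finrank_sectionSpan (h : GoodModel π ι x d) (n : ℕ) :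
    FF.ell (n • FF.poleDiv L x) ≤ Module.finrank k (sectionSpan (π := π) (ι := ι) n x) := by
  set V := riemannRochSpace (n • FF.poleDiv L x)
  set W := sectionSpan (π := π) (ι := ι) n x
  have hW : W ≤ riemannRochSpace (n • FF.poleDiv k (redS π ι x)) :=
    Submodule.span_le.mpr fun z ⟨_, _, _, hz⟩ => hz
  have : FiniteDimensional k W := Submodule.finiteDimensional_of_le hW
  -- finitely many coefficients `S`, at most `dim W` of them, separate the span `W` of reductions
  let cn : ℤ → specField π ι →ₗ[k] k := fun n =>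
    { toFun := fun z => (z : LaurentSeries k).coeff n
      map_add' := fun a b => by simp
      map_smul' := fun c a => by
        simp only [RingHom.id_apply, smul_eq_mul, Algebra.smul_def]
        exact coeff_algebraMap_mul c _ n }
  obtain ⟨S, hS, hsep⟩ := exists_separating_finset cn
    (fun z hz => Subtype.ext (HahnSeries.ext (funext hz))) W
  -- taking these coefficients on `L(n · div∞ x)` gives a linear map
  set P : V →ₗ[L] (S → L) :=
    { toFun := fun v s => (ι (v : F)).coeff (s : ℤ)
      map_add' := fun a b => by ext s; simp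
      map_smul' := fun c a => by
        ext s
        simp only [Submodule.coe_smul, Algebra.smul_def, map_mul, h.ι_algebraMap, Pi.smul_apply,
          RingHom.id_apply]
        exact coeff_algebraMap_mul c _ _ }
  -- it is injective: a primitive multiple of a section would otherwise reduce to zero
  have hP : Function.Injective P := by
    rw [injective_iff_map_eq_zero]
    intro v hv
    by_contra hne
    obtain ⟨c, hc, g, hg, -, hg0, e, hz⟩ :=
      h.exists_primitive_section v.2 (fun h0 => hne (Subtype.ext h0))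
    refine hg0 (hsep _ (Submodule.subset_span ⟨g, hg, rfl, hz⟩) fun s hs => ?_)
    change (redF π ι g).coeff s = 0
    rw [redF_of_mem (h.int_chart g hg), redHom_coeff]
    refine Eq.trans (congrArg π (Subtype.ext ?_)) (map_zero π)
    change (ι g).coeff s = 0
    rw [← e, map_mul, h.ι_algebraMap, coeff_algebraMap_mul]
    have := congrFun hv ⟨s, hs⟩
    change (ι (v : F)).coeff s = 0 at this
    rw [this, mul_zero]
  calc FF.ell (n • FF.poleDiv L x) ≤ Module.finrank L (S → L) :=
        LinearMap.finrank_le_finrank_of_injective hP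
    _ = S.card := by rw [Module.finrank_fintype_fun_eq_card, Fintype.card_coe]
    _ ≤ Module.finrank k W := hS

omit [IsAlgClosed L] [IsAlgClosed k] [FF.IsFunctionField L F]
  [FF.IsFunctionField k (specField π ι)] in
/-- The degree of a model is positive. -/
theorem finrank_eq_pos (h : GoodModel π ι x d) : 0 < d := by
  rcases Nat.eq_zero_or_pos d with rfl | hd
  · obtain ⟨y, -, hy, -⟩ := h.basis
    obtain ⟨D, hD, G, e⟩ := hy 1
    rw [mul_one, Finset.univ_eq_empty, Finset.sum_empty] at e
    exact absurd (transcendental_iff.mp h.transcendental D e) hD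
  · exact hd

/-- Both polar divisors of order `n` have degree `n d`. -/
theorem degree_poleDiv_nsmul (h : GoodModel π ι x d) (n : ℕ) :
    Divisor.degree (n • FF.poleDiv L x) = (n : ℤ) * d ∧
      Divisor.degree (n • FF.poleDiv k (redS π ι x)) = (n : ℤ) * d := by
  rw [degree_nsmul_poleDiv h.transcendental, degree_nsmul_poleDiv h.transcendental_redS,
    h.finrank_adjoin, h.finrank_spec]
  exact ⟨rfl, rfl⟩

/-- The genus of the special fibre is at most the genus of the generic fibre. -/
theorem genus_le (h : GoodModel π ι x d) :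
    genusFF k (specField π ι) ≤ genusFF L F := by
  have hd := h.finrank_eq_pos
  set n := 2 * (genusFF L F + genusFF k (specField π ι))
  obtain ⟨e1, e2⟩ := h.degree_poleDiv_nsmul n
  have hn : (n : ℤ) ≤ (n : ℤ) * d := le_mul_of_one_le_right (by positivity) (by exact_mod_cast hd)
  have r1 := FF.ell_of_degree_ge (D := n • FF.poleDiv L x) (by rw [e1]; omega)
  have r2 := FF.ell_of_degree_ge (D := n • FF.poleDiv k (redS π ι x)) (by rw [e2]; omega)
  have h1 := h.ell_le_finrank_sectionSpan n
  have h2 : Module.finrank k (sectionSpan (π := π) (ι := ι) n x)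
      ≤ FF.ell (n • FF.poleDiv k (redS π ι x)) :=
    Submodule.finrank_mono (Submodule.span_le.mpr fun z ⟨_, _, _, hz⟩ => hz)
  omega

/-- Equality of genera makes the reduced chart normal. -/
theorem normal_of_genus_eq (h : GoodModel π ι x d)
    (hg : genusFF k (specField π ι) = genusFF L F) : Normal A π ι x := by
  intro z hz
  obtain ⟨n, hn₀, hzn⟩ := exists_mem_nsmul_poleDiv hz (2 * genusFF L F)
  have hd := h.finrank_eq_pos
  obtain ⟨e1, e2⟩ := h.degree_poleDiv_nsmul n
  have hn : (n : ℤ) ≤ (n : ℤ) * d := le_mul_of_one_le_right (by positivity) (by exact_mod_cast hd)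
  have r1 := FF.ell_of_degree_ge (D := n • FF.poleDiv L x) (by rw [e1]; omega)
  have r2 := FF.ell_of_degree_ge (D := n • FF.poleDiv k (redS π ι x)) (by rw [e2, hg]; omega)
  have h1 := h.ell_le_finrank_sectionSpan n
  have hle : sectionSpan (π := π) (ι := ι) n x ≤ riemannRochSpace (n • FF.poleDiv k (redS π ι x)) :=
    Submodule.span_le.mpr fun z ⟨_, _, _, hz⟩ => hz
  have heq := Submodule.eq_of_le_of_finrank_le hle (by
    change FF.ell (n • FF.poleDiv k (redS π ι x)) ≤ _
    omega)
  rw [← heq] at hzn
  clear heq hle h1 r1 r2 e1 e2 hn hd hn₀ hz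
  induction hzn using Submodule.span_induction with
  | mem w hw => obtain ⟨g, hg', e, -⟩ := hw; exact ⟨g, hg', e⟩
  | zero => exact ⟨0, zero_mem _, redS_zero π ι⟩
  | add a b _ _ ha hb =>
    obtain ⟨g, hg', e⟩ := ha
    obtain ⟨g', hg'', e'⟩ := hb
    exact ⟨g + g', add_mem hg' hg'', by
      rw [redS_add (h.int_chart g hg') (h.int_chart g' hg''), e, e']⟩
  | smul c a _ ha =>
    obtain ⟨g, hg', e⟩ := ha
    obtain ⟨⟨a', ha'⟩, hc⟩ := h.surj c
    refine ⟨algebraMap L F a' * g, mul_mem (algebraMap_mem_chart x ha') hg', ?_⟩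
    rw [redS_mul (h.int_algebraMap ha') (h.int_chart g hg'), h.redS_algebraMap ha', hc, e,
      Algebra.smul_def]

/-- Equal genera make the chart at infinity normal. -/
theorem normal_inv_of_genus_eq (h : GoodModel π ι x d)
    (hg : genusFF k (specField π ι) = genusFF L F) : Normal A π ι x⁻¹ :=
  h.inv.normal_of_genus_eq hg

end GoodModel

end Fermat.RED.Model
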